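import Fermat.Agent.HM.IharaHecke
import Fermat.Agent.MC.Lvl.GammaH

/-!
# The kernel of the two degeneracy maps is Eisenstein

Two symbols of level `N`, with values equivariant for a character of `(ℤ/N)ˣ`, whose pullbacks
to level `N q` cancel are invariant under a power of `x ↦ q² x`.
-/

namespace Fermat.HM

open scoped MatrixGroups
open CongruenceSubgroup

variable {A : Type*} [AddCommGroup A]

/-- `diag (q, 1)`. -/
noncomputable def scaleGL (q : ℕ) [NeZero q] : GL (Fin 2) ℚ :=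
  Matrix.GeneralLinearGroup.mkOfDetNeZero !![(q : ℚ), 0; 0, 1] (by simp [NeZero.ne q])

/-- The upper left entry modulo `N`. -/
def upperMod (N : ℕ) (g : SL(2, ℤ)) : ZMod N := ((g 0 0 : ℤ) : ZMod N)

/-- Equivariance of a symbol for `Γ₀(N)` through the upper left entry. -/
def EquivariantGamma0 (N : ℕ) (f : ZMod N → A →+ A) (S : Cusp → Cusp → A) : Prop :=
  ∀ g ∈ Gamma0 N, ∀ x y, S (gq g • x) (gq g • y) = f (upperMod N g) (S x y)

/-- If the pullbacks of two equivariant symbols cancel, the first is equivariant under scaling by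
`q²`. -/
theorem smul_scaleGL_sq {q : ℕ} [NeZero q] (S₁ S₂ : Cusp → Cusp → A) {N : ℕ}
    (f : ZMod N → A →+ A) (hmul : ∀ a b z, f (a * b) z = f a (f b z))
    (h₁ : EquivariantGamma0 N f S₁) (h₂ : EquivariantGamma0 N f S₂)
    (hcop : q.Coprime N) (hrel : ∀ x y, S₁ x y + S₂ (scaleGL q • x) (scaleGL q • y) = 0)
    {g : GL (Fin 2) ℚ} (hg : (g : Matrix (Fin 2) (Fin 2) ℚ) = !![(q : ℚ) ^ 2, 0; 0, 1])
    (x y : Cusp) :
    S₁ (g • x) (g • y) = f (q : ZMod N) (S₁ x y) := by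
  have hq : (q : ℚ) ≠ 0 := by exact_mod_cast NeZero.ne q
  obtain ⟨s, r', hsr⟩ : IsCoprime (q : ℤ) (N : ℤ) := by
    rw [Int.isCoprime_iff_gcd_eq_one]
    exact_mod_cast hcop
  -- `g₁ = [q, -r'; N, s]`, `h' = [s q, r'; -N, 1]`
  let g₁ : SL(2, ℤ) := ⟨!![(q : ℤ), -r'; (N : ℤ), s], by
    rw [Matrix.det_fin_two_of]; linear_combination hsr⟩
  let h' : SL(2, ℤ) := ⟨!![s * q, r'; -(N : ℤ), 1], by
    rw [Matrix.det_fin_two_of]; linear_combination hsr⟩
  have hg₁ : g₁ ∈ Gamma0 N := Gamma0_mem.mpr (by simp [g₁])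
  have hh' : h' ∈ Gamma0 N := Gamma0_mem.mpr (by simp [h'])
  set D := scaleGL q with hD
  have hconj : ∀ x y, S₁ ((D⁻¹ * gq h' * D) • x) ((D⁻¹ * gq h' * D) • y)
      = f (upperMod N h') (S₁ x y) := by
    intro x y
    rw [eq_neg_of_add_eq_zero_left (hrel _ _), eq_neg_of_add_eq_zero_left (hrel x y), map_neg]
    simp only [mul_smul, smul_inv_smul, hD]
    rw [h₂ h' hh']
  have hscal : ∀ z : Cusp, g • z = gq g₁ • (D⁻¹ * gq h' * D) • z := by
    intro z
    let c : GL (Fin 2) ℚ := Matrix.GeneralLinearGroup.mkOfDetNeZero !![(q : ℚ), 0; 0, (q : ℚ)]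
      (by simp [hq])
    have e : g * D⁻¹ = c * gq g₁ * D⁻¹ * gq h' := by
      have e' : D⁻¹.val = !![(q : ℚ)⁻¹, 0; 0, 1] := by
        rw [Matrix.coe_units_inv]
        refine Matrix.inv_eq_right_inv ?_
        simp [hD, scaleGL, hq, Matrix.one_fin_two]
      apply Units.ext
      have hsr' : (s : ℚ) * q + r' * N = 1 := by exact_mod_cast hsr
      simp only [Units.val_mul, e', hg, coe_gq, c,
        Matrix.GeneralLinearGroup.val_mkOfDetNeZero]
      ext i j
      fin_cases i <;> fin_cases j <;> simp [g₁, h', Matrix.mul_apply, Matrix.vecMul, dotProduct,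
        Fin.sum_univ_two] <;> field_simp <;> ring_nf
      all_goals linear_combination -hsr'
    have e2 : g = c * (gq g₁ * (D⁻¹ * gq h' * D)) := by
      rw [← mul_left_inj D⁻¹, e]
      group
    rw [e2, mul_smul, scalar_smul_eq hq rfl, mul_smul]
  rw [hscal, hscal, h₁ g₁ hg₁, hconj, ← hmul]
  congr 2
  simp only [upperMod, g₁, h']
  have hsr' : (s : ZMod N) * q = 1 := by
    have := congrArg (Int.cast : ℤ → ZMod N) hsr
    push_cast at this
    simpa using this
  simp [hsr']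

/-- **Ihara's lemma**, degeneracy form: if the pullbacks of two equivariant symbols cancel, the
first is a `QSymbol` for `q ^ φ(N)`, with `N` dividing its level. -/
theorem QSymbol.of_degeneracy {q N : ℕ} [NeZero q] (hq : 1 < q) (hN : N ≠ 0) (hcop : q.Coprime N)
    {S₁ S₂ : Cusp → Cusp → A} (hsymb : IsSymbol S₁) (f : ZMod N → A →+ A)
    (hone : ∀ z, f 1 z = z) (hmul : ∀ a b z, f (a * b) z = f a (f b z))
    (h₁ : EquivariantGamma0 N f S₁) (h₂ : EquivariantGamma0 N f S₂)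
    (hrel : ∀ x y, S₁ x y + S₂ (scaleGL q • x) (scaleGL q • y) = 0) :
    QSymbol (q ^ N.totient) 1 S₁ ∧ N ∣ (q ^ N.totient) ^ (2 * 1) - 1 := by
  have htot : 0 < N.totient := Nat.totient_pos.mpr (Nat.pos_of_ne_zero hN)
  have hmod : ((q ^ N.totient : ℕ) : ZMod N) = 1 := by
    have := (ZMod.natCast_eq_natCast_iff _ _ _).mpr (Nat.ModEq.pow_totient hcop)
    simpa using this
  have hdvd : N ∣ (q ^ N.totient) ^ (2 * 1) - 1 := by
    rw [← Nat.modEq_iff_dvd' (Nat.one_le_pow _ _ (pow_pos (by omega) _)),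
      ← ZMod.natCast_eq_natCast_iff]
    push_cast at hmod ⊢
    rw [hmod, one_pow]
  refine ⟨⟨Nat.one_lt_pow htot.ne' hq, one_pos, hsymb, fun g hg x y => ?_,
    fun g hg x y => ?_⟩, hdvd⟩
  · obtain ⟨h1, -, h3, -⟩ := Gamma_mem.mp (MC.Lvl.Gamma_le_of_dvd hdvd hg)
    rw [h₁ g (Gamma0_mem.mpr h3), upperMod, h1, hone]
  · -- a power of `x ↦ q² x`
    let g₀ : GL (Fin 2) ℚ := Matrix.GeneralLinearGroup.mkOfDetNeZero !![(q : ℚ) ^ 2, 0; 0, 1]
      (by simp [NeZero.ne q])
    have hpow : ∀ n : ℕ, ∀ x y, S₁ ((g₀ ^ n) • x) ((g₀ ^ n) • y) =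
        f ((q : ZMod N) ^ n) (S₁ x y) := by
      intro n
      induction n with
      | zero => simp [hone]
      | succ n ih =>
        intro x y
        rw [pow_succ', pow_succ', mul_smul, mul_smul,
          smul_scaleGL_sq S₁ S₂ f hmul h₁ h₂ hcop hrel rfl, ih, hmul]
    have hval : ∀ n : ℕ, ((g₀ ^ n : GL (Fin 2) ℚ) : Matrix (Fin 2) (Fin 2) ℚ)
        = !![((q : ℚ) ^ n) ^ 2, 0; 0, 1] := by
      intro n
      induction n with
      | zero => simp [Matrix.one_fin_two]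
      | succ n ih =>
        rw [pow_succ, Units.val_mul, ih]
        simp [g₀]
        ring
    have e : g = g₀ ^ N.totient := Units.ext (by rw [hg, hval]; push_cast; rfl)
    rw [e, hpow, ← Nat.cast_pow, hmod, hone]

end Fermat.HM
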