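import Mathlib

/-!
# Polynomial algebras acting through commuting operators

Evaluation at a commuting family is `commAeval`, compared by `intertwine_of_X`.
-/

namespace Fermat.HM

variable {O : Type*} [CommRing O]

open scoped IsMulCommutative in
/-- Evaluation of polynomials at a commuting family. -/
noncomputable def commAeval {A : Type*} [Ring A] [Algebra O A] {σ : Type*} (f : σ → A)
    (h : ∀ i j, f i * f j = f j * f i) : MvPolynomial σ O →ₐ[O] A :=
  haveI := Algebra.isMulCommutative_adjoin O (s := Set.range f)
    (by rintro _ ⟨i, rfl⟩ _ ⟨j, rfl⟩; exact h i j)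
  (Algebra.adjoin O (Set.range f)).val.comp
    (MvPolynomial.aeval fun i => (⟨f i, Algebra.subset_adjoin ⟨i, rfl⟩⟩ :
      Algebra.adjoin O (Set.range f)))

/-- A variable evaluates to its operator. -/
theorem commAeval_X {A : Type*} [Ring A] [Algebra O A] {σ : Type*} (f : σ → A)
    (h : ∀ i j, f i * f j = f j * f i) (i : σ) :
    commAeval (O := O) f h (MvPolynomial.X i) = f i := by
  simp [commAeval]

/-- Two actions intertwined on the variables are intertwined. -/
theorem intertwine_of_X {σ : Type*} {M N : Type*} [AddCommGroup M] [Module O M] [AddCommGroup N]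
    [Module O N] {ρ : MvPolynomial σ O →ₐ[O] Module.End O M}
    {ρ' : MvPolynomial σ O →ₐ[O] Module.End O N} (f : M →ₗ[O] N)
    (hX : ∀ i x, f (ρ (MvPolynomial.X i) x) = ρ' (MvPolynomial.X i) (f x)) (p : MvPolynomial σ O)
    (x : M) : f (ρ p x) = ρ' p (f x) := by
  induction p using MvPolynomial.induction_on generalizing x with
  | C a =>
    rw [← MvPolynomial.algebraMap_eq, AlgHom.commutes, AlgHom.commutes]
    simp
  | add p q hp hq => simp [hp, hq]
  | mul_X p i hp =>
    rw [map_mul, map_mul, Module.End.mul_apply, Module.End.mul_apply, hp, hX]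

end Fermat.HM
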