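import Fermat.Agent.HM.Diamond
import Fermat.Agent.HM.Operators
import Fermat.Agent.HM.IharaDegeneracy
import Mathlib.Data.Nat.Prime.Basic

/-!
# Families of Hecke and diamond operators over a base level

The labels are `Op`, over a level `LevelOver` with diamond operators `diaOp`.
-/

namespace Fermat.HM

open scoped MatrixGroups
open CongruenceSubgroup Matrix MvPolynomial Fermat.MC.Lvl

/-- An operator label: a Hecke operator or a diamond operator of the base level `N₀`. -/
inductive Op (N₀ : ℕ) : Type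
  /-- The Hecke operator at a prime. -/
  | hecke (l : Nat.Primes) : Op N₀
  /-- The diamond operator of a unit modulo `N₀`. -/
  | dia (u : (ZMod N₀)ˣ) : Op N₀

/-- A level whose diamond operators are those of `N₀`. -/
structure LevelOver (N₀ N : ℕ) (H : Subgroup (ZMod N)ˣ) : Prop where
  /-- The base level divides the level. -/
  dvd : N₀ ∣ N
  /-- `H` contains the units congruent to one modulo `N₀`. -/
  ker_le : ∀ x : (ZMod N)ˣ, ZMod.unitsMap dvd x = 1 → x ∈ H

variable {N₀ N : ℕ} {H : Subgroup (ZMod N)ˣ}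

/-- A level is over itself. -/
theorem LevelOver.self (N : ℕ) (H : Subgroup (ZMod N)ˣ) : LevelOver N N H :=
  ⟨dvd_rfl, fun x h => by
    rw [ZMod.unitsMap_self] at h
    rw [show x = 1 from h]
    exact one_mem H⟩

/-- Two elements of `Γ₀(N)` with the same upper entry differ by one of the level. -/
theorem LevelOver.mul_inv_mem (h : LevelOver N₀ N H) {g g' : SL(2, ℤ)} (hg : g ∈ Gamma0 N)
    (hg' : g' ∈ Gamma0 N) (e : upperMod N₀ g = upperMod N₀ g') : g * g'⁻¹ ∈ GammaH N H := by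
  refine mem_GammaH_iff_upper.mpr ⟨mul_mem hg (inv_mem hg'), ?_⟩
  have hu := Gamma0_entries (mul_mem hg (inv_mem hg'))
  refine ⟨Units.mkOfMulEqOne _ _ hu, h.ker_le _ (Units.ext ?_), rfl⟩
  have h' := congrArg (ZMod.castHom h.dvd (ZMod N₀)) (Gamma0_entries hg')
  have h10 : ((g' 1 0 : ℤ) : ZMod N₀) = 0 := by
    have := congrArg (ZMod.castHom h.dvd (ZMod N₀)) (Gamma0_mem.mp hg')
    rwa [map_intCast, map_zero] at this
  rw [map_mul, map_intCast, map_intCast, map_one] at h'
  simp only [upperMod] at e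
  rw [ZMod.unitsMap_def, Units.coe_map, Units.val_one]
  change ZMod.castHom h.dvd (ZMod N₀) ((((g * g'⁻¹ : SL(2, ℤ)) : Matrix (Fin 2) (Fin 2) ℤ) 0 0 : ℤ)
    : ZMod N) = 1
  rw [map_intCast]
  simp [Matrix.mul_apply, Fin.sum_univ_two, adjugate_fin_two, h10, e, h']

variable [NeZero N]

/-- Every unit modulo `N₀` is the upper left entry of an element of `Γ₀(N)`, modulo `N₀`. -/
theorem exists_diaLift (h : N₀ ∣ N) (u : (ZMod N₀)ˣ) :
    ∃ g : SL(2, ℤ), g ∈ Gamma0 N ∧ upperMod N₀ g = (u : ZMod N₀) := by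
  obtain ⟨v, hv⟩ := ZMod.unitsMap_surjective h u
  obtain ⟨g, hg, hgv⟩ := exists_gamma0_lift v
  refine ⟨g, hg, ?_⟩
  rw [← hv, ZMod.unitsMap_def, Units.coe_map, ← hgv]
  exact (map_intCast (ZMod.castHom h (ZMod N₀)) _).symm

variable {R : Type} [CommRing R]

/-- A diamond operator of the base level. -/
noncomputable def diaOp (h : LevelOver N₀ N H) (u : (ZMod N₀)ˣ) :
    Module.End R (Homs R (GammaH N H)) :=
  (isLevelMap_gamma0 (le_refl H) (exists_diaLift h.dvd u).choose_spec.1).pull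

/-- Pullback by an element of `Γ₀(N)` is the diamond operator of its upper left entry. -/
theorem pull_eq_diaOp (h : LevelOver N₀ N H) {u : (ZMod N₀)ˣ} {g : SL(2, ℤ)} (hg : g ∈ Gamma0 N)
    (e : upperMod N₀ g = (u : ZMod N₀)) (φ : Homs R (GammaH N H)) :
    (isLevelMap_gamma0 (le_refl H) hg).pull φ = diaOp h u φ := by
  obtain ⟨h1, h2⟩ := (exists_diaLift h.dvd u).choose_spec
  exact IsLevelMap.pull_congr _ _ (h.mul_inv_mem hg h1 (e.trans h2.symm))
    (by rw [← map_mul, inv_mul_cancel_right]) φ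

omit [NeZero N] in
/-- The diagonal modulo `N₀` is multiplicative. -/
theorem upperMod_mul_of_dvd (h : N₀ ∣ N) (b : SL(2, ℤ)) {a : SL(2, ℤ)} (ha : a ∈ Gamma0 N) :
    upperMod N₀ (b * a) = upperMod N₀ b * upperMod N₀ a := by
  have h10 := congrArg (ZMod.castHom h (ZMod N₀)) (Gamma0_mem.mp ha)
  rw [map_intCast, map_zero] at h10
  simp [upperMod, Matrix.mul_apply, Fin.sum_univ_two, h10]

/-- Diamond operators are multiplicative. -/
theorem diaOp_mul (h : LevelOver N₀ N H) (u v : (ZMod N₀)ˣ) (φ : Homs R (GammaH N H)) :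
    diaOp h u (diaOp h v φ) = diaOp h (u * v) φ := by
  obtain ⟨a1, a2⟩ := (exists_diaLift h.dvd u).choose_spec
  obtain ⟨b1, b2⟩ := (exists_diaLift h.dvd v).choose_spec
  rw [← pull_eq_diaOp h (u := u * v) (mul_mem b1 a1)
    (by rw [upperMod_mul_of_dvd h.dvd _ a1, a2, b2, Units.val_mul, mul_comm]) φ]
  rw [diaOp, diaOp, ← IsLevelMap.pull_comp]
  exact IsLevelMap.pull_congr _ _ (one_mem _) (by rw [map_one, one_mul, map_mul]) φ

/-- Diamond operators commute with `T ℓ`. -/
theorem diaOp_heckeT (h : LevelOver N₀ N H) (u : (ZMod N₀)ˣ) (l : ℕ) [hl : Fact l.Prime]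
    (φ : Homs R (GammaH N H)) :
    diaOp h u (heckeT R N H l φ) = heckeT R N H l (diaOp h u φ) :=
  (IsLevelMap.pull_heckeT _ hl.out.not_dvd_one Iff.rfl φ).symm

/-- The operator of a label. -/
noncomputable def opLin (R : Type) [CommRing R] (h : LevelOver N₀ N H) :
    Op N₀ → Module.End R (Homs R (GammaH N H))
  | .hecke l => haveI : Fact (l : ℕ).Prime := ⟨l.2⟩; heckeT R N H l
  | .dia u => diaOp h u

/-- The operator of a Hecke label is `T ℓ`. -/
theorem opLin_hecke (h : LevelOver N₀ N H) (l : ℕ) [hl : Fact l.Prime] :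
    opLin R h (.hecke ⟨l, hl.out⟩) = heckeT R N H l := rfl

/-- The operators of all labels commute. -/
theorem opLin_comm (h : LevelOver N₀ N H) (a b : Op N₀) :
    opLin R h a * opLin R h b = opLin R h b * opLin R h a := by
  rcases a with l | u <;> rcases b with l' | v <;> refine LinearMap.ext fun φ => ?_
  · have : Fact (l : ℕ).Prime := ⟨l.2⟩
    have : Fact (l' : ℕ).Prime := ⟨l'.2⟩
    exact heckeT_comm φ
  · have : Fact (l : ℕ).Prime := ⟨l.2⟩
    exact (diaOp_heckeT h v l φ).symm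
  · have : Fact (l' : ℕ).Prime := ⟨l'.2⟩
    exact diaOp_heckeT h u l' φ
  · change diaOp h u (diaOp h v φ) = diaOp h v (diaOp h u φ)
    rw [diaOp_mul, diaOp_mul, mul_comm]

/-- The action of a family of labels. -/
noncomputable def opsAct (O : Type) [CommRing O] (R : Type) [CommRing R] [Algebra O R]
    (h : LevelOver N₀ N H) {ι : Type} (fam : ι → Op N₀) :
    MvPolynomial ι O →ₐ[O] Module.End O (Homs R (GammaH N H)) :=
  commAeval (fun i => (opLin R h (fam i)).restrictScalars O)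
    fun i j => LinearMap.ext fun φ => LinearMap.congr_fun (opLin_comm h (fam i) (fam j)) φ

/-- A variable acts by its label. -/
theorem opsAct_X {O : Type} [CommRing O] [Algebra O R] (h : LevelOver N₀ N H) {ι : Type}
    (fam : ι → Op N₀) (i : ι) (φ : Homs R (GammaH N H)) :
    opsAct O R h fam (X i) φ = opLin R h (fam i) φ := by
  rw [opsAct, commAeval_X]
  rfl

/-- Reindexing a family. -/
theorem opsAct_rename {O : Type} [CommRing O] [Algebra O R] (h : LevelOver N₀ N H) {ι κ : Type}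
    (fam : ι → Op N₀) (f : κ → ι) (a : MvPolynomial κ O) (φ : Homs R (GammaH N H)) :
    opsAct O R h fam (rename f a) φ = opsAct O R h (fam ∘ f) a φ :=
  intertwine_of_X (ρ := (opsAct O R h fam).comp (rename f)) (ρ' := opsAct O R h (fam ∘ f))
    LinearMap.id (fun i x => by
      rw [LinearMap.id_apply, LinearMap.id_apply, AlgHom.comp_apply, rename_X, opsAct_X, opsAct_X]
      rfl) a φ

/-- A family of Hecke labels acts as `heckeAct`. -/
theorem opsAct_hecke {O : Type} [CommRing O] [Algebra O R] (h : LevelOver N₀ N H) {σ : Type}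
    (p : σ → ℕ) [hp : ∀ i, Fact (p i).Prime] (a : MvPolynomial σ O) (φ : Homs R (GammaH N H)) :
    opsAct O R h (fun i => Op.hecke ⟨p i, (hp i).out⟩) a φ = heckeAct O R N H p a φ :=
  intertwine_of_X LinearMap.id (fun i x => by
    rw [LinearMap.id_apply, LinearMap.id_apply, opsAct_X, heckeAct_X, opLin_hecke]) a φ

section Maps

variable {N' : ℕ} [NeZero N'] {H' : Subgroup (ZMod N')ˣ} {n : ℕ} {g : GL (Fin 2) ℚ}

omit [NeZero N] in
/-- `Γ₀(M)` lies in `Γ₀(N)` for `N ∣ M`. -/
theorem mem_Gamma0_of_dvd {g : SL(2, ℤ)} {M : ℕ} (hd : N ∣ M) (hg : g ∈ Gamma0 M) : g ∈ Gamma0 N :=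
  Gamma0_mem.mpr (by
    have h := congrArg (ZMod.castHom hd (ZMod N)) (Gamma0_mem.mp hg)
    rwa [map_intCast, map_zero] at h)

/-- Pullback along `g` commutes with diamond operators if conjugation by `g` carries `Γ₀(N')` into
`Γ₀(N)` and keeps the diagonal modulo `N₀`. -/
theorem pull_diaOp (h : LevelOver N₀ N H) (h' : LevelOver N₀ N' H')
    (hg : IsLevelMap H H' n g)
    (hupper : ∀ (s t : SL(2, ℤ)), s ∈ Gamma0 N' → t ∈ Gamma0 N → g * gq s = gq t * g →
      upperMod N₀ t = upperMod N₀ s)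
    (hconj : ∀ s : SL(2, ℤ), s ∈ Gamma0 N' → ∃ t ∈ Gamma0 N, g * gq s = gq t * g)
    (u : (ZMod N₀)ˣ) (φ : Homs R (GammaH N H)) :
    diaOp h' u (hg.pull φ) = hg.pull (diaOp h u φ) := by
  obtain ⟨s1, s2⟩ := (exists_diaLift h'.dvd u).choose_spec
  obtain ⟨t, ht, e⟩ := hconj _ s1
  rw [← pull_eq_diaOp h (u := u) ht ((hupper _ _ s1 ht e).trans s2), diaOp, ← IsLevelMap.pull_comp,
    ← IsLevelMap.pull_comp]
  exact IsLevelMap.pull_congr _ _ (one_mem _) (by rw [map_one, one_mul, e]) φ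

/-- Restriction commutes with diamond operators. -/
theorem pull_one_diaOp (hN : N ∣ N') (h : LevelOver N₀ N H) (h' : LevelOver N₀ N' H')
    (hg : IsLevelMap H H' 1 1) (u : (ZMod N₀)ˣ) (φ : Homs R (GammaH N H)) :
    diaOp h' u (hg.pull φ) = hg.pull (diaOp h u φ) :=
  pull_diaOp h h' hg (fun s t _ _ e => by rw [one_mul, mul_one] at e; rw [Reps.gq_injective e])
    (fun s hs => ⟨s, mem_Gamma0_of_dvd hN hs, by rw [one_mul, mul_one]⟩) u φ

end Maps

end Fermat.HM
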