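import Mathlib

/-!
# Descent of free modules along a surjection of coefficient algebras

A `Descent` is a semilinear surjection, and `Descent.basis` is the descended basis.
-/

namespace Fermat.HM.Twist

open Matrix

variable {O : Type} [CommRing O] {A : Type} [CommRing A] [Algebra O A] {X : Type} [AddCommGroup X]
  [Module A X] {ι : Type} [Fintype ι] [DecidableEq ι]

variable {A₀ : Type} [CommRing A₀] [Algebra O A₀] {X₀ : Type} [AddCommGroup X₀] [Module A₀ X₀]
  {ι₀ : Type} [Fintype ι₀] [DecidableEq ι₀]

/-- A semilinear surjection whose kernel is that of the change of rings. -/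
structure Descent (s : A →ₐ[O] A₀) (X X₀ : Type) [AddCommGroup X] [Module A X] [AddCommGroup X₀]
    [Module A₀ X₀] where
  /-- The additive map from `X` to `X₀`. -/
  t : X →+ X₀
  /-- It is semilinear along `s`. -/
  map_smul : ∀ (a : A) (x : X), t (a • x) = s a • t x
  /-- The map of modules is surjective. -/
  surj : Function.Surjective t
  /-- The change of rings is surjective. -/
  surjS : Function.Surjective s
  /-- The kernel of `t` is contained in `ker s • X`. -/
  ker_le : ∀ x, t x = 0 → x ∈ RingHom.ker s • (⊤ : Submodule A X)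

variable {s : A →ₐ[O] A₀} (D : Descent s X X₀) (b : Module.Basis ι A X)
  (b₀ : Module.Basis ι₀ A₀ X₀)

omit [DecidableEq ι] in
/-- The images of a basis are linearly independent. -/
theorem Descent.linearIndependent : LinearIndependent A₀ (fun i => D.t (b i)) := by
  rw [Fintype.linearIndependent_iff]
  intro g hg i
  obtain ⟨g', hg'⟩ : ∃ g' : ι → A, ∀ i, s (g' i) = g i :=
    ⟨fun i => (D.surjS (g i)).choose, fun i => (D.surjS (g i)).choose_spec⟩
  have h : D.t (∑ i, g' i • b i) = 0 := by
    rw [map_sum, ← hg]
    exact Finset.sum_congr rfl fun i _ => by rw [D.map_smul, hg']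
  have h2 : b.coord i (∑ i, g' i • b i) ∈
      Submodule.map (b.coord i) (RingHom.ker s • ⊤) := ⟨_, D.ker_le _ h, rfl⟩
  rw [Submodule.map_smul''] at h2
  have h3 := Submodule.smul_mono le_rfl (le_top (a := Submodule.map (b.coord i) ⊤)) h2
  rw [smul_eq_mul, Ideal.mul_top, RingHom.mem_ker, Module.Basis.coord_apply, b.repr_sum_self] at h3
  rw [← hg']; exact h3

omit [DecidableEq ι] in
/-- The images of a basis span. -/
theorem Descent.span_eq_top : ⊤ ≤ Submodule.span A₀ (Set.range fun i => D.t (b i)) := by
  intro y _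
  obtain ⟨x, rfl⟩ := D.surj y
  rw [← b.sum_repr x, map_sum]
  exact Submodule.sum_mem _ fun i _ => by
    rw [D.map_smul]; exact Submodule.smul_mem _ _ (Submodule.subset_span ⟨i, rfl⟩)

/-- The images of a basis form a basis of the descended module. -/
noncomputable def Descent.basis : Module.Basis ι A₀ X₀ :=
  Module.Basis.mk (D.linearIndependent b) (D.span_eq_top b)

/-- The matrix of the descent. -/
noncomputable def Descent.mat : Matrix ι₀ ι A₀ := b₀.toMatrix (D.basis b)

omit [Fintype ι₀] [DecidableEq ι₀] [DecidableEq ι] in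
/-- The matrix sends coordinates to those of the image. -/
theorem Descent.mat_mulVec (x : X) :
    D.mat b b₀ *ᵥ (fun i => s (b.repr x i)) = fun j => b₀.repr (D.t x) j := by
  funext j
  conv_rhs => rw [← b.sum_repr x, map_sum, map_sum, Finset.sum_apply']
  refine Finset.sum_congr rfl fun i _ => ?_
  simp [D.map_smul, mul_comm, Descent.mat, Descent.basis, Module.Basis.toMatrix_apply]

/-- The matrix intertwines the matrices of compatible endomorphisms. -/
theorem Descent.mat_mul_act {g : Module.End A X} {g₀ : Module.End A₀ X₀}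
    (hg : ∀ x, D.t (g x) = g₀ (D.t x)) :
    D.mat b b₀ * (LinearMap.toMatrixAlgEquiv b g).map s
      = LinearMap.toMatrixAlgEquiv b₀ g₀ * D.mat b b₀ := by
  ext j i
  have h1 := congrFun (D.mat_mulVec b b₀ (g (b i))) j
  rw [hg] at h1
  have h2 : b₀.repr (g₀ (D.t (b i))) j
      = (LinearMap.toMatrixAlgEquiv b₀ g₀ *ᵥ fun j => b₀.repr (D.t (b i)) j) j :=
    (congrFun (LinearMap.toMatrix_mulVec_repr b₀ b₀ g₀ (D.t (b i))) j).symm
  rw [h2] at h1
  refine (Eq.trans ?_ h1).trans ?_
  · simp [Matrix.mul_apply, Matrix.mulVec, dotProduct, LinearMap.toMatrixAlgEquiv_apply]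
  · simp [Matrix.mul_apply, Matrix.mulVec, dotProduct, Descent.mat, Descent.basis,
      Module.Basis.toMatrix_apply]

end Fermat.HM.Twist
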