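import Fermat.Agent.HM.GroupRingFree
import Fermat.Agent.HM.Twist

/-!
# A character of the first factor, on the group ring of a product

It is `chiAlgProd`, a map to the group ring of the second factor.
-/

namespace Fermat.HM

variable {O : Type} [CommRing O] {ΔA Δ : Type} [CommGroup ΔA] [CommGroup Δ]

/-- A character of the first factor, as a map to the group ring of the second. -/
noncomputable def chiAlgProd (Δ : Type) [CommGroup Δ] (χ : ΔA →* O) :
    MonoidAlgebra O (ΔA × Δ) →ₐ[O] MonoidAlgebra O Δ :=
  MonoidAlgebra.lift O (MonoidAlgebra O Δ) (ΔA × Δ)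
    (((algebraMap O (MonoidAlgebra O Δ) : O →* MonoidAlgebra O Δ).comp
      (χ.comp (MonoidHom.fst ΔA Δ))) * (MonoidAlgebra.of O Δ).comp (MonoidHom.snd ΔA Δ))

end Fermat.HM
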