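import Fermat.Agent.HM.TWSystem

/-!
# Adding a finite set of Taylor-Wiles primes

`hasLevMap_levN`: by repeated steps of `TWSystem` the module at the level with the auxiliary primes
is that of the base level, naturally in the operators. `TWDescent` turns this into free modules
over group rings of diamond operators, the input of patching.
-/

namespace Fermat.HM

open scoped MatrixGroups
open MvPolynomial CongruenceSubgroup Fermat.MC.Lvl

/-- The level with the primes of a list added. -/
def levN (N : ℕ) {σ : Type} (p : σ → ℕ) : List σ → ℕ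
  | [] => N
  | i :: L => levN N p L * p i

/-- The base level divides the auxiliary level. -/
theorem dvd_levN (N : ℕ) {σ : Type} (p : σ → ℕ) : ∀ L : List σ, N ∣ levN N p L
  | [] => dvd_rfl
  | i :: L => (dvd_levN N p L).mul_right (p i)

/-- The auxiliary level is the base level times the product of the primes of the list. -/
theorem levN_eq (N : ℕ) {σ : Type} (p : σ → ℕ) : ∀ L : List σ, levN N p L = N * (L.map p).prod
  | [] => by simp [levN]
  | i :: L => by rw [levN, levN_eq N p L, List.map_cons, List.prod_cons]; ring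

/-- The level structure pulled back to the larger level. -/
abbrev levH {N : ℕ} (H : Subgroup (ZMod N)ˣ) {σ : Type} (p : σ → ℕ) (L : List σ) :
    Subgroup (ZMod (levN N p L))ˣ :=
  H.comap (ZMod.unitsMap (dvd_levN N p L))

/-- Adding a prime to the list pulls the level structure back once more. -/
theorem upH_levH {N : ℕ} (H : Subgroup (ZMod N)ˣ) {σ : Type} (p : σ → ℕ) (i : σ) (L : List σ) :
    upH (levH H p L) (p i) = levH H p (i :: L) := by
  change (H.comap _).comap _ = H.comap _
  rw [Subgroup.comap_comap, ZMod.unitsMap_comp]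
  rfl

/-- A prime outside the list and prime to the base level is prime to the auxiliary level. -/
theorem not_dvd_levN {N : ℕ} {σ : Type} {p : σ → ℕ} [hp : ∀ i, Fact (p i).Prime]
    (hinj : Function.Injective p) {i : σ} : ∀ {L : List σ}, i ∉ L → ¬ p i ∣ N →
      ¬ p i ∣ levN N p L
  | [], _, h => h
  | j :: L, hi, h => fun h' => by
    rcases (hp i).out.dvd_mul.mp h' with h1 | h1
    · exact not_dvd_levN hinj (fun e => hi (List.mem_cons_of_mem j e)) h h1
    · exact hi (hinj ((Nat.prime_dvd_prime_iff_eq (hp i).out (hp j).out).mp h1) ▸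
        List.mem_cons_self ..)

/-- The auxiliary level is not zero. -/
theorem neZero_levN {N : ℕ} [NeZero N] {σ : Type} (p : σ → ℕ) [hp : ∀ i, Fact (p i).Prime]
    (L : List σ) : NeZero (levN N p L) := by
  induction L with
  | nil => exact ⟨NeZero.ne N⟩
  | cons i L ih => exact ⟨mul_ne_zero ih.ne (hp i).out.ne_zero⟩

variable {O : Type} [CommRing O] [IsLocalRing O]

open scoped Classical in
/-- The residual system at the auxiliary level. -/
noncomputable def sysUpd {σ : Type} (θ α : σ → IsLocalRing.ResidueField O) (L : List σ) :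
    σ → IsLocalRing.ResidueField O :=
  fun i => if i ∈ L then α i else θ i

variable [IsDomain O] [IsPrincipalIdealRing O] [IsAdicComplete (IsLocalRing.maximalIdeal O) O]
  {σ : Type} {p : σ → ℕ} [hp : ∀ i, Fact (p i).Prime] {pp : ℕ} [Fact pp.Prime]
  {N : ℕ} [NeZero N] {H : Subgroup (ZMod N)ˣ}

omit [IsDomain O] [IsPrincipalIdealRing O] [IsAdicComplete (IsLocalRing.maximalIdeal O) O] in
/-- Updating a residual system on a finite set keeps it non-Eisenstein. -/
theorem nonEisenstein_sysUpd {θ : σ → IsLocalRing.ResidueField O}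
    (α : σ → IsLocalRing.ResidueField O) (L : List σ) (hne : NonEisenstein p (sysIdeal θ)) :
    NonEisenstein p (sysIdeal (sysUpd θ α L)) := by
  refine NonEisenstein.of_agree (f := id) hne (B := (L.map p).prod) ?_ fun j hj => ⟨j, rfl, ?_⟩
  · exact fun h => by
      obtain ⟨j, -, hj⟩ := List.mem_map.mp (List.prod_eq_zero_iff.mp h)
      exact (hp j).out.ne_zero hj
  · simp only [sysUpd]
    rw [if_neg fun h => hj (List.dvd_prod (List.mem_map.mpr ⟨j, h, rfl⟩))]

/-- The conditions on an auxiliary prime. -/
structure IsTWPrime (N : ℕ) (p : σ → ℕ) (θ α : σ → IsLocalRing.ResidueField O) (i : σ) : Prop where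
  /-- The prime is prime to the level. -/
  not_dvd : ¬ p i ∣ N
  /-- The prime is nonzero in the residue field. -/
  ne_zero : (p i : IsLocalRing.ResidueField O) ≠ 0
  /-- `α i` is a root of `X ^ 2 - θ i X + p i`. -/
  root : α i * α i - θ i * α i + p i = 0
  /-- The root is simple. -/
  simple : 2 * α i ≠ θ i
  /-- The root is neither `1` nor `-1`. -/
  sq : α i * α i ≠ 1

/-- A family of operators, one at each level. -/
abbrev OpFam (O : Type) [CommRing O] : Type :=
  ∀ (M : ℕ) [NeZero M] (H' : Subgroup (ZMod M)ˣ), Module.End O (Homs O (GammaH M H'))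

/-- A family commuting, at the levels over `(N, H)`, with diamond and Hecke operators and with the
two degeneracy maps at primes of the family. -/
structure NatOp (p : σ → ℕ) [∀ i, Fact (p i).Prime] (H : Subgroup (ZMod N)ˣ) (F : OpFam O) :
    Prop where
  /-- It commutes with the pullbacks by elements of `Γ₀`, that is, with diamond operators. -/
  gamma0 : ∀ (M : ℕ) [NeZero M] (h : N ∣ M) (g : SL(2, ℤ)) (hg : g ∈ Gamma0 M)
    (x : Homs O (GammaH M (H.comap (ZMod.unitsMap h)))),
    F M _ ((isLevelMap_gamma0 (le_refl (H.comap (ZMod.unitsMap h))) hg).pull x)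
      = (isLevelMap_gamma0 (le_refl (H.comap (ZMod.unitsMap h))) hg).pull (F M _ x)
  /-- It commutes with the Hecke operators of the family. -/
  hecke : ∀ (M : ℕ) [NeZero M] (h : N ∣ M) (i : σ)
    (x : Homs O (GammaH M (H.comap (ZMod.unitsMap h)))),
    F M _ (heckeT O M _ (p i) x) = heckeT O M _ (p i) (F M _ x)
  /-- It commutes with the first degeneracy map at a prime of the family. -/
  up : ∀ (M : ℕ) [NeZero M] (h : N ∣ M) (i : σ) [NeZero (M * p i)], ¬ p i ∣ M →
    ∀ x : Homs O (GammaH M (H.comap (ZMod.unitsMap h))),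
    F (M * p i) (upH (H.comap (ZMod.unitsMap h)) (p i))
        ((isLevelMap_up (H := H.comap (ZMod.unitsMap h)) (q := p i)).pull x)
      = (isLevelMap_up (H := H.comap (ZMod.unitsMap h)) (q := p i)).pull (F M _ x)
  /-- It commutes with the second degeneracy map at a prime of the family. -/
  infty : ∀ (M : ℕ) [NeZero M] (h : N ∣ M) (i : σ) [NeZero (M * p i)] (hq : ¬ p i ∣ M),
    ∀ x : Homs O (GammaH M (H.comap (ZMod.unitsMap h))),
    F (M * p i) (upH (H.comap (ZMod.unitsMap h)) (p i))
        ((isLevelMap_infty (H := H.comap (ZMod.unitsMap h)) hq).pull x)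
      = (isLevelMap_infty (H := H.comap (ZMod.unitsMap h)) hq).pull (F M _ x)

/-- `π` identifies the module of the level `(M, H')` with system `θ'` with that of `(N, H)` with
system `θ`, equivariantly away from `L`, for the diamond operators and for natural families. -/
structure IsLevMap (p : σ → ℕ) [∀ i, Fact (p i).Prime] (H : Subgroup (ZMod N)ˣ)
    {θ θ' : σ → IsLocalRing.ResidueField O} (L : List σ) {M : ℕ} [NeZero M]
    {H' : Subgroup (ZMod M)ˣ} [Module.Finite O (Homs O (GammaH N H))]
    [Module.Finite O (Homs O (GammaH M H'))]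
    (π : locPart (sysIdeal θ') (heckeAct O O M H' p)
      →ₗ[O] locPart (sysIdeal θ) (heckeAct O O N H p)) : Prop where
  /-- The map `π` is bijective. -/
  bijective : Function.Bijective π
  /-- The Hecke operators away from `L` correspond. -/
  hecke : ∀ i, i ∉ L → ∀ z, π (locAct _ (heckeAct O O M H' p) (X i) z)
    = locAct _ (heckeAct O O N H p) (X i) (π z)
  /-- The diamond operators correspond. -/
  gamma0 : ∀ (g : SL(2, ℤ)) (hg : g ∈ Gamma0 M) (hg' : g ∈ Gamma0 N)
    (z w : locPart (sysIdeal θ') (heckeAct O O M H' p)),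
    (w : Homs O (GammaH M H')) = (isLevelMap_gamma0 (le_refl H') hg).pull (z : Homs O _) →
      (π w : Homs O (GammaH N H))
        = (isLevelMap_gamma0 (le_refl H) hg').pull (π z : Homs O (GammaH N H))
  /-- Natural families of operators correspond. -/
  natural : ∀ F : OpFam O, NatOp p H F → ∀ z w : locPart (sysIdeal θ') (heckeAct O O M H' p),
    (w : Homs O (GammaH M H')) = F M H' (z : Homs O (GammaH M H')) →
      (π w : Homs O (GammaH N H)) = F N H (π z : Homs O (GammaH N H))

/-- A level `(M, H')` with system `θ'` whose module is that of `(N, H)` with system `θ`. -/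
def HasLevMap (p : σ → ℕ) [∀ i, Fact (p i).Prime] (H : Subgroup (ZMod N)ˣ)
    (θ : σ → IsLocalRing.ResidueField O) (L : List σ) (M : ℕ) [NeZero M]
    (H' : Subgroup (ZMod M)ˣ) (θ' : σ → IsLocalRing.ResidueField O)
    [Module.Finite O (Homs O (GammaH N H))] [Module.Finite O (Homs O (GammaH M H'))] : Prop :=
  ∃ π : locPart (sysIdeal θ') (heckeAct O O M H' p)
      →ₗ[O] locPart (sysIdeal θ) (heckeAct O O N H p), IsLevMap p H L π

/-- The base level is its own auxiliary level for the empty modification. -/
theorem hasLevMap_refl [Module.Finite O (Homs O (GammaH N H))] (θ : σ → IsLocalRing.ResidueField O)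
    (L : List σ) : HasLevMap p H θ L N H θ :=
  ⟨LinearMap.id, Function.bijective_id, fun _ _ _ => rfl, fun _ _ _ _ _ hw => hw,
    fun _ _ _ _ hw => hw⟩

/-- At a set of auxiliary primes the module is that of the base level. -/
theorem hasLevMap_levN (hinj : Function.Injective p) {θ α : σ → IsLocalRing.ResidueField O}
    (hne : NonEisenstein p (sysIdeal θ)) (hpm : (pp : O) ∈ IsLocalRing.maximalIdeal O)
    (hΓ : GoodLevel O (GammaH N ⊤)) (hneg : -1 ∈ H) {e : ℕ}
    (hH : ∀ u : (ZMod N)ˣ, u ^ pp ^ e ∈ H) :
    ∀ L : List σ, L.Nodup → (∀ i ∈ L, IsTWPrime N p θ α i) →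
      haveI := neZero_levN (N := N) p L
      ∀ [Module.Finite O (Homs O (GammaH N H))]
        [Module.Finite O (Homs O (GammaH (levN N p L) (levH H p L)))],
      HasLevMap p H θ L (levN N p L) (levH H p L) (sysUpd θ α L) := by
  intro L
  induction L with
  | nil =>
    intro _ _ hfN hfin
    have hH₀ : (H.comap (ZMod.unitsMap (dvd_refl N)) : Subgroup (ZMod N)ˣ) = H := by
      rw [ZMod.unitsMap_self, Subgroup.comap_id]
    have key : ∀ (θ' : σ → IsLocalRing.ResidueField O) (H' : Subgroup (ZMod N)ˣ), θ' = θ → H' = H →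
        ∀ [Module.Finite O (Homs O (GammaH N H'))], HasLevMap p H θ [] N H' θ' := by
      rintro θ' H' rfl rfl
      exact hasLevMap_refl θ' []
    exact @key _ _ (funext fun i => by simp [sysUpd]) hH₀ hfin
  | cons i L ih =>
    intro hnd hL hfinN hfin
    obtain ⟨hiL, hnd⟩ := List.nodup_cons.mp hnd
    have := neZero_levN (N := N) p L
    have := neZero_levN (N := N) p (i :: L)
    have : NeZero (levN N p L * p i) := neZero_levN (N := N) p (i :: L)
    have := hp i
    have hneg₁ : -1 ∈ levH H p L := by
      refine Subgroup.mem_comap.mpr ?_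
      convert hneg
      exact Units.ext (by simp [ZMod.unitsMap_def])
    have hΓ₁ : GoodLevel O (GammaH (levN N p L) ⊤) :=
      hΓ.gammaH (dvd_levN N p L) le_top (Subgroup.mem_top _)
    have : Module.Finite O (Homs O (GammaH (levN N p L) (levH H p L))) :=
      (hΓ₁.gammaH dvd_rfl le_top hneg₁).moduleFinite
    obtain ⟨π₁, hπ₁⟩ := ih hnd fun j hj => hL j (List.mem_cons_of_mem i hj)
    have hi := hL i (List.mem_cons_self ..)
    have hθi : sysUpd θ α L i = θ i := by simp [sysUpd, hiL]
    -- The updated system agrees with `θ` away from `L`, so it is still non-Eisenstein.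
    have hne₁ : NonEisenstein p (sysIdeal (sysUpd θ α L)) := nonEisenstein_sysUpd α L hne
    have hup : upH (levH H p L) (p i) = levH H p (i :: L) := upH_levH H p i L
    classical
    have hupd : Function.update (sysUpd θ α L) i (α i) = sysUpd θ α (i :: L) := funext fun j => by
      by_cases h : j = i
      · subst h; simp [sysUpd]
      · simp [sysUpd, h]
    -- one more step, composed with the map of the shorter list
    suffices key : ∀ (θ' : σ → IsLocalRing.ResidueField O)
        (H' : Subgroup (ZMod (levN N p L * p i))ˣ), Function.update (sysUpd θ α L) i (α i) = θ' →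
        upH (levH H p L) (p i) = H' →
        ∀ [Module.Finite O (Homs O (GammaH (levN N p L * p i) H'))],
          HasLevMap p H θ (i :: L) (levN N p L * p i) H' θ' from
      @key _ _ hupd hup hfin
    rintro θ' H' rfl rfl _
    obtain ⟨π₂, hπ₂, hX₂, hF₂, hN₂⟩ := exists_twStep_sys (p := p) (pp := pp)
      (H := levH H p L) (not_dvd_levN hinj hiL hi.not_dvd) hinj (i₀ := i) rfl hne₁ hpm hΓ₁ hneg₁
      (fun u => Subgroup.mem_comap.mpr (by rw [map_pow]; exact hH _)) (α := α i)
      (by rw [hθi]; exact hi.root) (by rw [hθi]; exact hi.simple) hi.ne_zero hi.sq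
    refine ⟨π₁ ∘ₗ π₂, hπ₁.bijective.comp hπ₂, fun j hj z => ?_, fun g hg hg' z w hw => ?_,
      fun F hF z w hw => ?_⟩
    · rw [LinearMap.comp_apply, LinearMap.comp_apply,
        hX₂ j (fun h => hj (h ▸ List.mem_cons_self ..)),
        hπ₁.hecke j (fun h => hj (List.mem_cons_of_mem i h))]
    · have hg₁ : g ∈ Gamma0 (levN N p L) := by
        refine Gamma0_mem.mpr ?_
        have h := congrArg (ZMod.castHom (dvd_mul_right (levN N p L) (p i))
          (ZMod (levN N p L))) (Gamma0_mem.mp hg)
        rwa [map_intCast, map_zero] at h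
      exact hπ₁.gamma0 g hg₁ hg' (π₂ z) (π₂ w) (hF₂ g hg hg₁ z w hw)
    · exact hπ₁.natural F hF (π₂ z) (π₂ w) (hN₂ _ _ (hF.gamma0 _ (dvd_levN N p L))
        (hF.hecke _ (dvd_levN N p L))
        (hF.up _ (dvd_levN N p L) i (not_dvd_levN hinj hiL hi.not_dvd))
        (hF.infty _ (dvd_levN N p L) i (not_dvd_levN hinj hiL hi.not_dvd)) z w hw)

end Fermat.HM
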