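import Fermat.Agent.HM.LocMod
import Fermat.Agent.HM.TWLevel

/-!
# The auxiliary level over the base level, as modules over diamond group rings

`exists_descent`: the module at the level with auxiliary primes (`TWLevel`) is free over its
diamond group ring (`LocMod`) and descends onto the base module. Used in `GR/RT/LowerLevel` and
`GR/RT/Restrict`, and for the raised modules in `Raise/Control`.
-/

namespace Fermat.HM

open scoped MatrixGroups
open MvPolynomial CongruenceSubgroup Fermat.MC.Lvl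

variable {N : ℕ} {H : Subgroup (ZMod N)ˣ} {ΔA : Type} [CommGroup ΔA] {M : ℕ} {Δ : Type}
  [CommGroup Δ]

/-- The character of the base quotient on all units. -/
noncomputable def DiamondQuot.chiTop (D : DiamondQuot N ⊤ H ΔA) : (ZMod N)ˣ →* ΔA :=
  D.chi.comp ((MonoidHom.id _).codRestrict ⊤ Subgroup.mem_top)

/-- The character of the base quotient is trivial exactly on `H`. -/
theorem DiamondQuot.chiTop_eq_one (D : DiamondQuot N ⊤ H ΔA) (u : (ZMod N)ˣ) :
    D.chiTop u = 1 ↔ u ∈ H :=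
  D.ker_iff ⟨u, Subgroup.mem_top u⟩

/-- The joint character of the base quotient and of the auxiliary primes. -/
noncomputable def jointChi (D : DiamondQuot N ⊤ H ΔA) (hdvd : N ∣ M)
    (χQ : (ZMod M)ˣ →* Δ) : (ZMod M)ˣ →* ΔA × Δ :=
  (D.chiTop.comp (ZMod.unitsMap hdvd)).prod χQ

/-- The level structure at the auxiliary level. -/
noncomputable abbrev auxH (D : DiamondQuot N ⊤ H ΔA) (hdvd : N ∣ M)
    (χQ : (ZMod M)ˣ →* Δ) : Subgroup (ZMod M)ˣ :=
  (jointChi D hdvd χQ).ker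

/-- Joint surjectivity of the reduction and the auxiliary character. -/
def JointSurj (hdvd : N ∣ M) (χQ : (ZMod M)ˣ →* Δ) : Prop :=
  ∀ (a : (ZMod N)ˣ) (d : Δ), ∃ x, ZMod.unitsMap hdvd x = a ∧ χQ x = d

variable (D : DiamondQuot N ⊤ H ΔA) {hdvd : N ∣ M} {χQ : (ZMod M)ˣ →* Δ}

/-- A character with values in a `pp`-group, `pp` odd, is trivial at `-1`. -/
theorem map_neg_one_of_isPGroup {R G : Type} [CommRing R] [CommGroup G] {pp : ℕ} [Fact pp.Prime]
    (hpp : pp ≠ 2) (hG : IsPGroup pp G) (χ : Rˣ →* G) : χ (-1) = 1 := by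
  obtain ⟨e, he⟩ := hG (χ (-1))
  rw [← pow_one (χ (-1))]
  have h2 : χ (-1) ^ 2 = 1 := by rw [← map_pow, neg_one_sq, map_one]
  have hcop : Nat.gcd (pp ^ e) 2 = 1 :=
    ((Nat.coprime_primes Fact.out Nat.prime_two).mpr hpp).pow_left e
  exact hcop ▸ pow_gcd_eq_one.mpr ⟨he, h2⟩

/-- If the quotient by `H` is a `pp`-group, `pp` odd, then `-1` lies in `H`. -/
theorem neg_one_mem_of_chiTop (D : DiamondQuot N ⊤ H ΔA) {pp : ℕ} [Fact pp.Prime] (hpp : pp ≠ 2)
    (hΔA : IsPGroup pp ΔA) : -1 ∈ H :=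
  (D.chiTop_eq_one _).mp (map_neg_one_of_isPGroup hpp hΔA D.chiTop)

/-- A product of two `pp`-groups is a `pp`-group. -/
theorem isPGroup_prod {pp : ℕ} (hΔA : IsPGroup pp ΔA) (hΔ : IsPGroup pp Δ) :
    IsPGroup pp (ΔA × Δ) := fun x => by
  obtain ⟨e₁, h₁⟩ := hΔA x.1
  obtain ⟨e₂, h₂⟩ := hΔ x.2
  exact ⟨e₁ + e₂, Prod.ext (by rw [Prod.pow_fst, pow_add, pow_mul, h₁, one_pow]; rfl)
    (by rw [Prod.pow_snd, add_comm, pow_add, pow_mul, h₂, one_pow]; rfl)⟩

/-- The quotient of all diamond operators at the auxiliary level. -/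
noncomputable def auxQuot (h : JointSurj hdvd χQ) :
    DiamondQuot M ⊤ (auxH D hdvd χQ) (ΔA × Δ) where
  le := le_top
  chi := (jointChi D hdvd χQ).comp (Subgroup.subtype ⊤)
  surj := fun ad => by
    obtain ⟨u, hu⟩ := D.surj ad.1
    obtain ⟨x, hx, hx'⟩ := h (u : (ZMod N)ˣ) ad.2
    refine ⟨⟨x, Subgroup.mem_top x⟩, Prod.ext ?_ hx'⟩
    change D.chiTop (ZMod.unitsMap hdvd x) = ad.1
    rw [hx]
    exact hu
  ker_iff x := Iff.rfl

/-- The quotient of the auxiliary diamond operators. -/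
noncomputable def auxQuot₂ (h : JointSurj hdvd χQ) :
    DiamondQuot M (H.comap (ZMod.unitsMap hdvd)) (auxH D hdvd χQ) Δ where
  le := fun x hx => Subgroup.mem_comap.mpr ((D.chiTop_eq_one _).mp (congrArg Prod.fst hx))
  chi := χQ.comp (Subgroup.subtype _)
  surj := fun d => by
    obtain ⟨x, hx, hx'⟩ := h 1 d
    exact ⟨⟨x, Subgroup.mem_comap.mpr (hx ▸ one_mem H)⟩, hx'⟩
  ker_iff x := ⟨fun h' => Prod.ext ((D.chiTop_eq_one _).mpr (Subgroup.mem_comap.mp x.2)) h',
    fun h' => congrArg Prod.snd h'⟩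

section Elements

/-- The degree at the auxiliary level is the joint character of the diagonal. -/
theorem deg_auxQuot (h : JointSurj hdvd χQ) (x : GammaH M ⊤) :
    (auxQuot D h).deg x = jointChi D hdvd χQ (diagHom M ⊤ x : (ZMod M)ˣ) := rfl

/-- The diagonal modulo `M` does not depend on the subgroup containing the element. -/
theorem diagHom_eq_of_coe {H₁ H₂ : Subgroup (ZMod M)ˣ} (x : GammaH M H₁) (y : GammaH M H₂)
    (e : (x : SL(2, ℤ)) = y) :
    ((diagHom M H₁ x : H₁) : (ZMod M)ˣ) = ((diagHom M H₂ y : H₂) : (ZMod M)ˣ) :=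
  Units.ext (by rw [coe_diagHom, coe_diagHom, e])

/-- The first component of the degree at the auxiliary level is the degree at the base level. -/
theorem deg_of_gamma0 [NeZero N] (h : JointSurj hdvd χQ) (x : GammaH M ⊤)
    (hg : (x : SL(2, ℤ)) ∈ GammaH N ⊤) :
    ((auxQuot D h).deg x).1 = D.deg ⟨x, hg⟩ := by
  change D.chiTop (ZMod.unitsMap hdvd (diagHom M ⊤ x : (ZMod M)ˣ)) = _
  have e : ZMod.unitsMap hdvd (diagHom M ⊤ x : (ZMod M)ˣ)
      = ((diagHom N ⊤ ⟨x, hg⟩ : (⊤ : Subgroup (ZMod N)ˣ)) : (ZMod N)ˣ) :=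
    Units.ext (by
      rw [ZMod.unitsMap_def, Units.coe_map]
      exact (congrArg (ZMod.castHom hdvd (ZMod N)) (coe_diagHom x)).trans
        ((map_intCast _ _).trans (coe_diagHom (⟨(x : SL(2, ℤ)), hg⟩ : GammaH N ⊤)).symm))
  rw [e]
  rfl

/-- The diamond operators of the auxiliary primes are those of the second factor of the joint
quotient. -/
theorem dia_auxQuot₂ [NeZero M] {R : Type} [CommRing R] (h : JointSurj hdvd χQ) (d : Δ)
    (φ : Homs R (GammaH M (auxH D hdvd χQ))) :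
    (auxQuot₂ D h).dia d φ = (auxQuot D h).dia (1, d) φ := by
  set x := (auxQuot₂ D h).lift d with hx₀
  have hx : (x : SL(2, ℤ)) ∈ GammaH M ⊤ := GammaH_mono le_top x.2
  have hdeg : (auxQuot D h).deg ⟨x, hx⟩ = (1, d) := by
    have e := diagHom_eq_of_coe (H₁ := ⊤) ⟨(x : SL(2, ℤ)), hx⟩ x rfl
    rw [deg_auxQuot, e]
    exact Prod.ext ((D.chiTop_eq_one _).mpr (Subgroup.mem_comap.mp (diagHom M _ x).2))
      ((auxQuot₂ D h).deg_lift d)
  rw [← hdeg, ← (auxQuot D h).pull_gamma0_eq (GammaH_le_Gamma0 x.2) hx,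
    (auxQuot₂ D h).pull_gamma0_eq (GammaH_le_Gamma0 x.2) x.2, Subtype.coe_eta, hx₀,
    (auxQuot₂ D h).deg_lift]

end Elements

variable {O : Type} [CommRing O] [IsDomain O] [IsDiscreteValuationRing O]
  [IsAdicComplete (IsLocalRing.maximalIdeal O) O] [CharZero O] {σ : Type} {p : σ → ℕ}
  [hp : ∀ i, Fact (p i).Prime] [NeZero N] [NeZero M] [Finite Δ] [Finite ΔA] {pp : ℕ}
  [Fact pp.Prime] {θ θ' : σ → IsLocalRing.ResidueField O} {L : List σ}

/-- The projection of group rings. -/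
noncomputable def projRing (O : Type) [CommRing O] (ΔA Δ : Type) [CommGroup ΔA] [CommGroup Δ] :
    MonoidAlgebra O (ΔA × Δ) →ₐ[O] MonoidAlgebra O ΔA :=
  MonoidAlgebra.mapDomainAlgHom O O (MonoidHom.fst ΔA Δ)

/-- The projection kills the augmentation of the second factor. -/
private theorem projRing_inr_eq_zero {O ΔA Δ : Type} [CommRing O] [CommGroup ΔA] [CommGroup Δ]
    {a : MonoidAlgebra O Δ} (ha : a ∈ Ideal.span (augSet O Δ)) :
    projRing O ΔA Δ (MonoidAlgebra.mapDomainAlgHom O O (MonoidHom.inr ΔA Δ) a) = 0 := by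
  induction ha using Submodule.span_induction with
  | mem a ha =>
    obtain ⟨δ, rfl⟩ := ha
    simp only [map_sub, map_one]
    simp [projRing, MonoidAlgebra.one_def]
  | zero => simp
  | add a b _ _ ha hb => rw [map_add, map_add, ha, hb, add_zero]
  | smul c a _ ha => rw [smul_eq_mul, map_mul, map_mul, ha, mul_zero]

omit [CharZero O] [NeZero N] [Finite Δ] [Finite ΔA] [IsDomain O] [IsDiscreteValuationRing O]
  [IsAdicComplete (IsLocalRing.maximalIdeal O) O] in
/-- The diamond operators of the auxiliary primes are those of the second factor on the local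
parts. -/
theorem lift_diaLoc_inr (h : JointSurj hdvd χQ) (m : Ideal (MvPolynomial σ O)) :
    (MonoidAlgebra.lift O _ (ΔA × Δ) ((auxQuot D h).diaLoc (p := p) m)).comp
        (MonoidAlgebra.mapDomainAlgHom O O (MonoidHom.inr ΔA Δ))
      = MonoidAlgebra.lift O _ Δ ((auxQuot₂ D h).diaLoc (p := p) m) := by
  refine MonoidAlgebra.algHom_ext (fun d => ?_) (Subsingleton.elim _ _)
  · refine LinearMap.ext fun w => Subtype.ext ?_
    simp only [AlgHom.comp_apply, MonoidAlgebra.mapDomainAlgHom_apply,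
      MonoidAlgebra.mapDomain_single, MonoidAlgebra.lift_single, one_smul, MonoidHom.inr_apply]
    rw [(auxQuot D h).coe_diaLoc, (auxQuot₂ D h).coe_diaLoc, dia_auxQuot₂]

open Twist in
omit [Finite ΔA] in
/-- **The auxiliary level descends to the base level.** -/
theorem exists_descent (h : JointSurj hdvd χQ) (hpm : (pp : O) ∈ IsLocalRing.maximalIdeal O)
    (hpp : pp ≠ 2) (hΔA : IsPGroup pp ΔA) (hΔ : IsPGroup pp Δ)
    (hΓ : GoodLevel O (GammaH N ⊤)) (hne' : NonEisenstein p (sysIdeal θ'))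
    [Module.Finite O (Homs O (GammaH N H))] [Module.Finite O (Homs O (GammaH M (auxH D hdvd χQ)))]
    [Module.Finite O (Homs O (GammaH M (H.comap (ZMod.unitsMap hdvd))))]
    (hmap : HasLevMap p H θ L M (H.comap (ZMod.unitsMap hdvd)) θ') :
    ∃ T : Descent (projRing O ΔA Δ) ((auxQuot D h).LocMod p (sysIdeal θ'))
        (D.LocMod p (sysIdeal θ)),
      (∀ i, i ∉ L → ∀ x, T.t (DiamondQuot.LocMod.act (auxQuot D h) p (sysIdeal θ') (X i) x)
        = DiamondQuot.LocMod.act D p (sysIdeal θ) (X i) (T.t x)) ∧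
      ∀ (F : OpFam O), NatOp p H F → ∀ G : Module.End O (Homs O (GammaH M (auxH D hdvd χQ))),
        (∀ φ, (auxQuot₂ D h).isLevelMap_res.tr (G φ)
          = F M _ ((auxQuot₂ D h).isLevelMap_res.tr φ)) →
        ∀ x y : (auxQuot D h).LocMod p (sysIdeal θ'),
          (y.val : Homs O (GammaH M (auxH D hdvd χQ))) = G (x.val : Homs O _) →
            ((T.t y).val : Homs O (GammaH N H)) = F N H ((T.t x).val : Homs O (GammaH N H)) := by
  set D₁ := auxQuot D h
  set D₂ := auxQuot₂ D h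
  set m := sysIdeal θ'
  have hneg : -1 ∈ H := neg_one_mem_of_chiTop D hpp hΔA
  have hneg₂ : -1 ∈ H.comap (ZMod.unitsMap hdvd) := by
    refine Subgroup.mem_comap.mpr ?_
    convert hneg
    exact Units.ext (by simp [ZMod.unitsMap_def])
  have hneg₁ : -1 ∈ auxH D hdvd χQ :=
    MonoidHom.mem_ker.mpr (map_neg_one_of_isPGroup hpp (isPGroup_prod hΔA hΔ) _)
  have hΓ₂ : GoodLevel O (GammaH M (H.comap (ZMod.unitsMap hdvd))) := hΓ.gammaH hdvd le_top hneg₂
  have hΓ₁ : GoodLevel O (GammaH M (auxH D hdvd χQ)) := hΓ.gammaH hdvd le_top hneg₁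
  obtain ⟨-, -, htsurj, htker⟩ := D₂.free_locPart hpm hΔ hΓ₂ hΓ₁ hne'
  obtain ⟨π, hπ⟩ := hmap
  -- `t`: the trace to the level of `H`, then the comparison with the base level
  let t : (auxQuot D h).LocMod p m →+ D.LocMod p (sysIdeal θ) :=
    { toFun := fun x => ⟨π (D₂.trLoc hΓ₂ hΓ₁ m x.val)⟩
      map_zero' := DiamondQuot.LocMod.ext_val (by simp)
      map_add' := fun x y => DiamondQuot.LocMod.ext_val (by simp) }
  -- `t` is semilinear for the diamond operators
  have ht_of : ∀ (ad : ΔA × Δ) x, t (MonoidAlgebra.of O _ ad • x)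
      = MonoidAlgebra.of O _ ad.1 • t x := by
    intro ad x
    refine DiamondQuot.LocMod.ext_val ?_
    rw [DiamondQuot.LocMod.of_smul, D.coe_diaLoc]
    set g := (D₁.lift ad : SL(2, ℤ))
    have hg : g ∈ Gamma0 M := GammaH_le_Gamma0 (D₁.lift ad).2
    have hg' : g ∈ Gamma0 N := Gamma0_mem.mpr (by
      have h0 := congrArg (ZMod.castHom hdvd (ZMod N)) (Gamma0_mem.mp hg)
      rwa [map_intCast, map_zero] at h0)
    have hgtop : g ∈ GammaH N ⊤ := by rw [GammaH_top]; exact hg'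
    have e1 : D.dia ad.1 (π (D₂.trLoc hΓ₂ hΓ₁ m x.val) : Homs O (GammaH N H))
        = (isLevelMap_gamma0 (le_refl H) hg').pull
          (π (D₂.trLoc hΓ₂ hΓ₁ m x.val) : Homs O (GammaH N H)) := by
      rw [D.pull_gamma0_eq hg' hgtop, ← deg_of_gamma0 D h (D₁.lift ad) hgtop, D₁.deg_lift]
    change (π (D₂.trLoc hΓ₂ hΓ₁ m (MonoidAlgebra.of O _ ad • x).val) : Homs O (GammaH N H))
      = D.dia ad.1 (π (D₂.trLoc hΓ₂ hΓ₁ m x.val) : Homs O (GammaH N H))
    rw [e1]
    refine hπ.gamma0 g hg hg' _ _ ?_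
    rw [D₂.coe_trLoc, D₂.coe_trLoc, DiamondQuot.LocMod.of_smul, D₁.coe_diaLoc]
    have e2 : ∀ φ : Homs O (GammaH M (auxH D hdvd χQ)),
        D₁.dia ad φ = (isLevelMap_gamma0 (le_refl _) hg).pull φ := fun φ => by
      rw [D₁.pull_gamma0_eq hg (D₁.lift ad).2, D₁.deg_lift]
    rw [e2]
    refine D₂.tr_pull_gamma0 hg (fun d φ => ?_) _
    rw [← e2, ← e2, dia_auxQuot₂, dia_auxQuot₂, ← Module.End.mul_apply, ← Module.End.mul_apply,
      ← map_mul, ← map_mul, mul_comm]
  have ht_O : ∀ (c : O) x, t (c • x) = c • t x := fun c x => DiamondQuot.LocMod.ext_val (by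
    change (π (D₂.trLoc hΓ₂ hΓ₁ m (c • x.val)) : Homs O (GammaH N H)) = _
    rw [map_smul, map_smul]
    rfl)
  have ht_smul : ∀ (a : MonoidAlgebra O (ΔA × Δ)) x, t (a • x) = projRing O ΔA Δ a • t x := by
    intro a x
    induction a using MonoidAlgebra.induction_linear with
    | zero => simp
    | add f g hf hg => rw [add_smul, map_add, hf, hg, map_add, add_smul]
    | single δ c =>
      rw [← MonoidAlgebra.smul_of δ c, smul_assoc, ht_O, ht_of, map_smul (projRing O ΔA Δ),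
        smul_assoc]
      simp [projRing]
  -- the trace commutes with the Hecke operators
  have ht_act : ∀ i x, D₂.trLoc hΓ₂ hΓ₁ m
      (locAct m (heckeAct O O M (auxH D hdvd χQ) p) (X i) x)
        = locAct m (heckeAct O O M (H.comap (ZMod.unitsMap hdvd)) p) (X i)
          (D₂.trLoc hΓ₂ hΓ₁ m x) := fun i x =>
    locMap_locAct (tr_heckeAct hΓ₂ hΓ₁ D₂.isLevelMap_res goodFor_res) (X i) x
  -- surjectivity, sections of the projection, kernel, Hecke and natural operators
  refine ⟨⟨t, ht_smul, fun y => ?_, fun a => ?_, fun x hx => ?_⟩, fun i hi x => ?_,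
    fun F hF G hFtr x y hxy => ?_⟩
  · obtain ⟨z, hz⟩ := hπ.bijective.2 y.val
    obtain ⟨x, rfl⟩ := htsurj z
    exact ⟨⟨x⟩, DiamondQuot.LocMod.ext_val (congrArg Subtype.val hz)⟩
  · refine ⟨MonoidAlgebra.mapDomainAlgHom O O (MonoidHom.inl ΔA Δ) a, ?_⟩
    induction a using MonoidAlgebra.induction_linear with
    | zero => simp
    | add f g hf hg => rw [map_add, map_add, hf, hg]
    | single δ c => simp [projRing]
  -- The kernel: by freeness it lies in the coinvariants, which `projRing` kills.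
  · have h0 : D₂.trLoc hΓ₂ hΓ₁ m x.val = 0 :=
      hπ.bijective.1 ((congrArg DiamondQuot.LocMod.val hx).trans (map_zero π).symm)
    have h1 := htker _ h0
    let := D₂.locModule (p := p) m
    suffices H : ∀ z ∈ coinvSub O Δ (locPart m (heckeAct O O M (auxH D hdvd χQ) p)),
        (⟨z⟩ : (auxQuot D h).LocMod p m) ∈ RingHom.ker (projRing O ΔA Δ) •
          (⊤ : Submodule (MonoidAlgebra O (ΔA × Δ)) _) from H _ h1
    intro z hz
    refine Submodule.smul_induction_on hz (fun a ha y _ => ?_) fun y₁ y₂ h₁ h₂ => add_mem h₁ h₂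
    set incl := MonoidAlgebra.mapDomainAlgHom O O (MonoidHom.inr ΔA Δ)
    have e : (⟨a • y⟩ : (auxQuot D h).LocMod p m)
        = incl a • (⟨y⟩ : (auxQuot D h).LocMod p m) :=
      (DiamondQuot.LocMod.equiv _ m).injective
        (LinearMap.congr_fun (AlgHom.congr_fun (lift_diaLoc_inr D h m) a) y).symm
    rw [e]
    exact Submodule.smul_mem_smul (RingHom.mem_ker.mpr (projRing_inr_eq_zero ha)) Submodule.mem_top
  · refine (DiamondQuot.LocMod.equiv _ _).injective ?_
    have ht_val : ∀ x, (t x).val = π (D₂.trLoc hΓ₂ hΓ₁ m x.val) := fun _ => rfl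
    exact (ht_val _).trans (((congrArg π (ht_act i x.val)).trans (hπ.hecke i hi _)).trans
      (congrArg (locAct (sysIdeal θ) (heckeAct O O N H p) (X i)) (ht_val x)).symm)
  · refine hπ.natural F hF (D₂.trLoc hΓ₂ hΓ₁ m x.val) (D₂.trLoc hΓ₂ hΓ₁ m y.val) ?_
    rw [D₂.coe_trLoc, D₂.coe_trLoc, hxy]
    exact hFtr _

end Fermat.HM
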