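import Fermat.Agent.HM.TWDelta
import Fermat.Agent.HM.TWDescent
import Fermat.Agent.HM.PatchPair

/-!
# The base level for patching

`BaseData` collects the hypotheses on the base level; its local module is free over the diamond
group ring, with basis `BaseData.basis`, and receives descents from the auxiliary levels
(`TWDescent`). `GR/RT/LowerBase` provides it for lowering and `GR/RT/Lift/Ctx` for lifting; for
raising the level it is used in `Raise/Package` and `Raise/AuxChain`.
-/

namespace Fermat.HM

open scoped MatrixGroups
open Fermat.MC.Lvl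

/-- A base level with a non-Eisenstein residual system. -/
structure BaseData (O : Type) [CommRing O] [IsLocalRing O] (pp : ℕ) {σ : Type} (p : σ → ℕ)
    [∀ i, Fact (p i).Prime] {N : ℕ} [NeZero N] {H : Subgroup (ZMod N)ˣ} {ΔA : Type}
    [CommGroup ΔA] (D : DiamondQuot N ⊤ H ΔA) (θ : σ → IsLocalRing.ResidueField O) : Prop where
  /-- `pp` is not two. -/
  pp_ne : pp ≠ 2
  /-- `pp` is zero in the residue field. -/
  pp_mem : (pp : O) ∈ IsLocalRing.maximalIdeal O
  /-- The diamond group is a `pp`-group. -/
  pgroup : IsPGroup pp ΔA
  /-- The family lists each prime once. -/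
  injective : Function.Injective p
  /-- The residual system is not Eisenstein. -/
  nonEis : NonEisenstein p (sysIdeal θ)
  /-- The level without diamond condition is good. -/
  good : GoodLevel O (GammaH N ⊤)
  /-- The local module is nonzero. -/
  exists_ne : ∃ x : D.LocMod p (sysIdeal θ), x ≠ 0

variable {O : Type} [CommRing O] [IsDomain O] [IsDiscreteValuationRing O]
  [IsAdicComplete (IsLocalRing.maximalIdeal O) O] [CharZero O] {pp : ℕ} [Fact pp.Prime]
  {σ : Type} {p : σ → ℕ} [hp : ∀ i, Fact (p i).Prime] {N : ℕ} [NeZero N]
  {H : Subgroup (ZMod N)ˣ} {ΔA : Type} [CommGroup ΔA] [Finite ΔA] {D : DiamondQuot N ⊤ H ΔA}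
  {θ : σ → IsLocalRing.ResidueField O}

namespace BaseData

omit [IsAdicComplete (IsLocalRing.maximalIdeal O) O] [CharZero O] [Finite ΔA] in
/-- The level structure of the base contains `-1`, the quotient being a `pp`-group, `pp` odd. -/
theorem neg_mem (B : BaseData O pp p D θ) : -1 ∈ H :=
  neg_one_mem_of_chiTop D B.pp_ne B.pgroup

omit [IsAdicComplete (IsLocalRing.maximalIdeal O) O] [CharZero O] [Finite ΔA] in
/-- The level `Γ_H(N)` is good, as `Γ₀(N)` is. -/
theorem goodLevel (B : BaseData O pp p D θ) : GoodLevel O (GammaH N H) :=
  B.good.gammaH dvd_rfl le_top B.neg_mem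

omit [IsAdicComplete (IsLocalRing.maximalIdeal O) O] [CharZero O] [Finite ΔA] in
/-- The homomorphisms of the base level form a finite module. -/
theorem finite_homs (B : BaseData O pp p D θ) : Module.Finite O (Homs O (GammaH N H)) :=
  B.goodLevel.moduleFinite

omit [CharZero O] in
/-- The local module of the base level is free of finite rank over the diamond group ring. -/
theorem free (B : BaseData O pp p D θ) :
    Module.Free (MonoidAlgebra O ΔA) (D.LocMod p (sysIdeal θ)) ∧
      Module.Finite (MonoidAlgebra O ΔA) (D.LocMod p (sysIdeal θ)) :=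
  haveI := B.finite_homs
  DiamondQuot.LocMod.free B.pp_mem B.pgroup B.good B.goodLevel B.nonEis

/-- A basis of the base module over the group ring. -/
noncomputable def basis (B : BaseData O pp p D θ) :
    Module.Basis (Fin (Module.finrank (MonoidAlgebra O ΔA) (D.LocMod p (sysIdeal θ))))
      (MonoidAlgebra O ΔA) (D.LocMod p (sysIdeal θ)) :=
  haveI := B.free.1
  haveI := B.free.2
  Module.finBasis _ _

omit [CharZero O] in
/-- The base module has positive rank. -/
theorem nonempty (B : BaseData O pp p D θ) :
    Nonempty (Fin (Module.finrank (MonoidAlgebra O ΔA) (D.LocMod p (sysIdeal θ)))) := by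
  obtain ⟨x, hx⟩ := B.exists_ne
  by_contra h
  rw [not_nonempty_iff] at h
  exact hx (B.basis.ext_elem fun i => h.elim i)

end BaseData

end Fermat.HM
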