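import Fermat.Agent.HM.PeriodSpan
import Fermat.Agent.HM.Package
import Fermat.Agent.HM.Ops

/-!
# The Hecke and diamond operators as actions of polynomial rings

Actions of the polynomials in the labels on the homomorphisms and on the modules, and their
compatibility with the periods of cusp forms.
-/

namespace Fermat.HM

open scoped MatrixGroups
open MvPolynomial Fermat.MC.Lvl

variable {N : ℕ} [NeZero N] {H : Subgroup (ZMod N)ˣ}

/-- The operator labels of a level. -/
def labelOp (N : ℕ) : Nat.Primes ⊕ (ZMod N)ˣ → Op N := Sum.elim Op.hecke Op.dia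

/-- The Hecke algebra with integral coefficients acting on homomorphisms. -/
noncomputable def homAct (R : Type) [CommRing R] (N : ℕ) [NeZero N] (H : Subgroup (ZMod N)ˣ) :
    MvPolynomial (Nat.Primes ⊕ (ZMod N)ˣ) ℤ →ₐ[ℤ] Module.End ℤ (Homs R (GammaH N H)) :=
  opsAct ℤ R (LevelOver.self N H) (labelOp N)

/-- The variable of a label acts as the operator of the label. -/
theorem homAct_X (R : Type) [CommRing R] (i : Nat.Primes ⊕ (ZMod N)ˣ)
    (φ : Homs R (GammaH N H)) :
    homAct R N H (X i) φ = opLin R (LevelOver.self N H) (labelOp N i) φ :=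
  opsAct_X _ _ i φ

/-- A change of coefficients commutes with the operator of a set of representatives. -/
theorem Reps.comp_homMap {R R' : Type*} [CommRing R] [CommRing R'] {Γ Γ' : Subgroup SL(2, ℤ)}
    {ι : Type} [Fintype ι] (P : Reps Γ Γ' ι) (u : R →+ R') (φ : Homs R Γ) :
    u.comp (P.homMap φ) = P.homMap (u.comp φ) :=
  AddMonoidHom.ext fun _ => map_sum u _ _

/-- A change of coefficients commutes with the action of the polynomials in the labels. -/
theorem comp_homAct {R R' : Type} [CommRing R] [CommRing R'] (u : R →+ R')
    (P : MvPolynomial (Nat.Primes ⊕ (ZMod N)ˣ) ℤ) (φ : Homs R (GammaH N H)) :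
    u.comp (homAct R N H P φ) = homAct R' N H P (u.comp φ) :=
  intertwine_of_X (AddMonoidHom.compHom u).toIntLinearMap (fun i x => by
    change u.comp (homAct R N H (X i) x) = homAct R' N H (X i) (u.comp x)
    rw [homAct_X, homAct_X]
    rcases i with l | v
    · exact Reps.comp_homMap _ u x
    · exact Reps.comp_homMap _ u x) P φ

/-- The periods commute with the operator of a set of representatives. -/
theorem formPeriod_formMap {M : ℕ} [NeZero M] {H' : Subgroup (ZMod M)ˣ} {ι : Type} [Fintype ι]
    (P : Reps (GammaH N H) (GammaH M H') ι) (f : CuspForm (GammaH N H) 2) :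
    formPeriod (formMap P f) = P.homMap (formPeriod f) := by
  rw [formPeriod, LinearMap.comp_apply, symbOf_formMap, P.periodHom_symbMap]
  rfl

/-- The periods commute with the Hecke and diamond operators. -/
theorem formPeriod_formOp (i : Nat.Primes ⊕ (ZMod N)ˣ) (f : CuspForm (GammaH N H) 2) :
    formPeriod (formOp N H i f) = opLin ℂ (LevelOver.self N H) (labelOp N i) (formPeriod f) := by
  rcases i with l | u
  · have : Fact (l : ℕ).Prime := ⟨l.2⟩
    exact formPeriod_formMap _ f
  · obtain ⟨h1, h2⟩ := (exists_gamma0_lift u).choose_spec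
    change formPeriod (formDia N H u f) = diaOp (LevelOver.self N H) u (formPeriod f)
    rw [← pull_eq_diaOp (LevelOver.self N H) (u := u) h1 h2]
    exact formPeriod_formMap _ f

/-- The periods commute with the action of the polynomials in the labels. -/
theorem formPeriod_formAct (P : MvPolynomial (Nat.Primes ⊕ (ZMod N)ˣ) ℤ)
    (f : CuspForm (GammaH N H) 2) :
    formPeriod (formAct N H P f) = homAct ℂ N H P (formPeriod f) := by
  induction P using MvPolynomial.induction_on generalizing f with
  | C a => simp
  | add P Q hP hQ => simp [hP, hQ]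
  | mul_X P i hP =>
    rw [map_mul, map_mul, Module.End.mul_apply, Module.End.mul_apply, hP, formAct_X, homAct_X,
      formPeriod_formOp]

variable {O : Type} [CommRing O] [IsDomain O] [CharZero O] {σ : Type} {p : σ → ℕ}
  [hp : ∀ i, Fact (p i).Prime]

variable {ΔA : Type} [CommGroup ΔA]

omit [IsDomain O] [CharZero O] hp in
/-- The variable of a unit acts as the diamond operator of its class in the quotient. -/
theorem homAct_dia (D : DiamondQuot N ⊤ H ΔA) (u : (ZMod N)ˣ) (φ : Homs O (GammaH N H)) :
    homAct O N H (X (Sum.inr u)) φ = D.dia (D.chiTop u) φ := by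
  rw [homAct_X]
  obtain ⟨h1, h2⟩ := (exists_gamma0_lift u).choose_spec
  change diaOp (LevelOver.self N H) u φ = _
  rw [← pull_eq_diaOp (LevelOver.self N H) (u := u) h1 h2,
    D.pull_gamma0_eq h1 (by rw [GammaH_top]; exact h1)]
  congr 2
  change D.chi _ = D.chi _
  congr 1
  exact Subtype.ext (Units.ext ((coe_diagHom _).trans h2))

section Twisted

variable [IsDiscreteValuationRing O] [IsAdicComplete (IsLocalRing.maximalIdeal O) O]
  {m : Ideal (MvPolynomial σ O)} [m.IsMaximal] [Module.Finite O (Homs O (GammaH N H))]

/-- The Hecke operators and the diamond operators on the module over the group ring. -/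
noncomputable def labelAct (D : DiamondQuot N ⊤ H ΔA) (p : σ → ℕ) [∀ i, Fact (p i).Prime]
    (m : Ideal (MvPolynomial σ O)) [m.IsMaximal] :
    MvPolynomial (σ ⊕ (ZMod N)ˣ) O →ₐ[O] Module.End (MonoidAlgebra O ΔA) (D.LocMod p m) :=
  commAeval (Sum.elim (fun i => DiamondQuot.LocMod.act D p m (X i))
      fun u => MonoidAlgebra.of O ΔA (D.chiTop u) • (1 : Module.End (MonoidAlgebra O ΔA)
        (D.LocMod p m)))
    fun a b => by
      rcases a with i | u <;> rcases b with j | v
      · simp only [Sum.elim_inl, ← map_mul, mul_comm]
      · exact mul_smul_one_comm _ _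
      · exact (mul_smul_one_comm _ _).symm
      · exact mul_smul_one_comm _ _
where
  mul_smul_one_comm (g : Module.End (MonoidAlgebra O ΔA) (D.LocMod p m)) (a : MonoidAlgebra O ΔA) :
      g * (a • 1) = (a • 1) * g :=
    LinearMap.ext fun x => by simp

omit [CharZero O] in
/-- The variable of a prime acts on the module over the group ring as its Hecke operator. -/
theorem labelAct_hecke (D : DiamondQuot N ⊤ H ΔA) (i : σ) :
    labelAct D p m (X (Sum.inl i)) = DiamondQuot.LocMod.act D p m (X i) := by
  rw [labelAct, commAeval_X, Sum.elim_inl]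

omit [CharZero O] in
/-- The variable of a unit acts as multiplication by its class in the group ring. -/
theorem labelAct_dia (D : DiamondQuot N ⊤ H ΔA) (u : (ZMod N)ˣ) :
    labelAct D p m (X (Sum.inr u)) = MonoidAlgebra.of O ΔA (D.chiTop u) • 1 := by
  rw [labelAct, commAeval_X, Sum.elim_inr]

end Twisted

end Fermat.HM
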