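import Fermat.Agent.HM.Hecke
import Fermat.Agent.HM.IharaDegeneracy

/-!
# Pullback along matrices carrying one level into another

Such a matrix is an `IsLevelMap`, and the pullback is `pull`.
-/

namespace Fermat.HM

open scoped MatrixGroups
open CongruenceSubgroup Matrix Fermat.MC.Lvl

/-- `g` is integral of positive determinant `n` and conjugates the Hecke sets of the second
level into those of the first. -/
structure IsLevelMap {N N' : ℕ} (H : Subgroup (ZMod N)ˣ) (H' : Subgroup (ZMod N')ˣ) (n : ℕ)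
    (g : GL (Fin 2) ℚ) : Prop where
  /-- `n` is positive. -/
  pos : 0 < n
  /-- `g` is an integral matrix of determinant `n`. -/
  integral : ∃ G : Matrix (Fin 2) (Fin 2) ℤ, G.det = n ∧
    (g : Matrix (Fin 2) (Fin 2) ℚ) = G.map (fun x : ℤ => (x : ℚ))
  /-- Conjugation by `g` maps the Hecke sets of determinant prime to `n` into the first level's. -/
  conj_mem : ∀ (m : ℤ), IsCoprime m (n : ℤ) → ∀ M ∈ heckeSet N' H' m,
    g * M * g⁻¹ ∈ heckeSet N H m

namespace IsLevelMap

variable {N N' N'' : ℕ} {H : Subgroup (ZMod N)ˣ} {H' : Subgroup (ZMod N')ˣ}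
  {H'' : Subgroup (ZMod N'')ˣ} {n n' : ℕ} {g g' : GL (Fin 2) ℚ}

/-- A level map has positive determinant. -/
theorem det_pos (h : IsLevelMap H H' n g) : 0 < (g : Matrix (Fin 2) (Fin 2) ℚ).det := by
  obtain ⟨G, hG, e⟩ := h.integral
  rw [e, det_fin_two]
  simp only [Matrix.map_apply]
  rw [det_fin_two] at hG
  have : ((0 : ℤ) : ℚ) < (((n : ℕ) : ℤ) : ℚ) := by exact_mod_cast h.pos
  rw [← hG] at this
  exact_mod_cast this

/-- A level map conjugates the second level into the first. -/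
theorem exists_conj (h : IsLevelMap H H' n g) (γ : SL(2, ℤ)) (hγ : γ ∈ GammaH N' H') :
    ∃ d ∈ GammaH N H, g * gq γ = gq d * g := by
  obtain ⟨d, hd, e⟩ := exists_gq_of_mem_one (h.conj_mem 1 isCoprime_one_left _ (gq_mem_heckeSet hγ))
  exact ⟨d, hd, by rw [← e, inv_mul_cancel_right]⟩

/-- The product of two level maps is a level map, of the product determinant. -/
theorem comp (h : IsLevelMap H H' n g) (h' : IsLevelMap H' H'' n' g') :
    IsLevelMap H H'' (n * n') (g * g') where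
  pos := Nat.mul_pos h.pos h'.pos
  integral := by
    obtain ⟨G, hG, e⟩ := h.integral
    obtain ⟨G', hG', e'⟩ := h'.integral
    exact ⟨G * G', by rw [det_mul, hG, hG']; push_cast; rfl,
      by rw [Units.val_mul, e, e', Matrix.map_mul_intCast]⟩
  conj_mem m hm M hM := by
    push_cast at hm
    have := h.conj_mem m hm.of_mul_right_left _ (h'.conj_mem m hm.of_mul_right_right M hM)
    simpa [mul_assoc] using this

/-- The pullback as a system of one representative. -/
noncomputable def reps (h : IsLevelMap H H' n g) : Reps (GammaH N H) (GammaH N' H') Unit :=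
  Reps.single g h.det_pos h.exists_conj

variable {R : Type*} [CommRing R]

/-- Pullback of homomorphisms. -/
noncomputable def pull (h : IsLevelMap H H' n g) :
    Homs R (GammaH N H) →ₗ[R] Homs R (GammaH N' H') :=
  h.reps.homMap

/-- Pullback of symbols. -/
noncomputable def pullS (h : IsLevelMap H H' n g) :
    symbols R (GammaH N H) →ₗ[R] symbols R (GammaH N' H') :=
  h.reps.symbMap

/-- The pullback of a symbol is precomposition with `g`. -/
theorem pullS_apply (h : IsLevelMap H H' n g) (S : symbols R (GammaH N H)) (a b : Cusp) :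
    (h.pullS S).1 a b = S.1 (g • a) (g • b) := by
  rw [pullS, Reps.symbMap_apply, Fintype.sum_unique]
  rfl

/-- The value of the pullback, from any decomposition `g γ = d g`. -/
theorem pull_apply (h : IsLevelMap H H' n g) (φ : Homs R (GammaH N H)) (γ : GammaH N' H')
    (d : GammaH N H) (hd : g * gq (γ : SL(2, ℤ)) = gq (d : SL(2, ℤ)) * g) :
    h.pull φ (Additive.ofMul γ) = φ (Additive.ofMul d) := by
  rw [pull, Reps.homMap_apply, Fintype.sum_unique]
  congr 2
  exact ((h.reps).eq_of_decomp (γ := γ) (i := ()) (k := ()) hd).2.symm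

/-- Periods commute with pullback. -/
theorem periodHom_pullS (h : IsLevelMap H H' n g) (S : symbols R (GammaH N H)) :
    periodHom (h.pullS S) = h.pull (periodHom S) :=
  Reps.periodHom_symbMap _ S

/-- Pullback commutes with a change of coefficients. -/
theorem mapCoeff_pull {R' : Type*} [CommRing R'] (h : IsLevelMap H H' n g) (f : R →+* R')
    (φ : Homs R (GammaH N H)) : mapCoeff f (h.pull φ) = h.pull (mapCoeff f φ) :=
  Reps.mapCoeff_homMap _ f φ

/-- Matrices differing by an element of the first level pull back alike. -/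
theorem pull_congr {d : SL(2, ℤ)} (h : IsLevelMap H H' n g) (h' : IsLevelMap H H' n' g')
    (hd : d ∈ GammaH N H) (e : g = gq d * g') (φ : Homs R (GammaH N H)) :
    h.pull φ = h'.pull φ :=
  Reps.homMap_congr h.reps h'.reps (fun _ => ⟨(), d, hd, e⟩) le_rfl φ

/-- Pullback along a product is the composite of the pullbacks. -/
theorem pull_comp (h : IsLevelMap H H' n g) (h' : IsLevelMap H' H'' n' g')
    (φ : Homs R (GammaH N H)) : (h.comp h').pull φ = h'.pull (h.pull φ) := by
  rw [pull, pull, pull, ← Reps.homMap_comp h.reps h'.reps (fun _ _ _ _ _ => Subsingleton.elim _ _)]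
  refine Reps.homMap_congr _ _ (fun _ => ⟨((), ()), 1, one_mem _, ?_⟩) (by simp) φ
  rw [map_one, one_mul]
  rfl

section Hecke

variable [NeZero N] [NeZero N'] {ℓ : ℕ} [hℓ : Fact ℓ.Prime]

omit [NeZero N] [NeZero N'] hℓ in
/-- Two levels with the same behaviour at `ℓ` have as many representatives of `T_ℓ`. -/
theorem card_heckeIdx (hdiv : ℓ ∣ N' ↔ ℓ ∣ N) :
    Fintype.card (HeckeIdx ℓ N') = Fintype.card (HeckeIdx ℓ N) :=
  Fintype.card_congr (Equiv.subtypeEquivRight fun i => by rw [hdiv])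

omit [NeZero N] [NeZero N'] in
/-- The products `g β`, `β` a representative of `T_ℓ`, lie in distinct left cosets. -/
theorem reps_hecke_uniq (h : IsLevelMap H H' n g) (hn : ¬ ℓ ∣ n)
    (i k : Unit × HeckeIdx ℓ N') (d : SL(2, ℤ)) (_ : d ∈ GammaH N H)
    (e : gq d * (g * stdGL ℓ N' i.2) = g * stdGL ℓ N' k.2) : i = k := by
  refine Prod.ext rfl ?_
  obtain ⟨G, hG, eG⟩ := h.integral
  refine eq_of_factor (ℓ := ℓ) (n := (n : ℤ)) (by exact_mod_cast hn)
    (P := (d : Matrix (Fin 2) (Fin 2) ℤ) * G) (by rw [det_mul, d.2, one_mul, hG]) hG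
    (Matrix.map_injective Int.cast_injective (α := ℤ) (β := ℚ) ?_)
  have := congrArg Units.val e
  rw [Units.val_mul, Units.val_mul, Units.val_mul, coe_gq, eG, coe_stdGL, coe_stdGL,
    ← mul_assoc, ← Matrix.map_mul_intCast, ← Matrix.map_mul_intCast,
    ← Matrix.map_mul_intCast] at this
  exact this

/-- The determinant of the level map is prime to `ℓ`. -/
theorem isCoprime_det (hn : ¬ ℓ ∣ n) : IsCoprime (ℓ : ℤ) (n : ℤ) :=
  Int.isCoprime_iff_gcd_eq_one.mpr (by
    rw [Int.gcd_natCast_natCast]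
    exact hℓ.out.coprime_iff_not_dvd.mpr hn)

omit [NeZero N] [NeZero N'] in
/-- Each `g β` is some `β' g` up to the level on the left. -/
theorem exists_hecke_reps (h : IsLevelMap H H' n g) (hn : ¬ ℓ ∣ n) (i : Unit × HeckeIdx ℓ N') :
    ∃ k : HeckeIdx ℓ N × Unit, ∃ d ∈ GammaH N H,
      g * stdGL ℓ N' i.2 = gq d * (stdGL ℓ N k.1 * g) := by
  obtain ⟨k, d, hd, e⟩ := isLeftReps_stdGL.exists_eq _ (h.conj_mem ℓ (isCoprime_det hn) _
    (stdGL_mem i.2))
  exact ⟨(k, ()), d, hd, by rw [← mul_assoc, ← e, inv_mul_cancel_right]⟩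

omit [NeZero N'] in
/-- The products `β' g` lie in distinct left cosets. -/
theorem hecke_reps_uniq (h : IsLevelMap H H' n g) (i k : HeckeIdx ℓ N × Unit) (d : SL(2, ℤ))
    (hd : d ∈ GammaH N H) (e : gq d * ((hecke N H ℓ).B i.1 * h.reps.B i.2)
      = (hecke N H ℓ).B k.1 * h.reps.B k.2) : i = k := by
  refine Prod.ext (isLeftReps_stdGL.uniq _ _ d hd ?_) rfl
  rw [← mul_assoc] at e
  exact mul_right_cancel e

/-- Pullbacks commute with the Hecke operators prime to the determinant. -/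
theorem pull_heckeT (h : IsLevelMap H H' n g) (hn : ¬ ℓ ∣ n) (hdiv : ℓ ∣ N' ↔ ℓ ∣ N)
    (φ : Homs R (GammaH N H)) :
    heckeT R N' H' ℓ (h.pull φ) = h.pull (heckeT R N H ℓ φ) := by
  have h1 := Reps.homMap_comp h.reps (hecke N' H' ℓ).toReps (h.reps_hecke_uniq hn) φ
  have h2 := Reps.homMap_comp (hecke N H ℓ).toReps h.reps h.hecke_reps_uniq φ
  refine (h1.symm.trans ?_).trans h2
  exact Reps.homMap_congr _ _ (fun i => h.exists_hecke_reps hn i)
    (by simp [Fintype.card_prod, card_heckeIdx hdiv]) φ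

/-- Pullback of symbols along a level map commutes with `T ℓ`. -/
theorem pullS_heckeS (h : IsLevelMap H H' n g) (hn : ¬ ℓ ∣ n) (hdiv : ℓ ∣ N' ↔ ℓ ∣ N)
    (S : symbols R (GammaH N H)) :
    heckeS R N' H' ℓ (h.pullS S) = h.pullS (heckeS R N H ℓ S) := by
  have h1 := Reps.symbMap_comp h.reps (hecke N' H' ℓ).toReps (h.reps_hecke_uniq hn) S
  have h2 := Reps.symbMap_comp (hecke N H ℓ).toReps h.reps h.hecke_reps_uniq S
  refine (h1.symm.trans ?_).trans h2
  exact Reps.symbMap_congr _ _ (fun i => h.exists_hecke_reps hn i)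
    (by simp [Fintype.card_prod, card_heckeIdx hdiv]) S

end Hecke

end IsLevelMap

/-! ## The examples -/

variable {N N' : ℕ} {H : Subgroup (ZMod N)ˣ} {H' : Subgroup (ZMod N')ˣ}

/-- A unit of `H'` reduces into `H`, also as read on an integer. -/
theorem exists_mem_of_map_le (hdvd : N ∣ N') (hH : H'.map (ZMod.unitsMap hdvd) ≤ H) {a : ℤ}
    {x : (ZMod N')ˣ} (hx : x ∈ H') (e : (x : ZMod N') = a) : ∃ h ∈ H, (h : ZMod N) = a :=
  ⟨ZMod.unitsMap hdvd x, hH (Subgroup.mem_map_of_mem _ hx), by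
    rw [ZMod.unitsMap_def, Units.coe_map]
    simp [e]⟩

/-- Restriction to a smaller level is a level map with matrix `1`. -/
theorem isLevelMap_one (hdvd : N ∣ N') (hH : H'.map (ZMod.unitsMap hdvd) ≤ H) :
    IsLevelMap H H' 1 1 where
  pos := one_pos
  integral := ⟨1, by simp, by simp⟩
  conj_mem m _ M hM := by
    obtain ⟨A, ⟨hd, hc, x, hx, hx'⟩, e⟩ := hM
    refine ⟨A, ⟨hd, ?_, exists_mem_of_map_le hdvd hH hx hx'⟩, by simp [e]⟩
    rw [ZMod.intCast_zmod_eq_zero_iff_dvd] at hc ⊢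
    exact (Int.natCast_dvd_natCast.mpr hdvd).trans hc

/-- The degeneracy map `z ↦ q z`. -/
theorem isLevelMap_scale {q : ℕ} [NeZero q] (hqN : N * q ∣ N')
    (hH : H'.map (ZMod.unitsMap (dvd_of_mul_right_dvd hqN)) ≤ H) :
    IsLevelMap H H' q (scaleGL q) where
  pos := Nat.pos_of_ne_zero (NeZero.ne q)
  integral := ⟨!![(q : ℤ), 0; 0, 1], by simp, by
    ext i j
    fin_cases i <;> fin_cases j <;> simp [scaleGL]⟩
  conj_mem m _ M hM := by
    obtain ⟨A, ⟨hd, hc, x, hx, hx'⟩, e⟩ := hM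
    rw [ZMod.intCast_zmod_eq_zero_iff_dvd] at hc
    obtain ⟨c, hc⟩ := (Int.natCast_dvd_natCast.mpr hqN).trans hc
    rw [det_fin_two] at hd
    refine ⟨!![A 0 0, q * A 0 1; N * c, A 1 1], ⟨?_, by simp, ?_⟩, ?_⟩
    · rw [det_fin_two_of]
      push_cast at hc
      linear_combination hd + A 0 1 * hc
    · simpa using exists_mem_of_map_le (dvd_of_mul_right_dvd hqN) hH hx hx'
    · have key : ((scaleGL q * M : GL (Fin 2) ℚ) : Matrix (Fin 2) (Fin 2) ℚ)
          = (!![A 0 0, (q : ℤ) * A 0 1; (N : ℤ) * c, A 1 1]).map (fun x : ℤ => (x : ℚ))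
            * (scaleGL q : GL (Fin 2) ℚ).val := by
        rw [Units.val_mul]
        ext i j
        fin_cases i <;> fin_cases j <;>
          simp [scaleGL, e, Matrix.mul_apply, Fin.sum_univ_two, hc]
        all_goals ring
      rw [Units.val_mul, key, mul_assoc, ← Units.val_mul, mul_inv_cancel, Units.val_one, mul_one]

/-- Conjugation by an element of `Γ₀(N)`. -/
theorem isLevelMap_gamma0 {H₁ H₂ : Subgroup (ZMod N)ˣ} (hH : H₂ ≤ H₁) {σ : SL(2, ℤ)}
    (hσ : σ ∈ Gamma0 N) : IsLevelMap H₁ H₂ 1 (gq σ) where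
  pos := one_pos
  integral := ⟨σ, by simp, coe_gq σ⟩
  conj_mem m _ M hM := by
    obtain ⟨A, ⟨hd, hc, x, hx, hx'⟩, e⟩ := hM
    have hσ' := Gamma0_mem.mp hσ
    have hadj := Gamma0_entries hσ
    refine ⟨(σ : Matrix (Fin 2) (Fin 2) ℤ) * A * ((σ⁻¹ : SL(2, ℤ)) : Matrix (Fin 2) (Fin 2) ℤ),
      ⟨by simp [hd, Matrix.det_adjugate], ?_, x, hH hx, ?_⟩, ?_⟩
    · simp [Matrix.mul_apply, Fin.sum_univ_two, adjugate_fin_two, hσ',
        hc]
    · simp [Matrix.mul_apply, Fin.sum_univ_two, adjugate_fin_two, hσ',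
        hc, hx']
      linear_combination (-((A 0 0 : ℤ) : ZMod N)) * hadj
    · rw [← map_inv, Units.val_mul, Units.val_mul, coe_gq, coe_gq, e, Matrix.map_mul_intCast,
        Matrix.map_mul_intCast]

/-- Elements of `Γ₀(N)` with congruent upper left entries differ by the level. -/
theorem gamma0_mul_inv_mem {g g' : SL(2, ℤ)} (h : g ∈ Gamma0 N) (h' : g' ∈ Gamma0 N)
    (e : ((g 0 0 : ℤ) : ZMod N) = ((g' 0 0 : ℤ) : ZMod N)) : g * g'⁻¹ ∈ GammaH N H := by
  refine mem_GammaH_iff_upper.mpr ⟨mul_mem h (inv_mem h'), 1, one_mem H, ?_⟩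
  have h1 := Gamma0_entries h'
  simp [Matrix.mul_apply, Fin.sum_univ_two, adjugate_fin_two, Gamma0_mem.mp h', e, h1]

/-- A homomorphism vanishing on a smaller level vanishes, in characteristic zero. -/
theorem pull_one_injective {R : Type} [CommRing R] [CharZero R] [NoZeroDivisors R]
    {N M : ℕ} [NeZero M] {H : Subgroup (ZMod N)ˣ} {H' : Subgroup (ZMod M)ˣ}
    (h : IsLevelMap H H' 1 1) : Function.Injective (h.pull (R := R)) := by
  rw [injective_iff_map_eq_zero]
  intro φ hφ
  refine AddMonoidHom.ext fun γ => ?_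
  obtain ⟨γ, rfl⟩ := Additive.ofMul.surjective γ
  obtain ⟨k, hk, -, hmem⟩ : ∃ k, 0 < k ∧ k ≤ (GammaH M H').index ∧
      (γ : SL(2, ℤ)) ^ k ∈ GammaH M H' :=
    Subgroup.exists_pow_mem_of_index_ne_zero Subgroup.FiniteIndex.index_ne_zero _
  have h1 : φ (Additive.ofMul (γ ^ k)) = 0 := by
    rw [← IsLevelMap.pull_apply h φ ⟨_, hmem⟩ (γ ^ k) (by simp)]
    simp [hφ]
  rw [ofMul_pow, map_nsmul, nsmul_eq_mul, mul_eq_zero] at h1
  exact h1.resolve_left (Nat.cast_ne_zero.mpr hk.ne')

end Fermat.HM
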