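import Fermat.Agent.HM.Hecke
import Fermat.Agent.HM.LevelMap
import Fermat.Agent.HM.Operators
import Mathlib.NumberTheory.ModularForms.Basic
import Mathlib.NumberTheory.ModularForms.CongruenceSubgroups

/-!
# Operators on cusp forms given by matrices

The family is `formOp`, acting through the algebra map `formAct`.
-/

namespace Fermat.HM

open scoped MatrixGroups ModularForm
open UpperHalfPlane Fermat.MC.Lvl CongruenceSubgroup

variable {Γ Γ' : Subgroup SL(2, ℤ)} [Γ.FiniteIndex] [Γ'.FiniteIndex] {ι : Type} [Fintype ι]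

/-- Rational matrices carry cusps of one level to cusps of another. -/
theorem isCusp_toReal_smul {c : OnePoint ℝ}
    (hc : IsCusp c (Γ' : Subgroup (GL (Fin 2) ℝ))) (g : GL (Fin 2) ℚ) :
    IsCusp (toReal g • c) (Γ : Subgroup (GL (Fin 2) ℝ)) := by
  rw [Subgroup.IsArithmetic.isCusp_iff_isCusp_SL2Z, isCusp_SL2Z_iff] at hc ⊢
  obtain ⟨c, rfl⟩ := hc
  exact ⟨g • c, by rw [toReal, ← Rat.coe_castHom, OnePoint.map_smul]⟩

omit [Γ.FiniteIndex] in
/-- A form is fixed by its level. -/
theorem slash_of_mem {k : ℤ} (f : CuspForm Γ k) {γ : SL(2, ℤ)} (h : γ ∈ Γ) :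
    ⇑f ∣[k] γ = ⇑f := by
  rw [ModularForm.SL_slash]
  exact SlashInvariantFormClass.slash_action_eq f _ ⟨γ, h, rfl⟩

/-- The operator of a family of matrices on cusp forms of weight two: `f ↦ ∑ i, f ∣ B i`. -/
noncomputable def formMap (P : Reps Γ Γ' ι) : CuspForm Γ 2 →ₗ[ℂ] CuspForm Γ' 2 where
  toFun f :=
    { toFun := ∑ i, ⇑f ∣[(2 : ℤ)] toReal (P.B i)
      slash_action_eq' := fun A hA => by
        obtain ⟨γ, hγ, rfl⟩ := hA
        -- invariance: each element of `Γ'` permutes the summands up to an element of `Γ`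
        rw [SlashAction.sum_slash]
        refine Fintype.sum_bijective _ (P.perm_bijective ⟨γ, hγ⟩) _ _ fun i => ?_
        have e : toReal (P.B i) * toReal (gq γ)
            = toReal (gq (P.elt ⟨γ, hγ⟩ i : SL(2, ℤ))) * toReal (P.B (P.perm ⟨γ, hγ⟩ i)) := by
          rw [← map_mul, ← map_mul]
          exact congrArg toReal (P.mul_gq ⟨γ, hγ⟩ i)
        rw [← SlashAction.slash_mul]
        change ⇑f ∣[(2 : ℤ)] (toReal (P.B i) * (γ : GL (Fin 2) ℝ)) = _
        rw [← toReal_gq γ, e, SlashAction.slash_mul, toReal_gq, ← ModularForm.SL_slash,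
          slash_of_mem f (P.elt ⟨γ, hγ⟩ i).2]
      -- holomorphy and vanishing at the cusps hold summand by summand
      holo' := MDifferentiable.sum fun i _ => MDifferentiable.slash (CuspFormClass.holo f) _ _
      zero_at_cusps' := fun {c} hc => by
        refine Finset.sum_induction _ (fun g : ℍ → ℂ => c.IsZeroAt g 2)
          (fun _ _ => OnePoint.IsZeroAt.add) ?_ fun i _ =>
            OnePoint.IsZeroAt.smul_iff.mp (CuspFormClass.zero_at_cusps f (isCusp_toReal_smul hc _))
        intro g _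
        simp only [SlashAction.zero_slash, UpperHalfPlane.IsZeroAtImInfty, Filter.ZeroAtFilter]
        exact tendsto_const_nhds }
  map_add' f g := DFunLike.coe_injective (by
    change ∑ i, (⇑(f + g) ∣[(2 : ℤ)] toReal (P.B i))
      = (∑ i, ⇑f ∣[(2 : ℤ)] toReal (P.B i)) + ∑ i, ⇑g ∣[(2 : ℤ)] toReal (P.B i)
    rw [← Finset.sum_add_distrib]
    simp only [FunLike.coe_add, SlashAction.add_slash])
  map_smul' a f := DFunLike.coe_injective (by
    -- scalars commute with each slash, as `P.B i` has positive determinant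
    change ∑ i, (⇑(a • f) ∣[(2 : ℤ)] toReal (P.B i)) = a • ∑ i, ⇑f ∣[(2 : ℤ)] toReal (P.B i)
    rw [Finset.smul_sum]
    refine Finset.sum_congr rfl fun i _ => ?_
    have hσ : UpperHalfPlane.σ (toReal (P.B i)) = ContinuousAlgEquiv.refl ℝ ℂ := by
      rw [UpperHalfPlane.σ, if_pos]
      rw [Matrix.GeneralLinearGroup.val_det_apply, det_toReal]
      exact_mod_cast P.det_B i
    rw [FunLike.coe_smul, ModularForm.smul_slash, hσ]
    rfl)
where
  det_toReal (g : GL (Fin 2) ℚ) : (toReal g : Matrix (Fin 2) (Fin 2) ℝ).det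
      = ((g : Matrix (Fin 2) (Fin 2) ℚ).det : ℝ) := by
    rw [toReal, Matrix.GeneralLinearGroup.map]
    exact (RingHom.map_det (Rat.castHom ℝ) _).symm

/-- The function underlying `formMap P f`. -/
theorem coe_formMap (P : Reps Γ Γ' ι) (f : CuspForm Γ 2) :
    ⇑(formMap P f) = ∑ i, ⇑f ∣[(2 : ℤ)] toReal (P.B i) := rfl

/-- Two families of representatives of the same cosets give the same operator. -/
theorem formMap_congr {ι' : Type} [Fintype ι'] (P : Reps Γ Γ' ι) (Q : Reps Γ Γ' ι')
    (h : ∀ i, ∃ k, ∃ d ∈ Γ, P.B i = gq d * Q.B k) (hcard : Fintype.card ι' ≤ Fintype.card ι)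
    (f : CuspForm Γ 2) : formMap P f = formMap Q f := by
  obtain ⟨e, c, hc⟩ := Reps.exists_matching P Q h hcard
  refine DFunLike.coe_injective ?_
  rw [coe_formMap, coe_formMap]
  refine Fintype.sum_equiv e _ _ fun i => ?_
  rw [hc i, map_mul, SlashAction.slash_mul, toReal_gq, ← ModularForm.SL_slash,
    slash_of_mem f (c i).2]

/-- Composition of operators. -/
theorem formMap_comp {Γ'' : Subgroup SL(2, ℤ)} [Γ''.FiniteIndex] {ι' : Type} [Fintype ι']
    (P : Reps Γ Γ' ι) (Q : Reps Γ' Γ'' ι')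
    (huniq : ∀ i k : ι × ι', ∀ d ∈ Γ, gq d * (P.B i.1 * Q.B i.2) = P.B k.1 * Q.B k.2 → i = k)
    (f : CuspForm Γ 2) : formMap (P.comp Q huniq) f = formMap Q (formMap P f) := by
  refine DFunLike.coe_injective ?_
  rw [coe_formMap, coe_formMap, coe_formMap, Fintype.sum_prod_type_right]
  refine Finset.sum_congr rfl fun j _ => ?_
  rw [SlashAction.sum_slash]
  refine Finset.sum_congr rfl fun i _ => ?_
  change ⇑f ∣[(2 : ℤ)] toReal (P.B i * Q.B j) = _
  rw [map_mul, SlashAction.slash_mul]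

variable {N : ℕ} [NeZero N] {H : Subgroup (ZMod N)ˣ}

/-- The Hecke operator `T ℓ` (or `U ℓ` if `ℓ ∣ N`) on cusp forms for `Γ_H(N)`. -/
noncomputable def formHecke (N : ℕ) [NeZero N] (H : Subgroup (ZMod N)ˣ) (ℓ : ℕ)
    [Fact ℓ.Prime] : Module.End ℂ (CuspForm (GammaH N H) 2) :=
  formMap (hecke N H ℓ).toReps

/-- Pullback of cusp forms along a map of levels. -/
noncomputable def IsLevelMap.formPull {N' : ℕ} [NeZero N'] {H' : Subgroup (ZMod N')ˣ} {n : ℕ}
    {g : GL (Fin 2) ℚ} (h : IsLevelMap H H' n g) :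
    CuspForm (GammaH N H) 2 →ₗ[ℂ] CuspForm (GammaH N' H') 2 :=
  formMap h.reps

/-- The pullback of a form is its slash by the matrix. -/
theorem IsLevelMap.coe_formPull {N' : ℕ} [NeZero N'] {H' : Subgroup (ZMod N')ˣ} {n : ℕ}
    {g : GL (Fin 2) ℚ} (h : IsLevelMap H H' n g) (f : CuspForm (GammaH N H) 2) :
    ⇑(h.formPull f) = ⇑f ∣[(2 : ℤ)] toReal g := by
  rw [IsLevelMap.formPull, coe_formMap, Fintype.sum_unique]
  rfl

/-- Pullbacks commute with the Hecke operators prime to the determinant. -/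
theorem IsLevelMap.formPull_formHecke {N' : ℕ} [NeZero N'] {H' : Subgroup (ZMod N')ˣ} {n : ℕ}
    {g : GL (Fin 2) ℚ} (h : IsLevelMap H H' n g) {ℓ : ℕ} [Fact ℓ.Prime] (hn : ¬ ℓ ∣ n)
    (hdiv : ℓ ∣ N' ↔ ℓ ∣ N) (f : CuspForm (GammaH N H) 2) :
    formHecke N' H' ℓ (h.formPull f) = h.formPull (formHecke N H ℓ f) := by
  have h1 := formMap_comp h.reps (hecke N' H' ℓ).toReps
    (fun i k d hd e => h.reps_hecke_uniq hn i k d hd e) f
  have h2 := formMap_comp (hecke N H ℓ).toReps h.reps
    (fun i k d hd e => h.hecke_reps_uniq i k d hd e) f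
  refine (h1.symm.trans ?_).trans h2
  exact formMap_congr _ _ (fun i => h.exists_hecke_reps hn i)
    (by simp [Fintype.card_prod, IsLevelMap.card_heckeIdx hdiv]) f

/-- Matrices differing by the level pull back alike. -/
theorem IsLevelMap.formPull_congr {N' : ℕ} [NeZero N'] {H' : Subgroup (ZMod N')ˣ} {n n' : ℕ}
    {g g' : GL (Fin 2) ℚ} {d : SL(2, ℤ)} (h : IsLevelMap H H' n g) (h' : IsLevelMap H H' n' g')
    (hd : d ∈ GammaH N H) (e : g = gq d * g') (f : CuspForm (GammaH N H) 2) :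
    h.formPull f = h'.formPull f :=
  formMap_congr h.reps h'.reps (fun _ => ⟨(), d, hd, e⟩) le_rfl f

/-- The Hecke operators on cusp forms commute. -/
theorem formHecke_comm {ℓ ℓ' : ℕ} [Fact ℓ.Prime] [Fact ℓ'.Prime] (f : CuspForm (GammaH N H) 2) :
    formHecke N H ℓ (formHecke N H ℓ' f) = formHecke N H ℓ' (formHecke N H ℓ f) := by
  obtain rfl | hne := eq_or_ne ℓ ℓ'
  · congr 1
  · have h1 := formMap_comp (hecke N H ℓ).toReps (hecke N H ℓ').toReps (stdGL_mul_uniq hne) f
    have h2 := formMap_comp (hecke N H ℓ').toReps (hecke N H ℓ).toReps (stdGL_mul_uniq hne.symm) f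
    change formMap (hecke N H ℓ).toReps (formMap (hecke N H ℓ').toReps f) = _
    rw [← h2]
    change _ = formMap (hecke N H ℓ').toReps (formMap (hecke N H ℓ).toReps f)
    rw [← h1]
    exact formMap_congr _ _ (exists_heckeComp_swap hne.symm)
      (by simp [Fintype.card_prod, mul_comm]) f

/-- The diamond operator of `u` on cusp forms: `f ↦ f ∣ g` for `g ∈ Γ₀(N)` with upper left entry
`u`. -/
noncomputable def formDia (N : ℕ) [NeZero N] (H : Subgroup (ZMod N)ˣ) (u : (ZMod N)ˣ) :
    Module.End ℂ (CuspForm (GammaH N H) 2) :=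
  (isLevelMap_gamma0 (le_refl H) (exists_gamma0_lift u).choose_spec.1).formPull

/-- Pullback by an element of `Γ₀(N)` is the diamond operator of its entry. -/
theorem formPull_gamma0 {g : SL(2, ℤ)} (hg : g ∈ Gamma0 N) (u : (ZMod N)ˣ)
    (e : ((g 0 0 : ℤ) : ZMod N) = (u : ZMod N)) (f : CuspForm (GammaH N H) 2) :
    (isLevelMap_gamma0 (le_refl H) hg).formPull f = formDia N H u f :=
  IsLevelMap.formPull_congr _ _ (gamma0_mul_inv_mem hg (exists_gamma0_lift u).choose_spec.1
    (e.trans (exists_gamma0_lift u).choose_spec.2.symm))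
    (by rw [← map_mul, inv_mul_cancel_right]) f

omit [NeZero N] in
/-- The upper left entry is multiplicative modulo `N`. -/
theorem upper_mul (b : SL(2, ℤ)) {a : SL(2, ℤ)} (ha : a ∈ Gamma0 N) :
    (((b * a : SL(2, ℤ)) 0 0 : ℤ) : ZMod N) = ((b 0 0 : ℤ) : ZMod N) * ((a 0 0 : ℤ) : ZMod N) := by
  simp [Matrix.mul_apply, Fin.sum_univ_two, Gamma0_mem.mp ha]

/-- Diamond operators are multiplicative. -/
theorem formDia_mul (u v : (ZMod N)ˣ) (f : CuspForm (GammaH N H) 2) :
    formDia N H u (formDia N H v f) = formDia N H (u * v) f := by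
  obtain ⟨a1, a2⟩ := (exists_gamma0_lift u).choose_spec
  obtain ⟨b1, b2⟩ := (exists_gamma0_lift v).choose_spec
  rw [← formPull_gamma0 (mul_mem b1 a1) (u * v) ((upper_mul _ a1).trans
    (by rw [a2, b2, Units.val_mul, mul_comm]))]
  refine DFunLike.coe_injective ?_
  rw [formDia, formDia, IsLevelMap.coe_formPull, IsLevelMap.coe_formPull,
    IsLevelMap.coe_formPull, map_mul, map_mul, SlashAction.slash_mul]

/-- Diamond and Hecke operators commute. -/
theorem formDia_formHecke (u : (ZMod N)ˣ) {ℓ : ℕ} [hℓ : Fact ℓ.Prime]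
    (f : CuspForm (GammaH N H) 2) :
    formDia N H u (formHecke N H ℓ f) = formHecke N H ℓ (formDia N H u f) :=
  (IsLevelMap.formPull_formHecke _ hℓ.out.not_dvd_one Iff.rfl f).symm

/-- The operators of the level: Hecke operators at all primes and diamond operators. -/
noncomputable def formOp (N : ℕ) [NeZero N] (H : Subgroup (ZMod N)ˣ) :
    Nat.Primes ⊕ (ZMod N)ˣ → Module.End ℂ (CuspForm (GammaH N H) 2)
  | .inl l => haveI : Fact (l : ℕ).Prime := ⟨l.2⟩; formHecke N H l
  | .inr u => formDia N H u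

/-- All operators of the level commute. -/
theorem formOp_comm (a b : Nat.Primes ⊕ (ZMod N)ˣ) :
    formOp N H a * formOp N H b = formOp N H b * formOp N H a := by
  rcases a with l | u <;> rcases b with l' | v <;> refine LinearMap.ext fun f => ?_ <;>
    simp only [formOp, Module.End.mul_apply]
  · have : Fact (l : ℕ).Prime := ⟨l.2⟩
    have : Fact (l' : ℕ).Prime := ⟨l'.2⟩
    exact formHecke_comm f
  · have : Fact (l : ℕ).Prime := ⟨l.2⟩
    exact (formDia_formHecke v f).symm
  · have : Fact (l' : ℕ).Prime := ⟨l'.2⟩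
    exact formDia_formHecke u f
  · rw [formDia_mul, formDia_mul, mul_comm]

/-- The Hecke algebra with integral coefficients acting on cusp forms of `Γ_H(N)`. -/
noncomputable def formAct (N : ℕ) [NeZero N] (H : Subgroup (ZMod N)ˣ) :
    MvPolynomial (Nat.Primes ⊕ (ZMod N)ˣ) ℤ →ₐ[ℤ] Module.End ℂ (CuspForm (GammaH N H) 2) :=
  commAeval (formOp N H) formOp_comm

/-- A variable acts by its operator. -/
theorem formAct_X (i : Nat.Primes ⊕ (ZMod N)ˣ) :
    formAct N H (MvPolynomial.X i) = formOp N H i :=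
  commAeval_X _ _ i

end Fermat.HM
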