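import Fermat.Agent.HM.Sublevel

/-!
# Levels without elements of order three

If the level is divisible by a prime congruent to `2` modulo `3`, or by `9`, no conjugate of the
element `S T` lies in it, so three need not be invertible in the coefficients.
-/

namespace Fermat.HM

open scoped MatrixGroups
open CongruenceSubgroup Fermat.MC.Lvl

/-- No square root of the discriminant `-3`. -/
theorem sq_sub_add_one_ne_zero {l : ℕ} [Fact l.Prime] (hl : l % 3 = 2) (x : ZMod l) :
    x ^ 2 - x + 1 ≠ 0 := by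
  intro h
  have hx : x ≠ 0 := by rintro rfl; simp at h
  have h3 : (-x) ^ 3 = 1 := by linear_combination -(x + 1) * h
  have hu : (-x) ^ (l - 1) = 1 := ZMod.pow_card_sub_one_eq_one (neg_ne_zero.mpr hx)
  have h1 : -x = 1 := by
    have hg := pow_gcd_eq_one.mpr ⟨h3, hu⟩
    have hc : Nat.gcd 3 (l - 1) = 1 := by
      refine (Nat.prime_three.coprime_iff_not_dvd.mpr fun hd => ?_)
      omega
    rwa [hc, pow_one] at hg
  have h0 : (3 : ZMod l) = 0 := by linear_combination h + (x - 2) * h1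
  have hd : l ∣ 3 := (ZMod.natCast_eq_zero_iff 3 l).mp (by exact_mod_cast h0)
  have := (Nat.prime_dvd_prime_iff_eq Fact.out Nat.prime_three).mp hd
  omega

/-- The conjugates of the rotation of order three of `PSL(2, ℤ)` have trace one. -/
theorem trace_conj_rot (g : SL(2, ℤ)) :
    ((g⁻¹ * rot * g : SL(2, ℤ)) 0 0 : ℤ) + (g⁻¹ * rot * g : SL(2, ℤ)) 1 1 = 1 := by
  have h : ((g⁻¹ * rot * g : SL(2, ℤ)) : Matrix (Fin 2) (Fin 2) ℤ).trace = 1 := by
    rw [Matrix.SpecialLinearGroup.coe_mul, Matrix.SpecialLinearGroup.coe_mul,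
      Matrix.trace_mul_cycle, ← Matrix.SpecialLinearGroup.coe_mul, mul_inv_cancel,
      Matrix.SpecialLinearGroup.coe_one,
      Matrix.one_mul]
    decide
  rwa [Matrix.trace_fin_two] at h

/-- An element of `Γ₀(N)` of trace one gives a root of `X ^ 2 - X + 1`. -/
theorem exists_root_of_trace_one {N : ℕ} {A : SL(2, ℤ)} (hA : A ∈ Gamma0 N)
    (h : (A 0 0 : ℤ) + A 1 1 = 1) : ∃ x : ZMod N, x ^ 2 - x + 1 = 0 := by
  refine ⟨(A 0 0 : ℤ), ?_⟩
  have hd := congrArg (fun z : ℤ => (z : ZMod N)) (Matrix.SpecialLinearGroup.det_coe A)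
  have ht := congrArg (fun z : ℤ => (z : ZMod N)) h
  simp only [Matrix.det_fin_two, Int.cast_sub, Int.cast_mul, Int.cast_one, Gamma0_mem.mp hA,
    mul_zero, sub_zero, Int.cast_add] at hd ht
  linear_combination ((A 0 0 : ℤ) : ZMod N) * ht - hd

/-- The level has no element of order three. -/
def IsNeat (N : ℕ) : Prop :=
  (∃ l : ℕ, l.Prime ∧ l % 3 = 2 ∧ l ∣ N) ∨ 9 ∣ N

/-- At a neat level `X ^ 2 - X + 1` has no root. -/
theorem IsNeat.not_root {N : ℕ} (h : IsNeat N) (x : ZMod N) : x ^ 2 - x + 1 ≠ 0 := by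
  intro hx
  rcases h with ⟨l, hl, hl3, hd⟩ | hd
  · have : Fact l.Prime := ⟨hl⟩
    refine sq_sub_add_one_ne_zero hl3 (ZMod.castHom hd (ZMod l) x) ?_
    rw [← map_pow, ← map_sub, ← map_one (ZMod.castHom hd (ZMod l)), ← map_add, hx, map_zero]
  · have h9 : ∀ y : ZMod 9, y ^ 2 - y + 1 ≠ 0 := by decide
    refine h9 (ZMod.castHom hd (ZMod 9) x) ?_
    rw [← map_pow, ← map_sub, ← map_one (ZMod.castHom hd (ZMod 9)), ← map_add, hx, map_zero]

/-- **A neat level is good as soon as two is invertible.** -/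
theorem GoodLevel.of_neat {R : Type*} [CommRing R] {N : ℕ} [NeZero N] {H : Subgroup (ZMod N)ˣ}
    (h2 : IsUnit (2 : R)) (hneg : -1 ∈ H) (hN : IsNeat N) : GoodLevel R (GammaH N H) where
  neg_mem := neg_one_mem_GammaH hneg
  finite := Subgroup.finite_quotient_of_finiteIndex
  two := h2
  three := Or.inr fun y hy => by
    induction y using QuotientGroup.induction_on with
    | H g =>
      have h1 : g⁻¹ * rot * g ∈ GammaH N H := by
        have := (QuotientGroup.eq).mp hy.symm
        rwa [show g⁻¹ * rot * g = g⁻¹ * (rot * g) by group]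
      obtain ⟨x, hx⟩ := exists_root_of_trace_one (GammaH_le_Gamma0 h1) (trace_conj_rot g)
      exact hN.not_root x hx

end Fermat.HM
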