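import Fermat.Agent.HM.Corr
import Mathlib.LinearAlgebra.Matrix.GeneralLinearGroup.Basic

/-!
# Comparing and composing systems of representatives; transposes through an anti-involution

Composition is `comp`, and `homMap_comp`, `symbMap_comp` compute the composite operators.
-/

namespace Fermat.HM

open scoped MatrixGroups

namespace Reps

variable {Γ Γ' Γ'' : Subgroup SL(2, ℤ)} {ι ι' : Type} [Fintype ι] [Fintype ι']
variable {R : Type*} [CommRing R]

/-- Two families with the same cosets, compared through a matching. -/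
theorem exists_matching (P : Reps Γ Γ' ι) (Q : Reps Γ Γ' ι')
    (h : ∀ i, ∃ k, ∃ d ∈ Γ, P.B i = gq d * Q.B k) (hcard : Fintype.card ι' ≤ Fintype.card ι) :
    ∃ (e : ι ≃ ι') (c : ι → Γ), ∀ i, P.B i = gq (c i : SL(2, ℤ)) * Q.B (e i) := by
  choose f d hd hdeq using h
  have hinj : Function.Injective f := fun a b hab => by
    refine P.uniqB a b (d b * (d a)⁻¹) (mul_mem (hd b) (inv_mem (hd a))) ?_
    rw [hdeq a, ← mul_assoc, ← map_mul, inv_mul_cancel_right, hab, ← hdeq b]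
  have hbij : Function.Bijective f := (Fintype.bijective_iff_injective_and_card f).mpr
    ⟨hinj, le_antisymm (Fintype.card_le_of_injective f hinj) hcard⟩
  exact ⟨Equiv.ofBijective f hbij, fun i => ⟨d i, hd i⟩, hdeq⟩

/-- Matched families have conjugate permutations and elements. -/
theorem elt_of_matching {P : Reps Γ Γ' ι} {Q : Reps Γ Γ' ι'} {e : ι ≃ ι'} {c : ι → Γ}
    (hc : ∀ i, P.B i = gq (c i : SL(2, ℤ)) * Q.B (e i)) (γ : Γ') (i : ι) :
    Q.perm γ (e i) = e (P.perm γ i) ∧ Q.elt γ (e i) = (c i)⁻¹ * P.elt γ i * c (P.perm γ i) := by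
  have h := Q.eq_of_decomp (γ := γ) (i := e i) (k := e (P.perm γ i))
    (d := (c i)⁻¹ * P.elt γ i * c (P.perm γ i)) ?_
  · exact ⟨h.1.symm, h.2.symm⟩
  · have hm := P.mul_gq γ i
    rw [hc i, hc (P.perm γ i)] at hm
    simp only [Subgroup.coe_mul, Subgroup.coe_inv, map_mul, map_inv, mul_assoc] at hm ⊢
    rw [← hm, inv_mul_cancel_left]

/-- The operator only depends on the cosets. -/
theorem homMap_congr (P : Reps Γ Γ' ι) (Q : Reps Γ Γ' ι')
    (h : ∀ i, ∃ k, ∃ d ∈ Γ, P.B i = gq d * Q.B k) (hcard : Fintype.card ι' ≤ Fintype.card ι)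
    (φ : Homs R Γ) : P.homMap φ = Q.homMap φ := by
  obtain ⟨e, c, hc⟩ := exists_matching P Q h hcard
  refine AddMonoidHom.ext fun γ => ?_
  obtain ⟨γ, rfl⟩ := Additive.ofMul.surjective γ
  rw [homMap_apply, homMap_apply, ← Equiv.sum_comp e fun i => φ (Additive.ofMul (Q.elt γ i))]
  simp only [(elt_of_matching hc γ _).2, ofMul_mul, ofMul_inv, map_add, map_neg,
    Finset.sum_add_distrib, Finset.sum_neg_distrib]
  rw [Fintype.sum_bijective _ (P.perm_bijective γ) (fun i => φ (Additive.ofMul (c (P.perm γ i))))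
    (fun i => φ (Additive.ofMul (c i))) fun _ => rfl]
  abel

/-- The operator on symbols only depends on the cosets. -/
theorem symbMap_congr (P : Reps Γ Γ' ι) (Q : Reps Γ Γ' ι')
    (h : ∀ i, ∃ k, ∃ d ∈ Γ, P.B i = gq d * Q.B k) (hcard : Fintype.card ι' ≤ Fintype.card ι)
    (S : symbols R Γ) : P.symbMap S = Q.symbMap S := by
  obtain ⟨e, c, hc⟩ := exists_matching P Q h hcard
  refine Subtype.ext (funext fun a => funext fun b => ?_)
  rw [symbMap_apply, symbMap_apply, ← Equiv.sum_comp e fun i => S.1 (Q.B i • a) (Q.B i • b)]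
  refine Finset.sum_congr rfl fun i _ => ?_
  rw [hc i, mul_smul, mul_smul]
  exact S.2.2 _ (c i).2 _ _

/-- Composition, when the products represent distinct cosets. -/
def comp (P : Reps Γ Γ' ι) (Q : Reps Γ' Γ'' ι')
    (huniq : ∀ i k : ι × ι', ∀ d ∈ Γ, gq d * (P.B i.1 * Q.B i.2) = P.B k.1 * Q.B k.2 → i = k) :
    Reps Γ Γ'' (ι × ι') where
  B i := P.B i.1 * Q.B i.2
  det_B i := by rw [Units.val_mul, Matrix.det_mul]; exact mul_pos (P.det_B _) (Q.det_B _)
  rperm γ hγ i := by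
    obtain ⟨k, d, hd, h⟩ := Q.rperm γ hγ i.2
    obtain ⟨j, c, hc, h'⟩ := P.rperm d hd i.1
    exact ⟨(j, k), c, hc, by rw [mul_assoc, h, ← mul_assoc, h', mul_assoc]⟩
  uniqB := huniq

/-- The operator of a composite is the composite operator. -/
theorem homMap_comp (P : Reps Γ Γ' ι) (Q : Reps Γ' Γ'' ι')
    (huniq : ∀ i k : ι × ι', ∀ d ∈ Γ, gq d * (P.B i.1 * Q.B i.2) = P.B k.1 * Q.B k.2 → i = k)
    (φ : Homs R Γ) : (P.comp Q huniq).homMap φ = Q.homMap (P.homMap φ) := by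
  refine AddMonoidHom.ext fun γ => ?_
  obtain ⟨γ, rfl⟩ := Additive.ofMul.surjective γ
  simp only [homMap_apply]
  rw [Fintype.sum_prod_type_right]
  refine Finset.sum_congr rfl fun a _ => Finset.sum_congr rfl fun i _ => ?_
  congr 2
  refine ((P.comp Q huniq).eq_of_decomp (γ := γ) (i := (i, a))
    (k := (P.perm (Q.elt γ a) i, Q.perm γ a)) ?_).2.symm
  change P.B i * Q.B a * gq _ = gq _ * (P.B _ * Q.B _)
  rw [mul_assoc, Q.mul_gq, ← mul_assoc, P.mul_gq, mul_assoc]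

/-- The symbol operator of a composite is the composite of the symbol operators. -/
theorem symbMap_comp (P : Reps Γ Γ' ι) (Q : Reps Γ' Γ'' ι')
    (huniq : ∀ i k : ι × ι', ∀ d ∈ Γ, gq d * (P.B i.1 * Q.B i.2) = P.B k.1 * Q.B k.2 → i = k)
    (S : symbols R Γ) : (P.comp Q huniq).symbMap S = Q.symbMap (P.symbMap S) := by
  refine Subtype.ext (funext fun a => funext fun b => ?_)
  simp only [symbMap_apply]
  rw [Fintype.sum_prod_type_right]
  refine Finset.sum_congr rfl fun j _ => Finset.sum_congr rfl fun i _ => ?_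
  change S.1 ((P.B i * Q.B j) • a) ((P.B i * Q.B j) • b) = _
  rw [mul_smul, mul_smul]

/-- A single matrix carrying `Γ'` into `Γ`. -/
def single (g : GL (Fin 2) ℚ) (hg : 0 < (g : Matrix (Fin 2) (Fin 2) ℚ).det)
    (h : ∀ γ ∈ Γ', ∃ d ∈ Γ, g * gq γ = gq d * g) : Reps Γ Γ' Unit where
  B _ := g
  det_B _ := hg
  rperm γ hγ _ := ⟨(), h γ hγ⟩
  uniqB _ _ _ _ _ := rfl

/-- `B` represents the cosets `Γ M` of the elements `M` of the set `Sg`, each coset once. -/
structure IsLeftReps (Γ : Subgroup SL(2, ℤ)) (Sg : Set (GL (Fin 2) ℚ)) (B : ι → GL (Fin 2) ℚ) :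
    Prop where
  /-- The representatives lie in the set. -/
  mem : ∀ i, B i ∈ Sg
  /-- Every element of the set is in the coset of a representative. -/
  exists_eq : ∀ M ∈ Sg, ∃ i, ∃ d ∈ Γ, M = gq d * B i
  /-- Distinct representatives give distinct cosets. -/
  uniq : ∀ i k, ∀ d ∈ Γ, gq d * B i = B k → i = k

end Reps

/-- An anti-automorphism of order at most two preserving the level. -/
structure LevelAnti (Γ : Subgroup SL(2, ℤ)) (θ : GL (Fin 2) ℚ → GL (Fin 2) ℚ) : Prop where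
  /-- `θ` reverses products. -/
  map_mul : ∀ M M', θ (M * M') = θ M' * θ M
  /-- `θ` is an involution. -/
  invol : ∀ M, θ (θ M) = M
  /-- `θ` maps the level into itself. -/
  level : ∀ d ∈ Γ, ∃ d' ∈ Γ, θ (gq d) = gq d'

/-- The correspondence of a two-sided stable set, its transposes obtained through `θ`. -/
noncomputable def Corr.ofAnti {Γ : Subgroup SL(2, ℤ)} {ι : Type} [Fintype ι]
    {Sg : Set (GL (Fin 2) ℚ)} {B : ι → GL (Fin 2) ℚ} {θ : GL (Fin 2) ℚ → GL (Fin 2) ℚ}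
    (hθ : LevelAnti Γ θ) (hθS : ∀ M ∈ Sg, θ M ∈ Sg)
    (hdet : ∀ i, 0 < (B i : Matrix (Fin 2) (Fin 2) ℚ).det)
    (hR : ∀ M ∈ Sg, ∀ d ∈ Γ, M * gq d ∈ Sg) (hB : Reps.IsLeftReps Γ Sg B) :
    Corr Γ Γ ι ι where
  B := B
  det_B := hdet
  rperm γ hγ i := hB.exists_eq _ (hR _ (hB.mem i) γ hγ)
  uniqB := hB.uniq
  C j := (θ (B j))⁻¹
  cover i d hd := by
    obtain ⟨d', hd', hd'e⟩ := hθ.level d⁻¹ (inv_mem hd)
    obtain ⟨k, c', hc', h'⟩ := hB.exists_eq _ (hR _ (hθS _ (hB.mem i)) d' hd')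
    obtain ⟨c'', hc'', hc''e⟩ := hθ.level c' hc'
    refine ⟨k, c''⁻¹, inv_mem hc'', ?_⟩
    rw [map_inv, ← mul_inv_rev, inv_mul_eq_iff_eq_mul]
    have e : gq d⁻¹ * B i = θ (B k) * gq c'' := by
      rw [← hc''e, ← hθ.map_mul, ← h', ← hd'e, hθ.map_mul, hθ.invol, hθ.invol]
    rw [map_inv, inv_mul_eq_iff_eq_mul] at e
    rw [e]
    group
  cover' j γ hγ := by
    obtain ⟨i, c, hc, h⟩ := hB.exists_eq _ (hR _ (hθS _ (hB.mem j)) γ⁻¹ (inv_mem hγ))
    refine ⟨i, c⁻¹, inv_mem hc, ?_⟩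
    have e : (gq γ * (θ (B j))⁻¹) = (gq c * B i)⁻¹ := by
      rw [← h, map_inv, mul_inv_rev, inv_inv]
    rw [e, map_inv, mul_inv_rev]
  uniqC j k γ hγ h := by
    obtain ⟨γ', hγ', hγ'e⟩ := hθ.level γ⁻¹ (inv_mem hγ)
    refine hB.uniq j k γ' hγ' ?_
    have e : θ (B j) * gq γ⁻¹ = θ (B k) := by
      rw [map_inv]
      have := congrArg (·⁻¹) h
      simpa [mul_inv_rev] using this
    rw [← hθ.invol (B k), ← e, hθ.map_mul, hθ.invol, hγ'e]

end Fermat.HM
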