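import Mathlib
import Fermat.Prelude.Thm_Algebra_finite_maximalSpectrum_and_bijective_localization_of_module_finite

/-!
# The part of a finite module belonging to a maximal ideal of the operators

`locPart m ρ` is the part on which all operators outside `m` are invertible and `killPart m ρ` the
part killed by one of them.  Over a complete noetherian local ring they are complementary.
-/

namespace Fermat.HM

open LinearMap

variable {O : Type} [CommRing O] {H : Type} [CommRing H] [Algebra O H] (m : Ideal H)
  {M : Type} [AddCommGroup M] [Module O M] (ρ : H →ₐ[O] Module.End O M)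

/-- The elements divisible by all operators outside `m`. -/
def locPart : Submodule O M := ⨅ (s : H) (_ : s ∉ m), range (ρ s)

/-- The elements killed by an operator outside `m`. -/
def killPart : Submodule O M := ⨆ (s : H) (_ : s ∉ m), ker (ρ s)

/-- An operator outside `m`, idempotent on `M` and there a multiple of every operator outside `m`:
its image and its kernel are the two parts. -/
def IsProjector (s : H) : Prop :=
  s ∉ m ∧ IsIdempotentElem (ρ s) ∧ ∀ t, t ∉ m → ∃ u, ρ s = ρ (t * u)

variable {m ρ}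

/-- A projector is idempotent. -/
theorem IsProjector.apply_apply {s : H} (hs : IsProjector m ρ s) (x : M) : ρ s (ρ s x) = ρ s x :=
  LinearMap.congr_fun hs.2.1 x

/-- The `m`-part is the image of a projector. -/
theorem IsProjector.locPart_eq {s : H} (hs : IsProjector m ρ s) : locPart m ρ = range (ρ s) := by
  refine le_antisymm (iInf₂_le s hs.1) (le_iInf₂ fun t ht => ?_)
  obtain ⟨u, hu⟩ := hs.2.2 t ht
  rintro x ⟨y, rfl⟩
  exact ⟨ρ u y, by rw [hu, map_mul, Module.End.mul_apply]⟩

/-- The killed part is the kernel of a projector. -/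
theorem IsProjector.killPart_eq {s : H} (hs : IsProjector m ρ s) : killPart m ρ = ker (ρ s) := by
  refine le_antisymm (iSup₂_le fun t ht => ?_)
    (le_iSup₂ (f := fun t (_ : t ∉ m) => ker (ρ t)) s hs.1)
  obtain ⟨u, hu⟩ := hs.2.2 t ht
  intro x hx
  rw [mem_ker] at hx ⊢
  rw [hu, mul_comm, map_mul, Module.End.mul_apply, hx, map_zero]

variable (m ρ)

section Complete

variable [IsLocalRing O] [IsNoetherianRing O] [IsAdicComplete (IsLocalRing.maximalIdeal O) O]
  [Module.Finite O M] [hm : m.IsMaximal]

/-- A projector onto the local part exists. -/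
theorem exists_projector : ∃ s, IsProjector m ρ s := by
  classical
  set K := RingHom.ker ρ
  -- outside `m` some element acts by zero
  by_cases hK : K ≤ m
  swap
  · obtain ⟨t, ht, htm⟩ := SetLike.not_le_iff_exists.mp hK
    refine ⟨t, htm, ?_, fun u _ => ⟨0, ?_⟩⟩
    · rw [(RingHom.mem_ker).mp ht]; exact mul_zero _
    · rw [(RingHom.mem_ker).mp ht, mul_zero, map_zero]
  have : Module.Finite O (H ⧸ K) :=
    Module.Finite.of_injective (Ideal.kerLiftAlg ρ).toLinearMap (Ideal.kerLiftAlg_injective ρ)
  -- otherwise the finite image is the product of its localisations: lift the idempotent at `m`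
  obtain ⟨-, hbij, -, -⟩ :=
    Algebra.finite_maximalSpectrum_and_bijective_localization_of_module_finite (𝒪 := O) (H ⧸ K)
  set mk := Ideal.Quotient.mk K
  set mA := m.map mk
  have hcomap : mA.comap mk = m := by
    rw [Ideal.comap_map_of_surjective _ Ideal.Quotient.mk_surjective, ← RingHom.ker_eq_comap_bot,
      Ideal.mk_ker, sup_eq_left.mpr hK]
  have hmem : ∀ x, mk x ∈ mA ↔ x ∈ m := fun x => by rw [← Ideal.mem_comap, hcomap]
  have hmax : mA.IsMaximal := (Ideal.map_eq_top_or_isMaximal_of_surjective mk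
    Ideal.Quotient.mk_surjective hm).resolve_left fun h => hm.ne_top <| by
      rw [← hcomap, show mA = ⊤ from h, Ideal.comap_top]
  set I : MaximalSpectrum (H ⧸ K) := ⟨mA, hmax⟩ with hI
  obtain ⟨e, he⟩ := hbij.2 (Pi.single I 1)
  obtain ⟨s, rfl⟩ := Ideal.Quotient.mk_surjective e
  have hker : ∀ x y, mk x = mk y → ρ x = ρ y := fun x y h => by
    rw [Ideal.Quotient.eq, RingHom.mem_ker, map_sub, sub_eq_zero] at h
    exact h
  refine ⟨s, fun hs => ?_, ?_, fun t ht => ?_⟩
  · have h1 : algebraMap (H ⧸ K) (Localization.AtPrime I.asIdeal) (mk s) = 1 := by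
      have := congrFun he I
      rwa [Pi.single_eq_same] at this
    have h2 := (IsLocalization.AtPrime.to_map_mem_maximal_iff (Localization.AtPrime I.asIdeal)
      I.asIdeal (mk s)).mpr ((hmem s).mpr hs)
    rw [h1] at h2
    exact (Ideal.ne_top_iff_one _).mp (IsLocalRing.maximalIdeal.isMaximal _).ne_top h2
  · change ρ s * ρ s = ρ s
    rw [← map_mul]
    refine hker _ _ (hbij.1 ?_)
    rw [map_mul, map_mul, he, ← Pi.single_mul, one_mul]
  · have hu : IsUnit (algebraMap (H ⧸ K) (Localization.AtPrime I.asIdeal) (mk t)) :=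
      IsLocalization.map_units _ (⟨mk t, fun h => ht ((hmem t).mp h)⟩ : I.asIdeal.primeCompl)
    obtain ⟨a, ha⟩ := hbij.2 (Pi.single I ↑hu.unit⁻¹)
    obtain ⟨u, rfl⟩ := Ideal.Quotient.mk_surjective a
    refine ⟨u, hker _ _ (hbij.1 ?_)⟩
    rw [map_mul, map_mul, he, ha]
    funext J
    change (Pi.single I 1 : ∀ J : MaximalSpectrum (H ⧸ K), Localization.AtPrime J.asIdeal) J
      = algebraMap _ _ (mk t)
        * (Pi.single I (↑hu.unit⁻¹ : Localization.AtPrime I.asIdeal) :
            ∀ J : MaximalSpectrum (H ⧸ K), Localization.AtPrime J.asIdeal) J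
    rcases eq_or_ne J I with rfl | hJ
    · rw [Pi.single_eq_same, Pi.single_eq_same, IsUnit.mul_val_inv]
    · rw [Pi.single_eq_of_ne hJ, Pi.single_eq_of_ne hJ, mul_zero]

/-- The two parts are complementary. -/
theorem isCompl_locPart : IsCompl (locPart m ρ) (killPart m ρ) := by
  obtain ⟨s, hs⟩ := exists_projector m ρ
  rw [hs.locPart_eq, hs.killPart_eq]
  exact LinearMap.IsIdempotentElem.isCompl hs.2.1

variable {m ρ}

/-- The `m`-part is stable under the operators. -/
theorem map_mem_locPart (h : H) {x : M} (hx : x ∈ locPart m ρ) : ρ h x ∈ locPart m ρ := by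
  obtain ⟨s, hs⟩ := exists_projector m ρ
  rw [hs.locPart_eq] at hx ⊢
  obtain ⟨y, rfl⟩ := hx
  exact ⟨ρ h y, by rw [← Module.End.mul_apply, ← map_mul, mul_comm, map_mul, Module.End.mul_apply]⟩

/-- An operator outside `m` is injective on the `m`-part. -/
theorem eq_zero_of_killed {s : H} (hs : s ∉ m) {x : M} (hx : x ∈ locPart m ρ) (h : ρ s x = 0) :
    x = 0 :=
  Submodule.disjoint_def.mp (isCompl_locPart m ρ).disjoint x hx
    (Submodule.mem_iSup_of_mem s (Submodule.mem_iSup_of_mem hs (mem_ker.mpr h)))

/-- The projection to the `m`-part. -/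
noncomputable def toLoc (m : Ideal H) [m.IsMaximal] (ρ : H →ₐ[O] Module.End O M) :
    M →ₗ[O] locPart m ρ :=
  (ρ (exists_projector m ρ).choose).codRestrict _ fun x => by
    rw [(exists_projector m ρ).choose_spec.locPart_eq]
    exact ⟨x, rfl⟩

/-- `toLoc` is the chosen projector. -/
theorem coe_toLoc (x : M) : (toLoc m ρ x : M) = ρ (exists_projector m ρ).choose x := rfl

/-- `toLoc` is the identity on the `m`-part. -/
theorem toLoc_coe (x : locPart m ρ) : toLoc m ρ (x : M) = x := by
  refine Subtype.ext ?_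
  obtain ⟨y, hy⟩ : (x : M) ∈ range (ρ (exists_projector m ρ).choose) := by
    rw [← (exists_projector m ρ).choose_spec.locPart_eq]; exact x.2
  rw [coe_toLoc, ← hy, (exists_projector m ρ).choose_spec.apply_apply]

/-- An element of the `m`-part divisible by the maximal ideal after applying an operator outside
`m` is divisible inside the `m`-part. -/
theorem mem_smul_top_of_apply {s : H} (hs : s ∉ m) {I : Ideal O} (x : locPart m ρ)
    (h : ρ s x ∈ I • (⊤ : Submodule O M)) : x ∈ I • (⊤ : Submodule O (locPart m ρ)) := by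
  obtain ⟨u, hu⟩ := (exists_projector m ρ).choose_spec.2.2 s hs
  have h1 : toLoc m ρ (x : M) ∈ (I • (⊤ : Submodule O M)).map (toLoc m ρ ∘ₗ ρ u) := by
    refine ⟨ρ s x, h, Subtype.ext ?_⟩
    rw [LinearMap.comp_apply, coe_toLoc, coe_toLoc]
    rw [← Module.End.mul_apply (ρ u), ← map_mul, mul_comm u s, ← hu,
      (exists_projector m ρ).choose_spec.apply_apply]
  rw [Submodule.map_smul'', toLoc_coe] at h1
  exact Submodule.smul_mono le_rfl le_top h1

variable {N : Type} [AddCommGroup N] [Module O N] [Module.Finite O N] {σ : H →ₐ[O] Module.End O N}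
  {f : M →ₗ[O] N} (hf : ∀ h x, f (ρ h x) = σ h (f x))
include hf

omit [IsLocalRing O] [IsNoetherianRing O] [IsAdicComplete (IsLocalRing.maximalIdeal O) O]
  [Module.Finite O M] [Module.Finite O N] hm in
/-- An equivariant map carries `m`-part to `m`-part. -/
theorem apply_mem_locPart {x : M} (hx : x ∈ locPart m ρ) : f x ∈ locPart m σ := by
  simp only [locPart, Submodule.mem_iInf] at hx ⊢
  intro s hs
  obtain ⟨y, rfl⟩ := hx s hs
  exact ⟨f y, (hf s y).symm⟩

omit hf [Module.Finite O N] in
/-- A map whose kernel is killed outside `m` is injective on the `m`-parts. -/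
theorem eq_zero_of_apply_eq_zero (hker : ∀ x, f x = 0 → ∃ s, s ∉ m ∧ ρ s x = 0) {x : M}
    (hx : x ∈ locPart m ρ) (h : f x = 0) : x = 0 := by
  obtain ⟨s, hs, hsx⟩ := hker x h
  exact eq_zero_of_killed hs hx hsx

/-- A map whose cokernel is killed outside `m` is surjective on the `m`-parts. -/
theorem exists_apply_eq (hcoker : ∀ y, ∃ s, s ∉ m ∧ σ s y ∈ range f) {y : N}
    (hy : y ∈ locPart m σ) : ∃ x ∈ locPart m ρ, f x = y := by
  obtain ⟨a, ha⟩ := exists_projector m ρ
  obtain ⟨b, hb⟩ := exists_projector m σ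
  obtain ⟨t, ht, x, hx⟩ := hcoker y
  obtain ⟨u, hu⟩ := hb.2.2 (a * t) (fun h => (hm.isPrime.mem_or_mem h).elim ha.1 ht)
  rw [hb.locPart_eq] at hy
  obtain ⟨z, rfl⟩ := hy
  refine ⟨ρ a (ρ u x), by rw [ha.locPart_eq]; exact ⟨_, rfl⟩, ?_⟩
  rw [hf, hf, hx, ← Module.End.mul_apply, ← map_mul, ← Module.End.mul_apply, ← map_mul,
    show a * u * t = a * t * u by ring, ← hu, hb.apply_apply]

omit hf in
/-- The action on the `m`-part. -/
noncomputable def locAct (m : Ideal H) [m.IsMaximal] (ρ : H →ₐ[O] Module.End O M) :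
    H →ₐ[O] Module.End O (locPart m ρ) where
  toFun h := (ρ h).restrict fun _ hx => map_mem_locPart h hx
  map_one' := LinearMap.ext fun x => Subtype.ext (by simp)
  map_mul' a b := LinearMap.ext fun x => Subtype.ext (by simp)
  map_zero' := LinearMap.ext fun x => Subtype.ext (by simp)
  map_add' a b := LinearMap.ext fun x => Subtype.ext (by simp)
  commutes' c := LinearMap.ext fun x => Subtype.ext (by simp)

omit hf in
/-- `locAct` is the restricted action. -/
theorem coe_locAct (h : H) (x : locPart m ρ) : (locAct m ρ h x : M) = ρ h x := rfl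

/-- The map induced on the `m`-parts. -/
def locMap : locPart m ρ →ₗ[O] locPart m σ := f.restrict fun _ hx => apply_mem_locPart hf hx

/-- `locMap` is equivariant. -/
theorem locMap_locAct (h : H) (x : locPart m ρ) :
    locMap hf (locAct m ρ h x) = locAct m σ h (locMap hf x) := Subtype.ext (hf h x)

omit [Module.Finite O N] in
/-- `locMap` is injective if the kernel is killed outside `m`. -/
theorem locMap_injective (hker : ∀ x, f x = 0 → ∃ s, s ∉ m ∧ ρ s x = 0) :
    Function.Injective (locMap (m := m) hf) := by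
  rw [← LinearMap.ker_eq_bot, LinearMap.ker_eq_bot']
  exact fun x h => Subtype.ext (eq_zero_of_apply_eq_zero hker x.2 (congrArg Subtype.val h))

/-- `locMap` is surjective if the cokernel is killed outside `m`. -/
theorem locMap_surjective (hcoker : ∀ y, ∃ s, s ∉ m ∧ σ s y ∈ range f) :
    Function.Surjective (locMap (m := m) hf) := fun y => by
  obtain ⟨x, hx, e⟩ := exists_apply_eq hf hcoker y.2
  exact ⟨⟨x, hx⟩, Subtype.ext e⟩

/-- Surjectivity on the `m`-parts may be checked modulo the maximal ideal. -/
theorem locMap_surjective_of_mod (hcoker : ∀ y, ∃ s, s ∉ m ∧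
    σ s y ∈ range f ⊔ IsLocalRing.maximalIdeal O • (⊤ : Submodule O N)) :
    Function.Surjective (locMap (m := m) hf) := by
  obtain ⟨a, ha⟩ := exists_projector m ρ
  obtain ⟨b, hb⟩ := exists_projector m σ
  set I := IsLocalRing.maximalIdeal O
  set L := (locPart m ρ).map f
  -- the `m`-part is in the image plus `I` times itself, on applying the projectors
  have hle : locPart m σ ≤ L ⊔ I • locPart m σ := by
    intro y hy
    obtain ⟨t, ht, hty⟩ := hcoker y
    obtain ⟨v, ⟨x, rfl⟩, z, hz, hxz⟩ := Submodule.mem_sup.mp hty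
    obtain ⟨u, hu⟩ := hb.2.2 (a * t) (fun h => (hm.isPrime.mem_or_mem h).elim ha.1 ht)
    have hby : σ b y = y := by
      rw [hb.locPart_eq] at hy
      obtain ⟨w, rfl⟩ := hy
      exact hb.apply_apply w
    have hfx : σ b (f (ρ (a * u) x)) = f (ρ (a * u) x) := by
      have h1 : f (ρ (a * u) x) ∈ locPart m σ := apply_mem_locPart hf (by
        rw [ha.locPart_eq, map_mul, Module.End.mul_apply]; exact ⟨_, rfl⟩)
      rw [hb.locPart_eq] at h1
      obtain ⟨w, hw⟩ := h1
      rw [← hw, hb.apply_apply]
    have hy' : y = f (ρ (a * u) x) + σ b (σ (a * u) z) := by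
      rw [← hfx, hf, ← map_add, ← map_add, hxz, ← Module.End.mul_apply (σ (a * u)), ← map_mul,
        show a * u * t = a * t * u by ring, ← hu, hb.apply_apply, hby]
    rw [hy']
    refine Submodule.add_mem_sup (Submodule.mem_map_of_mem (by
      rw [ha.locPart_eq, map_mul, Module.End.mul_apply]; exact ⟨_, rfl⟩)) ?_
    have hmap : σ b (σ (a * u) z) ∈ (I • (⊤ : Submodule O N)).map (σ b ∘ₗ σ (a * u)) :=
      ⟨z, hz, rfl⟩
    rw [Submodule.map_smul''] at hmap
    refine Submodule.smul_mono le_rfl ?_ hmap
    rintro _ ⟨w, -, rfl⟩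
    rw [hb.locPart_eq]
    exact ⟨_, rfl⟩
  -- Nakayama
  have : IsNoetherian O N := isNoetherian_of_isNoetherianRing_of_finite O N
  have htop : locPart m σ ≤ L := Submodule.le_of_le_smul_of_le_jacobson_bot
    (IsNoetherian.noetherian _) (IsLocalRing.maximalIdeal_le_jacobson _) hle
  intro y
  obtain ⟨x, hx, e⟩ := htop y.2
  exact ⟨⟨x, hx⟩, Subtype.ext e⟩

omit hf

/-- The `m`-part is a finite module. -/
instance moduleFinite_locPart : Module.Finite O (locPart m ρ) := inferInstance

/-- Over a principal ideal domain the `m`-part of a free module is free. -/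
instance moduleFree_locPart [IsDomain O] [IsPrincipalIdealRing O] [Module.Free O M] :
    Module.Free O (locPart m ρ) := inferInstance

end Complete

end Fermat.HM
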