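import Fermat.Agent.HM.Eisenstein
import Fermat.Agent.HM.Localize
import Fermat.Agent.HM.Operators

/-!
# The Hecke action on homomorphisms and symbols; periods at a non-Eisenstein maximal ideal

`periodHom_locMap_bijective`: at a non-Eisenstein maximal ideal symbols and homomorphisms on the
level are the same module (kernel and cokernel of the periods are Eisenstein, `Eisenstein`). The
folder `HM` works with these localised modules in place of the homology of modular curves.
-/

namespace Fermat.HM

open scoped MatrixGroups
open MvPolynomial Fermat.MC.Lvl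

variable {O : Type} [CommRing O] {R : Type} [CommRing R] [Algebra O R] {σ : Type} (p : σ → ℕ)
  [hp : ∀ i, Fact (p i).Prime] {N : ℕ} [NeZero N] {H : Subgroup (ZMod N)ˣ}

/-- The Hecke action on homomorphisms. -/
noncomputable def heckeAct (O : Type) [CommRing O] (R : Type) [CommRing R] [Algebra O R] (N : ℕ)
    [NeZero N] (H : Subgroup (ZMod N)ˣ) {σ : Type} (p : σ → ℕ) [∀ i, Fact (p i).Prime] :
    MvPolynomial σ O →ₐ[O] Module.End O (Homs R (GammaH N H)) :=
  commAeval (fun i => (heckeT R N H (p i)).restrictScalars O)
    fun _ _ => LinearMap.ext fun φ => heckeT_comm φ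

/-- The Hecke action on symbols. -/
noncomputable def heckeActS (O : Type) [CommRing O] (R : Type) [CommRing R] [Algebra O R] (N : ℕ)
    [NeZero N] (H : Subgroup (ZMod N)ˣ) {σ : Type} (p : σ → ℕ) [∀ i, Fact (p i).Prime] :
    MvPolynomial σ O →ₐ[O] Module.End O (symbols R (GammaH N H)) :=
  commAeval (fun i => (heckeS R N H (p i)).restrictScalars O)
    fun _ _ => LinearMap.ext fun S => heckeS_comm S

/-- The variable of `p i` acts on homomorphisms as the Hecke operator `T (p i)`. -/
theorem heckeAct_X (i : σ) (φ : Homs R (GammaH N H)) :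
    heckeAct O R N H p (X i) φ = heckeT R N H (p i) φ := by
  rw [heckeAct, commAeval_X]
  rfl

/-- The variable of `p i` acts on symbols as the Hecke operator `T (p i)`. -/
theorem heckeActS_X (i : σ) (S : symbols R (GammaH N H)) :
    heckeActS O R N H p (X i) S = heckeS R N H (p i) S := by
  rw [heckeActS, commAeval_X]
  rfl

/-- The Eisenstein element `T ℓ - ℓ - 1`. -/
noncomputable def eisElt (O : Type) [CommRing O] {σ : Type} (p : σ → ℕ) (i : σ) :
    MvPolynomial σ O :=
  X i - C ((p i + 1 : ℕ) : O)

/-- The Eisenstein element acts on homomorphisms as `T (p i) - (p i + 1)`. -/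
theorem heckeAct_eisElt (i : σ) (φ : Homs R (GammaH N H)) :
    heckeAct O R N H p (eisElt O p i) φ = heckeT R N H (p i) φ - (p i + 1) • φ := by
  rw [eisElt, map_sub, LinearMap.sub_apply, heckeAct_X, map_natCast, map_natCast,
    Module.End.natCast_apply]

/-- The Eisenstein element acts on symbols as `T (p i) - (p i + 1)`. -/
theorem heckeActS_eisElt (i : σ) (S : symbols R (GammaH N H)) :
    heckeActS O R N H p (eisElt O p i) S = heckeS R N H (p i) S - (p i + 1) • S := by
  rw [eisElt, map_sub, LinearMap.sub_apply, heckeActS_X, map_natCast, map_natCast,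
    Module.End.natCast_apply]

/-- No congruence with Eisenstein systems. -/
def NonEisenstein (m : Ideal (MvPolynomial σ O)) : Prop :=
  ∀ M : ℕ, M ≠ 0 → ∃ i, (p i : ZMod M) = 1 ∧ eisElt O p i ∉ m

variable {p}

/-- The period map commutes with the Hecke action. -/
theorem periodHom_heckeActS (h : MvPolynomial σ O) (S : symbols R (GammaH N H)) :
    periodHom (heckeActS O R N H p h S) = heckeAct O R N H p h (periodHom S) :=
  intertwine_of_X ((periodHom (R := R) (Γ := GammaH N H)).restrictScalars O) (fun i x => by
    rw [LinearMap.restrictScalars_apply, LinearMap.restrictScalars_apply, heckeActS_X, heckeAct_X,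
      periodHom_heckeS]) h S

/-- A symbol without periods is killed by an element outside a non-Eisenstein ideal. -/
theorem periodHom_ker {m : Ideal (MvPolynomial σ O)} (hm : NonEisenstein p m)
    {S : symbols R (GammaH N H)} (hS : periodHom S = 0) :
    ∃ s, s ∉ m ∧ heckeActS O R N H p s S = 0 := by
  obtain ⟨i, hi, hs⟩ := hm N (NeZero.ne N)
  exact ⟨_, hs, by rw [heckeActS_eisElt, eisen_ker hi hS, sub_self]⟩

/-- Some element outside a non-Eisenstein ideal carries a given homomorphism to periods of a
symbol. -/
theorem periodHom_coker {m : Ideal (MvPolynomial σ O)} (hm : NonEisenstein p m)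
    (φ : Homs R (GammaH N H)) :
    ∃ s, s ∉ m ∧ ∃ S, periodHom S = heckeAct O R N H p s φ := by
  obtain ⟨i, hi, hs⟩ := hm N (NeZero.ne N)
  obtain ⟨S, hS⟩ := eisen_coker hi φ
  exact ⟨_, hs, S, by rw [hS, heckeAct_eisElt]⟩

omit hp in
/-- At a good level the homomorphisms form a finite module over a ring under which the
coefficients are finite. -/
theorem finite_homs [Module.Finite O R] {Γ : Subgroup SL(2, ℤ)} (hΓ : GoodLevel R Γ) :
    Module.Finite O (Homs R Γ) :=
  haveI := hΓ.moduleFinite
  Module.Finite.trans R _

omit hp in
/-- At a good level the symbols form a finite module over a ring under which the coefficients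
are finite. -/
theorem finite_symbols [IsDomain R] [IsPrincipalIdealRing R] [Module.Finite O R]
    {Γ : Subgroup SL(2, ℤ)} (hΓ : GoodLevel R Γ) : Module.Finite O (symbols R Γ) :=
  haveI := hΓ.moduleFinite
  haveI := hΓ.moduleFree
  haveI : Module.Finite R (symbols R Γ) := Module.Finite.equiv hΓ.dualEquiv
  Module.Finite.trans R _

section Loc

variable [IsLocalRing O] [IsNoetherianRing O] [IsAdicComplete (IsLocalRing.maximalIdeal O) O]
  [Module.Finite O (Homs R (GammaH N H))] [Module.Finite O (symbols R (GammaH N H))]
  {m : Ideal (MvPolynomial σ O)} [m.IsMaximal]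

/-- At a non-Eisenstein ideal symbols are homomorphisms. -/
theorem periodHom_locMap_bijective (hm : NonEisenstein p m) :
    Function.Bijective (locMap (m := m) (ρ := heckeActS O R N H p) (σ := heckeAct O R N H p)
      (f := (periodHom (R := R) (Γ := GammaH N H)).restrictScalars O) periodHom_heckeActS) :=
  ⟨locMap_injective _ fun _ hS => periodHom_ker hm hS,
    locMap_surjective _ fun φ => by
      obtain ⟨s, hs, S, hS⟩ := periodHom_coker hm φ
      exact ⟨s, hs, S, hS⟩⟩

end Loc

end Fermat.HM
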