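import Fermat.Agent.HM.TWLevel

/-!
# The groups of diamond operators at auxiliary primes

The group is `DeltaQ`, a `p`-group by `isPGroup_deltaQ`.
-/

namespace Fermat.HM

open scoped MatrixGroups

variable {σ : Type} {p : σ → ℕ} [hp : ∀ i, Fact (p i).Prime] {N : ℕ}

/-- Units with prescribed reductions at the base and at the auxiliary primes. -/
theorem exists_unit_crt (hinj : Function.Injective p) :
    ∀ L : List σ, L.Nodup → (∀ i ∈ L, ¬ p i ∣ N) → ∀ (a : (ZMod N)ˣ) (b : ∀ i, (ZMod (p i))ˣ),
      ∃ x : (ZMod (levN N p L))ˣ, ZMod.unitsMap (dvd_levN N p L) x = a ∧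
        ∀ i ∈ L, ∀ h : p i ∣ levN N p L, ZMod.unitsMap h x = b i
  | [], _, _, a, _ => ⟨a, by show ZMod.unitsMap dvd_rfl a = a; rw [ZMod.unitsMap_self]; rfl,
      fun i hi => absurd hi List.not_mem_nil⟩
  | i :: L, hnd, hL, a, b => by
    obtain ⟨hiL, hnd⟩ := List.nodup_cons.mp hnd
    obtain ⟨x, hx, hxL⟩ := exists_unit_crt hinj L hnd (fun j hj =>
      hL j (List.mem_cons_of_mem i hj)) a b
    -- combine with the level of `L`, prime to `p i`, by the Chinese remainder theorem
    have hcop : Nat.Coprime (levN N p L) (p i) :=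
      ((hp i).out.coprime_iff_not_dvd.mpr
        (not_dvd_levN hinj hiL (hL i (List.mem_cons_self ..)))).symm
    let e := ZMod.chineseRemainder hcop
    let y : (ZMod (levN N p L * p i))ˣ :=
      Units.map e.symm.toMonoidHom (MulEquiv.prodUnits.symm (x, b i))
    have hy : e (y : ZMod (levN N p L * p i)) = ((x : ZMod (levN N p L)), (b i : ZMod (p i))) :=
      e.apply_symm_apply _
    -- the projections are as required
    have hy₁ : ZMod.unitsMap (dvd_mul_right _ _) y = x := by
      refine Units.ext ?_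
      have h := congrArg Prod.fst hy
      rw [ZMod.unitsMap_def, Units.coe_map]
      refine Eq.trans ?_ h
      exact (RingHom.congr_fun (Subsingleton.elim
        ((RingHom.fst (ZMod (levN N p L)) (ZMod (p i))).comp e.toRingHom)
        (ZMod.castHom (dvd_mul_right _ _) (ZMod (levN N p L)))) (y : ZMod _)).symm
    have hy₂ : ZMod.unitsMap (dvd_mul_left _ _) y = b i := by
      refine Units.ext ?_
      have h := congrArg Prod.snd hy
      rw [ZMod.unitsMap_def, Units.coe_map]
      refine Eq.trans ?_ h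
      exact (RingHom.congr_fun (Subsingleton.elim
        ((RingHom.snd (ZMod (levN N p L)) (ZMod (p i))).comp e.toRingHom)
        (ZMod.castHom (dvd_mul_left _ _) (ZMod (p i)))) (y : ZMod _)).symm
    refine ⟨y, ?_, fun j hj h => ?_⟩
    · rw [← hx, ← hy₁]
      exact (DFunLike.congr_fun (ZMod.unitsMap_comp (dvd_levN N p L) (dvd_mul_right _ _)) y).symm
    · rcases List.mem_cons.mp hj with rfl | hj
      · exact hy₂
      · have h' : p j ∣ levN N p L :=
          ((hp j).out.dvd_mul.mp h).resolve_right fun e' => hiL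
            (hinj ((Nat.prime_dvd_prime_iff_eq (hp j).out (hp i).out).mp e') ▸ hj)
        rw [← hxL j hj h', ← hy₁]
        exact (DFunLike.congr_fun (ZMod.unitsMap_comp h' (dvd_mul_right _ _)) y).symm

/-- If `m ∣ q - 1`, then `(ℤ/q)ˣ` maps onto a cyclic group of order `m`. -/
theorem exists_units_surj {q m : ℕ} [hq : Fact q.Prime] (hm : m ∣ q - 1) :
    ∃ f : (ZMod q)ˣ →* Multiplicative (ZMod m), Function.Surjective f := by
  have hc : Nat.card (ZMod q)ˣ = q - 1 := by
    rw [Nat.card_eq_fintype_card, ZMod.card_units]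
  let e := zmodCyclicMulEquiv (inferInstance : IsCyclic (ZMod q)ˣ)
  let g : Multiplicative (ZMod (Nat.card (ZMod q)ˣ)) →* Multiplicative (ZMod m) :=
    AddMonoidHom.toMultiplicative (ZMod.castHom (hc ▸ hm) (ZMod m)).toAddMonoidHom
  have hg : Function.Surjective g := fun x => by
    obtain ⟨y, hy⟩ := ZMod.castHom_surjective (hc ▸ hm : m ∣ Nat.card (ZMod q)ˣ) x.toAdd
    exact ⟨Multiplicative.ofAdd y, congrArg Multiplicative.ofAdd hy⟩
  exact ⟨g.comp e.symm.toMonoidHom, hg.comp e.symm.surjective⟩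

omit hp in
/-- An auxiliary prime divides the auxiliary level. -/
theorem dvd_levN_of_mem : ∀ {L : List σ} {i : σ}, i ∈ L → p i ∣ levN N p L
  | j :: L, i, h => by
    rcases List.mem_cons.mp h with rfl | h
    · exact dvd_mul_left _ _
    · exact (dvd_levN_of_mem h).mul_right _

/-- The product over the auxiliary primes of cyclic groups of orders `pp ^ n k`. -/
abbrev DeltaQ (pp : ℕ) {ι : Type} (n : ι → ℕ) : Type := ∀ k, Multiplicative (ZMod (pp ^ n k))

/-- The group of the auxiliary primes is a `pp`-group. -/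
theorem isPGroup_deltaQ (pp : ℕ) {r : ℕ} (n : Fin r → ℕ) :
    IsPGroup pp (DeltaQ pp n) := fun d => by
  refine ⟨∑ k, n k, funext fun k => ?_⟩
  obtain ⟨c, hc⟩ : pp ^ n k ∣ pp ^ ∑ k, n k :=
    pow_dvd_pow pp (Finset.single_le_sum (fun _ _ => Nat.zero_le _) (Finset.mem_univ k))
  refine Multiplicative.toAdd.injective ?_
  rw [Pi.pow_apply, toAdd_pow, hc, nsmul_eq_mul, Nat.cast_mul, ZMod.natCast_self, zero_mul,
    zero_mul]
  rfl

end Fermat.HM
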