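import Fermat.Agent.HM.Equivariance

/-!
# The operator at a prime exactly dividing the level and the degeneracy maps

For a prime `q` not dividing `N`: the relations between `U q` at level `N q`, `T q` at level `N`,
and the Atkin-Lehner matrix `(x q, -y; N q, q)`.
-/

namespace Fermat.HM

open scoped MatrixGroups
open CongruenceSubgroup Matrix Fermat.MC.Lvl

variable {N q : ℕ} [NeZero N] [hq : Fact q.Prime] [NeZero (N * q)] {H : Subgroup (ZMod N)ˣ}
  {R : Type} [CommRing R]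

/-- The level at `N q` above `H`. -/
def upH (H : Subgroup (ZMod N)ˣ) (q : ℕ) : Subgroup (ZMod (N * q))ˣ :=
  H.comap (ZMod.unitsMap (dvd_mul_right N q))

omit hq [NeZero (N * q)] [NeZero N] in
/-- Restriction from level `N` to level `N q` is a level map. -/
theorem isLevelMap_up : IsLevelMap H (upH H q) 1 1 :=
  isLevelMap_one (dvd_mul_right N q) (Subgroup.map_comap_le _ _)

omit [NeZero (N * q)] in
/-- An element of `Γ_H(N)` with lower left entry divisible by `q ∤ N` lies in the level `N q`. -/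
theorem mem_up_of_dvd (hqN : ¬ q ∣ N) {d : SL(2, ℤ)} (hd : d ∈ GammaH N H)
    (h : (q : ℤ) ∣ d 1 0) : d ∈ GammaH (N * q) (upH H q) := by
  obtain ⟨hd0, x, hx, hx'⟩ := mem_GammaH_iff_upper.mp hd
  have hN : (N : ℤ) ∣ d 1 0 := (ZMod.intCast_zmod_eq_zero_iff_dvd _ _).mp (Gamma0_mem.mp hd0)
  have hdvd : ((N * q : ℕ) : ℤ) ∣ d 1 0 := by
    push_cast
    exact IsCoprime.mul_dvd ((Nat.coprime_iff_gcd_eq_one.mp
      (hq.out.coprime_iff_not_dvd.mpr hqN).symm) |> fun e => Int.isCoprime_iff_gcd_eq_one.mpr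
      (by rw [Int.gcd_natCast_natCast]; exact e)) hN h
  have h0 : d ∈ Gamma0 (N * q) := Gamma0_mem.mpr ((ZMod.intCast_zmod_eq_zero_iff_dvd _ _).mpr hdvd)
  refine mem_GammaH_iff_upper.mpr ⟨h0, Units.mkOfMulEqOne _ _ (Gamma0_entries h0), ?_, rfl⟩
  change ZMod.unitsMap _ _ ∈ H
  convert hx
  refine Units.ext ?_
  rw [hx', ZMod.unitsMap_def, Units.coe_map]
  simp

omit [NeZero (N * q)] [NeZero N] in
/-- The element relating two representatives at `q` has lower left entry divisible by `q`. -/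
theorem dvd_lower (hqN : ¬ q ∣ N) {i k : HeckeIdx q N} {g d : SL(2, ℤ)}
    (e : stdGL q N i * gq g = gq d * stdGL q N k) : (q : ℤ) ∣ d 1 0 := by
  have e' : heckeMat q N i.1 * (g : Matrix (Fin 2) (Fin 2) ℤ)
      = (d : Matrix (Fin 2) (Fin 2) ℤ) * heckeMat q N k.1 := by
    refine Matrix.map_injective Int.cast_injective (α := ℤ) (β := ℚ) ?_
    have h := congrArg Units.val e
    rw [Units.val_mul, Units.val_mul, coe_gq, coe_gq, coe_stdGL, coe_stdGL,
      ← Matrix.map_mul_intCast, ← Matrix.map_mul_intCast] at h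
    exact h
  have h0 : ∀ a : HeckeIdx q N, ((heckeMat q N a.1 1 0 : ℤ) : ZMod q) = 0
      ∧ ((heckeMat q N a.1 1 1 : ℤ) : ZMod q) = 0 := by
    rintro ⟨_ | a, ha⟩ <;> simp [heckeMat]
  have h10 := congrArg (fun M : Matrix (Fin 2) (Fin 2) ℤ => ((M 1 0 : ℤ) : ZMod q)) e'
  have h11 := congrArg (fun M : Matrix (Fin 2) (Fin 2) ℤ => ((M 1 1 : ℤ) : ZMod q)) e'
  simp [Matrix.mul_apply, Fin.sum_univ_two, (h0 i).1, (h0 i).2, (h0 k).1, (h0 k).2] at h10 h11
  rw [← ZMod.intCast_zmod_eq_zero_iff_dvd]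
  obtain ⟨k | k, hk⟩ := k
  · rcases h11 with h | h
    · exact h
    · exfalso
      refine not_dvd_gcdB hqN ((ZMod.intCast_zmod_eq_zero_iff_dvd _ _).mp ?_)
      simpa [heckeMat] using h
  · simpa [heckeMat] using h10

/-- The index of the matrix at infinity. -/
def inftyIdx (hqN : ¬ q ∣ N) : HeckeIdx q N := ⟨none, fun _ => hqN⟩

/-- The operator from level `N q` down to `N` on the standard representatives. -/
noncomputable def downReps (H : Subgroup (ZMod N)ˣ) (hqN : ¬ q ∣ N) :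
    Reps (GammaH (N * q) (upH H q)) (GammaH N H) (HeckeIdx q N) where
  B := stdGL q N
  det_B := det_stdGL
  rperm γ hγ i := by
    obtain ⟨k, d, hd, e⟩ := (hecke N H q).rperm γ hγ i
    exact ⟨k, d, mem_up_of_dvd hqN hd (dvd_lower hqN e), e⟩
  uniqB i k d hd e := by
    obtain ⟨hd0, x, hx, hx'⟩ := mem_GammaH_iff_upper.mp hd
    refine (isLeftReps_stdGL (H := H)).uniq i k d (mem_GammaH_iff_upper.mpr ⟨?_, ?_⟩) e
    · exact Gamma0_mem.mpr ((ZMod.intCast_zmod_eq_zero_iff_dvd _ _).mpr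
        ((Int.natCast_dvd_natCast.mpr (dvd_mul_right N q)).trans
          ((ZMod.intCast_zmod_eq_zero_iff_dvd _ _).mp (Gamma0_mem.mp hd0))))
    · exact exists_mem_of_map_le (dvd_mul_right N q) (Subgroup.map_comap_le _ _) hx hx'

/-- The trace twisted by the Atkin-Lehner matrix. -/
noncomputable def psi (H : Subgroup (ZMod N)ˣ) (hqN : ¬ q ∣ N) :
    Homs R (GammaH (N * q) (upH H q)) →ₗ[R] Homs R (GammaH N H) :=
  (downReps H hqN).homMap

/-- The element `σ₀ = (x, -y; N, q)`. -/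
def sigma0 (N q : ℕ) [hq : Fact q.Prime] (hqN : ¬ q ∣ N) : SL(2, ℤ) :=
  ⟨!![Int.gcdA q N, -Int.gcdB q N; (N : ℤ), q], by
    rw [det_fin_two_of]; linear_combination bezout hqN⟩

omit [NeZero N] [NeZero (N * q)] in
/-- `σ₀` lies in `Γ₀(N)`. -/
theorem sigma0_mem (hqN : ¬ q ∣ N) : sigma0 N q hqN ∈ Gamma0 N :=
  Gamma0_mem.mpr (by simp [sigma0])

omit [NeZero N] [NeZero (N * q)] in
/-- The matrix at infinity is `σ₀` times `diag(q, 1)`. -/
theorem stdGL_infty (hqN : ¬ q ∣ N) :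
    stdGL q N (inftyIdx hqN) = gq (sigma0 N q hqN) * scaleGL q := by
  apply Units.ext
  rw [Units.val_mul, coe_stdGL, coe_gq]
  ext i j
  fin_cases i <;> fin_cases j <;>
    simp [inftyIdx, heckeMat, sigma0, scaleGL, Matrix.mul_apply, Fin.sum_univ_two]

omit [NeZero N] [NeZero (N * q)] in
/-- The second degeneracy map as a level map. -/
theorem isLevelMap_infty (hqN : ¬ q ∣ N) :
    IsLevelMap H (upH H q) q (stdGL q N (inftyIdx hqN)) := by
  rw [stdGL_infty]
  simpa using (isLevelMap_gamma0 (le_refl H) (sigma0_mem hqN)).comp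
    (isLevelMap_scale (q := q) (H := H) (H' := upH H q) dvd_rfl (Subgroup.map_comap_le _ _))

omit [NeZero (N * q)] in
/-- The matrix at infinity normalises the level `N q`. -/
theorem exists_conj_infty (hqN : ¬ q ∣ N) {γ : SL(2, ℤ)}
    (hγ : γ ∈ GammaH (N * q) (upH H q)) :
    ∃ d ∈ GammaH (N * q) (upH H q),
      stdGL q N (inftyIdx hqN) * gq γ = gq d * stdGL q N (inftyIdx hqN) := by
  obtain ⟨d, hd, e⟩ := (isLevelMap_infty (H := H) hqN).exists_conj γ hγ
  exact ⟨d, mem_up_of_dvd hqN hd (dvd_lower hqN e), e⟩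

/-- The Atkin-Lehner operator. -/
noncomputable def wq (H : Subgroup (ZMod N)ˣ) (hqN : ¬ q ∣ N) :
    Module.End R (Homs R (GammaH (N * q) (upH H q))) :=
  (Reps.single (stdGL q N (inftyIdx hqN)) (det_stdGL _)
    fun _ hγ => exists_conj_infty hqN hγ).homMap

omit [NeZero (N * q)] in
/-- The value of `wq`, from any decomposition through the matrix at infinity. -/
theorem wq_apply (hqN : ¬ q ∣ N) (φ : Homs R (GammaH (N * q) (upH H q)))
    (γ d : GammaH (N * q) (upH H q))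
    (e : stdGL q N (inftyIdx hqN) * gq (γ : SL(2, ℤ))
      = gq (d : SL(2, ℤ)) * stdGL q N (inftyIdx hqN)) :
    wq H hqN φ (Additive.ofMul γ) = φ (Additive.ofMul d) := by
  rw [wq, Reps.homMap_apply, Fintype.sum_unique]
  congr 2
  exact ((Reps.single (stdGL q N (inftyIdx hqN)) (det_stdGL _)
    fun _ hγ => exists_conj_infty hqN hγ).eq_of_decomp (γ := γ) (i := ()) (k := ()) e).2.symm

/-- The representatives other than infinity. -/
def finIdx (hqN : ¬ q ∣ N) (i : HeckeIdx q (N * q)) : HeckeIdx q N := ⟨i.1, fun _ => hqN⟩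

omit [NeZero N] hq [NeZero (N * q)] in
/-- `finIdx` is injective. -/
theorem finIdx_injective (hqN : ¬ q ∣ N) : Function.Injective (finIdx hqN) := fun _ _ h =>
  Subtype.ext (congrArg (fun a : HeckeIdx q N => a.1) h)

omit [NeZero N] hq [NeZero (N * q)] in
/-- At level `N q` no representative is at infinity. -/
theorem exists_some_idx (i : HeckeIdx q (N * q)) : ∃ j, i.1 = Option.some j := by
  obtain ⟨_ | j, h⟩ := i
  · exact absurd (dvd_mul_left q N) (h rfl)
  · exact ⟨j, rfl⟩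

omit [NeZero N] [NeZero (N * q)] in
/-- The finite representatives at levels `N` and `N q` are the same matrices. -/
theorem stdGL_finIdx (hqN : ¬ q ∣ N) (i : HeckeIdx q (N * q)) :
    stdGL q N (finIdx hqN i) = stdGL q (N * q) i := by
  obtain ⟨j, hj⟩ := exists_some_idx i
  apply Units.ext
  rw [coe_stdGL, coe_stdGL, finIdx, hj]
  rfl

omit [NeZero N] hq [NeZero (N * q)] in
/-- A sum over the representatives at level `N` splits off the one at infinity. -/
theorem sum_heckeIdx {M : Type*} [AddCommMonoid M] (hqN : ¬ q ∣ N) (F : HeckeIdx q N → M) :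
    ∑ i, F i = ∑ i, F (finIdx hqN i) + F (inftyIdx hqN) := by
  classical
  rw [← Finset.sum_erase_add _ _ (Finset.mem_univ (inftyIdx hqN))]
  congr 1
  symm
  refine Finset.sum_bij (fun i _ => finIdx hqN i) (fun i _ => ?_)
    (fun i _ j _ h => finIdx_injective hqN h) (fun b hb => ?_) fun _ _ => rfl
  · obtain ⟨j, hj⟩ := exists_some_idx i
    simp [finIdx, inftyIdx, hj]
  · obtain ⟨_ | j, h⟩ := b
    · simp [inftyIdx] at hb
    · exact ⟨⟨Option.some j, fun e => (Option.some_ne_none _ e).elim⟩, Finset.mem_univ _, rfl⟩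

omit hq [NeZero (N * q)] [NeZero N] in
/-- An element of level `N q` is one of level `N`. -/
theorem exists_coe_up (γ : GammaH (N * q) (upH H q)) :
    ∃ γ₀ : GammaH N H, (γ₀ : SL(2, ℤ)) = γ := by
  obtain ⟨d, hd, e⟩ := (isLevelMap_up (H := H) (q := q)).exists_conj γ γ.2
  rw [one_mul, mul_one] at e
  exact ⟨⟨d, hd⟩, (Reps.gq_injective e).symm⟩

/-- `res ∘ psi = U + w`. -/
theorem res_psi (hqN : ¬ q ∣ N) (φ : Homs R (GammaH (N * q) (upH H q))) :
    (isLevelMap_up (H := H) (q := q)).pull (psi H hqN φ)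
      = heckeT R (N * q) (upH H q) q φ + wq H hqN φ := by
  refine AddMonoidHom.ext fun γ => ?_
  obtain ⟨γ, rfl⟩ := Additive.ofMul.surjective γ
  set U := (hecke (N * q) (upH H q) q).toReps
  obtain ⟨γ₀, hγ₀⟩ := exists_coe_up γ
  rw [IsLevelMap.pull_apply _ _ γ γ₀ (by rw [one_mul, mul_one, hγ₀]), psi, Reps.homMap_apply,
    sum_heckeIdx hqN, AddMonoidHom.add_apply, heckeT, Reps.homMap_apply]
  congr 1
  · refine Finset.sum_congr rfl fun i _ => ?_
    congr 2
    refine ((downReps H hqN).eq_of_decomp (γ := γ₀) (i := finIdx hqN i)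
      (k := finIdx hqN (U.perm γ i)) ?_).2.symm
    change stdGL q N (finIdx hqN i) * gq (γ₀ : SL(2, ℤ)) = gq _ *
        stdGL q N (finIdx hqN (U.perm γ i))
    rw [stdGL_finIdx, stdGL_finIdx, hγ₀]
    exact U.mul_gq γ i
  · obtain ⟨d, hd, e⟩ := exists_conj_infty hqN γ.2
    rw [wq_apply hqN φ γ ⟨d, hd⟩ e]
    congr 2
    refine ((downReps H hqN).eq_of_decomp (γ := γ₀) (i := inftyIdx hqN)
      (k := inftyIdx hqN) ?_).2.symm
    change stdGL q N (inftyIdx hqN) * gq (γ₀ : SL(2, ℤ)) = _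
    rw [hγ₀]
    exact e

omit [NeZero (N * q)] in
/-- `psi` after the pullback is `T_q` at level `N`, for `q ∤ N`. -/
theorem psi_res (hqN : ¬ q ∣ N) (φ : Homs R (GammaH N H)) :
    psi H hqN ((isLevelMap_up (H := H) (q := q)).pull φ) = heckeT R N H q φ := by
  refine AddMonoidHom.ext fun γ => ?_
  obtain ⟨γ, rfl⟩ := Additive.ofMul.surjective γ
  rw [psi, Reps.homMap_apply, heckeT, Reps.homMap_apply]
  refine Finset.sum_congr rfl fun i _ => ?_
  obtain ⟨hk, -⟩ : (downReps H hqN).perm γ i = (hecke N H q).toReps.perm γ i ∧ True := by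
    obtain ⟨k, d, hd, e⟩ := (downReps H hqN).rperm γ γ.2 i
    obtain ⟨h1, -⟩ := (downReps H hqN).eq_of_decomp (γ := γ) (d := ⟨d, hd⟩) e
    obtain ⟨d', hd'⟩ : ∃ d' : GammaH N H, (d' : SL(2, ℤ)) = d := exists_coe_up ⟨d, hd⟩
    obtain ⟨h2, -⟩ := (hecke N H q).toReps.eq_of_decomp (γ := γ) (i := i) (k := k) (d := d')
      (by rw [hd']; exact e)
    exact ⟨h1.symm.trans h2, trivial⟩
  set x := (downReps H hqN).elt γ i
  obtain ⟨x₀, hx₀⟩ := exists_coe_up x
  rw [IsLevelMap.pull_apply _ φ x x₀ (by rw [one_mul, mul_one, hx₀])]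
  congr 2
  refine ((hecke N H q).toReps.eq_of_decomp (γ := γ) (i := i)
    (k := (hecke N H q).toReps.perm γ i) ?_).2
  rw [hx₀, ← hk]
  exact (downReps H hqN).mul_gq γ i

omit [NeZero (N * q)] in
/-- `w` carries the first degeneracy map to the second. -/
theorem wq_res (hqN : ¬ q ∣ N) (φ : Homs R (GammaH N H)) :
    wq H hqN ((isLevelMap_up (H := H) (q := q)).pull φ) = (isLevelMap_infty hqN).pull φ := by
  refine AddMonoidHom.ext fun γ => ?_
  obtain ⟨γ, rfl⟩ := Additive.ofMul.surjective γ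
  obtain ⟨d, hd, e⟩ := exists_conj_infty hqN γ.2
  obtain ⟨d₀, hd₀, e₀⟩ := (isLevelMap_up (H := H) (q := q)).exists_conj d hd
  rw [one_mul, mul_one] at e₀
  rw [wq_apply hqN _ γ ⟨d, hd⟩ e,
    IsLevelMap.pull_apply _ φ ⟨d, hd⟩ ⟨d₀, hd₀⟩ (by rw [one_mul, mul_one]; exact e₀),
    IsLevelMap.pull_apply _ φ γ ⟨d₀, hd₀⟩ (by rw [e, e₀])]

/-- `U ∘ res = res ∘ T - α₂`. -/
theorem heckeT_res (hqN : ¬ q ∣ N) (φ : Homs R (GammaH N H)) :
    heckeT R (N * q) (upH H q) q ((isLevelMap_up (H := H) (q := q)).pull φ)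
      = (isLevelMap_up (H := H) (q := q)).pull (heckeT R N H q φ)
        - (isLevelMap_infty hqN).pull φ := by
  rw [← psi_res hqN φ, res_psi, wq_res, add_sub_cancel_right]

/-- The element `τ` with `q τ` the square of the Atkin-Lehner matrix. -/
def tauElt (N q : ℕ) [hq : Fact q.Prime] (hqN : ¬ q ∣ N) : SL(2, ℤ) :=
  ⟨!![Int.gcdA q N * Int.gcdA q N * q - Int.gcdB q N * N, -Int.gcdB q N * (Int.gcdA q N + 1);
    (N : ℤ) * q * (Int.gcdA q N + 1), (q : ℤ) - Int.gcdB q N * N], by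
    rw [det_fin_two_of]
    linear_combination ((q : ℤ) * Int.gcdA q N + (N : ℤ) * Int.gcdB q N + 1) * bezout hqN⟩

omit [NeZero N] [NeZero (N * q)] in
/-- `τ` lies in `Γ₀(N q)`. -/
theorem tauElt_mem (hqN : ¬ q ∣ N) : tauElt N q hqN ∈ Gamma0 (N * q) :=
  Gamma0_mem.mpr ((ZMod.intCast_zmod_eq_zero_iff_dvd _ _).mpr
    ⟨Int.gcdA q N + 1, by simp [tauElt]⟩)

omit [NeZero N] [NeZero (N * q)] in
/-- `τ` lies in `Γ₀(N)`. -/
theorem tauElt_mem_base (hqN : ¬ q ∣ N) : tauElt N q hqN ∈ Gamma0 N :=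
  Gamma0_mem.mpr ((ZMod.intCast_zmod_eq_zero_iff_dvd _ _).mpr
    ⟨(q : ℤ) * (Int.gcdA q N + 1), by simp [tauElt]; ring⟩)

omit [NeZero N] [NeZero (N * q)] in
/-- The square of the matrix at infinity is a central element times `τ`. -/
theorem stdGL_infty_mul_self (hqN : ¬ q ∣ N) :
    ∃ s : GL (Fin 2) ℚ, (∀ M, s * M = M * s) ∧
      stdGL q N (inftyIdx hqN) * stdGL q N (inftyIdx hqN) = s * gq (tauElt N q hqN) := by
  let s : GL (Fin 2) ℚ := GeneralLinearGroup.mkOfDetNeZero !![(q : ℚ), 0; 0, (q : ℚ)]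
    (by simp [det_fin_two_of, hq.out.ne_zero])
  refine ⟨s, fun M => ?_, ?_⟩
  · apply Units.ext
    rw [Units.val_mul, Units.val_mul]
    ext a b
    fin_cases a <;> fin_cases b <;> simp [s, Matrix.mul_apply, Fin.sum_univ_two, mul_comm]
  · apply Units.ext
    rw [Units.val_mul, Units.val_mul, coe_stdGL, coe_gq]
    ext a b
    fin_cases a <;> fin_cases b <;>
      simp [s, inftyIdx, heckeMat, tauElt, Matrix.mul_apply, Fin.sum_univ_two] <;> ring

omit [NeZero N] [NeZero (N * q)] in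
/-- `τ` commutes with the matrix at infinity. -/
theorem tauElt_comm (hqN : ¬ q ∣ N) :
    gq (tauElt N q hqN) * stdGL q N (inftyIdx hqN)
      = stdGL q N (inftyIdx hqN) * gq (tauElt N q hqN) := by
  obtain ⟨s, hs, e⟩ := stdGL_infty_mul_self hqN
  have e' : gq (tauElt N q hqN)
      = s⁻¹ * (stdGL q N (inftyIdx hqN) * stdGL q N (inftyIdx hqN)) := by
    rw [e, inv_mul_cancel_left]
  have hs' : ∀ M, s⁻¹ * M = M * s⁻¹ := fun M => by
    rw [eq_mul_inv_iff_mul_eq, mul_assoc, ← hs, inv_mul_cancel_left]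
  rw [e', hs' (stdGL q N (inftyIdx hqN) * _), mul_assoc (stdGL q N (inftyIdx hqN) * _), hs',
    ← mul_assoc, ← mul_assoc, ← mul_assoc]

/-- The diamond operator of `q` at level `N`: pullback by `τ`, whose lower right entry is `q`
modulo `N`. -/
noncomputable def diaQ (H : Subgroup (ZMod N)ˣ) (hqN : ¬ q ∣ N) :
    Module.End R (Homs R (GammaH N H)) :=
  (isLevelMap_gamma0 (le_refl H) (tauElt_mem_base hqN)).pull

/-- The diamond operator of `q` at level `N q`. -/
noncomputable def diaQUp (H : Subgroup (ZMod N)ˣ) (hqN : ¬ q ∣ N) :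
    Module.End R (Homs R (GammaH (N * q) (upH H q))) :=
  (isLevelMap_gamma0 (le_refl (upH H q)) (tauElt_mem hqN)).pull

omit [NeZero N] [NeZero (N * q)] in
/-- `⟨q⟩` commutes with the first degeneracy map. -/
theorem diaQUp_res (hqN : ¬ q ∣ N) (φ : Homs R (GammaH N H)) :
    diaQUp H hqN ((isLevelMap_up (H := H) (q := q)).pull φ)
      = (isLevelMap_up (H := H) (q := q)).pull (diaQ H hqN φ) := by
  rw [diaQUp, diaQ, ← IsLevelMap.pull_comp, ← IsLevelMap.pull_comp]
  exact IsLevelMap.pull_congr _ _ (one_mem _) (by rw [map_one, one_mul, one_mul, mul_one]) φ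

omit [NeZero N] [NeZero (N * q)] in
/-- `⟨q⟩` commutes with the second degeneracy map. -/
theorem diaQUp_infty (hqN : ¬ q ∣ N) (φ : Homs R (GammaH N H)) :
    diaQUp H hqN ((isLevelMap_infty hqN).pull φ)
      = (isLevelMap_infty hqN).pull (diaQ H hqN φ) := by
  rw [diaQUp, diaQ, ← IsLevelMap.pull_comp, ← IsLevelMap.pull_comp]
  exact IsLevelMap.pull_congr _ _ (one_mem _) (by rw [map_one, one_mul, tauElt_comm]) φ

omit [NeZero (N * q)] in
/-- `w² = ⟨q⟩`. -/
theorem wq_wq (hqN : ¬ q ∣ N) (φ : Homs R (GammaH (N * q) (upH H q))) :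
    wq H hqN (wq H hqN φ) = diaQUp H hqN φ := by
  refine AddMonoidHom.ext fun γ => ?_
  obtain ⟨γ, rfl⟩ := Additive.ofMul.surjective γ
  obtain ⟨d, hd, e⟩ := exists_conj_infty hqN γ.2
  obtain ⟨d', hd', e'⟩ := exists_conj_infty hqN hd
  rw [wq_apply hqN _ γ ⟨d, hd⟩ e, wq_apply hqN _ ⟨d, hd⟩ ⟨d', hd'⟩ e', diaQUp]
  refine (IsLevelMap.pull_apply _ φ γ ⟨d', hd'⟩ ?_).symm
  obtain ⟨s, hs, es⟩ := stdGL_infty_mul_self hqN
  refine mul_left_cancel (a := s) ?_
  rw [← mul_assoc, ← mul_assoc, ← es, hs, mul_assoc (gq d'), ← es, mul_assoc (stdGL q N _), e,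
    ← mul_assoc, e', mul_assoc]

omit [NeZero N] in
/-- `U ∘ α₂ = q · res ∘ ⟨q⟩`. -/
theorem heckeT_infty (hqN : ¬ q ∣ N) (φ : Homs R (GammaH N H)) :
    heckeT R (N * q) (upH H q) q ((isLevelMap_infty hqN).pull φ)
      = q • (isLevelMap_up (H := H) (q := q)).pull (diaQ H hqN φ) := by
  refine AddMonoidHom.ext fun γ => ?_
  obtain ⟨γ, rfl⟩ := Additive.ofMul.surjective γ
  set U := (hecke (N * q) (upH H q) q).toReps
  set X := Int.gcdA q N
  set Y := Int.gcdB q N
  obtain ⟨γ₀, hγ₀⟩ := exists_coe_up γ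
  have hσ : ∀ j : ℤ, ∃ σ : SL(2, ℤ), (σ : Matrix (Fin 2) (Fin 2) ℤ)
      = !![X, X * j - Y; (N : ℤ), (N : ℤ) * j + q] ∧ σ ∈ Gamma0 N := fun j =>
    ⟨⟨_, by rw [det_fin_two_of]; linear_combination bezout hqN⟩, rfl, Gamma0_mem.mpr (by simp)⟩
  choose σ hσe hσ0 using hσ
  let jv : HeckeIdx q (N * q) → ℤ := fun i => ((exists_some_idx i).choose : ℕ)
  -- `w β i` is the scalar `q` times some `σ i` in `Γ₀(N)` of the class of `τ`
  have hWE : ∀ i, ∃ s : GL (Fin 2) ℚ, (∀ M, s * M = M * s) ∧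
      (s : Matrix (Fin 2) (Fin 2) ℚ) = !![(q : ℚ), 0; 0, (q : ℚ)] ∧
      stdGL q N (inftyIdx hqN) * stdGL q (N * q) i = s * gq (σ (jv i)) := by
    intro i
    let s : GL (Fin 2) ℚ := GeneralLinearGroup.mkOfDetNeZero !![(q : ℚ), 0; 0, (q : ℚ)]
      (by simp [det_fin_two_of, hq.out.ne_zero])
    refine ⟨s, fun M => ?_, rfl, ?_⟩
    · apply Units.ext
      rw [Units.val_mul, Units.val_mul]
      ext a b
      fin_cases a <;> fin_cases b <;> simp [s, Matrix.mul_apply, Fin.sum_univ_two, mul_comm]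
    · apply Units.ext
      rw [Units.val_mul, Units.val_mul, coe_stdGL, coe_stdGL, coe_gq, hσe,
        (exists_some_idx i).choose_spec]
      ext a b
      fin_cases a <;> fin_cases b <;>
        simp [s, jv, inftyIdx, heckeMat, X, Y, Matrix.mul_apply, Fin.sum_univ_two] <;> ring
  choose s hscomm hsval hWEeq using hWE
  have hupper : ∀ j, ((σ j 0 0 : ℤ) : ZMod N) = ((tauElt N q hqN 0 0 : ℤ) : ZMod N) := fun j => by
    have h := congrArg (fun x : ℤ => (x : ZMod N)) (bezout hqN)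
    simp at h
    simp [hσe, tauElt, X]
    linear_combination (-((Int.gcdA q N : ℤ) : ZMod N)) * h
  set c : HeckeIdx q (N * q) → GammaH N H := fun i =>
    ⟨σ (jv i) * (tauElt N q hqN)⁻¹,
      gamma0_mul_inv_mem (hσ0 _) (tauElt_mem_base hqN) (hupper _)⟩
  obtain ⟨t, ht, et⟩ := (isLevelMap_gamma0 (le_refl H) (tauElt_mem_base hqN)).exists_conj
    (γ₀ : SL(2, ℤ)) γ₀.2
  -- each term is `φ` of the conjugate of `γ`, plus a coboundary
  have hterm : ∀ i, (isLevelMap_infty hqN).pull φ (Additive.ofMul (U.elt γ i))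
      = φ (Additive.ofMul (⟨t, ht⟩ : GammaH N H))
        + (φ (Additive.ofMul (c i)) - φ (Additive.ofMul (c (U.perm γ i)))) := by
    intro i
    obtain ⟨d, hd, ed⟩ := (isLevelMap_infty (H := H) hqN).exists_conj _ (U.elt γ i).2
    rw [IsLevelMap.pull_apply _ φ (U.elt γ i) ⟨d, hd⟩ ed]
    have hss : s i = s (U.perm γ i) := Units.ext ((hsval i).trans (hsval _).symm)
    have h1 : gq (σ (jv i)) * gq (γ : SL(2, ℤ)) = gq d * gq (σ (jv (U.perm γ i))) := by
      refine mul_left_cancel (a := s i) ?_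
      rw [← mul_assoc, ← hWEeq i, mul_assoc, show stdGL q (N * q) i * gq (γ : SL(2, ℤ))
          = gq (U.elt γ i : SL(2, ℤ)) * stdGL q (N * q) (U.perm γ i) from U.mul_gq γ i,
        ← mul_assoc, ed, mul_assoc, hWEeq, ← hss, ← mul_assoc, ← mul_assoc, ← hscomm i (gq d)]
    have h2 : (⟨d, hd⟩ : GammaH N H) = c i * ⟨t, ht⟩ * (c (U.perm γ i))⁻¹ := by
      refine Subtype.ext (Reps.gq_injective ?_)
      simp only [c, Subgroup.coe_mul, Subgroup.coe_inv, map_mul, map_inv]
      rw [hγ₀] at et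
      rw [eq_mul_inv_of_mul_eq et.symm, eq_mul_inv_of_mul_eq h1.symm]
      group
    rw [h2, ofMul_mul, ofMul_mul, ofMul_inv, map_add, map_add, map_neg]
    abel
  -- the coboundaries cancel over the `q` indices
  rw [heckeT, Reps.homMap_apply, Finset.sum_congr rfl fun i _ => hterm i, Finset.sum_add_distrib,
    Finset.sum_sub_distrib, Fintype.sum_bijective _ (U.perm_bijective γ)
      (fun i => φ (Additive.ofMul (c (U.perm γ i)))) (fun i => φ (Additive.ofMul (c i)))
      fun _ => rfl, sub_self, add_zero, Finset.sum_const, Finset.card_univ,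
    AddMonoidHom.nsmul_apply, IsLevelMap.pull_apply _ _ γ γ₀ (by rw [one_mul, mul_one, hγ₀]),
    diaQ, IsLevelMap.pull_apply _ φ γ₀ ⟨t, ht⟩ et]
  congr 1
  rw [Fintype.card_congr (Equiv.ofBijective (fun i => (exists_some_idx i).choose)
    ⟨fun a b h => Subtype.ext (by rw [(exists_some_idx a).choose_spec,
      (exists_some_idx b).choose_spec]; exact congrArg Option.some h), fun j =>
      ⟨⟨Option.some j, fun e => (Option.some_ne_none _ e).elim⟩, Option.some_injective _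
        (exists_some_idx (⟨Option.some j, fun e => (Option.some_ne_none _ e).elim⟩ :
          HeckeIdx q (N * q))).choose_spec.symm⟩⟩), Fintype.card_fin]

/-- `U² - ⟨q⟩` maps into the image of the two degeneracy maps. -/
theorem heckeT_sq_sub (hqN : ¬ q ∣ N) (φ : Homs R (GammaH (N * q) (upH H q))) :
    heckeT R (N * q) (upH H q) q (heckeT R (N * q) (upH H q) q φ) - diaQUp H hqN φ
      = (isLevelMap_up (H := H) (q := q)).pull
          (heckeT R N H q (psi H hqN φ) - psi H hqN (wq H hqN φ))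
        - (isLevelMap_infty hqN).pull (psi H hqN φ) := by
  have hU : ∀ x, heckeT R (N * q) (upH H q) q x
      = (isLevelMap_up (H := H) (q := q)).pull (psi H hqN x) - wq H hqN x := fun x => by
    rw [res_psi, add_sub_cancel_right]
  conv_lhs => rw [hU φ, map_sub, heckeT_res hqN, hU (wq H hqN φ), wq_wq]
  rw [map_sub]
  abel

end Fermat.HM
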