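import Fermat.Agent.HM.Duality

/-!
# Correspondences between levels

A correspondence from `Γ` to `Γ'` gives compatible operators on homomorphisms and on symbols, and
the transpose of the operator on homomorphisms is given by the transposed matrices.
-/

namespace Fermat.HM

open scoped MatrixGroups
open OnePoint UpperHalfPlane

/-- Matrices of positive determinant representing a set of left `Γ`-cosets stable under `Γ'`. -/
structure Reps (Γ Γ' : Subgroup SL(2, ℤ)) (ι : Type) [Fintype ι] where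
  /-- The matrices representing the cosets. -/
  B : ι → GL (Fin 2) ℚ
  /-- Their determinants are positive. -/
  det_B : ∀ i, 0 < (B i : Matrix (Fin 2) (Fin 2) ℚ).det
  /-- Right multiplication by `Γ'` permutes the cosets. -/
  rperm : ∀ γ ∈ Γ', ∀ i, ∃ k, ∃ d ∈ Γ, B i * gq γ = gq d * B k
  /-- Distinct representatives give distinct `Γ`-cosets. -/
  uniqB : ∀ i k, ∀ d ∈ Γ, gq d * B i = B k → i = k

/-- Matrices representing a double coset, with their transposes. -/
structure Corr (Γ Γ' : Subgroup SL(2, ℤ)) (ι κ : Type) [Fintype ι] [Fintype κ]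
    extends Reps Γ Γ' ι where
  /-- The transposed representatives, of cosets of `Γ'`. -/
  C : κ → GL (Fin 2) ℚ
  /-- Each `(B i)⁻¹ * Γ` lies in the union of the cosets `Γ' * C j`. -/
  cover : ∀ i, ∀ d ∈ Γ, ∃ j, ∃ γ ∈ Γ', (B i)⁻¹ * gq d = gq γ * C j
  /-- Each element of a coset `Γ' * C j` lies in some `(B i)⁻¹ * Γ`. -/
  cover' : ∀ j, ∀ γ ∈ Γ', ∃ i, ∃ d ∈ Γ, (B i)⁻¹ * gq d = gq γ * C j
  /-- Distinct transposed representatives give distinct `Γ'`-cosets. -/
  uniqC : ∀ j k, ∀ γ ∈ Γ', gq γ * C j = C k → j = k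

namespace Reps

variable {Γ Γ' : Subgroup SL(2, ℤ)} {ι : Type} [Fintype ι] (P : Reps Γ Γ' ι)
variable {R : Type*} [CommRing R]

/-- `SL(2, ℤ)` embeds into `GL(2, ℚ)`. -/
theorem gq_injective : Function.Injective gq := by
  intro a b h
  apply Subtype.ext
  ext i j
  have := congrArg (fun g : GL (Fin 2) ℚ => g i j) h
  simpa [coe_gq] using this

/-- The permutation of the representatives. -/
noncomputable def perm (γ : Γ') (i : ι) : ι := (P.rperm γ.1 γ.2 i).choose

/-- The elements of `Γ` in the permutation of the representatives. -/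
noncomputable def elt (γ : Γ') (i : ι) : Γ :=
  ⟨(P.rperm γ.1 γ.2 i).choose_spec.choose, (P.rperm γ.1 γ.2 i).choose_spec.choose_spec.1⟩

/-- The decomposition defining `perm` and `elt`. -/
theorem mul_gq (γ : Γ') (i : ι) :
    P.B i * gq (γ : SL(2, ℤ)) = gq (P.elt γ i : SL(2, ℤ)) * P.B (P.perm γ i) :=
  (P.rperm γ.1 γ.2 i).choose_spec.choose_spec.2

/-- That decomposition is unique. -/
theorem eq_of_decomp {γ : Γ'} {i k : ι} {d : Γ}
    (h : P.B i * gq (γ : SL(2, ℤ)) = gq (d : SL(2, ℤ)) * P.B k) :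
    k = P.perm γ i ∧ d = P.elt γ i := by
  rw [P.mul_gq] at h
  have hk : k = P.perm γ i := by
    refine P.uniqB k _ ((P.elt γ i : SL(2, ℤ))⁻¹ * d) (mul_mem (inv_mem (P.elt γ i).2) d.2) ?_
    rw [map_mul, mul_assoc, ← h, map_inv, inv_mul_cancel_left]
  refine ⟨hk, ?_⟩
  rw [hk, mul_left_inj] at h
  exact Subtype.ext (gq_injective h).symm

/-- The action on the representatives is by bijections. -/
theorem perm_bijective (γ : Γ') : Function.Bijective (P.perm γ) := by
  refine Finite.injective_iff_bijective.mp fun a b hab =>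
    P.uniqB a b ((P.elt γ b : SL(2, ℤ)) * (P.elt γ a : SL(2, ℤ))⁻¹)
      (mul_mem (P.elt γ b).2 (inv_mem (P.elt γ a).2)) (mul_right_cancel (b := gq (γ : SL(2, ℤ))) ?_)
  rw [mul_assoc, P.mul_gq γ a, P.mul_gq γ b, ← mul_assoc, ← map_mul, inv_mul_cancel_right, hab]

/-- The operator on homomorphisms. -/
noncomputable def homMap : Homs R Γ →ₗ[R] Homs R Γ' where
  toFun φ := AddMonoidHom.mk'
    (fun γ => ∑ i, φ (Additive.ofMul (P.elt (Additive.toMul γ) i))) fun γ δ => by
    simp only [toMul_add]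
    have h : ∀ i, P.elt (Additive.toMul γ * Additive.toMul δ) i
        = P.elt (Additive.toMul γ) i * P.elt (Additive.toMul δ) (P.perm (Additive.toMul γ) i) := by
      intro i
      refine (P.eq_of_decomp (k := P.perm (Additive.toMul δ)
        (P.perm (Additive.toMul γ) i)) ?_).2.symm
      rw [Subgroup.coe_mul, Subgroup.coe_mul, map_mul, map_mul, ← mul_assoc, P.mul_gq, mul_assoc,
        P.mul_gq, mul_assoc]
    simp only [h, ofMul_mul, map_add, Finset.sum_add_distrib]
    congr 1
    exact Fintype.sum_bijective _ (P.perm_bijective _) _ _ fun _ => rfl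
  map_add' φ ψ := AddMonoidHom.ext fun γ => Finset.sum_add_distrib
  map_smul' c φ := AddMonoidHom.ext fun γ => by
    simp [Finset.mul_sum]

/-- The value of `homMap` on an element of `Γ'`. -/
theorem homMap_apply (φ : Homs R Γ) (γ : Γ') :
    P.homMap φ (Additive.ofMul γ) = ∑ i, φ (Additive.ofMul (P.elt γ i)) := rfl

/-- The side of a point moved by a representative is that for the geodesic moved back. -/
theorem side_conj (i : ι) (a b : Cusp) (w : ℍ) :
    side a b (toReal (P.B i) • w) = side ((P.B i)⁻¹ • a) ((P.B i)⁻¹ • b) w := by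
  conv_lhs => rw [← smul_inv_smul (P.B i) a, ← smul_inv_smul (P.B i) b]
  exact side_smul _ (P.det_B i) _ _ _

/-- The operator on symbols. -/
noncomputable def symbMap : symbols R Γ →ₗ[R] symbols R Γ' where
  toFun S := ⟨fun a b => ∑ i, S.1 (P.B i • a) (P.B i • b),
    fun a b c => by
      rw [← Finset.sum_add_distrib]
      exact Finset.sum_congr rfl fun i _ => S.2.1 _ _ _,
    fun γ hγ a b => by
      refine Fintype.sum_bijective (P.perm ⟨γ, hγ⟩) (P.perm_bijective _) _ _ fun i => ?_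
      have e : ∀ x : Cusp, P.B i • gq γ • x
          = gq (P.elt ⟨γ, hγ⟩ i : SL(2, ℤ)) • P.B (P.perm ⟨γ, hγ⟩ i) • x := fun x => by
        rw [← mul_smul, ← mul_smul]; exact congrArg (· • x) (P.mul_gq ⟨γ, hγ⟩ i)
      rw [e, e]
      exact S.2.2 _ (P.elt ⟨γ, hγ⟩ i).2 _ _⟩
  map_add' S S' := Subtype.ext (funext fun a => funext fun b => Finset.sum_add_distrib)
  map_smul' c S := Subtype.ext (funext fun a => funext fun b => (Finset.mul_sum _ _ _).symm)

/-- The value of `symbMap` on a pair of cusps. -/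
theorem symbMap_apply (S : symbols R Γ) (a b : Cusp) :
    (P.symbMap S).1 a b = ∑ i, S.1 (P.B i • a) (P.B i • b) := rfl

/-- Periods commute with the operators. -/
theorem periodHom_symbMap (S : symbols R Γ) :
    periodHom (P.symbMap S) = P.homMap (periodHom S) := by
  refine AddMonoidHom.ext fun γ => ?_
  obtain ⟨γ, rfl⟩ := Additive.ofMul.surjective γ
  rw [periodHom_apply, homMap_apply]
  simp only [periodHom_apply, period, symbMap_apply]
  have h : ∀ i, S.1 (P.B i • ∞) (P.B i • gq (γ : SL(2, ℤ)) • ∞)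
      = period S.1 (P.elt γ i : SL(2, ℤ))
        + (S.1 ∞ (P.B (P.perm γ i) • ∞) - S.1 ∞ (P.B i • ∞)) := fun i => by
    rw [period_eq S.2.1 (S.2.2 _ (P.elt γ i).2) (P.B (P.perm γ i) • ∞), ← mul_smul (P.B i),
      P.mul_gq, mul_smul]
    rw [← S.2.1 (P.B i • ∞) ∞ _, S.2.1.swap ∞ (P.B i • ∞),
      ← S.2.1 ∞ (P.B (P.perm γ i) • ∞) (gq _ • P.B _ • ∞)]
    abel
  rw [Finset.sum_congr rfl fun i _ => h i, Finset.sum_add_distrib, Finset.sum_sub_distrib,
    Fintype.sum_bijective _ (P.perm_bijective γ) (fun i => S.1 ∞ (P.B (P.perm γ i) • ∞))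
      (fun i => S.1 ∞ (P.B i • ∞)) fun _ => rfl, sub_self, add_zero]
  rfl

/-- `homMap` commutes with a change of coefficients. -/
theorem mapCoeff_homMap {R' : Type*} [CommRing R'] (f : R →+* R') (φ : Homs R Γ) :
    mapCoeff f (P.homMap φ) = P.homMap (mapCoeff f φ) :=
  AddMonoidHom.ext fun _ => map_sum f _ _

end Reps

namespace Corr

variable {Γ Γ' : Subgroup SL(2, ℤ)} {ι κ : Type} [Fintype ι] [Fintype κ] (P : Corr Γ Γ' ι κ)
variable {R : Type*} [CommRing R]

/-- The image of a crossing homomorphism. -/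
theorem homMap_crossR (a b : Cusp) :
    P.toReps.homMap (crossR R Γ a b) = ∑ j, crossR R Γ' (P.C j • a) (P.C j • b) := by
  refine AddMonoidHom.ext fun γ => ?_
  obtain ⟨γ, rfl⟩ := Additive.ofMul.surjective γ
  rw [Reps.homMap_apply, AddMonoidHom.finsetSum_apply]
  simp only [crossR, AddMonoidHom.comp_apply, Int.coe_castAddHom, ← Int.cast_sum]
  congr 1
  set z := UpperHalfPlane.I
  -- move the base points
  have h1 : ∀ i, crossHom Γ a b (Additive.ofMul (P.elt γ i))
      = crossing Γ a b (toReal (P.B i) • z) (toReal (P.B i) • (γ : SL(2, ℤ)) • z)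
        + (crossing Γ a b z (toReal (P.B i) • z)
          - crossing Γ a b z (toReal (P.B (P.perm γ i)) • z)) := by
    intro i
    rw [crossHom_apply Γ a b (P.elt γ i) (toReal (P.B (P.perm γ i)) • z)]
    have e : (P.elt γ i : SL(2, ℤ)) • (toReal (P.B (P.perm γ i)) • z)
        = toReal (P.B i) • (γ : SL(2, ℤ)) • z := by
      rw [← toReal_gq_smul, ← toReal_gq_smul, ← mul_smul, ← mul_smul, ← map_mul, ← map_mul,
        P.mul_gq]
    rw [e]
    have h2 := crossing_add Γ a b z (toReal (P.B (P.perm γ i)) • z)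
      (toReal (P.B i) • (γ : SL(2, ℤ)) • z)
    have h3 := crossing_add Γ a b z (toReal (P.B i) • z) (toReal (P.B i) • (γ : SL(2, ℤ)) • z)
    linarith
  simp only [h1, Finset.sum_add_distrib, Finset.sum_sub_distrib]
  rw [Fintype.sum_bijective _ (P.perm_bijective γ)
    (fun i => crossing Γ a b z (toReal (P.B (P.perm γ i)) • z))
    (fun i => crossing Γ a b z (toReal (P.B i) • z)) fun _ => rfl, sub_self, add_zero]
  simp only [crossHom_apply _ _ _ γ z]
  -- compare the two parametrisations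
  set g : GL (Fin 2) ℚ → ℤ := fun M => side (M • a) (M • b) ((γ : SL(2, ℤ)) • z)
    - side (M • a) (M • b) z with hg
  have hB : ∀ i, crossing Γ a b (toReal (P.B i) • z) (toReal (P.B i) • (γ : SL(2, ℤ)) • z)
      = ∑ᶠ d : Γ, g ((P.B i)⁻¹ * gq (d : SL(2, ℤ))) := fun i =>
    finsum_congr fun d => by simp only [crossTerm, hg, P.side_conj, mul_smul]
  have hC : ∀ j, crossing Γ' (P.C j • a) (P.C j • b) z ((γ : SL(2, ℤ)) • z)
      = ∑ᶠ d : Γ', g (gq (d : SL(2, ℤ)) * P.C j) := fun j =>
    finsum_congr fun d => by simp only [crossTerm, hg, mul_smul]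
  have fB : ∀ i, (Function.support fun d : Γ => g ((P.B i)⁻¹ * gq (d : SL(2, ℤ)))).Finite :=
    fun i => (finite_support_crossTerm Γ a b (toReal (P.B i) • z)
      (toReal (P.B i) • (γ : SL(2, ℤ)) • z)).subset fun d hd => by
        simpa only [Function.mem_support, crossTerm, hg, P.side_conj, mul_smul] using hd
  have fC : ∀ j, (Function.support fun d : Γ' => g (gq (d : SL(2, ℤ)) * P.C j)).Finite :=
    fun j => (finite_support_crossTerm Γ' (P.C j • a) (P.C j • b) z
      ((γ : SL(2, ℤ)) • z)).subset fun d hd => by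
        simpa only [Function.mem_support, crossTerm, hg, mul_smul] using hd
  simp only [hB, hC]
  choose e₁ e₂ he₂ he using fun (x : ι × Γ) => P.cover x.1 x.2.1 x.2.2
  let e : ι × Γ → κ × Γ' := fun x => (e₁ x, ⟨e₂ x, he₂ x⟩)
  have hbij : Function.Bijective e := by
    constructor
    · rintro ⟨i, d⟩ ⟨k, d'⟩ h
      simp only [e, Prod.mk.injEq, Subtype.mk.injEq] at h
      have hh : (P.B i)⁻¹ * gq (d : SL(2, ℤ)) = (P.B k)⁻¹ * gq (d' : SL(2, ℤ)) := by
        rw [he (i, d), he (k, d'), h.1, h.2]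
      have hik : i = k := by
        refine P.uniqB i k ((d' : SL(2, ℤ)) * (d : SL(2, ℤ))⁻¹) (mul_mem d'.2 (inv_mem d.2)) ?_
        rw [map_mul, map_inv]
        have h3 := congrArg (fun M => P.B k * M * (gq (d : SL(2, ℤ)))⁻¹ * P.B i) hh
        simpa [mul_assoc] using h3.symm
      refine Prod.ext hik (Subtype.ext (Reps.gq_injective (mul_left_cancel (a := (P.B i)⁻¹) ?_)))
      rw [hh, hik]
    · rintro ⟨j, γ'⟩
      obtain ⟨i, d, hd, h⟩ := P.cover' j γ'.1 γ'.2
      refine ⟨(i, ⟨d, hd⟩), ?_⟩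
      have h2 : (P.B i)⁻¹ * gq d = gq (e₂ (i, ⟨d, hd⟩)) * P.C (e₁ (i, ⟨d, hd⟩)) := he (i, ⟨d, hd⟩)
      rw [h] at h2
      have hj : e₁ (i, ⟨d, hd⟩) = j := by
        refine P.uniqC _ _ ((γ' : SL(2, ℤ))⁻¹ * e₂ (i, ⟨d, hd⟩))
          (mul_mem (inv_mem γ'.2) (he₂ _)) ?_
        rw [map_mul, mul_assoc, ← h2, map_inv, inv_mul_cancel_left]
      refine Prod.ext hj (Subtype.ext ?_)
      rw [hj, mul_left_inj] at h2
      exact (Reps.gq_injective h2).symm
  have fB' : (Function.support fun x : ι × Γ =>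
      g ((P.B x.1)⁻¹ * gq (x.2 : SL(2, ℤ)))).Finite := by
    refine (Set.finite_iUnion fun i => (fB i).image fun d => (i, d)).subset fun x hx => ?_
    exact Set.mem_iUnion.mpr ⟨x.1, x.2, hx, rfl⟩
  have fC' : (Function.support fun x : κ × Γ' =>
      g (gq (x.2 : SL(2, ℤ)) * P.C x.1)).Finite := by
    refine (Set.finite_iUnion fun j => (fC j).image fun d => (j, d)).subset fun x hx => ?_
    exact Set.mem_iUnion.mpr ⟨x.1, x.2, hx, rfl⟩
  have sB := finsum_curry _ fB'
  have sC := finsum_curry _ fC'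
  rw [← finsum_eq_sum_of_fintype, ← finsum_eq_sum_of_fintype, ← sB, ← sC]
  exact finsum_eq_of_bijective e hbij fun x => congrArg g (he x)

/-- The transpose of the operator on homomorphisms. -/
theorem dualToSymb_comp (f : Module.Dual R (Homs R Γ')) (a b : Cusp) :
    (dualToSymb R Γ (f ∘ₗ P.toReps.homMap)).1 a b
      = ∑ j, (dualToSymb R Γ' f).1 (P.C j • a) (P.C j • b) := by
  rw [dualToSymb_apply, LinearMap.comp_apply, homMap_crossR, map_sum]
  rfl

end Corr

end Fermat.HM
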