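import Fermat.Agent.HM.Crossing
import Fermat.Agent.SL2.CosetAction
import Mathlib.GroupTheory.Index
import Mathlib.GroupTheory.GroupAction.Quotient

/-!
# Homomorphisms on a congruence subgroup as cocycles on cosets; Manin symbols

The hypotheses are `GoodLevel`, and `edgeVal_rot_sum` is the three-term relation.
-/

namespace Fermat.HM

open scoped MatrixGroups
open OnePoint ModularGroup

/-- The generator of order three of `PSL(2, ℤ)`. -/
def rot : SL(2, ℤ) := ModularGroup.S * T

/-- `rot` has order dividing three in `PSL(2, ℤ)`. -/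
theorem rot_cube : rot * (rot * rot) = -1 := (pow_three rot).symm.trans SL2.ST_cube

/-- A symbol vanishing on all edges `(g 0, g ∞)` is zero. -/
theorem IsSymbol.eq_zero_of_edges {A : Type*} [AddCommGroup A] {D : Cusp → Cusp → A}
    (hD : IsSymbol D) (h : ∀ g : SL(2, ℤ), D (gq g • ((0 : ℚ) : Cusp)) (gq g • ∞) = 0)
    (x y : Cusp) : D x y = 0 := by
  let H : Subgroup SL(2, ℤ) :=
    { carrier := {k | ∀ g, D ∞ (gq (g * k) • ∞) = D ∞ (gq g • ∞)}
      one_mem' := fun g => by rw [mul_one]
      mul_mem' := fun {a b} ha hb g => by rw [← mul_assoc, hb, ha]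
      inv_mem' := fun {a} ha g => by
        have := ha (g * a⁻¹)
        rwa [inv_mul_cancel_right, eq_comm] at this }
  have hS : ModularGroup.S ∈ H := fun g => by
    have e : gq (g * ModularGroup.S) • (∞ : Cusp) = gq g • ((0 : ℚ) : Cusp) := by
      rw [map_mul, mul_smul]
      congr 1
      rw [smul_infty_eq_ite]
      simp [coe_gq, coe_S]
    rw [e, ← hD ∞ (gq g • ∞) (gq g • ((0 : ℚ) : Cusp)), hD.swap (gq g • ((0 : ℚ) : Cusp)), h g,
      neg_zero, add_zero]
  have hT : T ∈ H := fun g => by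
    rw [map_mul, mul_smul, gq_smul_infty_of_lower (g := T) (by simp [coe_T])]
  have hH : H = ⊤ := by
    rw [eq_top_iff, ← SpecialLinearGroup.SL2Z_generators, Subgroup.closure_le]
    rintro x (rfl | rfl)
    exacts [hS, hT]
  have key : ∀ z, D ∞ z = 0 := fun z => by
    obtain ⟨g, rfl⟩ := exists_gq_smul_infty z
    have := (hH ▸ Subgroup.mem_top g : g ∈ H) 1
    rw [one_mul, map_one, one_smul, hD.self_eq_zero] at this
    exact this
  rw [← hD x ∞ y, key, hD.swap ∞ x, key, neg_zero, add_zero]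

variable (Γ : Subgroup SL(2, ℤ))

/-- The left cosets of the level. -/
abbrev Cosets : Type := SL(2, ℤ) ⧸ Γ

/-- The element of `Γ` measuring the action of `g` on coset representatives. -/
noncomputable def trans (g : SL(2, ℤ)) (x : Cosets Γ) : Γ :=
  ⟨(g • x).out⁻¹ * g * x.out, by
    rw [mul_assoc, ← QuotientGroup.eq, QuotientGroup.out_eq']
    conv_lhs => rw [← QuotientGroup.out_eq' x]
    rfl⟩

/-- The formula for `trans Γ g x` in `SL(2, ℤ)`. -/
theorem coe_trans (g : SL(2, ℤ)) (x : Cosets Γ) :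
    (trans Γ g x : SL(2, ℤ)) = (g • x).out⁻¹ * g * x.out := rfl

/-- The cocycle rule for `trans` on a product. -/
theorem trans_mul (g h : SL(2, ℤ)) (x : Cosets Γ) :
    trans Γ (g * h) x = trans Γ g (h • x) * trans Γ h x := by
  apply Subtype.ext
  rw [Subgroup.coe_mul, coe_trans, coe_trans, coe_trans, mul_smul]
  group

/-- `trans` at the identity is trivial. -/
theorem trans_one (x : Cosets Γ) : trans Γ 1 x = 1 := by
  apply Subtype.ext
  simp [coe_trans]

/-- `trans` at `-1` is `-1`, for a level containing it. -/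
theorem coe_trans_neg_one (hneg : -1 ∈ Γ) (x : Cosets Γ) :
    (trans Γ (-1) x : SL(2, ℤ)) = -1 := by
  rw [coe_trans, SL2.neg_one_smul_coset hneg, mul_assoc]
  simp

/-- `rot` has order dividing three on the cosets of a level containing `-1`. -/
theorem smul_rot_cube (hneg : -1 ∈ Γ) (x : Cosets Γ) : rot • rot • rot • x = x :=
  SL2.ST_smul_cube hneg x

variable {R : Type*} [CommRing R]

/-- The cocycle of a homomorphism. -/
noncomputable def cocyc (φ : Additive Γ →+ R) (g : SL(2, ℤ)) (x : Cosets Γ) : R :=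
  φ (Additive.ofMul (trans Γ g x))

/-- The cocycle rule for `cocyc` on a product. -/
theorem cocyc_mul (φ : Additive Γ →+ R) (g h : SL(2, ℤ)) (x : Cosets Γ) :
    cocyc Γ φ (g * h) x = cocyc Γ φ g (h • x) + cocyc Γ φ h x := by
  rw [cocyc, trans_mul, ofMul_mul, map_add]; rfl

/-- `cocyc` at the identity is zero. -/
theorem cocyc_one (φ : Additive Γ →+ R) (x : Cosets Γ) : cocyc Γ φ 1 x = 0 := by
  rw [cocyc, trans_one, ofMul_one, map_zero]

/-- A homomorphism whose cocycle is a coboundary on the generators is zero. -/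
theorem eq_zero_of_coboundary {φ : Additive Γ →+ R} (P : Cosets Γ → R)
    (hS : ∀ x, cocyc Γ φ ModularGroup.S x = P (ModularGroup.S • x) - P x)
    (hR : ∀ x, cocyc Γ φ rot x = P (rot • x) - P x) : φ = 0 := by
  let H : Subgroup SL(2, ℤ) :=
    { carrier := {g | ∀ x, cocyc Γ φ g x = P (g • x) - P x}
      one_mem' := fun x => by rw [cocyc_one, one_smul, sub_self]
      mul_mem' := fun {a b} ha hb x => by rw [cocyc_mul, ha, hb, mul_smul]; ring
      inv_mem' := fun {a} ha x => by
        have h := cocyc_mul Γ φ a a⁻¹ x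
        rw [mul_inv_cancel, cocyc_one, ha, smul_inv_smul] at h
        linear_combination -h }
  have h1 : ModularGroup.S ∈ H := hS
  have h2 : rot ∈ H := hR
  have hT : T ∈ H := by
    rw [show (T : SL(2, ℤ)) = ModularGroup.S⁻¹ * rot from (inv_mul_cancel_left _ _).symm]
    exact mul_mem (inv_mem h1) h2
  have hH : H = ⊤ := by
    rw [eq_top_iff, ← SpecialLinearGroup.SL2Z_generators, Subgroup.closure_le]
    rintro x (rfl | rfl)
    exacts [h1, hT]
  refine AddMonoidHom.ext fun γ => ?_
  obtain ⟨γ, rfl⟩ := Additive.ofMul.surjective γ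
  set x₀ : Cosets Γ := QuotientGroup.mk 1 with hx₀
  have he : x₀.out ∈ Γ := by
    have h : (QuotientGroup.mk 1 : Cosets Γ) = QuotientGroup.mk x₀.out := by
      rw [QuotientGroup.out_eq']
    simpa using QuotientGroup.eq.mp h
  have hfix : (γ : SL(2, ℤ)) • x₀ = x₀ := by
    change (QuotientGroup.mk ((γ : SL(2, ℤ)) * 1) : Cosets Γ) = QuotientGroup.mk 1
    rw [QuotientGroup.eq]; simp
  have h := (hH ▸ Subgroup.mem_top (γ : SL(2, ℤ)) : (γ : SL(2, ℤ)) ∈ H) x₀
  rw [hfix, sub_self, cocyc,
    show trans Γ (γ : SL(2, ℤ)) x₀ = (⟨x₀.out, he⟩ : Γ)⁻¹ * γ * ⟨x₀.out, he⟩ from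
      Subtype.ext (by simp [coe_trans, hfix])] at h
  simpa [ofMul_mul] using h

/-- The hypotheses on a level and coefficients: `-1` is in the level, the index is finite, two is
invertible, and three is invertible or the level has no element of order three. -/
structure GoodLevel (R : Type*) [CommRing R] (Γ : Subgroup SL(2, ℤ)) : Prop where
  /-- `-1` belongs to the level. -/
  neg_mem : -1 ∈ Γ
  /-- The level has finite index. -/
  finite : Finite (Cosets Γ)
  /-- Two is invertible. -/
  two : IsUnit (2 : R)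
  /-- Three is invertible, or `rot` fixes no coset. -/
  three : IsUnit (3 : R) ∨ ∀ x : Cosets Γ, rot • x ≠ x

namespace GoodLevel

variable {Γ}

/-- Four is invertible in the coefficients of a good level. -/
theorem four (hΓ : GoodLevel R Γ) : IsUnit (4 : R) := by
  rw [show (4 : R) = 2 * 2 by norm_num]
  exact hΓ.two.mul hΓ.two

/-- A solution of `b (R x) - b x = v x` for `v` summing to zero on the orbits of `R`. -/
noncomputable def solve (R : Type*) [CommRing R] (Γ : Subgroup SL(2, ℤ))
    (v : Cosets Γ → R) : Cosets Γ → R :=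
  open scoped Classical in
  if h : IsUnit (3 : R) then fun x => -((h.unit⁻¹ : Rˣ) : R) * (2 * v x + v (rot • x))
  else if _ : Finite (Cosets Γ) then
    let e := fun x => (Finite.equivFin (Cosets Γ) x : ℕ)
    fun x => if e x ≤ e (rot • x) ∧ e x ≤ e (rot • rot • x) then 0
      else if e (rot • rot • x) ≤ e x ∧ e (rot • rot • x) ≤ e (rot • x) then v (rot • rot • x)
      else v (rot • x) + v (rot • rot • x)
  else 0

/-- `solve` is additive. -/
theorem solve_add (v w : Cosets Γ → R) : solve R Γ (v + w) = solve R Γ v + solve R Γ w := by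
  funext x
  simp only [solve]
  split_ifs with h hf <;> simp only [Pi.add_apply, Pi.zero_apply, add_zero]
  · ring
  · split_ifs <;> ring

/-- `solve` commutes with scalars. -/
theorem solve_smul (c : R) (v : Cosets Γ → R) : solve R Γ (c • v) = c • solve R Γ v := by
  funext x
  simp only [solve]
  split_ifs with h hf <;> simp only [Pi.smul_apply, smul_eq_mul, Pi.zero_apply, mul_zero]
  · ring
  · split_ifs <;> ring

/-- `solve` inverts the difference along `rot` on functions with vanishing sums over its orbits. -/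
theorem solve_spec (hΓ : GoodLevel R Γ) {v : Cosets Γ → R}
    (hv : ∀ x, v x + v (rot • x) + v (rot • rot • x) = 0) (x : Cosets Γ) :
    solve R Γ v (rot • x) - solve R Γ v x = v x := by
  have := hΓ.finite
  simp only [solve]
  split_ifs with h
  · have h3 := h.val_inv_mul
    linear_combination (-((h.unit⁻¹ : Rˣ) : R)) * hv x + v x * h3
  · have hfree := hΓ.three.resolve_left h
    dsimp only
    set e := fun x => (Finite.equivFin (Cosets Γ) x : ℕ) with he
    have hinj : ∀ {a b}, e a = e b → a = b := fun hab =>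
      (Finite.equivFin (Cosets Γ)).injective (Fin.ext hab)
    have hc := smul_rot_cube Γ hΓ.neg_mem x
    have d1 : e (rot • x) ≠ e x := fun hh => hfree x (hinj hh)
    have d2 : e (rot • rot • x) ≠ e (rot • x) := fun hh => hfree _ (hinj hh)
    have d3 : e x ≠ e (rot • rot • x) := fun hh => hfree (rot • rot • x) (by rw [hc]; exact hinj hh)
    rw [hc]
    simp only [he] at d1 d2 d3
    split_ifs <;>
      first | (exfalso; omega) | linear_combination hv x | linear_combination -(hv x) | ring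

/-- An invariant function is a sum over an orbit. -/
theorem exists_orbit_sum (hΓ : GoodLevel R Γ) {i : Cosets Γ → R} (hi : ∀ x, i (rot • x) = i x) :
    ∃ w : Cosets Γ → R, ∀ x, i x = w x + w (rot • x) + w (rot • rot • x) := by
  classical
  have := hΓ.finite
  by_cases h : IsUnit (3 : R)
  · refine ⟨fun x => ((h.unit⁻¹ : Rˣ) : R) * i x, fun x => ?_⟩
    have h3 := h.val_inv_mul
    simp only [hi]
    linear_combination -(i x) * h3
  · have hfree := hΓ.three.resolve_left h
    set e := fun x => (Finite.equivFin (Cosets Γ) x : ℕ) with he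
    refine ⟨fun x => if e x ≤ e (rot • x) ∧ e x ≤ e (rot • rot • x) then i x else 0, fun x => ?_⟩
    have hinj : ∀ {a b}, e a = e b → a = b := fun hab =>
      (Finite.equivFin (Cosets Γ)).injective (Fin.ext hab)
    have hc := smul_rot_cube Γ hΓ.neg_mem x
    have d1 : e (rot • x) ≠ e x := fun hh => hfree x (hinj hh)
    have d2 : e (rot • rot • x) ≠ e (rot • x) := fun hh => hfree _ (hinj hh)
    have d3 : e x ≠ e (rot • rot • x) := fun hh => hfree (rot • rot • x) (by rw [hc]; exact hinj hh)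
    simp only [hc, hi]
    split_ifs <;> first | (exfalso; omega) | ring

end GoodLevel

/-- The edge attached to a coset. -/
noncomputable def edgeVal {A : Type*} (S : Cusp → Cusp → A) (x : Cosets Γ) : A :=
  S (gq x.out⁻¹ • ((0 : ℚ) : Cusp)) (gq x.out⁻¹ • ∞)

/-- The edge value at the coset of `g` is the value on the edge `(g⁻¹ 0, g⁻¹ ∞)`. -/
theorem edgeVal_mk {A : Type*} {S : Cusp → Cusp → A} (hinv : ∀ γ ∈ Γ, InvariantBy S (gq γ))
    (g : SL(2, ℤ)) :
    edgeVal Γ S (QuotientGroup.mk g) = S (gq g⁻¹ • ((0 : ℚ) : Cusp)) (gq g⁻¹ • ∞) := by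
  set γ := g⁻¹ * (QuotientGroup.mk g : Cosets Γ).out with hγ
  have hmem : γ ∈ Γ := by
    rw [hγ, ← QuotientGroup.eq, QuotientGroup.out_eq']
  have e : (QuotientGroup.mk g : Cosets Γ).out⁻¹ = γ⁻¹ * g⁻¹ := by rw [hγ]; group
  rw [edgeVal, e, map_mul, mul_smul, mul_smul, hinv _ (inv_mem hmem)]

/-- The edge value at a translate `g • x`, in terms of the representative of `x`. -/
theorem edgeVal_smul {A : Type*} {S : Cusp → Cusp → A} (hinv : ∀ γ ∈ Γ, InvariantBy S (gq γ))
    (g : SL(2, ℤ)) (x : Cosets Γ) :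
    edgeVal Γ S (g • x)
      = S (gq x.out⁻¹ • gq g⁻¹ • ((0 : ℚ) : Cusp)) (gq x.out⁻¹ • gq g⁻¹ • ∞) := by
  conv_lhs => rw [← QuotientGroup.out_eq' x]
  change edgeVal Γ S (QuotientGroup.mk (g * x.out)) = _
  rw [edgeVal_mk Γ hinv, mul_inv_rev, map_mul, mul_smul, mul_smul]

/-- `S⁻¹` sends `0` to `∞`. -/
theorem gq_S_inv_zero : gq ModularGroup.S⁻¹ • ((0 : ℚ) : Cusp) = ∞ := by
  rw [smul_some_eq_ite]
  simp [coe_gq, coe_S, Matrix.adjugate_fin_two, -map_inv]

/-- `S⁻¹` sends `∞` to `0`. -/
theorem gq_S_inv_infty : gq ModularGroup.S⁻¹ • (∞ : Cusp) = ((0 : ℚ) : Cusp) := by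
  rw [smul_infty_eq_ite]
  simp [coe_gq, coe_S, Matrix.adjugate_fin_two, -map_inv]

/-- `rot⁻¹` sends `0` to `∞`. -/
theorem gq_rot_inv_zero : gq rot⁻¹ • ((0 : ℚ) : Cusp) = ∞ := by
  rw [smul_some_eq_ite]
  simp [coe_gq, rot, coe_S, coe_T, Matrix.adjugate_fin_two, -map_inv, -map_mul]

/-- `rot⁻¹` sends `∞` to `-1`. -/
theorem gq_rot_inv_infty : gq rot⁻¹ • (∞ : Cusp) = ((-1 : ℚ) : Cusp) := by
  rw [smul_infty_eq_ite]
  simp [coe_gq, rot, coe_S, coe_T, Matrix.adjugate_fin_two, -map_inv, -map_mul]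

/-- `rot⁻¹` sends `-1` to `0`. -/
theorem gq_rot_inv_neg_one : gq rot⁻¹ • ((-1 : ℚ) : Cusp) = ((0 : ℚ) : Cusp) := by
  rw [smul_some_eq_ite]
  simp [coe_gq, rot, coe_S, coe_T, Matrix.adjugate_fin_two, -map_inv, -map_mul]

/-- The two-term relation of Manin symbols. -/
theorem edgeVal_S_smul {A : Type*} [AddCommGroup A] {S : Cusp → Cusp → A} (hS : IsSymbol S)
    (hinv : ∀ γ ∈ Γ, InvariantBy S (gq γ)) (x : Cosets Γ) :
    edgeVal Γ S (ModularGroup.S • x) = -edgeVal Γ S x := by
  rw [edgeVal_smul Γ hinv, gq_S_inv_zero, gq_S_inv_infty, edgeVal, hS.swap]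

/-- The three-term relation of Manin symbols. -/
theorem edgeVal_rot_sum {A : Type*} [AddCommGroup A] {S : Cusp → Cusp → A} (hS : IsSymbol S)
    (hinv : ∀ γ ∈ Γ, InvariantBy S (gq γ)) (x : Cosets Γ) :
    edgeVal Γ S x + edgeVal Γ S (rot • x) + edgeVal Γ S (rot • rot • x) = 0 := by
  rw [smul_smul rot rot x, edgeVal_smul Γ hinv, edgeVal_smul Γ hinv, edgeVal, gq_rot_inv_zero,
    gq_rot_inv_infty]
  simp only [mul_inv_rev, map_mul, mul_smul, gq_rot_inv_zero, gq_rot_inv_infty, gq_rot_inv_neg_one]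
  rw [hS, hS, hS.self_eq_zero]

/-- A symbol is determined by its edge values. -/
theorem IsSymbol.ext_edges {A : Type*} [AddCommGroup A] {S S' : Cusp → Cusp → A} (hS : IsSymbol S)
    (hS' : IsSymbol S') (hinv : ∀ γ ∈ Γ, InvariantBy S (gq γ))
    (hinv' : ∀ γ ∈ Γ, InvariantBy S' (gq γ)) (h : ∀ x, edgeVal Γ S x = edgeVal Γ S' x) :
    S = S' := by
  funext x y
  rw [← sub_eq_zero]
  refine IsSymbol.eq_zero_of_edges (D := fun x y => S x y - S' x y)
    (fun a b c => by simp only [← hS a b c, ← hS' a b c]; abel) (fun g => ?_) x y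
  have := h (QuotientGroup.mk g⁻¹)
  rw [edgeVal_mk Γ hinv, edgeVal_mk Γ hinv', inv_inv] at this
  exact sub_eq_zero.mpr this

end Fermat.HM
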