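import Fermat.Agent.HM.Side
import Mathlib.Analysis.Complex.Basic

/-!
# Crossing numbers

`crossing Γ a b z w` counts, with signs, the `Γ`-translates of the geodesic from `a` to `b` which
separate `z` from `w`.  As a function of `(z, γ z)` it is a homomorphism on `Γ`, additive in the
geodesic.
-/

namespace Fermat.HM

open scoped MatrixGroups
open OnePoint UpperHalfPlane

/-- The sum of the three sides of a triangle with vertices at cusps. -/
noncomputable def tri (a b c : Cusp) (z : ℍ) : ℤ := side a b z + side b c z + side c a z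

/-- Exchanging two vertices negates `tri`. -/
theorem tri_swap (a b c : Cusp) (z : ℍ) : tri b a c z = -tri a b c z := by
  simp only [tri]
  rw [side_swap a b, side_swap c a, side_swap b c]
  ring

/-- Equivariance of `tri` under `GL(2, ℚ)⁺`. -/
theorem tri_smul (g : GL (Fin 2) ℚ) (hg : 0 < (g : Matrix (Fin 2) (Fin 2) ℚ).det) (a b c : Cusp)
    (z : ℍ) : tri (g • a) (g • b) (g • c) (toReal g • z) = tri a b c z := by
  simp only [tri, side_smul g hg]

/-- A point where the triangle `∞, 0, 1` does not take the value `-1` is in the strip outside the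
circle on `[0, 1]`. -/
theorem mem_of_tri_ne {w : ℍ}
    (h : tri ∞ ((0 : ℚ) : Cusp) ((1 : ℚ) : Cusp) w ≠ -1) :
    0 ≤ w.re ∧ w.re ≤ 1 ∧ w.re ≤ Complex.normSq (w : ℂ) := by
  have e : tri ∞ ((0 : ℚ) : Cusp) ((1 : ℚ) : Cusp) w = -((SignType.sign w.re : ℤ)
      + (SignType.sign (1 - w.re) : ℤ) + (SignType.sign (Complex.normSq (w : ℂ) - w.re) : ℤ)) := by
    rw [← side_zero_infty, ← side_infty_one, ← side_one_zero]
    simp only [tri]
    rw [side_swap ∞ ((0 : ℚ) : Cusp), side_swap ((0 : ℚ) : Cusp) ((1 : ℚ) : Cusp),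
      side_swap ((1 : ℚ) : Cusp) ∞]
    ring
  have hn : Complex.normSq (w : ℂ) = w.re * w.re + w.im * w.im := by
    rw [Complex.normSq_apply]; rfl
  by_contra hc
  apply h
  rw [e]
  simp only [not_and_or, not_le] at hc
  have hy := mul_pos w.im_pos w.im_pos
  rcases hc with h0 | h1 | h2
  · rw [sign_neg h0, sign_pos (by linarith : 0 < 1 - w.re),
      sign_pos (by nlinarith : 0 < Complex.normSq (w : ℂ) - w.re)]
    rfl
  · rw [sign_pos (by linarith : (0 : ℝ) < w.re), sign_neg (by linarith : 1 - w.re < 0),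
      sign_pos (by nlinarith : 0 < Complex.normSq (w : ℂ) - w.re)]
    rfl
  · rw [sign_pos (by nlinarith : (0 : ℝ) < w.re), sign_pos (by nlinarith : 0 < 1 - w.re),
      sign_neg (by linarith : Complex.normSq (w : ℂ) - w.re < 0)]
    rfl

/-- The image of `z` under an integral matrix of determinant `D > 0`. -/
noncomputable def intSmul (K : Matrix (Fin 2) (Fin 2) ℤ) (h : 0 < K.det) (z : ℍ) : ℍ :=
  toReal (intMat K h.ne') • z

/-- `intSmul K h z` is the linear fractional image of `z`. -/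
theorem coe_intSmul (K : Matrix (Fin 2) (Fin 2) ℤ) (h : 0 < K.det) (z : ℍ) :
    (intSmul K h z : ℂ) = ((K 0 0 : ℂ) * z + K 0 1) / ((K 1 0 : ℂ) * z + K 1 1) := by
  have hpos : (0 : ℝ) < (toReal (intMat K h.ne')).det.val := by
    rw [Matrix.GeneralLinearGroup.val_det_apply, Matrix.det_fin_two]
    simp only [toReal_apply, coe_intMat, Matrix.map_apply]
    rw [Matrix.det_fin_two] at h
    push_cast
    exact_mod_cast h
  rw [intSmul, coe_smul_of_det_pos hpos]
  simp [num, denom, toReal_apply, coe_intMat]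

/-- The imaginary part of the image. -/
theorem im_intSmul (K : Matrix (Fin 2) (Fin 2) ℤ) (h : 0 < K.det) (z : ℍ) :
    (intSmul K h z).im = (K.det : ℝ) * z.im / Complex.normSq ((K 1 0 : ℂ) * z + K 1 1) := by
  rw [intSmul, im_smul_eq_div_normSq, Matrix.GeneralLinearGroup.val_det_apply, Matrix.det_fin_two,
    Matrix.det_fin_two]
  simp only [denom, toReal_apply, coe_intMat, Matrix.map_apply]
  push_cast
  rw [abs_of_pos]
  rw [Matrix.det_fin_two] at h
  exact_mod_cast h

/-- The norm of `k z + l` is bounded below by `min ((im z) ^ 2) 1`. -/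
theorem normSq_row_ge (z : ℍ) {k l : ℤ} (h : k ≠ 0 ∨ l ≠ 0) :
    min (z.im ^ 2) 1 ≤ Complex.normSq ((k : ℂ) * z + l) := by
  have e : Complex.normSq ((k : ℂ) * z + l) = (k * z.re + l) ^ 2 + (k * z.im) ^ 2 := by
    simp [Complex.normSq_apply]; ring
  rw [e]
  rcases eq_or_ne k 0 with rfl | hk
  · have hl : (1 : ℝ) ≤ (l : ℝ) ^ 2 := by
      have hl1 : (1 : ℤ) ≤ l ^ 2 :=
        Int.add_one_le_iff.mpr (sq_pos_iff.mpr (h.resolve_left (by simp)))
      exact_mod_cast hl1
    simpa using le_trans (min_le_right _ _) hl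
  · have hk2 : (1 : ℝ) ≤ (k : ℝ) ^ 2 := by
      have hk1 : (1 : ℤ) ≤ k ^ 2 := Int.add_one_le_iff.mpr (sq_pos_iff.mpr hk)
      exact_mod_cast hk1
    refine le_trans (min_le_left _ _) ?_
    nlinarith [sq_nonneg ((k : ℝ) * z.re + l), sq_nonneg z.im]

/-- An upper bound for the imaginary part of any such image. -/
theorem im_intSmul_le (K : Matrix (Fin 2) (Fin 2) ℤ) (h : 0 < K.det) (z : ℍ) :
    (intSmul K h z).im ≤ (K.det : ℝ) * z.im / min (z.im ^ 2) 1 := by
  rw [im_intSmul]
  refine div_le_div_of_nonneg_left (mul_nonneg (by exact_mod_cast h.le) z.im_pos.le)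
    (lt_min (pow_pos z.im_pos 2) one_pos) (normSq_row_ge z ?_)
  by_contra hc
  push Not at hc
  rw [Matrix.det_fin_two, hc.1, hc.2] at h
  simp at h

/-- An image of `z` in the triangle `∞, 0, 1` is not too close to its vertex `t ∈ {0, 1}`. -/
private theorem le_im_intSmul_of_near {K : Matrix (Fin 2) (Fin 2) ℤ} {D : ℤ} (hKD : K.det = D)
    (h : 0 < K.det) (z : ℍ) (hx0 : 0 ≤ (intSmul K h z).re) (hx1 : (intSmul K h z).re ≤ 1)
    (hxn : (intSmul K h z).re ≤ Complex.normSq (intSmul K h z : ℂ)) {t : ℤ}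
    (ht : ((t : ℝ) = 0 ∧ (intSmul K h z).re ≤ 1 / 2) ∨
      ((t : ℝ) = 1 ∧ 1 / 2 ≤ (intSmul K h z).re)) :
    min (1 / 2) (1 / (2 * ((D : ℝ) * z.im / min (z.im ^ 2) 1))) ≤ (intSmul K h z).im := by
  set H : ℝ := (D : ℝ) * z.im / min (z.im ^ 2) 1 with hH
  set w := intSmul K h z with hw
  have hDR : (0 : ℝ) < D := by exact_mod_cast hKD ▸ h
  have hHpos : 0 < H := div_pos (mul_pos hDR z.im_pos) (lt_min (pow_pos z.im_pos 2) one_pos)
  rcases le_or_gt (1 / 2) w.im with h12 | h12
  · exact (min_le_left _ _).trans h12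
  -- `[0, -1; 1, -t] K`
  set K' : Matrix (Fin 2) (Fin 2) ℤ := !![0, -1; 1, -t] * K with hK'
  have hK'd : K'.det = K.det := by rw [hK', Matrix.det_mul, Matrix.det_fin_two_of]; ring
  have h' : 0 < K'.det := hK'd ▸ h
  have hle := im_intSmul_le K' h' z
  rw [im_intSmul] at hle
  simp only [hK'd, hKD] at hle
  rw [← hH] at hle
  have hj0 : (K 1 0 : ℂ) * z + K 1 1 ≠ 0 := by
    have := denom_ne_zero (toReal (intMat K h.ne')) z
    simpa [denom, toReal_apply, coe_intMat] using this
  have e10 : K' 1 0 = K 0 0 - t * K 1 0 := by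
    simp [hK', Matrix.vecMul, dotProduct, Fin.sum_univ_two]; ring
  have e11 : K' 1 1 = K 0 1 - t * K 1 1 := by
    simp [hK', Matrix.vecMul, dotProduct, Fin.sum_univ_two]; ring
  have ej : (K' 1 0 : ℂ) * z + K' 1 1 = ((w : ℂ) - t) * ((K 1 0 : ℂ) * z + K 1 1) := by
    rw [e10, e11, hw, coe_intSmul, sub_mul, div_mul_cancel₀ _ hj0]
    push_cast; ring
  -- If `w` is low it is close to `t`, and the matrix moving `t` to `∞` bounds its height below.
  have hwt : Complex.normSq ((w : ℂ) - t) ≤ 2 * w.im ^ 2 := by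
    have hn : Complex.normSq (w : ℂ) = w.re * w.re + w.im * w.im := by
      rw [Complex.normSq_apply]; rfl
    rw [hn] at hxn
    simp only [Complex.normSq_apply, Complex.sub_re, Complex.sub_im, Complex.intCast_re,
      Complex.intCast_im, coe_re, coe_im, sub_zero]
    rcases ht with ⟨ht0, hh⟩ | ⟨ht0, hh⟩
    · rw [ht0]
      have hxy : w.re ≤ 2 * w.im ^ 2 := by nlinarith
      nlinarith [mul_le_mul hxy hxy hx0 (by positivity)]
    · rw [ht0]
      have hxy : 1 - w.re ≤ 2 * w.im ^ 2 := by nlinarith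
      nlinarith [mul_le_mul hxy hxy (by linarith) (by positivity)]
  rw [ej, map_mul] at hle
  have him : w.im = (D : ℝ) * z.im / Complex.normSq ((K 1 0 : ℂ) * z + K 1 1) := by
    rw [hw, im_intSmul, hKD]
  rw [mul_comm (Complex.normSq _), ← div_div, ← him] at hle
  have hnpos : 0 < Complex.normSq ((w : ℂ) - t) := by
    refine Complex.normSq_pos.mpr fun h0 => ?_
    have := congrArg Complex.im h0
    simp at this
    exact w.im_pos.ne' this
  rw [div_le_iff₀ hnpos] at hle
  have h2 : 1 ≤ 2 * H * w.im := by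
    nlinarith [w.im_pos, mul_le_mul_of_nonneg_left hwt hHpos.le]
  refine (min_le_right _ _).trans ?_
  rw [div_le_iff₀ (by positivity)]
  linarith

/-- A bound on `k z + l` bounds `k` and `l`. -/
private theorem abs_le_of_norm_row_le (z : ℍ) {k l : ℤ} {R : ℝ} (hR : ‖(k : ℂ) * z + l‖ ≤ R) :
    |(k : ℝ)| ≤ R * (1 / z.im) ∧ |(l : ℝ)| ≤ R + R * (1 / z.im) * |z.re| := by
  have him : |(k : ℝ) * z.im| ≤ R := by
    refine le_trans ?_ hR
    simpa using Complex.abs_im_le_norm ((k : ℂ) * z + l)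
  have hre : |(k : ℝ) * z.re + l| ≤ R := by
    refine le_trans ?_ hR
    simpa using Complex.abs_re_le_norm ((k : ℂ) * z + l)
  rw [abs_mul, abs_of_pos z.im_pos] at him
  have hk : |(k : ℝ)| ≤ R * (1 / z.im) := by rwa [mul_one_div, le_div_iff₀ z.im_pos]
  refine ⟨hk, ?_⟩
  calc |(l : ℝ)| = |((k : ℝ) * z.re + l) - k * z.re| := by ring_nf
    _ ≤ |(k : ℝ) * z.re + l| + |(k : ℝ) * z.re| := abs_sub _ _
    _ ≤ R + R * (1 / z.im) * |z.re| := by
        rw [abs_mul]
        exact add_le_add hre (mul_le_mul_of_nonneg_right hk (abs_nonneg _))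

/-- Both bounds on the entries of a row lie below the common bound. -/
private theorem row_bound_le {J H x y : ℝ} (hJ0 : 0 ≤ J) (hH : 0 ≤ H) (hy : 0 < y) :
    J * (1 + H) * (1 / y) ≤ J * (1 + 1 / y) * (3 + H + |x| + y) ^ 2 ∧
      J * (1 + H) + J * (1 + H) * (1 / y) * |x| ≤ J * (1 + 1 / y) * (3 + H + |x| + y) ^ 2 := by
  set P := 3 + H + |x| + y with hPdef
  have hi : 0 ≤ 1 / y := (one_div_pos.mpr hy).le
  have hP : 1 + H ≤ P := by linarith [abs_nonneg x]
  have hP1 : 1 ≤ P := by linarith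
  have hx' : |x| ≤ P := by linarith
  constructor
  · have e1 : (1 + H) * (1 / y) ≤ (1 + 1 / y) * P ^ 2 := by
      nlinarith [mul_le_mul_of_nonneg_right hP hi,
        mul_nonneg hi (by nlinarith : (0 : ℝ) ≤ P ^ 2 - P)]
    nlinarith [mul_le_mul_of_nonneg_left e1 hJ0]
  · have e1 : (1 + H) + (1 + H) * (1 / y) * |x| ≤ (1 + 1 / y) * P ^ 2 := by
      nlinarith [mul_le_mul hP hx' (abs_nonneg _) (by linarith),
        mul_le_mul_of_nonneg_right hP1 (by linarith : (0:ℝ) ≤ P),
        mul_le_mul_of_nonneg_left (mul_le_mul hP hx' (abs_nonneg _) (by linarith)) hi]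
    nlinarith [mul_le_mul_of_nonneg_left e1 hJ0]

/-- Integral matrices of fixed determinant mapping `z` into the ideal triangle `∞, 0, 1` are
finite in number. -/
theorem finite_intSmul_mem (D : ℤ) (z : ℍ) :
    {K : Matrix (Fin 2) (Fin 2) ℤ | K.det = D ∧ ∃ h : 0 < K.det, 0 ≤ (intSmul K h z).re ∧
      (intSmul K h z).re ≤ 1 ∧ (intSmul K h z).re ≤ Complex.normSq (intSmul K h z : ℂ)}.Finite := by
  set H : ℝ := (D : ℝ) * z.im / min (z.im ^ 2) 1 with hH
  set ε : ℝ := min (1 / 2) (1 / (2 * H)) with hε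
  set J : ℝ := (D : ℝ) * z.im / ε + 1 with hJ
  set B : ℝ := J * (1 + 1 / z.im) * (3 + H + |z.re| + z.im) ^ 2 with hB
  refine Set.Finite.subset (s := {K : Matrix (Fin 2) (Fin 2) ℤ | ∀ i j, K i j ∈ Set.Icc (-⌈B⌉) ⌈B⌉})
    (Set.Finite.pi' fun _ : Fin 2 => Set.Finite.pi' fun _ : Fin 2 =>
      Set.finite_Icc (-⌈B⌉) ⌈B⌉) ?_
  rintro K ⟨hKD, h, hx0, hx1, hxn⟩
  set w := intSmul K h z with hw
  have hD : 0 < D := hKD ▸ h
  have hDR : (0 : ℝ) < D := by exact_mod_cast hD
  have hHpos : 0 < H := div_pos (mul_pos hDR z.im_pos) (lt_min (pow_pos z.im_pos 2) one_pos)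
  have hwH : w.im ≤ H := by rw [hH, ← hKD]; exact im_intSmul_le K h z
  -- the point is not too close to the real axis
  have hεw : ε ≤ w.im := by
    rcases le_total w.re (1 / 2) with hh | hh
    · exact le_im_intSmul_of_near hKD h z hx0 hx1 hxn (t := 0) (Or.inl ⟨by simp, hh⟩)
    · exact le_im_intSmul_of_near hKD h z hx0 hx1 hxn (t := 1) (Or.inr ⟨by simp, hh⟩)
  have hεpos : 0 < ε := lt_min (by norm_num) (by positivity)
  set j := (K 1 0 : ℂ) * z + K 1 1 with hj
  -- So the bottom row is bounded, hence also the top row, and every entry by `B`.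
  have hjn : Complex.normSq j ≤ (D : ℝ) * z.im / ε := by
    have him : w.im = (D : ℝ) * z.im / Complex.normSq j := by rw [hw, im_intSmul, hKD]
    rcases eq_or_lt_of_le (Complex.normSq_nonneg j) with h0 | h0
    · rw [← h0]; positivity
    rw [le_div_iff₀ hεpos]
    rw [him, le_div_iff₀ h0] at hεw
    linarith
  have hjJ : ‖j‖ ≤ J := by
    rw [Complex.normSq_eq_norm_sq] at hjn
    nlinarith [norm_nonneg j, sq_nonneg (‖j‖ - 1)]
  have hJ0 : 0 ≤ J := (norm_nonneg j).trans hjJ
  have hwnorm : ‖(w : ℂ)‖ ≤ 1 + H := by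
    refine (Complex.norm_le_abs_re_add_abs_im _).trans ?_
    rw [coe_re, coe_im, abs_of_nonneg hx0, abs_of_pos w.im_pos]
    linarith
  have htop : ‖(K 0 0 : ℂ) * z + K 0 1‖ ≤ J * (1 + H) := by
    have e : (K 0 0 : ℂ) * z + K 0 1 = j * (w : ℂ) := by
      rw [hw, coe_intSmul, mul_div_cancel₀]
      have := denom_ne_zero (toReal (intMat K h.ne')) z
      simpa [hj, denom, toReal_apply, coe_intMat] using this
    rw [e, norm_mul]
    exact mul_le_mul hjJ hwnorm (norm_nonneg _) hJ0
  have hi : 0 ≤ 1 / z.im := (one_div_pos.mpr z.im_pos).le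
  have fin : ∀ k : ℤ, ∀ R : ℝ, R ≤ J * (1 + H) →
      |(k : ℝ)| ≤ R * (1 / z.im) ∨ |(k : ℝ)| ≤ R + R * (1 / z.im) * |z.re| →
      k ∈ Set.Icc (-⌈B⌉) ⌈B⌉ := by
    intro k R hR hk
    have hb : |(k : ℝ)| ≤ B := by
      have h1 : R * (1 / z.im) ≤ J * (1 + H) * (1 / z.im) := mul_le_mul_of_nonneg_right hR hi
      have h2 : R * (1 / z.im) * |z.re| ≤ J * (1 + H) * (1 / z.im) * |z.re| :=
        mul_le_mul_of_nonneg_right h1 (abs_nonneg _)
      have hB1 := row_bound_le (x := z.re) hJ0 hHpos.le z.im_pos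
      rw [← hB] at hB1
      obtain ⟨hB1, hB2⟩ := hB1
      rcases hk with hk | hk <;> linarith
    have : (|k| : ℝ) ≤ ⌈B⌉ := hb.trans (Int.le_ceil B)
    exact Set.mem_Icc.mpr (abs_le.mp (by exact_mod_cast this))
  intro i j'
  have hJle : J ≤ J * (1 + H) := le_mul_of_one_le_right hJ0 (by linarith)
  fin_cases i <;> fin_cases j'
  · exact fin _ _ le_rfl (Or.inl (abs_le_of_norm_row_le z htop).1)
  · exact fin _ _ le_rfl (Or.inr (abs_le_of_norm_row_le z htop).2)
  · exact fin _ _ hJle (Or.inl (abs_le_of_norm_row_le z hjJ).1)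
  · exact fin _ _ hJle (Or.inr (abs_le_of_norm_row_le z hjJ).2)

/-- The image of a cusp, computed on representatives up to a scalar. -/
theorem isRep_smul_eq {a : Cusp} {u c u' c' : ℚ} {b : Cusp} (g : GL (Fin 2) ℚ) (ha : IsRep a u c)
    (hb : IsRep b u' c') {s : ℚ} (hs : s ≠ 0) (h0 : g 0 0 * u + g 0 1 * c = s * u')
    (h1 : g 1 0 * u + g 1 1 * c = s * c') : g • a = b := by
  have h := ha.smul g
  rw [h0, h1] at h
  rcases eq_or_ne c' 0 with rfl | hc'
  · rw [mul_zero] at h
    rw [h.eq_infty, hb.eq_infty]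
  · rw [h.eq_coe (mul_ne_zero hs hc'), hb.eq_coe hc', mul_div_mul_left _ _ hs]

/-- Cusps whose reduced coordinates are proportional are equal. -/
theorem eq_of_cNum_mul_cDen_sub_eq_zero {x y : Cusp} (h : cNum x * cDen y - cDen x * cNum y = 0) :
    x = y := by
  have h' : (cNum x : ℚ) * cDen y - cDen x * cNum y = 0 := by exact_mod_cast h
  rcases eq_or_ne (cDen x : ℚ) 0 with h0 | h0
  · have hn : (cNum x : ℚ) ≠ 0 := (isRep_self x).1.resolve_right (not_not.mpr h0)
    have hy : (cDen y : ℚ) = 0 := by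
      rw [h0, zero_mul, sub_zero, mul_eq_zero] at h'; exact h'.resolve_left hn
    have hx' := isRep_self x; have hy' := isRep_self y
    rw [h0] at hx'; rw [hy] at hy'
    rw [hx'.eq_infty, hy'.eq_infty]
  · have hy : (cDen y : ℚ) ≠ 0 := fun hy => by
      rw [hy, mul_zero, zero_sub, neg_eq_zero, mul_eq_zero] at h'
      exact ((isRep_self y).1.resolve_right (not_not.mpr hy)) (h'.resolve_left h0)
    rw [(isRep_self x).eq_coe h0, (isRep_self y).eq_coe hy]
    congr 1
    field_simp
    linear_combination h'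

/-- A scalar matrix fixes every point of the upper half plane. -/
theorem toReal_scalar_smul (u : ℚˣ) (x : ℍ) :
    toReal (Matrix.GeneralLinearGroup.scalar (Fin 2) u) • x = x := by
  ext1
  have hdet' : (0 : ℝ) < (toReal (Matrix.GeneralLinearGroup.scalar (Fin 2) u)).det.val := by
    rw [Matrix.GeneralLinearGroup.val_det_apply, Matrix.det_fin_two]
    simp [toReal_apply]
  rw [coe_smul_of_det_pos hdet']
  simp [num, denom, toReal_apply]

/-- Outside a finite set the orbit lies outside the triangle. -/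
theorem exists_finite_tri_ne (a b c : Cusp) (z : ℍ) :
    ∃ c₀ : ℤ, {δ : SL(2, ℤ) | tri a b c (δ • z) ≠ c₀}.Finite := by
  set d : Cusp → Cusp → ℤ := fun x y => cNum x * cDen y - cDen x * cNum y with hd
  have hdeg : ∀ x y, d x y = 0 → x = y := fun _ _ => eq_of_cNum_mul_cDen_sub_eq_zero
  -- for a degenerate triangle `tri` vanishes; otherwise orient it
  suffices key : ∀ a b c : Cusp, 0 < d c b * d a c * d a b →
      ∃ c₀ : ℤ, {δ : SL(2, ℤ) | tri a b c (δ • z) ≠ c₀}.Finite by
    by_cases h : d c b * d a c * d a b = 0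
    · refine ⟨0, Set.finite_empty.subset fun δ hδ => hδ ?_⟩
      have : a = b ∨ b = c ∨ a = c := by
        rcases mul_eq_zero.mp h with h' | h'
        · rcases mul_eq_zero.mp h' with h'' | h''
          exacts [Or.inr (Or.inl (hdeg _ _ h'').symm), Or.inr (Or.inr (hdeg _ _ h''))]
        · exact Or.inl (hdeg _ _ h')
      rcases this with rfl | rfl | rfl
      · simp [tri, side_self, side_swap c a]
      · simp [tri, side_self, side_swap b a]
      · simp [tri, side_self, side_swap a b]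
    rcases lt_or_gt_of_ne h with h' | h'
    · obtain ⟨c₀, hc₀⟩ := key b a c (by
        have e : d c a * d b c * d b a = -(d c b * d a c * d a b) := by simp only [hd]; ring
        rw [e]; linarith)
      refine ⟨-c₀, hc₀.subset fun δ hδ hh => hδ ?_⟩
      rw [tri_swap] at hh
      linarith
    · exact key a b c h'
  intro a b c hpos
  set l := d c b with hl
  set m := d a c with hm
  -- an integral `g` carries `∞, 0, 1` to `a, b, c`
  set M : Matrix (Fin 2) (Fin 2) ℤ :=
    !![l * cNum a, m * cNum b; l * cDen a, m * cDen b] with hM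
  have hMdet : M.det = l * m * d a b := by rw [hM, Matrix.det_fin_two_of]; simp only [hd]; ring
  have hMpos : 0 < M.det := hMdet ▸ hpos
  have hl0 : (l : ℚ) ≠ 0 := by
    exact_mod_cast (show l ≠ 0 from fun h0 => by rw [h0] at hpos; simp at hpos)
  have hm0 : (m : ℚ) ≠ 0 := by
    exact_mod_cast (show m ≠ 0 from fun h0 => by rw [h0] at hpos; simp at hpos)
  have hab0 : (d a b : ℚ) ≠ 0 := by
    exact_mod_cast (show d a b ≠ 0 from fun h0 => by rw [h0] at hpos; simp at hpos)
  set g := intMat M hMpos.ne' with hg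
  have ha : g • (∞ : Cusp) = a := by
    refine isRep_smul_eq g (isRep_infty (u := 1) rfl one_ne_zero) (isRep_self a) hl0 ?_ ?_ <;>
      simp [hg, coe_intMat, hM]
  have hb : g • ((0 : ℚ) : Cusp) = b := by
    have h01 : IsRep ((0 : ℚ) : Cusp) 0 1 := by simpa using isRep_coe (u := (0 : ℚ)) one_ne_zero
    refine isRep_smul_eq g h01 (isRep_self b) hm0 ?_ ?_ <;> simp [hg, coe_intMat, hM]
  have hc : g • ((1 : ℚ) : Cusp) = c := by
    have h11 : IsRep ((1 : ℚ) : Cusp) 1 1 := by simpa using isRep_coe (u := (1 : ℚ)) one_ne_zero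
    refine isRep_smul_eq g h11 (isRep_self c) hab0 ?_ ?_ <;>
      simp [hg, coe_intMat, hM, hl, hm, hd] <;> ring
  -- reduce to the standard triangle and the finiteness of the bad matrices of fixed determinant
  refine ⟨-1, ?_⟩
  refine Set.Finite.of_finite_image (f := fun δ : SL(2, ℤ) =>
    M.adjugate * (δ : Matrix (Fin 2) (Fin 2) ℤ)) ?_ (fun x _ y _ hxy => ?_)
  · refine (finite_intSmul_mem M.det z).subset ?_
    rintro _ ⟨δ, hδ, rfl⟩
    have hdet : (M.adjugate * (δ : Matrix (Fin 2) (Fin 2) ℤ)).det = M.det := by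
      rw [Matrix.det_mul, Matrix.det_adjugate, Matrix.SpecialLinearGroup.det_coe]; simp
    have hp : 0 < (M.adjugate * (δ : Matrix (Fin 2) (Fin 2) ℤ)).det := hdet ▸ hMpos
    refine ⟨hdet, hp, mem_of_tri_ne fun hh => hδ ?_⟩
    set w := intSmul _ hp z with hw
    have hback : toReal g • w = δ • z := by
      rw [hw, intSmul, ← mul_smul, ← map_mul, ← toReal_gq_smul]
      have e : g * intMat (M.adjugate * (δ : Matrix (Fin 2) (Fin 2) ℤ)) hp.ne'
          = Matrix.GeneralLinearGroup.scalar (Fin 2) (Units.mk0 (M.det : ℚ)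
            (by exact_mod_cast hMpos.ne')) * gq δ := by
        apply Units.ext
        rw [Units.val_mul, Units.val_mul, hg, coe_intMat, coe_intMat, ← Matrix.map_mul_intCast,
          ← mul_assoc, Matrix.mul_adjugate, coe_gq, Matrix.smul_mul, one_mul]
        ext i j
        fin_cases i <;> fin_cases j <;>
          simp [Matrix.mul_apply, Fin.sum_univ_two, ← Matrix.diagonal_intCast]
      rw [e, map_mul, mul_smul, toReal_scalar_smul]
    rw [← hback, ← ha, ← hb, ← hc, tri_smul g ?_]
    · exact hh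
    · rw [hg, coe_intMat, ← Int.coe_castRingHom, ← RingHom.mapMatrix_apply, ← RingHom.map_det]
      exact Int.cast_pos.mpr hMpos
  · have h2 := congrArg (fun N => M * N) hxy
    simp only [← mul_assoc, Matrix.mul_adjugate, Matrix.smul_mul, one_mul] at h2
    exact Subtype.ext (smul_right_injective _ hMpos.ne' h2)

variable (Γ : Subgroup SL(2, ℤ))

/-- One term of the crossing number. -/
noncomputable def crossTerm (a b : Cusp) (z w : ℍ) (δ : Γ) : ℤ :=
  side (gq (δ : SL(2, ℤ)) • a) (gq (δ : SL(2, ℤ)) • b) w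
    - side (gq (δ : SL(2, ℤ)) • a) (gq (δ : SL(2, ℤ)) • b) z

/-- The sum over `δ : Γ` of the change of side from `z` to `w` relative to the translate by `δ`
of the geodesic `(a, b)`: the signed count of separating translates, `±2` for each such `δ` if
neither point lies on the translate. -/
noncomputable def crossing (a b : Cusp) (z w : ℍ) : ℤ := ∑ᶠ δ : Γ, crossTerm Γ a b z w δ

/-- Only finitely many terms of the crossing number are nonzero. -/
theorem finite_support_crossTerm (a b : Cusp) (z w : ℍ) :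
    (Function.support (crossTerm Γ a b z w)).Finite := by
  refine ((finite_side_ne a b z w).preimage Subtype.val_injective.injOn).subset fun δ hδ => ?_
  simp only [Set.mem_preimage, Set.mem_ofPred, Function.mem_support, crossTerm] at hδ ⊢
  exact fun h => hδ (by rw [h, sub_self])

/-- Additivity of the crossing number in the points. -/
theorem crossing_add (a b : Cusp) (z w v : ℍ) :
    crossing Γ a b z w + crossing Γ a b w v = crossing Γ a b z v := by
  rw [crossing, crossing, crossing,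
    ← finsum_add_distrib (finite_support_crossTerm Γ a b z w) (finite_support_crossTerm Γ a b w v)]
  exact finsum_congr fun δ => by simp only [crossTerm]; ring

/-- No translate separates a point from itself. -/
theorem crossing_self (a b : Cusp) (z : ℍ) : crossing Γ a b z z = 0 := by
  simpa using crossing_add Γ a b z z z

/-- Reversing the geodesic negates the crossing number. -/
theorem crossing_swap (a b : Cusp) (z w : ℍ) : crossing Γ b a z w = -crossing Γ a b z w := by
  rw [crossing, crossing, ← finsum_neg_distrib]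
  exact finsum_congr fun δ => by
    simp only [crossTerm]
    rw [side_swap (gq (δ : SL(2, ℤ)) • a), side_swap (gq (δ : SL(2, ℤ)) • a)]
    ring

/-- Invariance under moving both points by the group. -/
theorem crossing_smul_points {γ : SL(2, ℤ)} (hγ : γ ∈ Γ) (a b : Cusp) (z w : ℍ) :
    crossing Γ a b (γ • z) (γ • w) = crossing Γ a b z w := by
  refine finsum_eq_of_bijective (fun δ => (⟨γ, hγ⟩ : Γ)⁻¹ * δ)
    (Group.mulLeft_bijective _) fun δ => ?_
  simp only [crossTerm]
  have e : ∀ (x : Cusp), gq (δ : SL(2, ℤ)) • x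
      = gq γ • gq (((⟨γ, hγ⟩ : Γ)⁻¹ * δ : Γ) : SL(2, ℤ)) • x := fun x => by
    rw [← mul_smul, ← map_mul]
    congr 2
    simp
  rw [e a, e b, side_smul_SL, side_smul_SL]

/-- Invariance under moving the geodesic by the group. -/
theorem crossing_smul_cusps {γ : SL(2, ℤ)} (hγ : γ ∈ Γ) (a b : Cusp) (z w : ℍ) :
    crossing Γ (gq γ • a) (gq γ • b) z w = crossing Γ a b z w := by
  refine finsum_eq_of_bijective (fun δ => δ * (⟨γ, hγ⟩ : Γ))
    (Group.mulRight_bijective _) fun δ => ?_
  simp [crossTerm, map_mul, mul_smul]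

/-- Additivity in the geodesic along a period. -/
theorem crossing_triangle {γ : SL(2, ℤ)} (hγ : γ ∈ Γ) (a b c : Cusp) (z : ℍ) :
    crossing Γ a b z (γ • z) + crossing Γ b c z (γ • z) + crossing Γ c a z (γ • z) = 0 := by
  obtain ⟨c₀, hc₀⟩ := exists_finite_tri_ne a b c z
  set G : Γ → ℤ := fun δ => tri a b c (((δ : SL(2, ℤ))⁻¹) • z) - c₀ with hG
  have hGfin : (Function.support G).Finite := by
    refine (hc₀.preimage (f := fun δ : Γ => ((δ : SL(2, ℤ))⁻¹))
      (fun x _ y _ h => Subtype.ext (inv_injective h))).subset fun δ hδ => ?_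
    simp only [Set.mem_preimage, Set.mem_ofPred, Function.mem_support, hG] at hδ ⊢
    exact fun h => hδ (sub_eq_zero.mpr h)
  set e : Γ ≃ Γ := Equiv.mulLeft (⟨γ, hγ⟩ : Γ)⁻¹ with he
  have hGfin' : (Function.support fun δ => G (e δ)).Finite :=
    hGfin.preimage e.injective.injOn
  rw [crossing, crossing, crossing,
    ← finsum_add_distrib (finite_support_crossTerm Γ a b _ _) (finite_support_crossTerm Γ b c _ _),
    ← finsum_add_distrib ?_ (finite_support_crossTerm Γ c a _ _)]
  · rw [show (∑ᶠ δ, (crossTerm Γ a b z (γ • z) δ + crossTerm Γ b c z (γ • z) δ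
        + crossTerm Γ c a z (γ • z) δ)) = ∑ᶠ δ, (G (e δ) - G δ) from finsum_congr fun δ => ?_,
      finsum_sub_distrib hGfin' hGfin, finsum_comp_equiv e, sub_self]
    have hs : ∀ (x y : Cusp) (w : ℍ), side (gq (δ : SL(2, ℤ)) • x) (gq (δ : SL(2, ℤ)) • y) w
        = side x y ((δ : SL(2, ℤ))⁻¹ • w) := fun x y w => by
      rw [← side_smul_SL (δ : SL(2, ℤ)) x y ((δ : SL(2, ℤ))⁻¹ • w), smul_inv_smul]
    simp only [crossTerm, hs, hG, he, Equiv.coe_mulLeft, tri, Subgroup.coe_mul, Subgroup.coe_inv,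
      mul_inv_rev, inv_inv, mul_smul]
    ring
  · exact ((finite_support_crossTerm Γ a b _ _).union (finite_support_crossTerm Γ b c _ _)).subset
      (Function.support_add _ _)

/-- The crossing homomorphism of a geodesic. -/
noncomputable def crossHom (a b : Cusp) : Additive Γ →+ ℤ :=
  AddMonoidHom.mk'
    (fun γ => crossing Γ a b UpperHalfPlane.I ((Additive.toMul γ : Γ) • UpperHalfPlane.I))
    fun γ δ => by
      rw [toMul_add, mul_smul,
        ← crossing_add Γ a b UpperHalfPlane.I ((Additive.toMul γ : Γ) • UpperHalfPlane.I)]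
      congr 1
      exact crossing_smul_points Γ (Additive.toMul γ).2 a b _ _

/-- The crossing homomorphism, computed from any base point. -/
theorem crossHom_apply (a b : Cusp) (γ : Γ) (z : ℍ) :
    crossHom Γ a b (Additive.ofMul γ) = crossing Γ a b z ((γ : SL(2, ℤ)) • z) := by
  have h1 := crossing_add Γ a b z UpperHalfPlane.I ((γ : SL(2, ℤ)) • UpperHalfPlane.I)
  have h2 := crossing_add Γ a b z ((γ : SL(2, ℤ)) • z) ((γ : SL(2, ℤ)) • UpperHalfPlane.I)
  have h3 := crossing_smul_points Γ γ.2 a b z UpperHalfPlane.I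
  change crossing Γ a b UpperHalfPlane.I ((γ : SL(2, ℤ)) • UpperHalfPlane.I) = _
  linarith

/-- The crossing homomorphisms are additive in the geodesic. -/
theorem crossHom_add (a b c : Cusp) :
    crossHom Γ a b + crossHom Γ b c = crossHom Γ a c := by
  refine AddMonoidHom.ext fun γ => ?_
  obtain ⟨γ, rfl⟩ := Additive.ofMul.surjective γ
  rw [AddMonoidHom.add_apply, crossHom_apply Γ a b γ UpperHalfPlane.I,
    crossHom_apply Γ b c γ UpperHalfPlane.I, crossHom_apply Γ a c γ UpperHalfPlane.I]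
  have := crossing_triangle Γ γ.2 a b c UpperHalfPlane.I
  rw [crossing_swap Γ a c] at this
  linarith

/-- The crossing homomorphisms are invariant under the group. -/
theorem crossHom_smul {γ : SL(2, ℤ)} (hγ : γ ∈ Γ) (a b : Cusp) :
    crossHom Γ (gq γ • a) (gq γ • b) = crossHom Γ a b :=
  AddMonoidHom.ext fun _ => crossing_smul_cusps Γ hγ a b _ _

end Fermat.HM
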