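import Fermat.Agent.HM.Push

/-!
# Traces commute with the Hecke operators

The condition is `TraceCompat`, checked for restriction and for `z ↦ q z`.
-/

namespace Fermat.HM

open scoped MatrixGroups
open CongruenceSubgroup Matrix Fermat.MC.Lvl

variable {N N' : ℕ} [NeZero N] [NeZero N'] {H : Subgroup (ZMod N)ˣ} {H' : Subgroup (ZMod N')ˣ}
  {n : ℕ} {g : GL (Fin 2) ℚ} {ℓ : ℕ} [hℓ : Fact ℓ.Prime]

/-- The transposed matrices. -/
noncomputable def starGL (ℓ N : ℕ) [NeZero N] [Fact ℓ.Prime] (j : HeckeIdx ℓ N) : GL (Fin 2) ℚ :=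
  (flip N (stdGL ℓ N j))⁻¹

variable {R : Type*} [CommRing R]

/-- The transpose of `T ℓ`, as an operator on symbols. -/
noncomputable def starSum (ℓ N : ℕ) [NeZero N] [Fact ℓ.Prime] (S : Cusp → Cusp → R) :
    Cusp → Cusp → R :=
  fun a b => ∑ j, S (starGL ℓ N j • a) (starGL ℓ N j • b)

/-- The transpose of `T ℓ` on symbols is `starSum`. -/
theorem dualToSymb_heckeT (f : Module.Dual R (Homs R (GammaH N H))) :
    (dualToSymb R (GammaH N H) (f ∘ₗ heckeT R N H ℓ)).1
      = starSum ℓ N (dualToSymb R (GammaH N H) f).1 := by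
  funext a b
  rw [heckeT, Corr.dualToSymb_comp]
  rfl

/-- The condition under which a trace commutes with `T ℓ`. -/
def TraceCompat (N' : ℕ) (H : Subgroup (ZMod N)ˣ) (g : GL (Fin 2) ℚ) (n ℓ : ℕ) : Prop :=
  ¬ ℓ ∣ n ∧ ∃ t : ℤ, ¬ (ℓ : ℤ) ∣ t ∧ ∀ e : SL(2, ℤ), ∀ d ∈ GammaH N H,
    g * gq e = gq d * g → (N' : ℤ) ∣ t * e 1 0

/-- The adjugate of an integer matrix times the matrix, over `ℚ`. -/
theorem adjugate_map_mul_map (A : Matrix (Fin 2) (Fin 2) ℤ) :
    A.adjugate.map (fun x : ℤ => (x : ℚ)) * A.map (fun x : ℤ => (x : ℚ))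
      = (A.det : ℚ) • (1 : Matrix (Fin 2) (Fin 2) ℚ) := by
  rw [← Matrix.map_mul_intCast, adjugate_mul]
  ext a b
  simp only [Matrix.map_apply, Matrix.smul_apply, Matrix.one_apply, smul_eq_mul, Int.cast_mul]
  fin_cases a <;> fin_cases b <;> simp

/-- A rational matrix of determinant one with two coprime integral multiples is integral. -/
theorem exists_gq_eq_of_smul {E : GL (Fin 2) ℚ} (hdet : (E : Matrix (Fin 2) (Fin 2) ℚ).det = 1)
    {n m : ℤ} (hco : IsCoprime n m) {A B : Matrix (Fin 2) (Fin 2) ℤ}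
    (hA : (n : ℚ) • (E : Matrix (Fin 2) (Fin 2) ℚ) = A.map (fun x : ℤ => (x : ℚ)))
    (hB : (m : ℚ) • (E : Matrix (Fin 2) (Fin 2) ℚ) = B.map (fun x : ℤ => (x : ℚ))) :
    ∃ e : SL(2, ℤ), gq e = E := by
  obtain ⟨u, v, huv⟩ := hco
  have hint : (E : Matrix (Fin 2) (Fin 2) ℚ) = (u • A + v • B).map (fun x : ℤ => (x : ℚ)) := by
    ext a b
    have h1 := congrFun (congrFun hA a) b
    have h2 := congrFun (congrFun hB a) b
    simp only [Matrix.smul_apply, smul_eq_mul, Matrix.map_apply] at h1 h2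
    rw [Matrix.map_apply, Matrix.add_apply, Matrix.smul_apply, Matrix.smul_apply,
      smul_eq_mul, smul_eq_mul, Int.cast_add, Int.cast_mul, Int.cast_mul, ← h1, ← h2]
    have huv' : (u : ℚ) * n + (v : ℚ) * m = 1 := by exact_mod_cast huv
    linear_combination (-((E : Matrix (Fin 2) (Fin 2) ℚ) a b)) * huv'
  rw [hint, show (u • A + v • B).map (fun x : ℤ => (x : ℚ))
    = (Int.castRingHom ℚ).mapMatrix (u • A + v • B) from rfl, ← RingHom.map_det] at hdet
  exact ⟨⟨_, Int.cast_injective (α := ℚ) (hdet.trans Int.cast_one.symm)⟩,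
    Units.ext (by rw [coe_gq, hint])⟩

omit [NeZero N] in
/-- The representatives stay in distinct cosets after the level map. -/
theorem eq_of_star_coset (h : IsLevelMap H H' n g) (hc : TraceCompat N' H g n ℓ)
    {i j : HeckeIdx ℓ N'} {d : SL(2, ℤ)} (hd : d ∈ GammaH N H)
    (e : gq d * (g * starGL ℓ N' i) = g * starGL ℓ N' j) : i = j := by
  obtain ⟨hn, t, ht, hup⟩ := hc
  obtain ⟨G, hG, hg⟩ := h.integral
  obtain ⟨Xi, hXi, eXi⟩ := flip_mem (stdGL_mem (N := N') (H := H') i)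
  obtain ⟨Xj, hXj, eXj⟩ := flip_mem (stdGL_mem (N := N') (H := H') j)
  set E : GL (Fin 2) ℚ := g⁻¹ * gq d * g with hE
  have hEX : flip N' (stdGL ℓ N' i) = flip N' (stdGL ℓ N' j) * E := by
    have h2 : g⁻¹ * gq d * g = (flip N' (stdGL ℓ N' j))⁻¹ * flip N' (stdGL ℓ N' i) := by
      rw [starGL, starGL, ← mul_assoc, eq_comm] at e
      rw [eq_inv_mul_iff_mul_eq]
      have := congrArg (fun z => g⁻¹ * z * flip N' (stdGL ℓ N' i)) e
      simp only [mul_assoc, inv_mul_cancel_left, inv_mul_cancel, mul_one] at this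
      rw [mul_assoc g⁻¹, ← this, mul_inv_cancel_left]
    rw [hE, h2, mul_inv_cancel_left]
  -- two coprime integral multiples
  have hn2 : (n : ℚ) • (E : Matrix (Fin 2) (Fin 2) ℚ)
      = (G.adjugate * (d : Matrix (Fin 2) (Fin 2) ℤ) * G).map (fun x : ℤ => (x : ℚ)) := by
    rw [Matrix.map_mul_intCast, Matrix.map_mul_intCast, ← hg, ← coe_gq, hE, Units.val_mul,
      Units.val_mul, ← Matrix.smul_mul, ← Matrix.smul_mul]
    congr 2
    have h3 := adjugate_map_mul_map G
    rw [← hg, hG, Int.cast_natCast] at h3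
    calc (n : ℚ) • (g⁻¹ : GL (Fin 2) ℚ).val
        = ((n : ℚ) • (1 : Matrix (Fin 2) (Fin 2) ℚ)) * (g⁻¹ : GL (Fin 2) ℚ).val := by
          rw [Matrix.smul_mul, one_mul]
      _ = _ := by rw [← h3, mul_assoc, ← Units.val_mul, mul_inv_cancel, Units.val_one, mul_one]
  have hl2 : (ℓ : ℚ) • (E : Matrix (Fin 2) (Fin 2) ℚ)
      = (Xj.adjugate * Xi).map (fun x : ℤ => (x : ℚ)) := by
    rw [Matrix.map_mul_intCast, ← eXi, hEX, Units.val_mul (flip N' (stdGL ℓ N' j)) E,
      ← mul_assoc (Xj.adjugate.map _), eXj, adjugate_map_mul_map, hXj.1, Matrix.smul_mul,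
      one_mul, Int.cast_natCast]
  -- `n` and `ℓ` are coprime, so `E` is integral, of determinant one.
  have hdet : (E : Matrix (Fin 2) (Fin 2) ℚ).det = 1 := by
    rw [hE, Units.val_mul, Units.val_mul, det_mul, det_mul,
      show (gq d : Matrix (Fin 2) (Fin 2) ℚ).det = 1 by
        rw [coe_gq, show (d : Matrix (Fin 2) (Fin 2) ℤ).map (fun x : ℤ => (x : ℚ))
          = (Int.castRingHom ℚ).mapMatrix (d : Matrix (Fin 2) (Fin 2) ℤ) from rfl,
          ← RingHom.map_det, d.2, map_one],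
      mul_one, ← det_mul, ← Units.val_mul, inv_mul_cancel, Units.val_one, det_one]
  obtain ⟨e0, hEe⟩ := exists_gq_eq_of_smul hdet (n := (n : ℤ)) (m := (ℓ : ℤ))
    ((Nat.prime_iff_prime_int.mp hℓ.out).coprime_iff_not_dvd.mpr (by exact_mod_cast hn)).symm
    (by rw [Int.cast_natCast]; exact hn2) (by rw [Int.cast_natCast]; exact hl2)
  set E0 : Matrix (Fin 2) (Fin 2) ℤ := (e0 : Matrix (Fin 2) (Fin 2) ℤ) with hE0
  have hEint : (E : Matrix (Fin 2) (Fin 2) ℚ) = E0.map (fun x : ℤ => (x : ℚ)) := by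
    rw [← hEe, coe_gq]
  have hdetE : E0.det = 1 := e0.2
  -- Its lower left entry is divisible by `N'`, since `t` and `ℓ` times it are.
  have hdvd1 : (N' : ℤ) ∣ t * E0 1 0 := by
    exact hup e0 d hd (by rw [hEe, hE, ← mul_assoc, ← mul_assoc, mul_inv_cancel, one_mul])
  have hXij : Xi = Xj * E0 := by
    refine Matrix.map_injective Int.cast_injective (α := ℤ) (β := ℚ) ?_
    change Xi.map _ = (Xj * E0).map _
    rw [Matrix.map_mul_intCast, ← hEint, ← eXj, ← Units.val_mul, ← hEX, eXi]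
  have hdvd2 : (N' : ℤ) ∣ (ℓ : ℤ) * E0 1 0 := by
    have h1 : (ℓ : ℤ) • E0 = Xj.adjugate * Xi := by
      rw [hXij, ← mul_assoc, adjugate_mul, hXj.1, Matrix.smul_mul, one_mul]
    have h2 := congrFun (congrFun h1 1) 0
    rw [Matrix.smul_apply, smul_eq_mul] at h2
    rw [h2, ← ZMod.intCast_zmod_eq_zero_iff_dvd]
    simp [Matrix.mul_apply, Fin.sum_univ_two, adjugate_fin_two, hXi.2.1, hXj.2.1]
  obtain ⟨u', v', huv'⟩ : IsCoprime t (ℓ : ℤ) :=
    ((Nat.prime_iff_prime_int.mp hℓ.out).coprime_iff_not_dvd.mpr ht).symm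
  obtain ⟨c, hc'⟩ : (N' : ℤ) ∣ E0 1 0 := by
    have : E0 1 0 = u' * (t * E0 1 0) + v' * ((ℓ : ℤ) * E0 1 0) := by
      linear_combination (-E0 1 0) * huv'
    rw [this]
    exact dvd_add (hdvd1.mul_left _) (hdvd2.mul_left _)
  set F : Matrix (Fin 2) (Fin 2) ℤ := !![E0 0 0, c; E0 0 1 * N', E0 1 1] with hF
  have hFdet : F.det = 1 := by
    rw [hF, det_fin_two_of]
    rw [det_fin_two] at hdetE
    linear_combination hdetE + E0 0 1 * hc'
  have hflip : (flip N' E : Matrix (Fin 2) (Fin 2) ℚ) = F.map (fun x : ℤ => (x : ℚ)) := by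
    have hN : (N' : ℚ) ≠ 0 := by exact_mod_cast NeZero.ne N'
    rw [coe_flip, hF]
    ext a b
    fin_cases a <;> fin_cases b <;> simp [hEint, hc']
    field_simp
  -- So the flip of `E` is in `SL(2, ℤ)` and carries one standard matrix to the other.
  refine eq_of_factor (ℓ := ℓ) (n := 1) not_dvd_one (P := 1) (P' := F) det_one hFdet
    (Matrix.map_injective Int.cast_injective (α := ℤ) (β := ℚ) ?_)
  have h4 : stdGL ℓ N' i = flip N' E * stdGL ℓ N' j := by
    conv_lhs => rw [← (levelAnti_flip (H := H')).invol (stdGL ℓ N' i), hEX,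
      (levelAnti_flip (H := H')).map_mul, (levelAnti_flip (H := H')).invol]
  have h5 := congrArg Units.val h4
  rw [Units.val_mul, hflip, coe_stdGL, coe_stdGL, ← Matrix.map_mul_intCast] at h5
  rw [one_mul]
  exact h5

/-- The level map carries the transposed matrices into their cosets. -/
theorem exists_star_coset (h : IsLevelMap H H' n g) (hn : ¬ ℓ ∣ n) (j : HeckeIdx ℓ N') :
    ∃ k : HeckeIdx ℓ N, ∃ d ∈ GammaH N H, g * starGL ℓ N' j = gq d * (starGL ℓ N k * g) := by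
  have hX := h.conj_mem ℓ (IsLevelMap.isCoprime_det hn) _
    (flip_mem (stdGL_mem (N := N') (H := H') j))
  obtain ⟨k, d, hd, e⟩ := isLeftReps_stdGL.exists_eq _ (flip_mem hX)
  obtain ⟨d', hd', hd'e⟩ := (levelAnti_flip (H := H)).level d hd
  refine ⟨k, d'⁻¹, inv_mem hd', ?_⟩
  have e2 : g * flip N' (stdGL ℓ N' j) * g⁻¹ = flip N (stdGL ℓ N k) * gq d' := by
    rw [← (levelAnti_flip (H := H)).invol (g * flip N' (stdGL ℓ N' j) * g⁻¹), e,
      (levelAnti_flip (H := H)).map_mul, hd'e]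
  have e3 := congrArg (·⁻¹) e2
  simp only [_root_.mul_inv_rev, inv_inv] at e3
  rw [starGL, starGL, map_inv, ← mul_assoc, ← e3]
  group

/-- The pullback commutes with the transposed Hecke operators. -/
theorem pullS_starSum (h : IsLevelMap H H' n g) (hc : TraceCompat N' H g n ℓ)
    (hdiv : ℓ ∣ N' ↔ ℓ ∣ N) {S : Cusp → Cusp → R} (hS : ∀ d ∈ GammaH N H, InvariantBy S (gq d))
    (a b : Cusp) :
    starSum ℓ N' (fun x y => S (g • x) (g • y)) a b = starSum ℓ N S (g • a) (g • b) := by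
  choose f d hd hf using fun j : HeckeIdx ℓ N' => exists_star_coset h hc.1 j
  have hinj : Function.Injective f := fun i j hij => by
    refine eq_of_star_coset h hc (d := d j * (d i)⁻¹) (mul_mem (hd j) (inv_mem (hd i))) ?_
    rw [hf i, hf j, ← mul_assoc, ← map_mul, inv_mul_cancel_right, hij]
  have hbij : Function.Bijective f := (Fintype.bijective_iff_injective_and_card f).mpr
    ⟨hinj, IsLevelMap.card_heckeIdx hdiv⟩
  refine Fintype.sum_bijective f hbij _ _ fun j => ?_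
  dsimp only
  rw [← mul_smul, ← mul_smul, hf j]
  simp only [mul_smul]
  rw [hS _ (hd j)]

/-- The trace commutes with `T ℓ`. -/
theorem IsLevelMap.tr_heckeT [IsDomain R] [IsPrincipalIdealRing R]
    (hΓ : GoodLevel R (GammaH N H)) (hΓ' : GoodLevel R (GammaH N' H')) (h : IsLevelMap H H' n g)
    (hc : TraceCompat N' H g n ℓ) (hdiv : ℓ ∣ N' ↔ ℓ ∣ N) (φ : Homs R (GammaH N' H')) :
    h.tr (heckeT R N' H' ℓ φ) = heckeT R N H ℓ (h.tr φ) := by
  have := hΓ.moduleFree
  rw [← sub_eq_zero, ← Module.forall_dual_apply_eq_zero_iff R]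
  intro f
  have key : (f ∘ₗ h.tr) ∘ₗ heckeT R N' H' ℓ = (f ∘ₗ heckeT R N H ℓ) ∘ₗ h.tr := by
    refine hΓ'.dualEquiv.injective (Subtype.ext ?_)
    change (dualToSymb R (GammaH N' H') _).1 = (dualToSymb R (GammaH N' H') _).1
    rw [dualToSymb_heckeT, dualToSymb_tr, dualToSymb_tr]
    funext a b
    rw [pullS_apply, dualToSymb_heckeT,
      show (h.pullS (dualToSymb R (GammaH N H) f)).1
        = fun x y => (dualToSymb R (GammaH N H) f).1 (g • x) (g • y) from
        funext fun x => funext fun y => pullS_apply h _ x y]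
    exact pullS_starSum h hc hdiv (dualToSymb R (GammaH N H) f).2.2 a b
  rw [map_sub, sub_eq_zero]
  exact LinearMap.congr_fun key φ

omit [NeZero N] [NeZero N'] in
/-- The condition holds for restriction when `ℓ ∤ N' / N`. -/
theorem traceCompat_one (hdvd : N ∣ N') (hl : ¬ ℓ ∣ N' / N) :
    TraceCompat N' H (1 : GL (Fin 2) ℚ) 1 ℓ := by
  refine ⟨hℓ.out.not_dvd_one, ((N' / N : ℕ) : ℤ), by exact_mod_cast hl, fun e d hd he => ?_⟩
  rw [one_mul, mul_one] at he
  rw [Reps.gq_injective he]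
  obtain ⟨c, hc⟩ := (ZMod.intCast_zmod_eq_zero_iff_dvd _ _).mp
    (Gamma0_mem.mp (GammaH_le_Gamma0 hd))
  rw [hc, ← mul_assoc, ← Nat.cast_mul, Nat.div_mul_cancel hdvd]
  exact dvd_mul_right _ _

omit [NeZero N] [NeZero N'] hℓ in
/-- The condition holds for `z ↦ q z` when `ℓ ∤ q` and `ℓ ∤ N' / (N q)`. -/
theorem traceCompat_scale {q : ℕ} [NeZero q] (hqN : N * q ∣ N') (hq : ¬ ℓ ∣ q)
    (hl : ¬ ℓ ∣ N' / (N * q)) : TraceCompat N' H (scaleGL q) q ℓ := by
  refine ⟨hq, ((N' / (N * q) : ℕ) : ℤ), by exact_mod_cast hl, fun e d hd he => ?_⟩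
  obtain ⟨c, hc⟩ := (ZMod.intCast_zmod_eq_zero_iff_dvd _ _).mp
    (Gamma0_mem.mp (GammaH_le_Gamma0 hd))
  have h1 := congrArg (fun M : GL (Fin 2) ℚ => (M : Matrix (Fin 2) (Fin 2) ℚ) 1 0) he
  simp only [Units.val_mul, coe_gq] at h1
  simp [scaleGL, Matrix.mul_apply, Fin.sum_univ_two] at h1
  have h2 : e 1 0 = d 1 0 * q := by exact_mod_cast h1
  rw [h2, hc]
  refine Dvd.intro c ?_
  have h3 : ((N' / (N * q) * (N * q) : ℕ) : ℤ) = N' := by rw [Nat.div_mul_cancel hqN]
  rw [← h3]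
  push_cast
  ring

/-- For `ℓ ≡ 1 (mod N)` the transpose is `T ℓ` itself. -/
theorem starSum_eq_heckeS (hl : (ℓ : ZMod N) = 1) (S : symbols R (GammaH N H)) :
    starSum ℓ N S.1 = (heckeS R N H ℓ S).1 := by
  -- `ℓ` times each `starGL j` is an adjugate, in the Hecke set as `ℓ ≡ 1`.
  have hA : ∀ j, ∃ A ∈ heckeSet N H (ℓ : ℤ), ∃ s : GL (Fin 2) ℚ,
      (s : Matrix (Fin 2) (Fin 2) ℚ) = !![(ℓ : ℚ), 0; 0, (ℓ : ℚ)] ∧ A = s * starGL ℓ N j := by
    intro j
    obtain ⟨X, hX, eX⟩ := flip_mem (stdGL_mem (N := N) (H := H) j)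
    obtain ⟨hd, hc, x, hx, hx'⟩ := hX
    let s : GL (Fin 2) ℚ := GeneralLinearGroup.mkOfDetNeZero !![(ℓ : ℚ), 0; 0, (ℓ : ℚ)]
      (by simp [det_fin_two_of, hℓ.out.ne_zero])
    refine ⟨s * starGL ℓ N j, ⟨X.adjugate, ⟨?_, ?_, x⁻¹, inv_mem hx, ?_⟩, ?_⟩, s, rfl, rfl⟩
    · rw [det_adjugate, hd, Fintype.card_fin, Nat.add_one_sub_one, pow_one]
    · simp [adjugate_fin_two, hc]
    · refine Units.inv_eq_of_mul_eq_one_right ?_
      have h := congrArg (fun z : ℤ => (z : ZMod N)) hd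
      rw [det_fin_two] at h
      simp only [Int.cast_sub, Int.cast_mul, hc, mul_zero, sub_zero, Int.cast_natCast, hl] at h
      simpa [adjugate_fin_two, hx'] using h
    · have h1 : X.adjugate.map (fun z : ℤ => (z : ℚ)) * (flip N (stdGL ℓ N j)).val = s.val := by
        rw [eX, ← Matrix.map_mul_intCast, adjugate_mul, hd]
        ext a b
        simp only [Matrix.map_apply, Matrix.smul_apply, Matrix.one_apply, smul_eq_mul, Int.cast_mul]
        fin_cases a <;> fin_cases b <;> simp [s]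
      rw [Units.val_mul, ← h1, starGL, mul_assoc, ← Units.val_mul, mul_inv_cancel, Units.val_one,
        mul_one]
  choose A hAmem s hs hAeq using hA
  -- So it is `d j` times some representative `f j`, and `f` is injective, hence bijective.
  choose f d hd hf using fun j => isLeftReps_stdGL.exists_eq _ (hAmem j)
  have hscal : ∀ j, ∀ x : Cusp, s j • x = x := fun j x =>
    scalar_smul_eq (by exact_mod_cast hℓ.out.ne_zero) (hs j) x
  have hcomm : ∀ j, ∀ M : GL (Fin 2) ℚ, s j * M = M * s j := by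
    intro j M
    apply Units.ext
    rw [Units.val_mul, Units.val_mul, hs]
    ext a b
    fin_cases a <;> fin_cases b <;> simp [Matrix.mul_apply, Fin.sum_univ_two, mul_comm]
  have hinj : Function.Injective f := fun i j hij => by
    refine (hecke N H ℓ).uniqC i j (d j * (d i)⁻¹) (mul_mem (hd j) (inv_mem (hd i))) ?_
    change gq (d j * (d i)⁻¹) * starGL ℓ N i = starGL ℓ N j
    refine mul_left_cancel (a := s j) ?_
    have hij' : s i = s j := Units.ext ((hs i).trans (hs j).symm)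
    rw [← mul_assoc, hcomm j, mul_assoc, ← hAeq j, ← hij', ← hAeq i, hf i, hf j, ← mul_assoc,
      ← map_mul, inv_mul_cancel_right, hij]
  have hbij : Function.Bijective f := Finite.injective_iff_bijective.mp hinj
  -- Scalars fix cusps and `d j` fixes `S`, so the two sums agree term by term.
  funext a b
  refine Fintype.sum_bijective f hbij _ _ fun j => ?_
  change S.1 (starGL ℓ N j • a) (starGL ℓ N j • b) = S.1 (stdGL ℓ N (f j) • a) (stdGL ℓ N (f j) • b)
  rw [← hscal j (starGL ℓ N j • a), ← hscal j (starGL ℓ N j • b), ← mul_smul, ← mul_smul,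
    ← hAeq j, hf j, mul_smul, mul_smul]
  exact S.2.2 _ (hd j) _ _

end Fermat.HM
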