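import Fermat.Agent.HM.System
import Fermat.Agent.HM.PushComm

/-!
# Level maps and change of coefficients commute with the Hecke action

The main results are `pull_heckeAct`, `tr_heckeAct` and `mapCoeff_heckeAct`.
-/

namespace Fermat.HM

open scoped MatrixGroups
open Fermat.MC.Lvl

variable {O : Type} [CommRing O] {R : Type} [CommRing R] [Algebra O R] {σ : Type} {p : σ → ℕ}
  [hp : ∀ i, Fact (p i).Prime] {N N' : ℕ} [NeZero N] [NeZero N'] {H : Subgroup (ZMod N)ˣ}
  {H' : Subgroup (ZMod N')ˣ} {n : ℕ} {g : GL (Fin 2) ℚ}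

/-- All operators of the family commute with pullback and trace along `g`, and their primes divide
`N'` exactly when they divide `N`. -/
def GoodFor (p : σ → ℕ) (N' : ℕ) (H : Subgroup (ZMod N)ˣ) (g : GL (Fin 2) ℚ) (n : ℕ) : Prop :=
  ∀ i, TraceCompat N' H g n (p i) ∧ (p i ∣ N' ↔ p i ∣ N)

/-- Pull-back commutes with the Hecke action. -/
theorem pull_heckeAct (h : IsLevelMap H H' n g) (hg : GoodFor p N' H g n) (a : MvPolynomial σ O)
    (φ : Homs R (GammaH N H)) :
    h.pull (heckeAct O R N H p a φ) = heckeAct O R N' H' p a (h.pull φ) :=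
  intertwine_of_X ((h.pull (R := R)).restrictScalars O) (fun i x => by
    rw [LinearMap.restrictScalars_apply, LinearMap.restrictScalars_apply, heckeAct_X, heckeAct_X,
      IsLevelMap.pull_heckeT h (hg i).1.1 (hg i).2]) a φ

/-- Pull-back of symbols commutes with the Hecke action. -/
theorem pullS_heckeActS (h : IsLevelMap H H' n g) (hg : GoodFor p N' H g n)
    (a : MvPolynomial σ O) (S : symbols R (GammaH N H)) :
    h.pullS (heckeActS O R N H p a S) = heckeActS O R N' H' p a (h.pullS S) :=
  intertwine_of_X ((h.pullS (R := R)).restrictScalars O) (fun i x => by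
    rw [LinearMap.restrictScalars_apply, LinearMap.restrictScalars_apply, heckeActS_X, heckeActS_X,
      IsLevelMap.pullS_heckeS h (hg i).1.1 (hg i).2]) a S

/-- The trace commutes with the Hecke action. -/
theorem tr_heckeAct [IsDomain R] [IsPrincipalIdealRing R] (hΓ : GoodLevel R (GammaH N H))
    (hΓ' : GoodLevel R (GammaH N' H')) (h : IsLevelMap H H' n g) (hg : GoodFor p N' H g n)
    (a : MvPolynomial σ O) (φ : Homs R (GammaH N' H')) :
    h.tr (heckeAct O R N' H' p a φ) = heckeAct O R N H p a (h.tr φ) :=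
  intertwine_of_X ((h.tr (R := R)).restrictScalars O) (fun i x => by
    rw [LinearMap.restrictScalars_apply, LinearMap.restrictScalars_apply, heckeAct_X, heckeAct_X,
      IsLevelMap.tr_heckeT hΓ hΓ' h (hg i).1 (hg i).2]) a φ

/-- Change of coefficients along a map of `O`-algebras, as a linear map. -/
def mapCoeffL {R' : Type} [CommRing R'] [Algebra O R'] (f : R →ₐ[O] R') {Γ : Subgroup SL(2, ℤ)} :
    Homs R Γ →ₗ[O] Homs R' Γ where
  toFun := mapCoeff f.toRingHom
  map_add' := map_add _
  map_smul' c φ := AddMonoidHom.ext fun γ => map_smul f c (φ γ)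

omit hp in
/-- The linear change of coefficients is the change of coefficients. -/
theorem mapCoeffL_apply {R' : Type} [CommRing R'] [Algebra O R'] (f : R →ₐ[O] R')
    {Γ : Subgroup SL(2, ℤ)} (φ : Homs R Γ) : mapCoeffL f φ = mapCoeff f.toRingHom φ := rfl

omit [NeZero N'] in
/-- A change of coefficients commutes with the Hecke action. -/
theorem mapCoeff_heckeAct {R' : Type} [CommRing R'] [Algebra O R'] (f : R →ₐ[O] R')
    (a : MvPolynomial σ O) (φ : Homs R (GammaH N H)) :
    mapCoeffL f (heckeAct O R N H p a φ) = heckeAct O R' N H p a (mapCoeffL f φ) :=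
  intertwine_of_X (mapCoeffL f) (fun i x => by
    rw [heckeAct_X, heckeAct_X, mapCoeffL_apply, mapCoeffL_apply, mapCoeff_heckeT]) a φ

/-- The action on a product. -/
noncomputable def prodAct {M₁ M₂ : Type*} [AddCommGroup M₁] [Module O M₁] [AddCommGroup M₂]
    [Module O M₂] {A : Type*} [CommRing A] [Algebra O A] (ρ₁ : A →ₐ[O] Module.End O M₁)
    (ρ₂ : A →ₐ[O] Module.End O M₂) : A →ₐ[O] Module.End O (M₁ × M₂) where
  toFun a := (ρ₁ a).prodMap (ρ₂ a)
  map_one' := by simp
  map_mul' a b := by ext <;> simp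
  map_zero' := by ext <;> simp
  map_add' a b := by ext <;> simp
  commutes' c := by ext <;> simp

omit [NeZero N] [NeZero N'] hp in
/-- The action on a product is componentwise. -/
theorem prodAct_apply {M₁ M₂ : Type*} [AddCommGroup M₁] [Module O M₁] [AddCommGroup M₂]
    [Module O M₂] {A : Type*} [CommRing A] [Algebra O A] (ρ₁ : A →ₐ[O] Module.End O M₁)
    (ρ₂ : A →ₐ[O] Module.End O M₂) (a : A) (x : M₁ × M₂) :
    prodAct ρ₁ ρ₂ a x = (ρ₁ a x.1, ρ₂ a x.2) := rfl

end Fermat.HM
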