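import Fermat.Agent.HM.IharaSymbols
import Fermat.Agent.HM.Equivariance

/-!
# The degeneracy maps at a non-Eisenstein maximal ideal

`exists_mem_range_tr`: by Ihara's lemma (`IharaSymbols`) and duality the traces along the two
degeneracy maps are jointly surjective on the localised parts over a field; `Residue` lifts this to
the coefficients, for the Taylor–Wiles step (`TWStep`) and for raising the level (`Raise/Step`).
-/

namespace Fermat.HM

open scoped MatrixGroups
open Fermat.MC.Lvl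

section Away

variable {M q : ℕ} [NeZero M] [hq : Fact q.Prime] {H : Subgroup (ZMod M)ˣ}

/-- Restriction to level `M q` is compatible with the Hecke operators away from `q`. -/
theorem goodFor_up {σ : Type} {p : σ → ℕ} [hp : ∀ i, Fact (p i).Prime] (hpq : ∀ i, p i ≠ q) :
    GoodFor p (M * q) H (1 : GL (Fin 2) ℚ) 1 := fun i => by
  refine ⟨traceCompat_one (dvd_mul_right M q) ?_, ⟨fun h => ((hp i).out.dvd_mul.mp h).resolve_right
    fun h' => hpq i ((Nat.prime_dvd_prime_iff_eq (hp i).out hq.out).mp h'), fun h => h.mul_right q⟩⟩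
  rw [Nat.mul_div_cancel_left _ (NeZero.pos M)]
  exact fun h' => hpq i ((Nat.prime_dvd_prime_iff_eq (hp i).out hq.out).mp h')

/-- Scaling by `q` is compatible with the Hecke operators away from `q`. -/
theorem goodFor_scaleUp [NeZero (M * q)] {σ : Type} {p : σ → ℕ} [hp : ∀ i, Fact (p i).Prime]
    (hpq : ∀ i, p i ≠ q) : GoodFor p (M * q) H (scaleGL q) q := fun i => by
  refine ⟨traceCompat_scale dvd_rfl (fun h' => hpq i
    ((Nat.prime_dvd_prime_iff_eq (hp i).out hq.out).mp h')) ?_, (goodFor_up (H := H) hpq i).2⟩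
  rw [Nat.div_self (NeZero.pos (M * q))]
  exact (hp i).out.not_dvd_one

end Away

variable {O : Type} [CommRing O] {R : Type} [CommRing R] [Algebra O R] {σ : Type} {p : σ → ℕ}
  [hp : ∀ i, Fact (p i).Prime] {N N' : ℕ} [NeZero N] [NeZero N'] {H : Subgroup (ZMod N)ˣ}
  {H' : Subgroup (ZMod N')ˣ} {q : ℕ} [NeZero q]

/-- The Eisenstein element squared kills the pairs in the kernel of the degeneracy maps. -/
theorem exists_kill_of_rel {m : Ideal (MvPolynomial σ O)} [hm : m.IsPrime]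
    (hne : NonEisenstein p m) (hq : 1 < q) (hcop : q.Coprime N) :
    ∃ i, (p i : ZMod N) = 1 ∧ eisElt O p i * eisElt O p i ∉ m ∧
      ∀ (h₁ : IsLevelMap H H' 1 1) (hD : IsLevelMap H H' q (scaleGL q))
        (S₁ S₂ : symbols R (GammaH N H)), h₁.pullS S₁ + hD.pullS S₂ = 0 →
        heckeActS O R N H p (eisElt O p i * eisElt O p i) S₁ = 0 ∧
        heckeActS O R N H p (eisElt O p i * eisElt O p i) S₂ = 0 := by
  have hM : N * (iharaMod q N * (N' * q)) ≠ 0 := by
    refine mul_ne_zero (NeZero.ne N) (mul_ne_zero ?_ (mul_ne_zero (NeZero.ne N') (NeZero.ne q)))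
    have h2 : 1 < (q ^ N.totient) ^ (2 * 1) := Nat.one_lt_pow (by norm_num)
      (Nat.one_lt_pow (Nat.totient_pos.mpr (NeZero.pos N)).ne' hq)
    rw [iharaMod]
    omega
  obtain ⟨i, hi, hs⟩ := hne _ hM
  have hcast : ∀ {d : ℕ}, d ∣ N * (iharaMod q N * (N' * q)) → (p i : ZMod d) = 1 := fun {d} hd => by
    have h := congrArg (ZMod.castHom hd (ZMod d)) hi
    rwa [map_natCast, map_one] at h
  refine ⟨i, hcast (dvd_mul_right _ _), fun h => (hm.mem_or_mem h).elim hs hs,
    fun h₁ hD S₁ S₂ hrel => ?_⟩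
  obtain ⟨h1, h2⟩ := (ihara hq hcop h₁ hD hrel).2 (p i) (hcast (dvd_mul_left _ _))
  refine ⟨?_, ?_⟩ <;>
    rw [map_mul, Module.End.mul_apply, heckeActS_eisElt, heckeActS_eisElt, sub_eq_zero] <;>
    assumption

variable [IsLocalRing O] [IsNoetherianRing O] [IsAdicComplete (IsLocalRing.maximalIdeal O) O]

/-- The two degeneracy maps are jointly injective at a non-Eisenstein ideal. -/
theorem pair_eq_zero [IsDomain R] [IsPrincipalIdealRing R] [Module.Finite O R]
    (hΓ : GoodLevel R (GammaH N H)) (hΓ' : GoodLevel R (GammaH N' H'))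
    {m : Ideal (MvPolynomial σ O)} [m.IsMaximal] (hne : NonEisenstein p m) (hq : 1 < q)
    (hcop : q.Coprime N) (h₁ : IsLevelMap H H' 1 1) (hD : IsLevelMap H H' q (scaleGL q))
    (g₁ : GoodFor p N' H (1 : GL (Fin 2) ℚ) 1) (gD : GoodFor p N' H (scaleGL q) q)
    {φ₁ φ₂ : Homs R (GammaH N H)} (hφ₁ : φ₁ ∈ locPart m (heckeAct O R N H p))
    (hφ₂ : φ₂ ∈ locPart m (heckeAct O R N H p)) (hrel : h₁.pull φ₁ + hD.pull φ₂ = 0) :
    φ₁ = 0 ∧ φ₂ = 0 := by
  have := finite_homs (O := O) hΓ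
  have := finite_homs (O := O) hΓ'
  have := finite_symbols (O := O) hΓ
  have := finite_symbols (O := O) hΓ'
  obtain ⟨⟨S₁, hS₁⟩, e₁⟩ := (periodHom_locMap_bijective hne).2 ⟨φ₁, hφ₁⟩
  obtain ⟨⟨S₂, hS₂⟩, e₂⟩ := (periodHom_locMap_bijective hne).2 ⟨φ₂, hφ₂⟩
  have e₁' : periodHom S₁ = φ₁ := congrArg Subtype.val e₁
  have e₂' : periodHom S₂ = φ₂ := congrArg Subtype.val e₂
  have hsum : h₁.pullS S₁ + hD.pullS S₂ ∈ locPart m (heckeActS O R N' H' p) := add_mem
    (apply_mem_locPart (f := (h₁.pullS (R := R)).restrictScalars O) (pullS_heckeActS h₁ g₁) hS₁)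
    (apply_mem_locPart (f := (hD.pullS (R := R)).restrictScalars O) (pullS_heckeActS hD gD) hS₂)
  have hzero : h₁.pullS S₁ + hD.pullS S₂ = 0 := by
    refine eq_zero_of_apply_eq_zero (f :=
      (periodHom (R := R) (Γ := GammaH N' H')).restrictScalars O)
      (fun _ h => periodHom_ker hne h) hsum ?_
    change periodHom (h₁.pullS S₁ + hD.pullS S₂) = 0
    rw [map_add, h₁.periodHom_pullS, hD.periodHom_pullS, e₁', e₂', hrel]
  obtain ⟨i, -, hs, hkill⟩ := exists_kill_of_rel (O := O) (R := R) (H := H) (H' := H') hne hq hcop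
  obtain ⟨k₁, k₂⟩ := hkill h₁ hD S₁ S₂ hzero
  rw [eq_zero_of_killed hs hS₁ k₁, map_zero] at e₁'
  rw [eq_zero_of_killed hs hS₂ k₂, map_zero] at e₂'
  exact ⟨e₁'.symm, e₂'.symm⟩

omit [IsLocalRing O] [IsNoetherianRing O] [IsAdicComplete (IsLocalRing.maximalIdeal O) O] in
/-- The transpose of the Eisenstein element on homomorphisms is its action on symbols. -/
theorem dual_heckeAct_eisElt (f : Module.Dual R (Homs R (GammaH N H))) (i : σ)
    (hi : (p i : ZMod N) = 1) :
    dualToSymb R (GammaH N H) (f ∘ₗ (heckeT R N H (p i) - (p i + 1) • LinearMap.id))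
      = heckeActS O R N H p (eisElt O p i) (dualToSymb R (GammaH N H) f) := by
  rw [heckeActS_eisElt, LinearMap.comp_sub, LinearMap.comp_smul, LinearMap.comp_id, map_sub,
    map_nsmul]
  congr 1
  exact Subtype.ext ((dualToSymb_heckeT f).trans (starSum_eq_heckeS hi _))

omit [IsLocalRing O] [IsNoetherianRing O] [IsAdicComplete (IsLocalRing.maximalIdeal O) O] in
/-- Over a field the two traces are jointly surjective up to Eisenstein elements. -/
theorem exists_mem_range_tr {k : Type} [Field k] [Algebra O k]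
    (hΓ : GoodLevel k (GammaH N H)) {m : Ideal (MvPolynomial σ O)} [m.IsPrime]
    (hne : NonEisenstein p m) (hq : 1 < q) (hcop : q.Coprime N)
    (h₁ : IsLevelMap H H' 1 1) (hD : IsLevelMap H H' q (scaleGL q))
    (y : Homs k (GammaH N H) × Homs k (GammaH N H)) :
    ∃ s, s ∉ m ∧
      prodAct (heckeAct O k N H p) (heckeAct O k N H p) s y
        ∈ LinearMap.range ((h₁.tr (R := k)).prod hD.tr) := by
  obtain ⟨i, hi, hs, hkill⟩ := exists_kill_of_rel (O := O) (R := k) (H := H) (H' := H') hne hq hcop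
  refine ⟨_, hs, ?_⟩
  by_contra hy
  obtain ⟨F, hF, hFr⟩ := Submodule.exists_dual_map_eq_bot_of_notMem hy inferInstance
  have hzero : ∀ z, F (h₁.tr z, hD.tr z) = 0 := fun z => by
    have : F (h₁.tr z, hD.tr z) ∈
        (LinearMap.range ((h₁.tr (R := k)).prod hD.tr)).map F := ⟨_, ⟨z, rfl⟩, rfl⟩
    rwa [hFr, Submodule.mem_bot] at this
  set f₁ := F ∘ₗ LinearMap.inl k _ _ with hf₁
  set f₂ := F ∘ₗ LinearMap.inr k _ _ with hf₂
  have hsplit : ∀ a b, F (a, b) = f₁ a + f₂ b := fun a b => by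
    simp [hf₁, hf₂, ← map_add]
  have hrel : h₁.pullS (dualToSymb k (GammaH N H) f₁)
      + hD.pullS (dualToSymb k (GammaH N H) f₂) = 0 := by
    rw [← h₁.dualToSymb_tr, ← hD.dualToSymb_tr, ← map_add,
      show f₁ ∘ₗ h₁.tr + f₂ ∘ₗ hD.tr = 0 from LinearMap.ext fun z => by
        simpa [← hsplit] using hzero z, map_zero]
  obtain ⟨k₁, k₂⟩ := hkill h₁ hD _ _ hrel
  set E := heckeT k N H (p i) - (p i + 1) • LinearMap.id with hE
  have hfE : ∀ f : Module.Dual k (Homs k (GammaH N H)),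
      heckeActS O k N H p (eisElt O p i * eisElt O p i) (dualToSymb k (GammaH N H) f) = 0 →
      ∀ x, f (E (E x)) = 0 := fun f hk x => by
    have h3 : f ∘ₗ E ∘ₗ E = 0 := hΓ.dualEquiv.injective (by
      change dualToSymb k (GammaH N H) ((f ∘ₗ E) ∘ₗ E) = hΓ.dualEquiv 0
      rw [hE, dual_heckeAct_eisElt (O := O) _ i hi, dual_heckeAct_eisElt (O := O) _ i hi,
        ← Module.End.mul_apply, ← map_mul, hk, map_zero])
    exact LinearMap.congr_fun h3 x
  refine hF ?_
  have hact : ∀ x, heckeAct O k N H p (eisElt O p i * eisElt O p i) x = E (E x) := fun x => by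
    rw [map_mul, Module.End.mul_apply, heckeAct_eisElt, heckeAct_eisElt]
    rfl
  rw [prodAct_apply, hact, hact, hsplit, hfE f₁ k₁, hfE f₂ k₂, add_zero]

end Fermat.HM
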