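import Fermat.Agent.HM.Equivariance

/-!
# Diamond operators between `Γ_H(N)` and a larger level

The quotient is a `DiamondQuot`, with operators `dia`; over a field the trace
is surjective (`tr_surjective`).
-/

namespace Fermat.HM

open scoped MatrixGroups
open CongruenceSubgroup Matrix Fermat.MC.Lvl

variable {N : ℕ} {H₀ H : Subgroup (ZMod N)ˣ} {Δ : Type} [CommGroup Δ]

/-- A quotient `H₀ → Δ` with kernel `H`. -/
structure DiamondQuot (N : ℕ) (H₀ H : Subgroup (ZMod N)ˣ) (Δ : Type) [CommGroup Δ] where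
  /-- `H` is contained in `H₀`. -/
  le : H ≤ H₀
  /-- The map of `H₀` onto `Δ` with kernel `H`. -/
  chi : H₀ →* Δ
  /-- The map is surjective. -/
  surj : Function.Surjective chi
  /-- Its kernel is `H`. -/
  ker_iff : ∀ x : H₀, chi x = 1 ↔ (x : (ZMod N)ˣ) ∈ H

/-- The diagonal of an element of `Γ_{H₀}(N)`. -/
noncomputable def diagHom (N : ℕ) (H₀ : Subgroup (ZMod N)ˣ) : GammaH N H₀ →* H₀ where
  toFun σ := ⟨(mem_GammaH_iff_upper.mp σ.2).2.choose, (mem_GammaH_iff_upper.mp σ.2).2.choose_spec.1⟩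
  map_one' := by
    refine Subtype.ext (Units.ext ?_)
    rw [(mem_GammaH_iff_upper.mp (1 : GammaH N H₀).2).2.choose_spec.2]
    simp
  map_mul' σ τ := by
    refine Subtype.ext (Units.ext ?_)
    rw [(mem_GammaH_iff_upper.mp (σ * τ).2).2.choose_spec.2, Subgroup.coe_mul, Subgroup.coe_mul,
      Units.val_mul, (mem_GammaH_iff_upper.mp σ.2).2.choose_spec.2,
      (mem_GammaH_iff_upper.mp τ.2).2.choose_spec.2]
    simp [Matrix.mul_apply, Fin.sum_univ_two, Gamma0_mem.mp (GammaH_le_Gamma0 τ.2)]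

/-- `diagHom σ` is the upper left entry of `σ` modulo `N`. -/
theorem coe_diagHom (σ : GammaH N H₀) :
    ((diagHom N H₀ σ : (ZMod N)ˣ) : ZMod N) = (((σ : SL(2, ℤ)) 0 0 : ℤ) : ZMod N) :=
  (mem_GammaH_iff_upper.mp σ.2).2.choose_spec.2

/-- Every element of `H₀` is the diagonal of some element of `Γ_{H₀}(N)`. -/
theorem diagHom_surjective [NeZero N] : Function.Surjective (diagHom N H₀) := by
  rintro ⟨x, hx⟩
  obtain ⟨g, hg, e⟩ := exists_gamma0_lift x
  exact ⟨⟨g, mem_GammaH_iff_upper.mpr ⟨hg, x, hx, e.symm⟩⟩,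
    Subtype.ext (Units.ext ((coe_diagHom _).trans e))⟩

namespace DiamondQuot

variable (D : DiamondQuot N H₀ H Δ)

/-- The image in `Δ` of an element of the larger level. -/
noncomputable def deg : GammaH N H₀ →* Δ := D.chi.comp (diagHom N H₀)

/-- The kernel of `deg` is the smaller level. -/
theorem deg_eq_one_iff (σ : GammaH N H₀) : D.deg σ = 1 ↔ (σ : SL(2, ℤ)) ∈ GammaH N H := by
  rw [deg, MonoidHom.comp_apply, D.ker_iff, mem_GammaH_iff_upper]
  refine ⟨fun h => ⟨GammaH_le_Gamma0 σ.2, _, h, coe_diagHom σ⟩, fun ⟨_, x, hx, e⟩ => ?_⟩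
  rwa [show ((diagHom N H₀ σ : H₀) : (ZMod N)ˣ) = x from Units.ext ((coe_diagHom σ).trans e.symm)]

/-- Two elements have the same image exactly when they differ by the smaller level. -/
theorem deg_eq_iff (σ τ : GammaH N H₀) :
    D.deg σ = D.deg τ ↔ (σ : SL(2, ℤ)) * (τ : SL(2, ℤ))⁻¹ ∈ GammaH N H := by
  rw [← Subgroup.coe_inv, ← Subgroup.coe_mul, ← D.deg_eq_one_iff, map_mul, map_inv,
    mul_inv_eq_one]

include D in
/-- The larger level normalises the smaller one. -/
theorem conj_mem (σ : GammaH N H₀) {γ : SL(2, ℤ)} (hγ : γ ∈ GammaH N H) :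
    (σ : SL(2, ℤ)) * γ * (σ : SL(2, ℤ))⁻¹ ∈ GammaH N H := by
  have h1 : D.deg (σ * ⟨γ, GammaH_mono D.le hγ⟩ * σ⁻¹) = 1 := by
    rw [map_mul, map_mul, map_inv, (D.deg_eq_one_iff ⟨γ, GammaH_mono D.le hγ⟩).mpr hγ, mul_one,
      mul_inv_cancel]
  exact (D.deg_eq_one_iff _).mp h1

include D in
/-- Restriction to the smaller level is a level map. -/
theorem isLevelMap_res : IsLevelMap H₀ H 1 1 :=
  isLevelMap_one dvd_rfl (by
    rw [ZMod.unitsMap_self, Subgroup.map_id]
    exact D.le)

variable [NeZero N]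

/-- Every element of `Δ` is the image of an element of the larger level. -/
theorem deg_surjective : Function.Surjective D.deg := D.surj.comp diagHom_surjective

/-- A chosen element with given image. -/
noncomputable def lift (δ : Δ) : GammaH N H₀ := Function.surjInv D.deg_surjective δ

/-- `lift` is a section of `deg`. -/
theorem deg_lift (δ : Δ) : D.deg (D.lift δ) = δ := Function.surjInv_eq _ δ

omit [NeZero N] in
/-- An element of the larger level is a level map of the smaller one to itself. -/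
theorem isLevelMap_elt (σ : GammaH N H₀) : IsLevelMap H H 1 (gq (σ : SL(2, ℤ))) :=
  isLevelMap_gamma0 le_rfl (GammaH_le_Gamma0 σ.2)

variable {R : Type} [CommRing R]

/-- The diamond operator of an element of `Δ`. -/
noncomputable def diaLin (δ : Δ) : Homs R (GammaH N H) →ₗ[R] Homs R (GammaH N H) :=
  (isLevelMap_elt (H := H) (D.lift δ)).pull

/-- Pullback by an element is the diamond operator of its image. -/
theorem pull_elt (σ : GammaH N H₀) (φ : Homs R (GammaH N H)) :
    (isLevelMap_elt (H := H) σ).pull φ = D.diaLin (D.deg σ) φ := by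
  refine IsLevelMap.pull_congr _ _ ((D.deg_eq_iff σ (D.lift (D.deg σ))).mp (D.deg_lift _).symm) ?_ φ
  rw [← map_mul, inv_mul_cancel_right]

/-- Diamond operators are multiplicative. -/
theorem diaLin_mul (a b : Δ) (φ : Homs R (GammaH N H)) :
    D.diaLin (a * b) φ = D.diaLin a (D.diaLin b φ) := by
  have h : D.deg (D.lift b * D.lift a) = a * b := by rw [map_mul, D.deg_lift, D.deg_lift, mul_comm]
  rw [← h, ← pull_elt, diaLin, diaLin, ← IsLevelMap.pull_comp]
  exact IsLevelMap.pull_congr _ _ (one_mem _)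
    (by rw [map_one, one_mul, Subgroup.coe_mul, map_mul]) φ

/-- The diamond operator of `1` is the identity. -/
theorem diaLin_one (φ : Homs R (GammaH N H)) : D.diaLin (1 : Δ) φ = φ := by
  rw [← map_one D.deg, ← pull_elt]
  refine AddMonoidHom.ext fun γ => ?_
  obtain ⟨γ, rfl⟩ := Additive.ofMul.surjective γ
  exact IsLevelMap.pull_apply _ φ γ γ (by simp)

/-- The diamond operators. -/
noncomputable def dia : Δ →* Module.End R (Homs R (GammaH N H)) where
  toFun := D.diaLin
  map_one' := LinearMap.ext D.diaLin_one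
  map_mul' a b := LinearMap.ext fun φ => D.diaLin_mul a b φ

/-- `dia` is `diaLin` as a monoid homomorphism. -/
theorem dia_apply (δ : Δ) (φ : Homs R (GammaH N H)) : D.dia δ φ = D.diaLin δ φ := rfl

/-- Diamond operators commute with a change of coefficients. -/
theorem mapCoeff_dia {R' : Type} [CommRing R'] (f : R →+* R') (δ : Δ)
    (φ : Homs R (GammaH N H)) : mapCoeff f (D.dia δ φ) = D.dia δ (mapCoeff f φ) :=
  IsLevelMap.mapCoeff_pull _ f φ

include D in
omit [NeZero N] in
/-- The trace along such an element is over the whole smaller level. -/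
theorem traceSub_elt (σ : GammaH N H₀) :
    GammaH N H ≤ traceSub H H (gq (σ : SL(2, ℤ))) := fun e he => by
  refine mem_traceSub.mpr ⟨he, _, D.conj_mem σ⁻¹ he, ?_⟩
  rw [map_mul, map_mul, Subgroup.coe_inv, map_inv, inv_inv]
  group

include D in
/-- Pulling back by an element is tracing by its inverse. -/
theorem pull_elt_eq_tr (σ : GammaH N H₀) (φ : Homs R (GammaH N H)) :
    (isLevelMap_elt (H := H) σ).pull φ = (isLevelMap_elt (H := H) σ⁻¹).tr φ := by
  set h := isLevelMap_elt (H := H) σ⁻¹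
  refine Reps.homMap_congr (isLevelMap_elt (H := H) σ).reps h.push.toReps (fun _ => ?_) ?_ φ
  · obtain ⟨k, e, he, hk⟩ := h.exists_traceRep_eq 1
    have heH : e ∈ GammaH N H := (mem_traceSub.mp he).1
    refine ⟨k, (σ : SL(2, ℤ)) * e * (σ : SL(2, ℤ))⁻¹, D.conj_mem σ heH, ?_⟩
    change gq (σ : SL(2, ℤ))
      = gq _ * ((gq ((σ⁻¹ : GammaH N H₀) : SL(2, ℤ)))⁻¹ * gq (h.traceRep k : SL(2, ℤ)))
    have hk' : (h.traceRep k : SL(2, ℤ)) = e⁻¹ :=
      eq_inv_of_mul_eq_one_right (a := e) (hk.symm.trans (Subgroup.coe_one (GammaH N H)))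
    rw [hk', Subgroup.coe_inv, map_inv, inv_inv, map_mul, map_mul, map_inv, map_inv]
    group
  · rw [Fintype.card_unit]
    exact Fintype.card_le_one_iff.mpr fun i k => h.eq_of_traceRep (D.traceSub_elt σ⁻¹
      (mul_mem (h.traceRep k).2 (inv_mem (h.traceRep i).2)))

/-- The transpose of a diamond operator. -/
theorem dualToSymb_dia (f : Module.Dual R (Homs R (GammaH N H))) (σ : GammaH N H₀) :
    dualToSymb R (GammaH N H) (f ∘ₗ D.dia (D.deg σ))
      = (isLevelMap_elt (H := H) σ⁻¹).pullS (dualToSymb R (GammaH N H) f) := by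
  rw [← IsLevelMap.dualToSymb_tr]
  congr 2
  exact LinearMap.ext fun φ => by rw [dia_apply, ← D.pull_elt, D.pull_elt_eq_tr]

/-- Traces do not see diamond operators. -/
theorem tr_dia [IsDomain R] [IsPrincipalIdealRing R] (hΓ₀ : GoodLevel R (GammaH N H₀))
    (hΓ : GoodLevel R (GammaH N H)) (δ : Δ) (φ : Homs R (GammaH N H)) :
    D.isLevelMap_res.tr (D.dia δ φ) = D.isLevelMap_res.tr φ := by
  have := hΓ₀.moduleFree
  rw [← sub_eq_zero, ← Module.forall_dual_apply_eq_zero_iff R]
  intro f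
  obtain ⟨σ, rfl⟩ := D.deg_surjective δ
  have key : (f ∘ₗ D.isLevelMap_res.tr) ∘ₗ D.dia (D.deg σ) = f ∘ₗ D.isLevelMap_res.tr := by
    refine hΓ.dualEquiv.injective ?_
    change dualToSymb R (GammaH N H) _ = dualToSymb R (GammaH N H) _
    rw [dualToSymb_dia, IsLevelMap.dualToSymb_tr]
    refine Subtype.ext (funext fun a => funext fun b => ?_)
    simp only [IsLevelMap.pullS_apply, one_smul]
    exact (dualToSymb R (GammaH N H₀) f).2.2 _ (σ⁻¹).2 a b
  rw [map_sub, sub_eq_zero]
  exact LinearMap.congr_fun key φ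

/-- Restriction after trace is the norm. -/
theorem res_tr [Fintype Δ] (φ : Homs R (GammaH N H)) :
    D.isLevelMap_res.pull (D.isLevelMap_res.tr φ) = ∑ δ, D.dia δ φ := by
  set h := D.isLevelMap_res
  have hsub : traceSub H₀ H (1 : GL (Fin 2) ℚ) = GammaH N H := by
    ext e
    rw [mem_traceSub]
    exact ⟨fun ⟨_, γ, hγ, he⟩ =>
      (Reps.gq_injective (by simpa using he : gq γ = gq e)) ▸ hγ,
      fun he => ⟨GammaH_mono D.le he, e, he, by simp⟩⟩
  have hbij : Function.Bijective fun i => D.deg (h.traceRep i) := by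
    refine ⟨fun i k hik => h.eq_of_traceRep (hsub ▸ (D.deg_eq_iff _ _).mp hik.symm), fun δ => ?_⟩
    obtain ⟨i, e, he, hi⟩ := h.exists_traceRep_eq (D.lift δ)
    refine ⟨i, ?_⟩
    change D.deg (h.traceRep i) = δ
    rw [← D.deg_lift δ, eq_comm, D.deg_eq_iff, hi, mul_inv_cancel_right]
    exact hsub ▸ he
  refine AddMonoidHom.ext fun γ => ?_
  obtain ⟨γ, rfl⟩ := Additive.ofMul.surjective γ
  rw [AddMonoidHom.finsetSum_apply]
  have hγ₀ : (γ : SL(2, ℤ)) ∈ GammaH N H₀ := GammaH_mono D.le γ.2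
  rw [IsLevelMap.pull_apply h _ γ ⟨γ, hγ₀⟩ (by simp), IsLevelMap.tr, Reps.homMap_apply]
  refine Fintype.sum_bijective _ hbij _ _ fun i => ?_
  rw [dia_apply, ← pull_elt,
    IsLevelMap.pull_apply _ φ γ ⟨_, D.conj_mem (h.traceRep i) γ.2⟩ (by
      rw [map_mul, map_mul, map_inv, inv_mul_cancel_right])]
  congr 2
  refine (h.push.toReps.eq_of_decomp (γ := ⟨γ, hγ₀⟩) (i := i) (k := i) ?_).2.symm
  change (1 : GL (Fin 2) ℚ)⁻¹ * gq (h.traceRep i : SL(2, ℤ)) * gq (γ : SL(2, ℤ))
    = gq ((h.traceRep i : SL(2, ℤ)) * γ * (h.traceRep i : SL(2, ℤ))⁻¹)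
      * ((1 : GL (Fin 2) ℚ)⁻¹ * gq (h.traceRep i : SL(2, ℤ)))
  rw [inv_one, one_mul, map_mul, map_mul, map_inv, inv_mul_cancel_right]

end DiamondQuot

/-- Conjugation by `Γ₀(N)` commutes with all Hecke operators. -/
theorem goodFor_gamma0 {σ : Type} {p : σ → ℕ} [hp : ∀ i, Fact (p i).Prime]
    {g : SL(2, ℤ)} (hg : g ∈ Gamma0 N) : GoodFor p N H (gq g) 1 := fun i => by
  refine ⟨⟨(hp i).out.not_dvd_one, 1, fun h => (hp i).out.ne_one (by
    exact_mod_cast Int.eq_one_of_dvd_one (by positivity) h), fun e d hd he => ?_⟩, Iff.rfl⟩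
  rw [one_mul, ← ZMod.intCast_zmod_eq_zero_iff_dvd]
  have he' : e = g⁻¹ * d * g := Reps.gq_injective (by
    rw [map_mul, map_mul, map_inv, mul_assoc, ← he, inv_mul_cancel_left])
  exact Gamma0_mem.mp (he' ▸ mul_mem (mul_mem (inv_mem hg) (GammaH_le_Gamma0 hd)) hg)

namespace DiamondQuot

variable [NeZero N] (D : DiamondQuot N H₀ H Δ) {O : Type} [CommRing O] {R : Type} [CommRing R]
  [Algebra O R] {σ : Type} {p : σ → ℕ} [hp : ∀ i, Fact (p i).Prime]

/-- Diamond operators commute with the Hecke action. -/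
theorem dia_heckeAct (δ : Δ) (a : MvPolynomial σ O) (φ : Homs R (GammaH N H)) :
    D.dia δ (heckeAct O R N H p a φ) = heckeAct O R N H p a (D.dia δ φ) :=
  pull_heckeAct (isLevelMap_elt (H := H) (D.lift δ))
    (goodFor_gamma0 (GammaH_le_Gamma0 (D.lift δ).2)) a φ

/-- The kernel of restriction is Eisenstein. -/
theorem res_ker (i : σ) (hi : (p i : ZMod N) = 1) {φ : Homs R (GammaH N H₀)}
    (hφ : D.isLevelMap_res.pull φ = 0) : heckeAct O R N H₀ p (eisElt O p i) φ = 0 := by
  have := hp i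
  rw [heckeAct_eisElt, sub_eq_zero]
  refine AddMonoidHom.ext fun γ => ?_
  obtain ⟨γ, rfl⟩ := Additive.ofMul.surjective γ
  -- `φ` vanishes on the elements of degree one
  have hzero : ∀ x : GammaH N H₀, D.deg x = 1 → φ (Additive.ofMul x) = 0 := fun x hx => by
    have h := DFunLike.congr_fun hφ (Additive.ofMul ⟨(x : SL(2, ℤ)), (D.deg_eq_one_iff x).mp hx⟩)
    rw [IsLevelMap.pull_apply _ φ _ x (by simp)] at h
    exact h
  set P := (hecke N H₀ (p i)).toReps
  -- as `p i = 1` modulo `N`, each permutation element of `γ` has the degree of `γ`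
  have hd : ∀ j, D.deg (P.elt γ j) = D.deg γ := fun j => by
    have h0 : ∀ a : HeckeIdx (p i) N, ((heckeMat (p i) N a.1 0 0 : ℤ) : ZMod N) = 1
        ∧ ((heckeMat (p i) N a.1 1 0 : ℤ) : ZMod N) = 0 := by
      rintro ⟨_ | a, ha⟩
      · refine ⟨?_, by simp [heckeMat]⟩
        have h := congrArg (fun x : ℤ => (x : ZMod N)) (bezout (ha rfl))
        simp at h
        simpa [heckeMat, mul_comm] using h
      · simp [heckeMat]
    have e : heckeMat (p i) N j.1 * ((γ : SL(2, ℤ)) : Matrix (Fin 2) (Fin 2) ℤ)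
        = ((P.elt γ j : SL(2, ℤ)) : Matrix (Fin 2) (Fin 2) ℤ)
          * heckeMat (p i) N (P.perm γ j).1 := by
      refine Matrix.map_injective Int.cast_injective (α := ℤ) (β := ℚ) ?_
      have h := congrArg Units.val (P.mul_gq γ j)
      rw [show P.B j = stdGL (p i) N j from rfl, show P.B (P.perm γ j) = stdGL (p i) N _ from rfl,
        Units.val_mul, Units.val_mul, coe_gq, coe_gq, coe_stdGL, coe_stdGL,
        ← Matrix.map_mul_intCast, ← Matrix.map_mul_intCast] at h
      exact h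
    refine congrArg D.chi (Subtype.ext (Units.ext ?_))
    rw [coe_diagHom, coe_diagHom]
    have h1 := congrArg (fun M : Matrix (Fin 2) (Fin 2) ℤ => ((M 0 0 : ℤ) : ZMod N)) e
    simp [Matrix.mul_apply, Fin.sum_univ_two, (h0 j).1, (h0 _).1, (h0 _).2,
      Gamma0_mem.mp (GammaH_le_Gamma0 γ.2)] at h1
    exact h1.symm
  rw [heckeT, Reps.homMap_apply, AddMonoidHom.nsmul_apply]
  -- so `φ` takes the value `φ γ` on each of the `p i + 1` of them
  have hval : ∀ j, φ (Additive.ofMul (P.elt γ j)) = φ (Additive.ofMul γ) := fun j => by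
    have h := hzero (P.elt γ j * γ⁻¹) (by rw [map_mul, map_inv, hd, mul_inv_cancel])
    rwa [ofMul_mul, ofMul_inv, map_add, map_neg, add_neg_eq_zero] at h
  rw [Finset.sum_congr rfl fun j _ => hval j, Finset.sum_const, Finset.card_univ,
    card_heckeIdx_of_not_dvd (not_dvd_of_one_mod hi)]

/-- Over a field the trace is surjective. -/
theorem tr_surjective {k : Type} [Field k] (hΓ₀ : GoodLevel k (GammaH N H₀)) :
    Function.Surjective (D.isLevelMap_res.tr (R := k)) := by
  rw [← LinearMap.range_eq_top]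
  by_contra hne
  obtain ⟨y, hy⟩ : ∃ y, y ∉ LinearMap.range (D.isLevelMap_res.tr (R := k)) := by
    contrapose! hne
    exact eq_top_iff.mpr fun y _ => hne y
  obtain ⟨F, hF, hFr⟩ := Submodule.exists_dual_map_eq_bot_of_notMem hy inferInstance
  have hF0 : F = 0 := by
    refine hΓ₀.dualEquiv.injective (Subtype.ext ?_)
    have h : dualToSymb k (GammaH N H) (F ∘ₗ D.isLevelMap_res.tr) = 0 := by
      rw [show F ∘ₗ D.isLevelMap_res.tr = 0 from LinearMap.ext fun z => by
        have : F (D.isLevelMap_res.tr z) ∈ (LinearMap.range D.isLevelMap_res.tr).map F :=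
          ⟨_, ⟨z, rfl⟩, rfl⟩
        rwa [hFr, Submodule.mem_bot] at this, map_zero]
    rw [IsLevelMap.dualToSymb_tr] at h
    funext a b
    have h' := congrFun (congrFun (congrArg Subtype.val h) a) b
    rw [IsLevelMap.pullS_apply, one_smul, one_smul] at h'
    change F (crossR k (GammaH N H₀) a b) = _
    rw [map_zero]
    exact h'
  exact hF (by rw [hF0, LinearMap.zero_apply])

/-- Over a field the kernel of the trace is spanned by the elements `δ x - x`. -/
theorem mem_span_of_tr_eq_zero {k : Type} [Field k] (hΓ₀ : GoodLevel k (GammaH N H₀))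
    (hΓ : GoodLevel k (GammaH N H))
    {x : Homs k (GammaH N H)} (hx : D.isLevelMap_res.tr x = 0) :
    x ∈ Submodule.span k (Set.range fun a : Δ × Homs k (GammaH N H) => D.dia a.1 a.2 - a.2) := by
  by_contra hmem
  obtain ⟨F, hF, hFr⟩ := Submodule.exists_dual_map_eq_bot_of_notMem hmem inferInstance
  have hinv : ∀ δ, F ∘ₗ D.dia δ = F := fun δ => LinearMap.ext fun z => by
    have h : F (D.dia δ z - z) ∈ (Submodule.span k (Set.range fun a : Δ × Homs k (GammaH N H) =>
        D.dia a.1 a.2 - a.2)).map F := ⟨_, Submodule.subset_span ⟨(δ, z), rfl⟩, rfl⟩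
    rwa [hFr, Submodule.mem_bot, map_sub, sub_eq_zero] at h
  set S := dualToSymb k (GammaH N H) F with hS
  let S₀ : symbols k (GammaH N H₀) := ⟨S.1, S.2.1, fun γ hγ a b => by
    have h := congrFun (congrFun (congrArg Subtype.val
      (D.dualToSymb_dia F (⟨γ, hγ⟩ : GammaH N H₀)⁻¹)) a) b
    rw [hinv, IsLevelMap.pullS_apply, inv_inv] at h
    exact h.symm⟩
  set f := hΓ₀.dualEquiv.symm S₀
  have hf : F = f ∘ₗ D.isLevelMap_res.tr := by
    refine hΓ.dualEquiv.injective ?_
    change dualToSymb k (GammaH N H) F = dualToSymb k (GammaH N H) _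
    rw [IsLevelMap.dualToSymb_tr, show dualToSymb k (GammaH N H₀) f = S₀ from
      hΓ₀.dualEquiv.apply_symm_apply S₀]
    refine Subtype.ext (funext fun a => funext fun b => ?_)
    rw [IsLevelMap.pullS_apply, one_smul, one_smul]
  exact hF (by rw [hf, LinearMap.comp_apply, hx, map_zero])

end DiamondQuot

end Fermat.HM
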