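import Mathlib

/-!
# A criterion for freeness over the group ring of a finite abelian `p`-group

The criterion is `free_of_coinvariants`.
-/

namespace Fermat.HM

open MonoidAlgebra

variable {O : Type} [CommRing O] [IsLocalRing O] {p : ℕ} [hp : Fact p.Prime] {Δ : Type}
  [CommGroup Δ]

/-- `δ - 1` lies in every prime above the maximal ideal, `Δ` being a `p`-group. -/
theorem single_sub_one_mem_of_isPrime (hpm : (p : O) ∈ (IsLocalRing.maximalIdeal O))
    (hΔ : IsPGroup p Δ) {P : Ideal (MonoidAlgebra O Δ)}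
    [P.IsPrime] (hP : Ideal.map (algebraMap O (MonoidAlgebra O Δ)) (IsLocalRing.maximalIdeal O) ≤ P)
    (δ : Δ) :
    MonoidAlgebra.of O Δ δ - 1 ∈ P := by
  obtain ⟨k, hk⟩ := hΔ δ
  set f := Ideal.Quotient.mk P
  have hp0 : (p : (MonoidAlgebra O Δ) ⧸ P) = 0 := by
    rw [← map_natCast f, Ideal.Quotient.eq_zero_iff_mem, ← map_natCast
      (algebraMap O (MonoidAlgebra O Δ))]
    exact hP (Ideal.mem_map_of_mem _ hpm)
  have : CharP ((MonoidAlgebra O Δ) ⧸ P) p := (CharP.charP_iff_prime_eq_zero hp.out).mpr hp0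
  rw [← Ideal.Quotient.eq_zero_iff_mem, map_sub, map_one]
  refine (pow_eq_zero_iff (pow_ne_zero k hp.out.ne_zero)).mp ?_
  rw [sub_pow_char_pow, one_pow, ← map_pow, ← map_pow, hk, map_one, map_one, sub_self]

variable [Finite Δ]

/-- The maximal ideal of `O` lies in the Jacobson radical of the group ring. -/
theorem map_maximalIdeal_le_jacobson :
    Ideal.map (algebraMap O (MonoidAlgebra O Δ)) (IsLocalRing.maximalIdeal O) ≤
      Ideal.jacobson ⊥ := by
  rw [Ideal.jacobson]
  refine le_sInf fun P hP => ?_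
  have := hP.2
  have : Algebra.IsIntegral O (MonoidAlgebra O Δ) :=
    Algebra.IsIntegral.of_finite O (MonoidAlgebra O Δ)
  have : (P.comap (algebraMap O (MonoidAlgebra O Δ))).IsMaximal :=
    Ideal.isMaximal_comap_of_isIntegral_of_isMaximal P
  rw [Ideal.map_le_iff_le_comap, IsLocalRing.eq_maximalIdeal this]

/-- The augmentation elements. -/
noncomputable def augSet (O : Type) [CommRing O] (Δ : Type) [CommGroup Δ] :
    Set (MonoidAlgebra O Δ) :=
  Set.range fun δ => MonoidAlgebra.of O Δ δ - 1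

/-- The augmentation ideal lies in the Jacobson radical. -/
theorem span_augSet_le_jacobson (hpm : (p : O) ∈ (IsLocalRing.maximalIdeal O)) (hΔ : IsPGroup p Δ) :
    Ideal.span (augSet O Δ) ≤ Ideal.jacobson ⊥ := by
  rw [Ideal.span_le]
  rintro _ ⟨δ, rfl⟩
  refine Submodule.mem_sInf.mpr fun P hP => ?_
  have := hP.2
  have := hP.2.isPrime
  exact single_sub_one_mem_of_isPrime hpm hΔ
    (map_maximalIdeal_le_jacobson.trans (sInf_le hP)) δ

variable [IsNoetherianRing O] {M : Type} [AddCommGroup M] [Module O M]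
  [Module (MonoidAlgebra O Δ) M]
  [IsScalarTower O (MonoidAlgebra O Δ) M] [Module.Finite O M] {M₀ : Type}
    [AddCommGroup M₀] [Module O M₀]
  [Module.Finite O M₀] [Module.Free O M₀]

/-- The elements `δ x - x`. -/
noncomputable def coinvSub (O : Type) [CommRing O] (Δ : Type) [CommGroup Δ] (M : Type)
    [AddCommGroup M] [Module (MonoidAlgebra O Δ) M] : Submodule (MonoidAlgebra O Δ) M :=
  Ideal.span (augSet O Δ) • ⊤

omit [IsLocalRing O] [Finite Δ] [IsNoetherianRing O] in
/-- An element is the sum of its coefficients times the group elements. -/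
theorem eq_sum_of [Fintype Δ] (a : (MonoidAlgebra O Δ)) :
    a = ∑ δ, MonoidAlgebra.coeff a δ • MonoidAlgebra.of O Δ δ := by
  conv_lhs => rw [← MonoidAlgebra.sum_coeff_single a]
  rw [Finsupp.sum_fintype _ _ (fun _ => by simp)]
  exact Finset.sum_congr rfl fun δ _ => (MonoidAlgebra.smul_of δ _).symm

/-- The augmentation. -/
noncomputable def aug (O : Type) [CommRing O] (Δ : Type) [CommGroup Δ] :
    MonoidAlgebra O Δ →ₐ[O] O :=
  MonoidAlgebra.lift O O Δ 1

omit [IsNoetherianRing O] [IsLocalRing O] in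
/-- An element minus its augmentation lies in the augmentation ideal. -/
theorem sub_aug_mem (a : (MonoidAlgebra O Δ)) : a - algebraMap O (MonoidAlgebra O Δ) (aug O Δ a) ∈
    Ideal.span (augSet O Δ) := by
  have := Fintype.ofFinite Δ
  have h1 : ∀ δ, aug O Δ (MonoidAlgebra.of O Δ δ) = 1 := fun δ => by
    rw [aug, MonoidAlgebra.lift_of]; rfl
  rw [eq_sum_of a, map_sum, map_sum, ← Finset.sum_sub_distrib]
  refine Ideal.sum_mem _ fun δ _ => ?_
  rw [map_smul, h1, smul_eq_mul, mul_one, Algebra.smul_def,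
    show ∀ x y : (MonoidAlgebra O Δ), x * y - x = x * (y - 1) from fun x y => by ring]
  exact Ideal.mul_mem_left _ _ (Ideal.subset_span ⟨δ, rfl⟩)

omit [IsNoetherianRing O] [Finite Δ] [Module.Finite O M] [IsLocalRing O] in
/-- `I • M` lies in the extended ideal times `M`. -/
theorem mem_map_algebraMap_smul (I : Ideal O) {x : M} (hx : x ∈ I • (⊤ : Submodule O M)) :
    x ∈ Ideal.map (algebraMap O (MonoidAlgebra O Δ)) I • (⊤ : Submodule (MonoidAlgebra O Δ) M) := by
  refine Submodule.smul_induction_on hx (fun a ha y _ => ?_) fun _ _ h1 h2 => add_mem h1 h2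
  rw [← algebraMap_smul (MonoidAlgebra O Δ) a y]
  exact Submodule.smul_mem_smul (Ideal.mem_map_of_mem _ ha) Submodule.mem_top

omit [IsNoetherianRing O] [Finite Δ] [IsLocalRing O] in
/-- Coefficients of elements of an extended ideal. -/
theorem coeff_mem_of_mem_map {I : Ideal O} {a : (MonoidAlgebra O Δ)}
    (h : a ∈ Ideal.map (algebraMap O (MonoidAlgebra O Δ)) I) (δ : Δ) :
    MonoidAlgebra.coeff a δ ∈ I := by
  rw [Ideal.map, Ideal.span] at h
  induction h using Submodule.span_induction generalizing δ with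
  | mem x hx =>
    obtain ⟨c, hc, rfl⟩ := hx
    classical
    rw [MonoidAlgebra.coe_algebraMap, Function.comp_apply, MonoidAlgebra.coeff_single,
      Finsupp.single_apply]
    split
    · exact hc
    · exact zero_mem _
  | zero => simp
  | add x y _ _ hx hy =>
    rw [MonoidAlgebra.coeff_add, Finsupp.add_apply]
    exact add_mem (hx δ) (hy δ)
  | smul c x _ hx =>
    rw [smul_eq_mul]
    induction c using MonoidAlgebra.induction_linear generalizing δ with
    | zero => simp
    | add f g hf hg =>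
      rw [add_mul, MonoidAlgebra.coeff_add, Finsupp.add_apply]
      exact add_mem (hf δ) (hg δ)
    | single g r =>
      rw [MonoidAlgebra.coeff_single_mul_apply]
      exact I.mul_mem_left _ (hx _)

omit [Finite Δ] [Module.Finite O M₀] [IsNoetherianRing O] [IsLocalRing O] [Module.Free O M₀] in
/-- An element of `I • M₀` has its coordinates in `I`. -/
theorem coord_mem_of_mem_smul {ι : Type*} [Fintype ι] (b : Module.Basis ι O M₀) {c : ι → O}
    {I : Ideal O} (h : (∑ j, c j • b j) ∈ I • (⊤ : Submodule O M₀)) (j : ι) : c j ∈ I := by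
  have h1 : b.coord j (∑ j, c j • b j) ∈ Submodule.map (b.coord j) (I • ⊤) := ⟨_, h, rfl⟩
  rw [Submodule.map_smul''] at h1
  have h2 : b.coord j (∑ j, c j • b j) ∈ I := by
    have := Submodule.smul_mono le_rfl (le_top (a := Submodule.map (b.coord j) ⊤)) h1
    rwa [smul_eq_mul, Ideal.mul_top] at this
  classical
  simpa [Finsupp.single_apply] using h2

omit [IsLocalRing O] [IsNoetherianRing O] [Module.Finite O M] in
/-- The extended ideal times `M` lies in `I • M`. -/
theorem mem_smul_of_mem_map {I : Ideal O} {M : Type} [AddCommGroup M] [Module O M]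
    [Module (MonoidAlgebra O Δ) M] [IsScalarTower O (MonoidAlgebra O Δ) M] {x : M}
    (hx : x ∈ Ideal.map (algebraMap O (MonoidAlgebra O Δ)) I •
      (⊤ : Submodule (MonoidAlgebra O Δ) M)) :
    x ∈ I • (⊤ : Submodule O M) := by
  have := Fintype.ofFinite Δ
  refine Submodule.smul_induction_on hx (fun a ha y _ => ?_) fun _ _ h1 h2 => add_mem h1 h2
  rw [eq_sum_of a, Finset.sum_smul]
  refine sum_mem fun δ _ => ?_
  rw [smul_assoc]
  exact Submodule.smul_mem_smul (coeff_mem_of_mem_map ha δ) Submodule.mem_top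

variable (t : M →ₗ[O] M₀)

omit [IsNoetherianRing O] [IsLocalRing O] [Module.Finite O M] [Module.Finite O M₀]
  [Module.Free O M₀] in
/-- A map invariant under `Δ` is linear over the augmentation. -/
private theorem map_smul_eq_aug (htδ : ∀ (δ : Δ) (x : M), t (MonoidAlgebra.of O Δ δ • x) = t x)
    (a : MonoidAlgebra O Δ) (x : M) : t (a • x) = aug O Δ a • t x := by
  have := Fintype.ofFinite Δ
  rw [eq_sum_of a, Finset.sum_smul, map_sum, map_sum, Finset.sum_smul]
  refine Finset.sum_congr rfl fun δ _ => ?_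
  rw [smul_assoc, map_smul, htδ, map_smul, aug, MonoidAlgebra.lift_of]
  simp

omit [IsNoetherianRing O] [Module.Finite O M₀] [Module.Free O M₀] in
/-- Lifts of a basis of the coinvariants generate. -/
private theorem linearCombination_surjective (hpm : (p : O) ∈ IsLocalRing.maximalIdeal O)
    (hΔ : IsPGroup p Δ)
    (htδ : ∀ (δ : Δ) (x : M), t (MonoidAlgebra.of O Δ δ • x) = t x)
    (hker : ∀ x, t x ∈ (IsLocalRing.maximalIdeal O) • (⊤ : Submodule O M₀) →
      x ∈ (coinvSub O Δ M).restrictScalars O ⊔ (IsLocalRing.maximalIdeal O) • ⊤)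
    {ι : Type*} [Fintype ι] (b : Module.Basis ι O M₀) {e : ι → M} (he : ∀ j, t (e j) = b j) :
    Function.Surjective (Fintype.linearCombination (MonoidAlgebra O Δ) e) := by
  have : Module.Finite (MonoidAlgebra O Δ) M :=
    Module.Finite.of_restrictScalars_finite O (MonoidAlgebra O Δ) M
  set Φ := Fintype.linearCombination (MonoidAlgebra O Δ) e
  rw [← LinearMap.range_eq_top, eq_top_iff]
  refine Submodule.le_of_le_smul_of_le_jacobson_bot
    (I := Ideal.span (augSet O Δ) ⊔
      Ideal.map (algebraMap O (MonoidAlgebra O Δ))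
        (IsLocalRing.maximalIdeal O)) Module.Finite.fg_top
    (sup_le (span_augSet_le_jacobson hpm hΔ) map_maximalIdeal_le_jacobson) fun x _ => ?_
  obtain ⟨c, hc⟩ : ∃ c, t x = t (Φ fun j => algebraMap O (MonoidAlgebra O Δ) (c j)) :=
    ⟨fun j => b.repr (t x) j, by
      rw [Fintype.linearCombination_apply, map_sum]
      simp only [map_smul_eq_aug t htδ, he, AlgHom.commutes, Algebra.algebraMap_self,
        RingHom.id_apply]
      exact (b.sum_repr _).symm⟩
  have h := hker (x - Φ fun j => algebraMap O (MonoidAlgebra O Δ) (c j))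
    (by rw [map_sub, hc, sub_self]; exact zero_mem _)
  obtain ⟨u, hu, v, hv, huv⟩ := Submodule.mem_sup.mp h
  rw [← sub_add_cancel x (Φ fun j => algebraMap O (MonoidAlgebra O Δ) (c j)), ← huv, add_comm]
  refine Submodule.add_mem_sup ⟨_, rfl⟩ (add_mem ?_ ?_)
  · exact Submodule.smul_mono le_sup_left le_rfl hu
  · exact Submodule.smul_mono le_sup_right le_rfl (mem_map_algebraMap_smul _ hv)

omit [Finite Δ] [IsNoetherianRing O] in
/-- Modulo `𝔪`, a vector fixed by `Δ` is a multiple of the norm element. -/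
private theorem sub_norm_mem_of_fixed [Fintype Δ] {ι : Type*}
    {x : ι → MonoidAlgebra O Δ}
    (hfix : ∀ δ, (MonoidAlgebra.of O Δ δ - 1) • x ∈
      Ideal.map (algebraMap O (MonoidAlgebra O Δ)) (IsLocalRing.maximalIdeal O) •
        (⊤ : Submodule (MonoidAlgebra O Δ) (ι → MonoidAlgebra O Δ))) (j : ι) :
    x j - MonoidAlgebra.coeff (x j) (1 : Δ) • ∑ δ, MonoidAlgebra.of O Δ δ ∈
      Ideal.map (algebraMap O (MonoidAlgebra O Δ)) (IsLocalRing.maximalIdeal O) := by
  set J := Ideal.map (algebraMap O (MonoidAlgebra O Δ)) (IsLocalRing.maximalIdeal O)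
  rw [Finset.smul_sum]
  conv in x j => rw [eq_sum_of (x j)]
  rw [← Finset.sum_sub_distrib]
  refine Ideal.sum_mem _ fun δ _ => ?_
  rw [← sub_smul, Algebra.smul_def]
  refine Ideal.mul_mem_right _ _ (Ideal.mem_map_of_mem _ ?_)
  have h1 : ((MonoidAlgebra.of O Δ δ - 1) • x) j ∈ J := by
    refine Submodule.smul_induction_on (p := fun z => z j ∈ J) (hfix δ) (fun a ha z _ => ?_)
      fun _ _ h1 h2 => ?_
    · exact Ideal.mul_mem_right _ _ ha
    · exact add_mem h1 h2
  have h2 := coeff_mem_of_mem_map h1 δ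
  rw [Pi.smul_apply, smul_eq_mul, sub_mul, one_mul, MonoidAlgebra.coeff_sub,
    Finsupp.sub_apply, MonoidAlgebra.of_apply, MonoidAlgebra.coeff_single_mul_apply, one_mul,
    inv_mul_cancel] at h2
  rw [← neg_sub]
  exact neg_mem h2

omit [Module.Finite O M] [IsNoetherianRing O] [Module.Finite O M₀] [Module.Free O M₀] in
/-- A vector fixed modulo `𝔪` mapping into `𝔪 M` lies in `𝔪`. -/
private theorem mem_of_fixed_of_map_mem [Fintype Δ]
    (hN : ∀ x : M,
      (∑ δ, MonoidAlgebra.of O Δ δ • x) ∈ (IsLocalRing.maximalIdeal O) • (⊤ : Submodule O M) →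
      t x ∈ (IsLocalRing.maximalIdeal O) • (⊤ : Submodule O M₀))
    {ι : Type*} [Fintype ι] (b : Module.Basis ι O M₀) {e : ι → M} (he : ∀ j, t (e j) = b j)
    {x : ι → MonoidAlgebra O Δ}
    (hfix : ∀ δ, (MonoidAlgebra.of O Δ δ - 1) • x ∈
      Ideal.map (algebraMap O (MonoidAlgebra O Δ)) (IsLocalRing.maximalIdeal O) •
        (⊤ : Submodule (MonoidAlgebra O Δ) (ι → MonoidAlgebra O Δ)))
    (hx : Fintype.linearCombination (MonoidAlgebra O Δ) e x ∈
      Ideal.map (algebraMap O (MonoidAlgebra O Δ)) (IsLocalRing.maximalIdeal O) •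
        (⊤ : Submodule (MonoidAlgebra O Δ) M)) (j : ι) :
    x j ∈ Ideal.map (algebraMap O (MonoidAlgebra O Δ)) (IsLocalRing.maximalIdeal O) := by
  set J := Ideal.map (algebraMap O (MonoidAlgebra O Δ)) (IsLocalRing.maximalIdeal O)
  set Φ := Fintype.linearCombination (MonoidAlgebra O Δ) e
  set c := fun j => MonoidAlgebra.coeff (x j) (1 : Δ)
  have hx2 : ∀ j, x j - c j • ∑ δ, MonoidAlgebra.of O Δ δ ∈ J := sub_norm_mem_of_fixed hfix
  have hsum : (∑ δ, MonoidAlgebra.of O Δ δ • ∑ j, c j • e j) ∈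
      (IsLocalRing.maximalIdeal O) • (⊤ : Submodule O M) := by
    refine mem_smul_of_mem_map (Δ := Δ) ?_
    have h1 : Φ (fun j => c j • ∑ δ, MonoidAlgebra.of O Δ δ) ∈
        J • (⊤ : Submodule (MonoidAlgebra O Δ) M) := by
      rw [show (fun j => c j • ∑ δ, MonoidAlgebra.of O Δ δ)
        = x - (fun j => x j - c j • ∑ δ, MonoidAlgebra.of O Δ δ) from funext fun j => by simp,
        map_sub]
      refine sub_mem hx ?_
      rw [Fintype.linearCombination_apply]
      exact sum_mem fun j _ => Submodule.smul_mem_smul (hx2 j) Submodule.mem_top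
    convert h1 using 1
    rw [Fintype.linearCombination_apply, ← Finset.sum_smul, Finset.smul_sum]
    refine Finset.sum_congr rfl fun j _ => ?_
    rw [smul_assoc, smul_comm]
  have h3 := hN _ hsum
  rw [map_sum] at h3
  simp only [map_smul, he] at h3
  have hc0 : c j ∈ IsLocalRing.maximalIdeal O := coord_mem_of_mem_smul b h3 j
  have h4 : c j • ∑ δ, MonoidAlgebra.of O Δ δ ∈ J := by
    rw [Algebra.smul_def]
    exact Ideal.mul_mem_right _ _ (Ideal.mem_map_of_mem _ hc0)
  simpa using add_mem (hx2 j) h4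

omit [Module.Finite O M] [Module.Finite O M₀] [Module.Free O M₀] in
/-- Vectors mapping into `𝔪 M` lie in `𝔪`. -/
private theorem mem_smul_of_map_mem [Fintype Δ] (hpm : (p : O) ∈ IsLocalRing.maximalIdeal O)
    (hΔ : IsPGroup p Δ)
    (hN : ∀ x : M,
      (∑ δ, MonoidAlgebra.of O Δ δ • x) ∈ (IsLocalRing.maximalIdeal O) • (⊤ : Submodule O M) →
      t x ∈ (IsLocalRing.maximalIdeal O) • (⊤ : Submodule O M₀))
    {ι : Type} [Fintype ι] (b : Module.Basis ι O M₀) {e : ι → M} (he : ∀ j, t (e j) = b j) :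
    (Ideal.map (algebraMap O (MonoidAlgebra O Δ)) (IsLocalRing.maximalIdeal O) •
        (⊤ : Submodule (MonoidAlgebra O Δ) M)).comap
          (Fintype.linearCombination (MonoidAlgebra O Δ) e)
      ≤ Ideal.map (algebraMap O (MonoidAlgebra O Δ)) (IsLocalRing.maximalIdeal O) • ⊤ := by
  classical
  set J := Ideal.map (algebraMap O (MonoidAlgebra O Δ)) (IsLocalRing.maximalIdeal O)
  set K := (J • (⊤ : Submodule (MonoidAlgebra O Δ) M)).comap
    (Fintype.linearCombination (MonoidAlgebra O Δ) e)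
  set P₀ : Submodule (MonoidAlgebra O Δ) (ι → MonoidAlgebra O Δ) := J • ⊤
  by_contra hne
  have : Nontrivial (K ⧸ P₀.comap K.subtype) := by
    refine Submodule.Quotient.nontrivial_iff.mpr fun h => hne fun x hx => ?_
    have : (⟨x, hx⟩ : K) ∈ P₀.comap K.subtype := h ▸ Submodule.mem_top
    exact this
  have : IsNoetherianRing (MonoidAlgebra O Δ) := IsNoetherianRing.of_finite O (MonoidAlgebra O Δ)
  obtain ⟨P, hP⟩ := associatedPrimes.nonempty (MonoidAlgebra O Δ) (K ⧸ P₀.comap K.subtype)
  have : P.IsPrime := hP.isPrime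
  obtain ⟨-, z, hz⟩ := isAssociatedPrime_iff.mp hP
  obtain ⟨⟨x, hx⟩, rfl⟩ := Submodule.Quotient.mk_surjective _ z
  have hann : ∀ a : MonoidAlgebra O Δ, a ∈ P ↔ a • x ∈ P₀ := fun a => by
    rw [hz, Submodule.mem_colon_singleton, Submodule.mem_bot, ← Submodule.Quotient.mk_smul,
      Submodule.Quotient.mk_eq_zero]
    rfl
  have hJP : J ≤ P := fun a ha => (hann a).mpr (Submodule.smul_mem_smul ha Submodule.mem_top)
  have hfix : ∀ δ, (MonoidAlgebra.of O Δ δ - 1) • x ∈ P₀ := fun δ =>
    (hann _).mp (single_sub_one_mem_of_isPrime hpm hΔ hJP δ)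
  have hxP : x ∈ P₀ := by
    rw [show x = ∑ j, (x j) • (Pi.single j (1 : (MonoidAlgebra O Δ)) : _ → (MonoidAlgebra O Δ)) from
      (pi_eq_sum_univ' x).trans (Finset.sum_congr rfl fun j _ => by ext; simp [Pi.single_apply])]
    exact sum_mem fun j _ =>
      Submodule.smul_mem_smul (mem_of_fixed_of_map_mem t hN b he hfix hx j) Submodule.mem_top
  exact (Ideal.ne_top_iff_one P).mp (Ideal.IsPrime.ne_top ‹_›) ((hann 1).mpr (by rwa [one_smul]))

omit [Module.Finite O M] in
/-- A map to a torsion-free module sending only multiples of `𝔪` into `𝔪 M` is injective. -/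
private theorem injective_of_comap_le [Module.IsTorsionFree O M] [IsDomain O]
    [IsPrincipalIdealRing O] {ι : Type} [Fintype ι]
    (Φ : (ι → MonoidAlgebra O Δ) →ₗ[MonoidAlgebra O Δ] M)
    (hΦ : (Ideal.map (algebraMap O (MonoidAlgebra O Δ)) (IsLocalRing.maximalIdeal O) •
        (⊤ : Submodule (MonoidAlgebra O Δ) M)).comap Φ
      ≤ Ideal.map (algebraMap O (MonoidAlgebra O Δ)) (IsLocalRing.maximalIdeal O) • ⊤) :
    Function.Injective Φ := by
  rw [← LinearMap.ker_eq_bot]
  obtain ⟨g, hg⟩ := Submodule.IsPrincipal.principal (IsLocalRing.maximalIdeal O)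
  set L := (LinearMap.ker Φ).restrictScalars O
  have hL : L ≤ (IsLocalRing.maximalIdeal O) • L := fun x hx => by
    have hx0 : Φ x = 0 := hx
    have h2 : x ∈ (IsLocalRing.maximalIdeal O) • (⊤ : Submodule O (ι → MonoidAlgebra O Δ)) :=
      mem_smul_of_mem_map (hΦ (Submodule.mem_comap.mpr (hx0.symm ▸ zero_mem _)))
    rw [hg] at h2
    obtain ⟨y, -, rfl⟩ := (Submodule.mem_smul_pointwise_iff_exists _ _ _).mp
      ((Submodule.ideal_span_singleton_smul g ⊤).le h2)
    rcases eq_or_ne g 0 with rfl | hg0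
    · rw [zero_smul]; exact zero_mem _
    · refine Submodule.smul_mem_smul (hg ▸ Submodule.mem_span_singleton_self g) ?_
      rw [← algebraMap_smul (MonoidAlgebra O Δ) g, map_smul, algebraMap_smul] at hx0
      exact (smul_eq_zero.mp hx0).resolve_left hg0
  have hL0 : L = ⊥ := Submodule.eq_bot_of_le_smul_of_le_jacobson_bot (IsLocalRing.maximalIdeal O) L
    (IsNoetherian.noetherian _) hL (IsLocalRing.maximalIdeal_le_jacobson _)
  rw [eq_bot_iff]
  intro x hx
  have : x ∈ L := hx
  rwa [hL0, Submodule.mem_bot] at this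

/-- The freeness criterion, with the kernel of the projection to the coinvariants. -/
theorem free_of_coinvariants (hpm : (p : O) ∈ (IsLocalRing.maximalIdeal O)) (hΔ : IsPGroup p Δ)
    (ht : Function.Surjective t)
    (htδ : ∀ (δ : Δ) (x : M), t (MonoidAlgebra.of O Δ δ • x) = t x)
    (hker : ∀ x, t x ∈ (IsLocalRing.maximalIdeal O) • (⊤ : Submodule O M₀) →
      x ∈ (coinvSub O Δ M).restrictScalars O ⊔ (IsLocalRing.maximalIdeal O) • ⊤)
    (hN : ∀ [Fintype Δ] (x : M),
      (∑ δ, MonoidAlgebra.of O Δ δ • x) ∈ (IsLocalRing.maximalIdeal O) • (⊤ : Submodule O M) →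
      t x ∈ (IsLocalRing.maximalIdeal O) • (⊤ : Submodule O M₀))
    [Module.IsTorsionFree O M] [IsDomain O] [IsPrincipalIdealRing O] :
    Module.Free (MonoidAlgebra O Δ) M ∧ Module.Finite (MonoidAlgebra O Δ) M ∧ ∀ x, t x = 0 →
      x ∈ coinvSub O Δ M := by
  have := Fintype.ofFinite Δ
  have : Module.Finite (MonoidAlgebra O Δ) M :=
    Module.Finite.of_restrictScalars_finite O (MonoidAlgebra O Δ) M
  set b := Module.Free.chooseBasis O M₀
  choose e he using fun j => ht (b j)
  let Φ := Fintype.linearCombination (MonoidAlgebra O Δ) e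
  have hsurj : Function.Surjective Φ := linearCombination_surjective t hpm hΔ htδ hker b he
  have hinj : Function.Injective Φ :=
    injective_of_comap_le Φ (mem_smul_of_map_mem t hpm hΔ hN b he)
  refine ⟨Module.Free.of_equiv (LinearEquiv.ofBijective Φ ⟨hinj, hsurj⟩), inferInstance,
    fun x hx => ?_⟩
  obtain ⟨a, rfl⟩ := hsurj x
  rw [show Φ a = ∑ j, a j • e j from Fintype.linearCombination_apply
    (MonoidAlgebra O Δ) e a] at hx ⊢
  simp only [map_sum, map_smul_eq_aug t htδ, he] at hx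
  have h0 : ∀ j, aug O Δ (a j) = 0 :=
    fun j => Fintype.linearIndependent_iff.mp b.linearIndependent _ hx j
  refine sum_mem fun j _ => Submodule.smul_mem_smul ?_ Submodule.mem_top
  have := sub_aug_mem (a j)
  rwa [h0, map_zero, sub_zero] at this

end Fermat.HM
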