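import Fermat.Agent.HM.Degeneracy

/-!
# From the residue field back to the coefficients

Reduction is `red`, and `exists_trPair_eq` makes the two traces jointly surjective.
-/

namespace Fermat.HM

open scoped MatrixGroups
open Fermat.MC.Lvl

variable {O : Type} [CommRing O]

/-- An element lifting one in the range of `g'` lies in the range of `g` up to `I`. -/
theorem mem_sup_of_map_mem {M N M' N' : Type} [AddCommGroup M] [Module O M] [AddCommGroup N]
    [Module O N] [AddCommGroup M'] [Module O M'] [AddCommGroup N'] [Module O N'] (I : Ideal O)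
    {g : M →ₗ[O] N} {g' : M' →ₗ[O] N'} {rM : M →ₗ[O] M'} {rN : N →ₗ[O] N'}
    (hsurj : Function.Surjective rM) (hcomm : ∀ x, rN (g x) = g' (rM x))
    (hker : ∀ y, rN y = 0 → y ∈ I • (⊤ : Submodule O N)) {y : N}
    (hy : rN y ∈ LinearMap.range g') : y ∈ LinearMap.range g ⊔ I • ⊤ := by
  obtain ⟨x', hx'⟩ := hy
  obtain ⟨x, rfl⟩ := hsurj x'
  refine Submodule.mem_sup.mpr ⟨g x, ⟨x, rfl⟩, y - g x, hker _ ?_, add_sub_cancel _ _⟩
  rw [map_sub, hcomm, hx', sub_self]

local notation "𝔽" => IsLocalRing.ResidueField O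

section Local

variable [IsLocalRing O]

/-- Reduction to the residue field. -/
noncomputable def red : O →ₐ[O] 𝔽 := Algebra.ofId O 𝔽

/-- Reduction is surjective. -/
theorem red_surjective : Function.Surjective (red (O := O)) := IsLocalRing.residue_surjective

/-- The kernel of reduction is the maximal ideal. -/
theorem red_eq_zero_iff (x : O) : red x = 0 ↔ x ∈ IsLocalRing.maximalIdeal O :=
  IsLocalRing.residue_eq_zero_iff x

end Local

variable [IsDomain O] [IsDiscreteValuationRing O] {Γ : Subgroup SL(2, ℤ)}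

/-- Reduction of homomorphisms is surjective. -/
theorem mapCoeffL_red_surjective (hΓ : GoodLevel O Γ) :
    Function.Surjective (mapCoeffL (red (O := O)) (Γ := Γ)) :=
  hΓ.mapCoeff_surjective red_surjective

/-- The kernel of reduction. -/
theorem mem_smul_top_of_red_eq_zero {φ : Homs O Γ} (h : mapCoeffL (red (O := O)) φ = 0) :
    φ ∈ IsLocalRing.maximalIdeal O • (⊤ : Submodule O (Homs O Γ)) := by
  obtain ⟨ϖ, hϖ⟩ := IsDiscreteValuationRing.exists_irreducible O
  have hm := (IsDiscreteValuationRing.irreducible_iff_uniformizer ϖ).mp hϖ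
  obtain ⟨ψ, rfl⟩ := (mapCoeff_eq_zero_iff (f := (red (O := O)).toRingHom) (ϖ := ϖ)
    (fun x => by
      change red x = 0 ↔ _
      rw [red_eq_zero_iff, hm, Ideal.mem_span_singleton])
    (IsLeftCancelMulZero.mul_left_cancel_of_ne_zero hϖ.ne_zero)).mp h
  exact Submodule.smul_mem_smul (hm ▸ Ideal.mem_span_singleton_self ϖ) Submodule.mem_top

omit [IsDomain O] [IsDiscreteValuationRing O] in
/-- A pair of multiples by `I` is a multiple by `I`. -/
theorem smul_top_prod {M N : Type} [AddCommGroup M] [Module O M] [AddCommGroup N] [Module O N]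
    (I : Ideal O) {x : M} {y : N} (hx : x ∈ I • (⊤ : Submodule O M))
    (hy : y ∈ I • (⊤ : Submodule O N)) : (x, y) ∈ I • (⊤ : Submodule O (M × N)) := by
  have h1 : (x, (0 : N)) ∈ I • (⊤ : Submodule O (M × N)) :=
    Submodule.smul_mono le_rfl le_top
      (Submodule.map_smul'' I ⊤ (LinearMap.inl O M N) ▸ Submodule.mem_map_of_mem hx)
  have h2 : ((0 : M), y) ∈ I • (⊤ : Submodule O (M × N)) :=
    Submodule.smul_mono le_rfl le_top
      (Submodule.map_smul'' I ⊤ (LinearMap.inr O M N) ▸ Submodule.mem_map_of_mem hy)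
  simpa using add_mem h1 h2

variable [IsAdicComplete (IsLocalRing.maximalIdeal O) O] {σ : Type} {p : σ → ℕ}
  [hp : ∀ i, Fact (p i).Prime] {N N' : ℕ} [NeZero N] [NeZero N'] {H : Subgroup (ZMod N)ˣ}
  {H' : Subgroup (ZMod N')ˣ} {q : ℕ} [NeZero q]

/-- The pair of traces. -/
noncomputable def trPair {n₁ n₂ : ℕ} {g₁ g₂ : GL (Fin 2) ℚ} (R : Type) [CommRing R] [Algebra O R]
    (h₁ : IsLevelMap H H' n₁ g₁) (h₂ : IsLevelMap H H' n₂ g₂) :
    Homs R (GammaH N' H') →ₗ[O] Homs R (GammaH N H) × Homs R (GammaH N H) :=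
  ((h₁.tr (R := R)).restrictScalars O).prod ((h₂.tr (R := R)).restrictScalars O)

omit [IsDomain O] [IsDiscreteValuationRing O] [IsAdicComplete (IsLocalRing.maximalIdeal O) O] in
/-- The pair of traces commutes with the Hecke action. -/
theorem trPair_heckeAct {R : Type} [CommRing R] [Algebra O R] [IsDomain R]
    [IsPrincipalIdealRing R] (hΓ : GoodLevel R (GammaH N H)) (hΓ' : GoodLevel R (GammaH N' H'))
    {n₁ n₂ : ℕ} {g₁ g₂ : GL (Fin 2) ℚ} (h₁ : IsLevelMap H H' n₁ g₁) (h₂ : IsLevelMap H H' n₂ g₂)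
    (c₁ : GoodFor p N' H g₁ n₁) (c₂ : GoodFor p N' H g₂ n₂) (a : MvPolynomial σ O)
    (φ : Homs R (GammaH N' H')) :
    trPair (O := O) R h₁ h₂ (heckeAct O R N' H' p a φ)
      = prodAct (heckeAct O R N H p) (heckeAct O R N H p) a (trPair (O := O) R h₁ h₂ φ) :=
  Prod.ext (tr_heckeAct hΓ hΓ' h₁ c₁ a φ) (tr_heckeAct hΓ hΓ' h₂ c₂ a φ)

/-- The two traces are jointly surjective at a non-Eisenstein ideal. -/
theorem exists_trPair_eq (hΓ : GoodLevel O (GammaH N H)) (hΓ' : GoodLevel O (GammaH N' H'))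
    {m : Ideal (MvPolynomial σ O)} [m.IsMaximal] (hne : NonEisenstein p m) (hq : 1 < q)
    (hcop : q.Coprime N) (h₁ : IsLevelMap H H' 1 1) (hD : IsLevelMap H H' q (scaleGL q))
    (g₁ : GoodFor p N' H (1 : GL (Fin 2) ℚ) 1) (gD : GoodFor p N' H (scaleGL q) q)
    {y₁ y₂ : Homs O (GammaH N H)} (hy₁ : y₁ ∈ locPart m (heckeAct O O N H p))
    (hy₂ : y₂ ∈ locPart m (heckeAct O O N H p)) :
    ∃ x ∈ locPart m (heckeAct O O N' H' p), h₁.tr x = y₁ ∧ hD.tr x = y₂ := by
  have := finite_homs (O := O) hΓ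
  have := finite_homs (O := O) hΓ'
  set ρ := heckeAct O O N H p
  set P := prodAct ρ ρ
  have hy : (y₁, y₂) ∈ locPart m P := by
    have e : (y₁, y₂) = LinearMap.inl O _ _ y₁ + LinearMap.inr O _ _ y₂ := by simp
    rw [e]
    exact add_mem (apply_mem_locPart (f := LinearMap.inl O _ _) (σ := P)
        (fun a x => by simp [P, prodAct_apply]) hy₁)
      (apply_mem_locPart (f := LinearMap.inr O _ _) (σ := P)
        (fun a x => by simp [P, prodAct_apply]) hy₂)
  have hsurj := locMap_surjective_of_mod (m := m) (σ := P)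
    (f := trPair O h₁ hD) (trPair_heckeAct hΓ hΓ' h₁ hD g₁ gD) fun z => by
    obtain ⟨s, hs, hsz⟩ := exists_mem_range_tr (O := O) (k := 𝔽) (hΓ.map (red (O := O)).toRingHom)
      hne hq hcop h₁ hD (mapCoeffL red z.1, mapCoeffL red z.2)
    refine ⟨s, hs, mem_sup_of_map_mem _ (g' := trPair (O := O) 𝔽 h₁ hD) (rM := mapCoeffL red)
      (rN := (mapCoeffL red).prodMap (mapCoeffL red)) (mapCoeffL_red_surjective hΓ') (fun x => ?_)
      (fun w hw => ?_) ?_⟩
    · exact Prod.ext (h₁.mapCoeff_tr _ x) (hD.mapCoeff_tr _ x)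
    · exact smul_top_prod _ (mem_smul_top_of_red_eq_zero (congrArg Prod.fst hw))
        (mem_smul_top_of_red_eq_zero (congrArg Prod.snd hw))
    · obtain ⟨x, hx⟩ := hsz
      refine ⟨x, ?_⟩
      change ((h₁.tr (R := 𝔽)).prod hD.tr) x = _
      rw [hx]
      exact Prod.ext (mapCoeff_heckeAct red s z.1).symm (mapCoeff_heckeAct red s z.2).symm
  obtain ⟨⟨x, hx⟩, e⟩ := hsurj ⟨(y₁, y₂), hy⟩
  have e' : trPair O h₁ hD x = (y₁, y₂) := congrArg Subtype.val e
  exact ⟨x, hx, congrArg Prod.fst e', congrArg Prod.snd e'⟩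

end Fermat.HM
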