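import Fermat.Agent.HM.Diamond
import Fermat.Agent.HM.Residue
import Fermat.Agent.HM.GroupRingFree

/-!
# Freeness over the diamond group at a non-Eisenstein ideal

The main result is `free_locPart`.
-/

namespace Fermat.HM

open scoped MatrixGroups
open Fermat.MC.Lvl

variable {O : Type} [CommRing O] [IsDomain O] [IsDiscreteValuationRing O]
  [IsAdicComplete (IsLocalRing.maximalIdeal O) O] {σ : Type} {p : σ → ℕ}
  [hp : ∀ i, Fact (p i).Prime] {N : ℕ} [NeZero N] {H₀ H : Subgroup (ZMod N)ˣ} {Δ : Type}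
  [CommGroup Δ]

/-- Restriction at a fixed modulus commutes with all the Hecke operators. -/
theorem goodFor_res : GoodFor p N H₀ (1 : GL (Fin 2) ℚ) 1 := fun i =>
  ⟨traceCompat_one dvd_rfl (by rw [Nat.div_self (NeZero.pos N)]; exact (hp i).out.not_dvd_one),
    Iff.rfl⟩

namespace DiamondQuot

variable (D : DiamondQuot N H₀ H Δ)

/-- The diamond operators on the `m`-part. -/
noncomputable def diaLoc (m : Ideal (MvPolynomial σ O)) :
    Δ →* Module.End O (locPart m (heckeAct O O N H p)) where
  toFun δ := (D.dia δ).restrict fun _ hx =>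
    apply_mem_locPart (fun a x => D.dia_heckeAct δ a x) hx
  map_one' := LinearMap.ext fun x => Subtype.ext (by simp)
  map_mul' a b := LinearMap.ext fun x => Subtype.ext (by simp)

omit [IsDomain O] [IsDiscreteValuationRing O] [IsAdicComplete (IsLocalRing.maximalIdeal O) O] in
/-- `diaLoc` is the restriction of `dia`. -/
theorem coe_diaLoc (m : Ideal (MvPolynomial σ O)) (δ : Δ) (x : locPart m (heckeAct O O N H p)) :
    (D.diaLoc m δ x : Homs O (GammaH N H)) = D.dia δ x := rfl

/-- The `m`-part as a module over the group ring of diamond operators. -/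
@[reducible]
noncomputable def locModule (m : Ideal (MvPolynomial σ O)) :
    Module (MonoidAlgebra O Δ) (locPart m (heckeAct O O N H p)) :=
  Module.compHom _ (MonoidAlgebra.lift O (Module.End O (locPart m (heckeAct O O N H p))) Δ
    (D.diaLoc m)).toRingHom

omit [IsDomain O] [IsDiscreteValuationRing O] [IsAdicComplete (IsLocalRing.maximalIdeal O) O] in
/-- A group element acts on the `m`-part by its diamond operator. -/
theorem of_smul (m : Ideal (MvPolynomial σ O)) (δ : Δ) (x : locPart m (heckeAct O O N H p)) :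
    (letI := D.locModule (p := p) m; MonoidAlgebra.of O Δ δ • x) = D.diaLoc m δ x := by
  change MonoidAlgebra.lift O _ Δ (D.diaLoc m) (MonoidAlgebra.of O Δ δ) x = _
  rw [MonoidAlgebra.lift_of]

omit [IsDomain O] [IsDiscreteValuationRing O] [IsAdicComplete (IsLocalRing.maximalIdeal O) O] in
/-- The group ring action extends that of `O`. -/
theorem isScalarTower_locModule (m : Ideal (MvPolynomial σ O)) :
    letI := D.locModule (p := p) m
    IsScalarTower O (MonoidAlgebra O Δ) (locPart m (heckeAct O O N H p)) := by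
  let := D.locModule (p := p) m
  refine ⟨fun c a x => ?_⟩
  change MonoidAlgebra.lift O _ Δ (D.diaLoc m) (c • a) x
    = c • MonoidAlgebra.lift O _ Δ (D.diaLoc m) a x
  rw [map_smul]
  rfl

/-- The trace to the level of `H₀` on the `m`-parts. -/
noncomputable def trLoc (hΓ₀ : GoodLevel O (GammaH N H₀)) (hΓ : GoodLevel O (GammaH N H))
    (m : Ideal (MvPolynomial σ O)) :
    locPart m (heckeAct O O N H p) →ₗ[O] locPart m (heckeAct O O N H₀ p) :=
  locMap (f := D.isLevelMap_res.tr) (tr_heckeAct hΓ₀ hΓ D.isLevelMap_res goodFor_res)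

omit [IsAdicComplete (IsLocalRing.maximalIdeal O) O] in
/-- `trLoc` is the restriction of the trace. -/
theorem coe_trLoc (hΓ₀ : GoodLevel O (GammaH N H₀)) (hΓ : GoodLevel O (GammaH N H))
    (m : Ideal (MvPolynomial σ O)) (x : locPart m (heckeAct O O N H p)) :
    (D.trLoc hΓ₀ hΓ m x : Homs O (GammaH N H₀))
      = D.isLevelMap_res.tr (x : Homs O (GammaH N H)) := rfl

omit [IsDomain O] [IsDiscreteValuationRing O]
  [IsAdicComplete (IsLocalRing.maximalIdeal O) O] in
/-- An element in `I` times the `m`-part is in `I` times all homomorphisms. -/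
theorem mem_maximalIdeal_smul_coe {H' : Subgroup (ZMod N)ˣ} {m : Ideal (MvPolynomial σ O)}
    {I : Ideal O} {x : locPart m (heckeAct O O N H' p)}
    (hx : x ∈ I • (⊤ : Submodule O (locPart m (heckeAct O O N H' p)))) :
    (x : Homs O (GammaH N H')) ∈ I • (⊤ : Submodule O (Homs O (GammaH N H'))) := by
  have h1 : (locPart m (heckeAct O O N H' p)).subtype x ∈
      (I • (⊤ : Submodule O (locPart m (heckeAct O O N H' p)))).map
        (locPart m (heckeAct O O N H' p)).subtype := ⟨x, hx, rfl⟩
  rw [Submodule.map_smul''] at h1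
  exact Submodule.smul_mono le_rfl le_top h1

omit [IsAdicComplete (IsLocalRing.maximalIdeal O) O] [IsDomain O] [IsDiscreteValuationRing O] in
/-- Multiples by the maximal ideal reduce to zero in the residue field. -/
theorem red_eq_zero_of_mem_smul [IsLocalRing O] {Γ : Subgroup SL(2, ℤ)} {φ : Homs O Γ}
    (h : φ ∈ IsLocalRing.maximalIdeal O • (⊤ : Submodule O (Homs O Γ))) :
    mapCoeffL (red (O := O)) φ = 0 := by
  refine Submodule.smul_induction_on h (fun a ha ψ _ => ?_) fun _ _ h1 h2 => by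
    rw [map_add, h1, h2, add_zero]
  rw [map_smul]
  refine AddMonoidHom.ext fun γ => ?_
  change a • mapCoeffL red ψ γ = 0
  rw [Algebra.smul_def, show algebraMap O (IsLocalRing.ResidueField O) a = 0 from
    (red_eq_zero_iff a).mpr ha, zero_mul]

/-- The kernel of the trace modulo the maximal ideal. -/
theorem mem_span_sup_of_trLoc (hΓ₀ : GoodLevel O (GammaH N H₀))
    (hΓ : GoodLevel O (GammaH N H)) {m : Ideal (MvPolynomial σ O)} [m.IsMaximal]
    (x : locPart m (heckeAct O O N H p))
    (hx : D.trLoc (p := p) hΓ₀ hΓ m x ∈ IsLocalRing.maximalIdeal O • (⊤ : Submodule O _)) :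
    x ∈ Submodule.span O (Set.range fun a : Δ × locPart m (heckeAct O O N H p) =>
        D.diaLoc m a.1 a.2 - a.2) ⊔ IsLocalRing.maximalIdeal O • ⊤ := by
  have := finite_homs (O := O) hΓ₀
  have := finite_homs (O := O) hΓ
  set 𝔪 := IsLocalRing.maximalIdeal O
  set k := IsLocalRing.ResidueField O
  set L := Submodule.span O
      (Set.range fun a : Δ × Homs O (GammaH N H) => D.dia a.1 a.2 - a.2) ⊔ 𝔪 • ⊤ with hL
  have h0 : D.isLevelMap_res.tr (mapCoeffL red (x : Homs O (GammaH N H)) : Homs k _) = 0 := by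
    have e := D.isLevelMap_res.mapCoeff_tr (red (O := O)).toRingHom (x : Homs O (GammaH N H))
    rw [mapCoeffL_apply, ← e, ← mapCoeffL_apply]
    exact red_eq_zero_of_mem_smul (mem_maximalIdeal_smul_coe hx)
  -- modulo `𝔪`, the trace kills only the span of the `⟨δ⟩ z - z`
  have h4 := D.mem_span_of_tr_eq_zero (hΓ₀.map (red (O := O)).toRingHom)
    (hΓ.map (red (O := O)).toRingHom) h0
  have h5 : ∀ y ∈ Submodule.span k (Set.range fun a : Δ × Homs k (GammaH N H) =>
      D.dia a.1 a.2 - a.2), y ∈ L.map (mapCoeffL red) := by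
    intro y hy
    induction hy using Submodule.span_induction with
    | mem y hy =>
      obtain ⟨⟨δ, z⟩, rfl⟩ := hy
      obtain ⟨z, rfl⟩ := mapCoeffL_red_surjective hΓ z
      refine ⟨D.dia δ z - z, Submodule.mem_sup_left (Submodule.subset_span ⟨(δ, z), rfl⟩), ?_⟩
      rw [map_sub, mapCoeffL_apply, D.mapCoeff_dia]
      rfl
    | zero => exact zero_mem _
    | add _ _ _ _ h1 h2 => exact add_mem h1 h2
    | smul c z _ hz =>
      obtain ⟨c, rfl⟩ := red_surjective c
      have : (red c) • z = c • z := AddMonoidHom.ext fun γ => (Algebra.smul_def c (z γ)).symm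
      rw [this]
      exact Submodule.smul_mem _ _ hz
  -- lift that description to `O`
  obtain ⟨w, hw, hwx⟩ := h5 _ h4
  have h6 : (x : Homs O (GammaH N H)) ∈ L := by
    have h7 : (x : Homs O (GammaH N H)) - w ∈ 𝔪 • (⊤ : Submodule O (Homs O (GammaH N H))) :=
      mem_smul_top_of_red_eq_zero (by rw [map_sub, hwx, sub_self])
    simpa using add_mem (Submodule.mem_sup_right h7 : _ ∈ L) hw
  -- project to the localised part
  have h8 : toLoc m (heckeAct O O N H p) (x : Homs O (GammaH N H)) ∈
      L.map (toLoc m (heckeAct O O N H p)) := ⟨_, h6, rfl⟩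
  rw [toLoc_coe, hL, Submodule.map_sup, Submodule.map_span, Submodule.map_smul''] at h8
  obtain ⟨u, hu, v, hv, huv⟩ := Submodule.mem_sup.mp h8
  rw [← huv]
  refine Submodule.add_mem_sup ((Submodule.span_le.mpr ?_) hu)
    (Submodule.smul_mono le_rfl le_top hv)
  rintro _ ⟨_, ⟨⟨δ, z⟩, rfl⟩, rfl⟩
  refine Submodule.subset_span ⟨(δ, toLoc m (heckeAct O O N H p) z), ?_⟩
  change D.diaLoc m δ (toLoc m (heckeAct O O N H p) z) - toLoc m (heckeAct O O N H p) z = _
  rw [map_sub]
  congr 1
  refine Subtype.ext ?_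
  rw [coe_diaLoc, coe_toLoc, coe_toLoc, D.dia_heckeAct]

/-- If the norm is divisible by the maximal ideal, so is the trace. -/
theorem trLoc_mem_of_sum_mem (hΓ₀ : GoodLevel O (GammaH N H₀))
    (hΓ : GoodLevel O (GammaH N H)) {m : Ideal (MvPolynomial σ O)} [m.IsMaximal]
    (hne : NonEisenstein p m) [Fintype Δ] (x : locPart m (heckeAct O O N H p))
    (hx : (∑ δ, D.diaLoc m δ x) ∈ IsLocalRing.maximalIdeal O • (⊤ : Submodule O _)) :
    D.trLoc (p := p) hΓ₀ hΓ m x ∈ IsLocalRing.maximalIdeal O • (⊤ : Submodule O _) := by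
  have := finite_homs (O := O) hΓ₀
  have := finite_homs (O := O) hΓ
  obtain ⟨i, hi, hs⟩ := hne N (NeZero.ne N)
  refine mem_smul_top_of_apply hs _ (mem_smul_top_of_red_eq_zero ?_)
  rw [mapCoeff_heckeAct, coe_trLoc, mapCoeffL_apply, D.isLevelMap_res.mapCoeff_tr]
  refine D.res_ker i hi ?_
  rw [D.res_tr]
  have h := red_eq_zero_of_mem_smul (mem_maximalIdeal_smul_coe hx)
  rw [AddSubmonoidClass.coe_finsetSum, map_sum] at h
  refine Eq.trans (Finset.sum_congr rfl fun δ _ => ?_) h
  rw [coe_diaLoc, mapCoeffL_apply, D.mapCoeff_dia]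

/-- At a non-Eisenstein ideal the module is free over the group ring, with coinvariants the
module of the level of `H₀`. -/
theorem free_locPart {pp : ℕ} [Fact pp.Prime] (hpm : (pp : O) ∈ IsLocalRing.maximalIdeal O)
    [Finite Δ] (hΔ : IsPGroup pp Δ) (hΓ₀ : GoodLevel O (GammaH N H₀))
    (hΓ : GoodLevel O (GammaH N H)) {m : Ideal (MvPolynomial σ O)} [m.IsMaximal]
    (hne : NonEisenstein p m) :
    letI := D.locModule (p := p) m
    Module.Free (MonoidAlgebra O Δ) (locPart m (heckeAct O O N H p)) ∧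
      Module.Finite (MonoidAlgebra O Δ) (locPart m (heckeAct O O N H p)) ∧
      Function.Surjective (D.trLoc (p := p) hΓ₀ hΓ m) ∧
      ∀ x, D.trLoc (p := p) hΓ₀ hΓ m x = 0 →
        x ∈ coinvSub O Δ (locPart m (heckeAct O O N H p)) := by
  let := D.locModule (p := p) m
  have := D.isScalarTower_locModule (p := p) m
  have := finite_homs (O := O) hΓ₀
  have := finite_homs (O := O) hΓ
  have := hΓ₀.moduleFree
  have := hΓ.moduleFree
  set 𝔪 := IsLocalRing.maximalIdeal O
  set k := IsLocalRing.ResidueField O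
  -- The trace is onto modulo `𝔪`, hence onto; then apply the criterion for freeness.
  have htsurj : Function.Surjective (D.trLoc (p := p) hΓ₀ hΓ m) := by
    refine locMap_surjective_of_mod _ fun y => ?_
    refine ⟨1, fun h => (Ideal.ne_top_iff_one m).mp (Ideal.IsMaximal.ne_top inferInstance) h, ?_⟩
    obtain ⟨x', hx'⟩ := D.tr_surjective (hΓ₀.map (red (O := O)).toRingHom) (mapCoeffL red y)
    refine mem_sup_of_map_mem 𝔪 (g' := (D.isLevelMap_res.tr (R := k)).restrictScalars O)
      (rM := mapCoeffL red) (rN := mapCoeffL red) (mapCoeffL_red_surjective hΓ)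
      (fun x => D.isLevelMap_res.mapCoeff_tr _ x) (fun w hw => mem_smul_top_of_red_eq_zero hw) ?_
    rw [map_one]
    exact ⟨x', hx'⟩
  have : Module.IsTorsionFree O (locPart m (heckeAct O O N H p)) := inferInstance
  refine (fun h => ⟨h.1, h.2.1, htsurj, h.2.2⟩)
    (free_of_coinvariants (M := locPart m (heckeAct O O N H p))
    (M₀ := locPart m (heckeAct O O N H₀ p)) (D.trLoc (p := p) hΓ₀ hΓ m) hpm hΔ htsurj
    (fun δ x => by
      rw [D.of_smul m δ x]
      exact Subtype.ext (D.tr_dia hΓ₀ hΓ δ x))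
    (fun x hx => ?_) (fun x hx => ?_))
  · obtain ⟨u, hu, v, hv, huv⟩ :=
      Submodule.mem_sup.mp (D.mem_span_sup_of_trLoc hΓ₀ hΓ x hx)
    rw [← huv]
    refine Submodule.add_mem_sup ((Submodule.span_le.mpr ?_) hu) hv
    rintro _ ⟨⟨δ, z⟩, rfl⟩
    change D.diaLoc m δ z - z ∈ coinvSub O Δ _
    have e : (MonoidAlgebra.of O Δ δ - 1) • z = D.diaLoc m δ z - z :=
      (sub_smul _ (1 : MonoidAlgebra O Δ) z).trans (congrArg₂ (· - ·) (D.of_smul m δ z)
        (one_smul _ z))
    rw [← e]
    exact Submodule.smul_mem_smul (Ideal.subset_span ⟨δ, rfl⟩) Submodule.mem_top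
  · refine D.trLoc_mem_of_sum_mem hΓ₀ hΓ hne x ?_
    rwa [Finset.sum_congr rfl fun δ _ => (D.of_smul m δ x).symm]

end DiamondQuot

end Fermat.HM
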