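import Fermat.Agent.HM.Manin
import Mathlib.LinearAlgebra.Dual.Defs
import Mathlib.LinearAlgebra.FreeModule.PID
import Mathlib.RingTheory.Finiteness.Basic

/-!
# The module of homomorphisms, the module of symbols, their duality and change of coefficients

The two modules are `Homs` and `symbols`, and `mapCoeff` changes the coefficients.
-/

namespace Fermat.HM

open scoped MatrixGroups

variable (R : Type*) [CommRing R] (Γ : Subgroup SL(2, ℤ))

/-- The module of the level: homomorphisms to the coefficients. -/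
abbrev Homs : Type _ := Additive Γ →+ R

/-- The invariant symbols. -/
def symbols : Submodule R (Cusp → Cusp → R) where
  carrier := {S | IsSymbol S ∧ ∀ γ ∈ Γ, InvariantBy S (gq γ)}
  add_mem' := fun {S S'} h h' =>
    ⟨fun a b c => by simp only [Pi.add_apply]; rw [← h.1 a b c, ← h'.1 a b c]; ring,
     fun γ hγ a b => by simp only [Pi.add_apply]; rw [h.2 γ hγ, h'.2 γ hγ]⟩
  zero_mem' := ⟨fun _ _ _ => by simp, fun _ _ _ _ => rfl⟩
  smul_mem' := fun c S h =>
    ⟨fun a b d => by simp only [Pi.smul_apply, smul_eq_mul]; rw [← h.1 a b d, mul_add],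
     fun γ hγ a b => by simp only [Pi.smul_apply, smul_eq_mul]; rw [h.2 γ hγ]⟩

/-- A functional seen as a symbol. -/
noncomputable def dualToSymb : Module.Dual R (Homs R Γ) →ₗ[R] symbols R Γ where
  toFun f := ⟨fun a b => f (crossR R Γ a b),
    fun a b c => by rw [← map_add, crossR_add],
    fun γ hγ a b => by simp only [crossR_smul hγ]⟩
  map_add' _ _ := rfl
  map_smul' _ _ := rfl

/-- The symbol of a functional is its value on crossing homomorphisms. -/
theorem dualToSymb_apply (f : Module.Dual R (Homs R Γ)) (a b : Cusp) :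
    (dualToSymb R Γ f).1 a b = f (crossR R Γ a b) := rfl

variable {R Γ}

/-- The periods of a symbol. -/
noncomputable def periodHom : symbols R Γ →ₗ[R] Homs R Γ where
  toFun S := AddMonoidHom.mk' (fun γ => period S.1 ((Additive.toMul γ : Γ) : SL(2, ℤ)))
    fun γ δ => by
      rw [toMul_add, Subgroup.coe_mul]
      exact period_mul S.2.1 (S.2.2 _ (Additive.toMul γ).2) _
  map_add' _ _ := AddMonoidHom.ext fun _ => rfl
  map_smul' _ _ := AddMonoidHom.ext fun _ => rfl

/-- The value of `periodHom` is the period. -/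
theorem periodHom_apply (S : symbols R Γ) (γ : Γ) :
    periodHom S (Additive.ofMul γ) = period S.1 (γ : SL(2, ℤ)) := rfl

/-- Change of coefficients. -/
def mapCoeff {R' : Type*} [CommRing R'] (f : R →+* R') : Homs R Γ →+ Homs R' Γ :=
  AddMonoidHom.compHom f.toAddMonoidHom

/-- `mapCoeff` composes with the ring map. -/
theorem mapCoeff_apply {R' : Type*} [CommRing R'] (f : R →+* R') (φ : Homs R Γ) (γ : Additive Γ) :
    mapCoeff f φ γ = f (φ γ) := rfl

/-- Crossing homomorphisms are compatible with a change of coefficients. -/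
theorem mapCoeff_crossR {R' : Type*} [CommRing R'] (f : R →+* R') (a b : Cusp) :
    mapCoeff f (crossR R Γ a b) = crossR R' Γ a b := by
  refine AddMonoidHom.ext fun γ => ?_
  change f ((crossHom Γ a b γ : ℤ) : R) = _
  rw [map_intCast]; rfl

/-- `mapCoeff` is semilinear. -/
theorem mapCoeff_smul {R' : Type*} [CommRing R'] (f : R →+* R') (c : R) (φ : Homs R Γ) :
    mapCoeff f (c • φ) = f c • mapCoeff f φ :=
  AddMonoidHom.ext fun γ => map_mul f c (φ γ)

namespace GoodLevel

/-- A good level stays good after a change of coefficients. -/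
theorem map {R' : Type*} [CommRing R'] (hΓ : GoodLevel R Γ) (f : R →+* R') : GoodLevel R' Γ where
  neg_mem := hΓ.neg_mem
  finite := hΓ.finite
  two := by simpa only [map_ofNat] using hΓ.two.map f
  three := hΓ.three.imp (fun h => by simpa only [map_ofNat] using h.map f) id

/-- Functionals on homomorphisms are the invariant symbols. -/
noncomputable def dualEquiv (hΓ : GoodLevel R Γ) : Module.Dual R (Homs R Γ) ≃ₗ[R] symbols R Γ :=
  LinearEquiv.ofBijective (dualToSymb R Γ) <| by
    have := hΓ.finite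
    let := Fintype.ofFinite (Cosets Γ)
    refine ⟨fun f g h => hΓ.ext_crossR fun a b => ?_, fun S => ⟨hΓ.pairFun S.1, ?_⟩⟩
    · exact congrFun (congrFun (congrArg Subtype.val h) a) b
    · exact Subtype.ext (funext fun a => funext fun b => hΓ.pairFun_crossR S.2.1 S.2.2 a b)

/-- The symbol attached to a functional by `dualEquiv`. -/
@[simp] theorem dualEquiv_apply (hΓ : GoodLevel R Γ) (f : Module.Dual R (Homs R Γ)) (a b : Cusp) :
    (hΓ.dualEquiv f).1 a b = f (crossR R Γ a b) := rfl

/-- At a good level the homomorphisms form a finite module. -/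
theorem moduleFinite (hΓ : GoodLevel R Γ) : Module.Finite R (Homs R Γ) := by
  have := hΓ.finite
  let := Fintype.ofFinite (Cosets Γ)
  refine Module.Finite.of_surjective (M := Cosets Γ → R)
    (∑ y, (LinearMap.proj y).smulRight (edgeR R Γ y)) fun φ =>
      ⟨hΓ.coeff φ, ?_⟩
  conv_rhs => rw [hΓ.eq_sum_edgeR φ]
  simp [LinearMap.sum_apply]

/-- Over a principal ideal domain they form a free module. -/
theorem moduleFree [IsDomain R] [IsPrincipalIdealRing R] (hΓ : GoodLevel R Γ) :
    Module.Free R (Homs R Γ) := by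
  have := hΓ.moduleFinite
  have : Module.IsTorsionFree R (Homs R Γ) :=
    ⟨fun c hc φ ψ h => AddMonoidHom.ext fun γ =>
      hc.left (DFunLike.congr_fun h γ : c * φ γ = c * ψ γ)⟩
  exact Module.free_of_finite_type_torsion_free'

/-- A surjective change of coefficients is surjective on homomorphisms. -/
theorem mapCoeff_surjective {R' : Type*} [CommRing R'] (hΓ : GoodLevel R Γ) {f : R →+* R'}
    (hf : Function.Surjective f) : Function.Surjective (mapCoeff (Γ := Γ) f) := by
  intro φ
  have := hΓ.finite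
  let := Fintype.ofFinite (Cosets Γ)
  choose c hc using fun y => hf ((hΓ.map f).coeff φ y)
  refine ⟨∑ y, c y • edgeR R Γ y, ?_⟩
  conv_rhs => rw [(hΓ.map f).eq_sum_edgeR φ]
  rw [map_sum]
  refine Finset.sum_congr rfl fun y _ => ?_
  rw [mapCoeff_smul, hc, edgeR, edgeVal, mapCoeff_crossR]
  rfl

end GoodLevel

/-- If `f` has kernel `(ϖ)`, so has `mapCoeff f`. -/
theorem mapCoeff_eq_zero_iff {R' : Type*} [CommRing R'] {f : R →+* R'} {ϖ : R}
    (hker : ∀ x, f x = 0 ↔ ϖ ∣ x) (hϖ : IsLeftRegular ϖ) {φ : Homs R Γ} :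
    mapCoeff f φ = 0 ↔ ∃ ψ : Homs R Γ, φ = ϖ • ψ := by
  refine ⟨fun h => ?_, fun ⟨ψ, hψ⟩ => AddMonoidHom.ext fun γ => ?_⟩
  · choose g hg using fun γ => (hker (φ γ)).mp (DFunLike.congr_fun h γ)
    refine ⟨AddMonoidHom.mk' g fun a b => hϖ ?_, AddMonoidHom.ext hg⟩
    change ϖ * g (a + b) = ϖ * (g a + g b)
    rw [mul_add, ← hg, ← hg, ← hg, map_add]
  · rw [hψ, mapCoeff_apply, AddMonoidHom.zero_apply, hker]
    exact ⟨ψ γ, rfl⟩

end Fermat.HM
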