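import Fermat.Agent.HM.LevelMap

/-!
# The kernel and cokernel of the period map are Eisenstein

For `ℓ ≡ 1 (mod N)` the operator `T ℓ - ℓ - 1` kills the symbols with zero periods and maps every
homomorphism to a period homomorphism.
-/

namespace Fermat.HM

open scoped MatrixGroups
open OnePoint ModularGroup CongruenceSubgroup Matrix Fermat.MC.Lvl

variable {N : ℕ} {H : Subgroup (ZMod N)ˣ} {ℓ : ℕ} [hℓ : Fact ℓ.Prime]

omit hℓ in
/-- For `ℓ ≡ 1` the standard matrices are the identity modulo `N`. -/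
theorem heckeRep_modEq_one (hl : (ℓ : ZMod N) = 1) (i : Option (Fin ℓ)) :
    (heckeRep ℓ N i).map (Int.castRingHom (ZMod N)) = 1 := by
  ext a b
  cases i <;> fin_cases a <;> fin_cases b <;> simp [heckeRep, hl]

/-- A conjugate of the standard matrices of the full congruence group. -/
noncomputable def conjGL (ℓ N : ℕ) [Fact ℓ.Prime] (g : SL(2, ℤ)) (i : Option (Fin ℓ)) :
    GL (Fin 2) ℚ :=
  gq g * heckeGL ℓ N i * (gq g)⁻¹

/-- The conjugated matrices lie in the Hecke set. -/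
theorem conjGL_mem (hl : (ℓ : ZMod N) = 1) (g : SL(2, ℤ)) (i : Option (Fin ℓ)) :
    conjGL ℓ N g i ∈ heckeSet N H ℓ := by
  set M := (g : Matrix (Fin 2) (Fin 2) ℤ) * heckeRep ℓ N i
    * ((g⁻¹ : SL(2, ℤ)) : Matrix (Fin 2) (Fin 2) ℤ) with hM
  have hmod : M.map (Int.castRingHom (ZMod N)) = 1 := by
    rw [hM, Matrix.map_mul, Matrix.map_mul, heckeRep_modEq_one hl, mul_one, ← Matrix.map_mul,
      show g.1 * (g⁻¹ : SL(2, ℤ)).1 = 1 from congrArg Subtype.val (mul_inv_cancel g)]
    exact Matrix.map_one _ (map_zero _) (map_one _)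
  refine ⟨M, ⟨?_, ?_, 1, one_mem H, ?_⟩, ?_⟩
  · rw [hM, det_mul, det_mul, g.2, (g⁻¹).2, det_heckeRep, one_mul, mul_one]
  · simpa using congrFun (congrFun hmod 1) 0
  · simpa using (congrFun (congrFun hmod 0) 0).symm
  · rw [conjGL, hM, ← map_inv, Units.val_mul, Units.val_mul, coe_gq, coe_gq, heckeGL, coe_intMat,
      Matrix.map_mul_intCast, Matrix.map_mul_intCast]

/-- The conjugated matrices lie in distinct left cosets. -/
theorem conjGL_uniq (hl : (ℓ : ZMod N) = 1) (g : SL(2, ℤ)) {i k : Option (Fin ℓ)} {d : SL(2, ℤ)}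
    (e : gq d * conjGL ℓ N g i = conjGL ℓ N g k) : i = k := by
  refine eq_of_mul_heckeRep hl (h := g⁻¹ * d * g)
    (Matrix.map_injective Int.cast_injective (α := ℤ) (β := ℚ) ?_)
  have h2 : gq (g⁻¹ * d * g) * heckeGL ℓ N i = heckeGL ℓ N k := by
    rw [conjGL, conjGL, ← mul_assoc, mul_left_inj, ← mul_assoc] at e
    rw [map_mul, map_mul, map_inv, mul_assoc, mul_assoc, ← mul_assoc (gq d), e,
      inv_mul_cancel_left]
  have := congrArg Units.val h2
  rw [Units.val_mul, coe_gq, heckeGL, heckeGL, coe_intMat, coe_intMat,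
    ← Matrix.map_mul_intCast] at this
  exact this

omit hℓ in
/-- There are `ℓ + 1` representatives of `T_ℓ` for `ℓ ∤ N`. -/
theorem card_heckeIdx_of_not_dvd (h : ¬ ℓ ∣ N) : Fintype.card (HeckeIdx ℓ N) = ℓ + 1 := by
  rw [Fintype.card_congr (Equiv.subtypeUnivEquiv fun i _ => h), Fintype.card_option,
    Fintype.card_fin]

/-- A prime `ℓ ≡ 1` modulo `N` does not divide `N`. -/
theorem not_dvd_of_one_mod (hl : (ℓ : ZMod N) = 1) : ¬ ℓ ∣ N := fun h =>
  coprime_of_one_mod hl (Int.natCast_dvd_natCast.mpr h)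

/-- The conjugated matrices represent all left cosets of the Hecke set. -/
theorem exists_conjGL_eq (hl : (ℓ : ZMod N) = 1) (g : SL(2, ℤ)) {M : GL (Fin 2) ℚ}
    (hM : M ∈ heckeSet N H ℓ) : ∃ i, ∃ d ∈ GammaH N H, M = gq d * conjGL ℓ N g i := by
  have h := fun i => isLeftReps_stdGL.exists_eq _ (conjGL_mem (H := H) hl g i)
  choose f d hd e using h
  have hinj : Function.Injective f := fun a b hab => by
    refine conjGL_uniq hl g (d := d b * (d a)⁻¹) ?_
    rw [e a, e b, hab, ← mul_assoc, ← map_mul, inv_mul_cancel_right]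
  have hbij : Function.Bijective f := (Fintype.bijective_iff_injective_and_card f).mpr
    ⟨hinj, by rw [Fintype.card_option, Fintype.card_fin,
      card_heckeIdx_of_not_dvd (not_dvd_of_one_mod hl)]⟩
  obtain ⟨a, c, hc, rfl⟩ := isLeftReps_stdGL.exists_eq M hM
  obtain ⟨i, rfl⟩ := hbij.2 a
  refine ⟨i, c * (d i)⁻¹, mul_mem hc (inv_mem (hd i)), ?_⟩
  rw [e i, ← mul_assoc, ← map_mul, inv_mul_cancel_right]

/-- The conjugated family as representatives. -/
noncomputable def conjReps (H : Subgroup (ZMod N)ˣ) (hl : (ℓ : ZMod N) = 1) (g : SL(2, ℤ)) :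
    Reps (GammaH N H) (GammaH N H) (Option (Fin ℓ)) where
  B := conjGL ℓ N g
  det_B i := by
    obtain ⟨M, hM, e⟩ := conjGL_mem (H := H) hl g i
    have h := hM.1
    rw [det_fin_two] at h
    rw [e, det_fin_two]
    simp only [Matrix.map_apply]
    have : ((0 : ℤ) : ℚ) < ((ℓ : ℤ) : ℚ) := by exact_mod_cast hℓ.out.pos
    rw [← h] at this
    exact_mod_cast this
  rperm γ hγ i := exists_conjGL_eq hl g
    (by simpa using heckeSet_mul (conjGL_mem (H := H) hl g i) (gq_mem_heckeSet hγ))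
  uniqB i k d _ e := conjGL_uniq hl g e

variable [NeZero N] {R : Type*} [CommRing R]

/-- For `ℓ ≡ 1` the conjugated matrices compute `T_ℓ`. -/
theorem heckeT_eq_conjReps (hl : (ℓ : ZMod N) = 1) (g : SL(2, ℤ)) (φ : Homs R (GammaH N H)) :
    heckeT R N H ℓ φ = (conjReps H hl g).homMap φ := by
  refine (Reps.homMap_congr (conjReps H hl g) (hecke N H ℓ).toReps
    (fun i => isLeftReps_stdGL.exists_eq _ (conjGL_mem hl g i)) ?_ φ).symm
  rw [card_heckeIdx_of_not_dvd (not_dvd_of_one_mod hl), Fintype.card_option, Fintype.card_fin]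

/-- The value of the index in the translation. -/
def idxVal (i : Option (Fin ℓ)) : ℤ := i.elim 0 fun j => ((j : ℕ) : ℤ)

omit [NeZero N] in
/-- For `ℓ ≡ 1` modulo `N` a translation permutes the representatives of `T_ℓ` up to shifts
summing to zero. -/
theorem exists_shift (hl : (ℓ : ZMod N) = 1) {U : SL(2, ℤ)} (hU : U 1 0 = 0) :
    ∃ (k : Option (Fin ℓ) → Option (Fin ℓ)) (r c : Option (Fin ℓ) → ℤ), (∑ i, c i = 0) ∧
      ∀ i, (ℓ : ℤ) * r i + idxVal (k i) = idxVal i + c i ∧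
        heckeGL ℓ N i * gq U = gq (U * T ^ ((N : ℤ) * r i)) * heckeGL ℓ N (k i) := by
  have hd := U.2
  rw [det_fin_two, hU, mul_zero, sub_zero] at hd
  obtain ⟨w, hw⟩ : (N : ℤ) ∣ (ℓ : ℤ) - 1 := by
    rw [← ZMod.intCast_zmod_eq_zero_iff_dvd]
    simp [hl]
  -- `U = ±[1, n; 0, 1]`: shift `j` by `w n` modulo `ℓ`, where `ℓ = 1 + N w`
  set e := U 0 0 with he
  set n := U 0 1 with hn
  have h11 : U 1 1 = e := by
    rcases Int.eq_one_or_neg_one_of_mul_eq_one' hd with ⟨a, b⟩ | ⟨a, b⟩ <;> rw [a, b]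
  have hee : e * e = 1 := by rw [h11] at hd; exact hd
  set s := e * w * n with hs
  have hlpos : (0 : ℤ) < ℓ := by exact_mod_cast hℓ.out.pos
  -- `∞` is fixed and `j` moves down by `s`; the shifts sum to zero.
  refine ⟨fun i => i.elim none fun j => Option.some
      ⟨((((j : ℕ) : ℤ) - s) % ℓ).toNat, by
        have h2 := Int.emod_lt_of_pos (((j : ℕ) : ℤ) - s) hlpos
        omega⟩,
    fun i => i.elim s fun j => (((j : ℕ) : ℤ) - s) / ℓ,
    fun i => i.elim ((ℓ : ℤ) * s) fun _ => -s, ?_, fun i => ?_⟩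
  · simp [Fintype.sum_option]
  -- both shapes reduce to one identity of integral matrices
  · have key : ∀ (A : Matrix (Fin 2) (Fin 2) ℤ) (k : Option (Fin ℓ)) (r : ℤ),
        A = !![e, e * (N * r) + n; 0, e] * heckeRep ℓ N k → heckeRep ℓ N i * U.1 = A →
        heckeGL ℓ N i * gq U = gq (U * T ^ ((N : ℤ) * r)) * heckeGL ℓ N k := by
      intro A k r hA hA'
      refine heckeGL_mul ?_
      rw [hA', hA]
      refine congrArg (· * _) ?_
      change _ = U.1 * (T ^ ((N : ℤ) * r) : SL(2, ℤ)).1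
      rw [coe_T_zpow]
      ext a b
      fin_cases a <;> fin_cases b <;>
        simp [Matrix.mul_apply, Fin.sum_univ_two, hU, h11, he, hn]
    rcases i with _ | j
    · refine ⟨by simp [idxVal], key (!![(ℓ : ℤ) * e, (ℓ : ℤ) * n; 0, e]) none s ?_ ?_⟩
      · ext a b
        fin_cases a <;> fin_cases b <;> simp [heckeRep, Matrix.mul_apply, Fin.sum_univ_two]
        · ring
        · linear_combination n * hw - (N : ℤ) * w * n * hee
      · ext a b
        fin_cases a <;> fin_cases b <;>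
          simp [heckeRep, Matrix.mul_apply, Fin.sum_univ_two, hU, h11, he, hn]
    · have hk : ((((((j : ℕ) : ℤ) - s) % ℓ).toNat : ℕ) : ℤ) = (((j : ℕ) : ℤ) - s) % ℓ :=
        Int.toNat_of_nonneg (Int.emod_nonneg _ hlpos.ne')
      have hdiv := Int.mul_ediv_add_emod (((j : ℕ) : ℤ) - s) ℓ
      refine ⟨?_, key (!![e, n + (N : ℤ) * ((j : ℕ) : ℤ) * e; 0, (ℓ : ℤ) * e]) _ _ ?_ ?_⟩
      · simp only [idxVal, Option.elim_some]
        rw [hk]
        linear_combination hdiv
      · ext a b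
        fin_cases a <;> fin_cases b <;>
          simp [heckeRep, Matrix.mul_apply, Fin.sum_univ_two, hk]
        · linear_combination (-e * (N : ℤ)) * hdiv - n * hw + (N : ℤ) * w * n * hee
        · ring
      · ext a b
        fin_cases a <;> fin_cases b <;>
          simp [heckeRep, Matrix.mul_apply, Fin.sum_univ_two, hU, h11, he, hn]

/-- Modulo periods, `T ℓ` is `ℓ + 1`: the difference vanishes on cusp stabilisers. -/
theorem eisen_parabolic (hl : (ℓ : ZMod N) = 1) (φ : Homs R (GammaH N H)) {γ : GammaH N H}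
    {x : Cusp} (hx : gq (γ : SL(2, ℤ)) • x = x) :
    heckeT R N H ℓ φ (Additive.ofMul γ) = (ℓ + 1) • φ (Additive.ofMul γ) := by
  obtain ⟨g, rfl⟩ := exists_gq_smul_infty x
  -- Move `x` to `∞`: then `γ` becomes an upper triangular `U`.
  set U := g⁻¹ * (γ : SL(2, ℤ)) * g with hUdef
  have hU : U 1 0 = 0 := by
    have h1 : gq U • (∞ : Cusp) = ∞ := by
      rw [hUdef, map_mul, map_mul, mul_smul, mul_smul, hx, map_inv, inv_smul_smul]
    rw [smul_infty_eq_self_iff, coe_gq] at h1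
    simpa using h1
  obtain ⟨k, r, c, hc, hk⟩ := exists_shift hl hU
  have hvmem : g * T ^ (N : ℤ) * g⁻¹ ∈ GammaH N H := by
    refine Gamma_le_GammaH ((Gamma_normal N).conj_mem _ ?_ g)
    rw [Gamma_mem]
    simp [coe_T_zpow, -zpow_natCast]
  set v : GammaH N H := ⟨g * T ^ (N : ℤ) * g⁻¹, hvmem⟩
  -- In these representatives the Hecke elements are `γ v ^ r i`, `v` the translation by `N`.
  have helt : ∀ i, (conjReps H hl g).elt γ i = γ * v ^ r i ∧
      (conjReps H hl g).perm γ i = k i := by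
    intro i
    obtain ⟨-, e⟩ := hk i
    have hd : (conjReps H hl g).B i * gq (γ : SL(2, ℤ))
        = gq ((γ * v ^ r i : GammaH N H) : SL(2, ℤ)) * (conjReps H hl g).B (k i) := by
      change conjGL ℓ N g i * _ = _ * conjGL ℓ N g (k i)
      have e2 : ((γ * v ^ r i : GammaH N H) : SL(2, ℤ)) = g * (U * T ^ ((N : ℤ) * r i)) * g⁻¹ := by
        rw [Subgroup.coe_mul, Subgroup.coe_zpow, hUdef, conj_zpow, ← _root_.zpow_mul]
        group
      have e1 : gq (γ : SL(2, ℤ)) = gq g * gq U * (gq g)⁻¹ := by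
        rw [hUdef, map_mul, map_mul, map_inv]; group
      rw [e2, map_mul, map_mul, map_inv, conjGL, conjGL, e1]
      calc gq g * heckeGL ℓ N i * (gq g)⁻¹ * (gq g * gq U * (gq g)⁻¹)
          = gq g * (heckeGL ℓ N i * gq U) * (gq g)⁻¹ := by group
        _ = _ := by rw [e]; group
    obtain ⟨h1, h2⟩ := (conjReps H hl g).eq_of_decomp hd
    exact ⟨h2.symm, h1.symm⟩
  -- The indices are permuted, so the exponents sum to `0`, leaving `(ℓ + 1) φ γ`.
  have hsum : ∑ i, r i = 0 := by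
    have h1 : ∑ i, ((ℓ : ℤ) * r i + idxVal (k i)) = ∑ i, (idxVal i + c i) :=
      Finset.sum_congr rfl fun i _ => (hk i).1
    rw [Finset.sum_add_distrib, Finset.sum_add_distrib, hc, add_zero,
      Fintype.sum_bijective k ?_ (fun i => idxVal (k i)) idxVal (fun _ => rfl), ← Finset.mul_sum,
      add_eq_right, mul_eq_zero] at h1
    · exact h1.resolve_left (by exact_mod_cast hℓ.out.ne_zero)
    · rw [show k = (conjReps H hl g).perm γ from funext fun i => (helt i).2.symm]
      exact Reps.perm_bijective _ _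
  rw [heckeT_eq_conjReps hl g, Reps.homMap_apply]
  simp only [(helt _).1, ofMul_mul, map_add, ofMul_zpow, map_zsmul, Finset.sum_add_distrib,
    ← Finset.sum_smul, hsum, zero_smul, add_zero, Finset.sum_const, Finset.card_univ,
    Fintype.card_option, Fintype.card_fin]

/-- A homomorphism vanishing on cusp stabilisers is a period homomorphism. -/
theorem exists_periodHom_eq {Γ : Subgroup SL(2, ℤ)} (φ : Homs R Γ)
    (hφ : ∀ (γ : Γ) (x : Cusp), gq (γ : SL(2, ℤ)) • x = x → φ (Additive.ofMul γ) = 0) :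
    ∃ S : symbols R Γ, periodHom S = φ := by
  let rel : Setoid Cusp :=
    ⟨fun x y => ∃ γ : Γ, gq (γ : SL(2, ℤ)) • x = y,
      ⟨fun x => ⟨1, by rw [Subgroup.coe_one, map_one, one_smul]⟩,
        fun {x y} ⟨γ, h⟩ => ⟨γ⁻¹, by rw [← h, Subgroup.coe_inv, map_inv, inv_smul_smul]⟩,
        fun {x y z} ⟨γ, h⟩ ⟨δ, h'⟩ => ⟨δ * γ, by rw [Subgroup.coe_mul, map_mul, mul_smul, h, h']⟩⟩⟩
  let rep : Cusp → Cusp := fun x => (Quotient.mk rel x).out
  have hrep : ∀ x, ∃ γ : Γ, gq (γ : SL(2, ℤ)) • rep x = x := fun x =>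
    Quotient.exact (Quotient.out_eq (Quotient.mk rel x))
  choose c hc using hrep
  let F : Cusp → R := fun x => φ (Additive.ofMul (c x))
  have hF : ∀ (δ : Γ) x, F (gq (δ : SL(2, ℤ)) • x) = φ (Additive.ofMul δ) + F x := by
    intro δ x
    have hr : rep (gq (δ : SL(2, ℤ)) • x) = rep x :=
      congrArg Quotient.out (Quotient.sound (s := rel)
        (⟨δ⁻¹, by rw [Subgroup.coe_inv, map_inv, inv_smul_smul]⟩))
    have h0 := hφ ((c (gq (δ : SL(2, ℤ)) • x))⁻¹ * (δ * c x)) (rep x) (by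
      rw [Subgroup.coe_mul, Subgroup.coe_mul, map_mul, map_mul, mul_smul, mul_smul, hc,
        Subgroup.coe_inv, map_inv, inv_smul_eq_iff]
      conv_rhs => rw [← hr]
      exact (hc _).symm)
    rw [ofMul_mul, ofMul_inv, ofMul_mul, map_add, map_neg, map_add, neg_add_eq_zero] at h0
    exact h0
  refine ⟨⟨fun a b => F b - F a, fun a b d => by ring, fun γ hγ a b => ?_⟩, ?_⟩
  · change F (gq γ • b) - F (gq γ • a) = F b - F a
    rw [hF ⟨γ, hγ⟩ b, hF ⟨γ, hγ⟩ a]
    ring
  · refine AddMonoidHom.ext fun γ => ?_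
    obtain ⟨γ, rfl⟩ := Additive.ofMul.surjective γ
    rw [periodHom_apply]
    change F (gq (γ : SL(2, ℤ)) • ∞) - F ∞ = _
    rw [hF γ]
    ring

/-- `T ℓ - ℓ - 1` maps into the periods. -/
theorem eisen_coker (hl : (ℓ : ZMod N) = 1) (φ : Homs R (GammaH N H)) :
    ∃ S, periodHom S = heckeT R N H ℓ φ - (ℓ + 1) • φ :=
  exists_periodHom_eq _ fun _ _ hx => by
    rw [AddMonoidHom.sub_apply, AddMonoidHom.nsmul_apply, eisen_parabolic hl φ hx, sub_self]

/-- `T ℓ - ℓ - 1` kills the symbols with zero periods. -/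
theorem eisen_ker (hl : (ℓ : ZMod N) = 1) {S : symbols R (GammaH N H)} (hS : periodHom S = 0) :
    heckeS R N H ℓ S = (ℓ + 1) • S := by
  set F : Cusp → R := fun x => S.1 ∞ x with hFdef
  have hF : ∀ d ∈ GammaH N H, ∀ x, F (gq d • x) = F x := fun d hd x => by
    have h0 : period S.1 d = 0 := by
      have := DFunLike.congr_fun hS (Additive.ofMul (⟨d, hd⟩ : GammaH N H))
      simpa [periodHom_apply] using this
    change S.1 ∞ (gq d • x) = S.1 ∞ x
    rw [← S.2.1 ∞ (gq d • ∞) (gq d • x), show S.1 ∞ (gq d • ∞) = 0 from h0, S.2.2 d hd ∞ x,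
      zero_add]
  have hS' : ∀ a b, S.1 a b = F b - F a := fun a b => by
    rw [eq_sub_iff_add_eq, add_comm]; exact S.2.1 ∞ a b
  have hsum : ∀ x, ∑ i, F (stdGL ℓ N i • x) = (ℓ + 1) • F x := by
    intro x
    obtain ⟨g, rfl⟩ := exists_gq_smul_infty x
    obtain ⟨e, c, hc⟩ := Reps.exists_matching (conjReps H hl g) (hecke N H ℓ).toReps
      (fun i => isLeftReps_stdGL.exists_eq _ (conjGL_mem hl g i))
      (by rw [card_heckeIdx_of_not_dvd (not_dvd_of_one_mod hl), Fintype.card_option,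
        Fintype.card_fin])
    rw [← Equiv.sum_comp e fun i => F (stdGL ℓ N i • gq g • ∞)]
    have h : ∀ i, F (stdGL ℓ N (e i) • gq g • ∞) = F (gq g • ∞) := by
      intro i
      rw [← hF _ (c i).2, ← mul_smul,
        show gq (c i : SL(2, ℤ)) * stdGL ℓ N (e i) = conjGL ℓ N g i from (hc i).symm, conjGL,
        mul_smul, mul_smul, inv_smul_smul, heckeGL_smul_infty]
    rw [Finset.sum_congr rfl fun i _ => h i, Finset.sum_const, Finset.card_univ,
      Fintype.card_option, Fintype.card_fin]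
  refine Subtype.ext (funext fun a => funext fun b => ?_)
  change ∑ i, S.1 (stdGL ℓ N i • a) (stdGL ℓ N i • b) = ((ℓ + 1) • S.1) a b
  rw [Pi.smul_apply, Pi.smul_apply, hS']
  simp only [hS', Finset.sum_sub_distrib, hsum, smul_sub]

end Fermat.HM
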