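import Fermat.Agent.HM.Forms
import Fermat.Agent.MF.Primitive

/-!
# The symbol of a cusp form of weight two

It is built from the primitive `prim`, and `symbOf_formMap` is its equivariance.
-/

namespace Fermat.HM

open scoped MatrixGroups ModularForm Manifold Topology
open UpperHalfPlane OnePoint Filter Fermat.MF Fermat.MC.Lvl

/-- The chain rule for a rational matrix of positive determinant. -/
theorem HasPrim.slash_toReal {g K : ℍ → ℂ} (h : HasPrim g K) {B : GL (Fin 2) ℚ}
    (hB : 0 < (B : Matrix (Fin 2) (Fin 2) ℚ).det) :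
    HasPrim (g ∣[(2 : ℤ)] toReal B) (fun z => K (toReal B • z)) := by
  intro τ
  have hpos : 0 < (toReal B).val.det := by
    rw [formMap.det_toReal]
    exact_mod_cast hB
  have h1 : HasDerivAt (fun w ↦ ↑(toReal B • ofComplex w) : ℂ → ℂ)
      (((toReal B).val.det : ℂ) / denom (toReal B) τ ^ 2) ↑τ :=
    (UpperHalfPlane.hasStrictDerivAt_smul hpos τ).hasDerivAt
  have h2 : HasDerivAt (K ∘ ofComplex) (g (toReal B • τ))
      ((fun w ↦ ↑(toReal B • ofComplex w) : ℂ → ℂ) τ) := by
    have heq : ((fun w ↦ ↑(toReal B • ofComplex w) : ℂ → ℂ) τ) = ((toReal B • τ : ℍ) : ℂ) := by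
      simp only [ofComplex_apply]
    rw [heq]
    exact h _
  have h4 := h2.comp (τ : ℂ) h1
  have hval : g (toReal B • τ) * (((toReal B).val.det : ℂ) / denom (toReal B) τ ^ 2)
      = (g ∣[(2 : ℤ)] toReal B) τ := by
    have hσ : UpperHalfPlane.σ (toReal B) = ContinuousAlgEquiv.refl ℝ ℂ := by
      rw [UpperHalfPlane.σ, if_pos]
      rwa [Matrix.GeneralLinearGroup.val_det_apply]
    rw [ModularForm.slash_apply, hσ, abs_of_pos (by rwa [Matrix.GeneralLinearGroup.val_det_apply]),
      Matrix.GeneralLinearGroup.val_det_apply, zpow_neg, zpow_two, show (2 : ℤ) - 1 = 1 by norm_num,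
      zpow_one]
    simp [div_eq_mul_inv, mul_assoc, sq]
  rw [hval] at h4
  refine h4.congr_of_eventuallyEq (Filter.Eventually.of_forall fun w => ?_)
  simp only [Function.comp_apply, ofComplex_apply]

variable {N : ℕ} [NeZero N] {H : Subgroup (ZMod N)ˣ}

omit [NeZero N] in
/-- A translate of a form of level `Γ_H(N)` has period `N`. -/
theorem slash_periodic_GammaH (f : CuspForm (GammaH N H) 2) (δ : SL(2, ℤ)) :
    Function.Periodic ((⇑f ∣[(2 : ℤ)] δ) ∘ ofComplex) ((N : ℝ) : ℂ) :=
  slash_periodic_of_le Gamma_le_GammaH f δ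

/-- A translate of a form has a periodic primitive vanishing at `i∞`. -/
theorem exists_periodic_prim_slash (f : CuspForm (GammaH N H) 2) (δ : SL(2, ℤ)) :
    ∃ K : ℍ → ℂ, HasPrim (⇑f ∣[(2 : ℤ)] δ) K ∧
      (∀ z : ℍ, K ((N : ℝ) +ᵥ z) = K z) ∧ Tendsto K atImInfty (𝓝 0) :=
  exists_periodic_prim (Nat.cast_pos.mpr (NeZero.pos N)) (slash_periodic_GammaH f δ)
    (by rw [ModularForm.SL_slash]; exact MDifferentiable.slash (CuspFormClass.holo f) _ _)
    (CuspFormClass.zero_at_infty_slash f δ)

/-- A form has a primitive vanishing at `i∞`. -/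
theorem exists_prim (f : CuspForm (GammaH N H) 2) :
    ∃ F : ℍ → ℂ, HasPrim f F ∧ Tendsto F atImInfty (𝓝 0) := by
  obtain ⟨K, h1, -, h3⟩ := exists_periodic_prim_slash f 1
  rw [SlashAction.slash_one] at h1
  exact ⟨K, h1, h3⟩

/-- The primitive vanishing at `i∞`. -/
noncomputable def prim (f : CuspForm (GammaH N H) 2) : ℍ → ℂ := (exists_prim f).choose

/-- `prim f` is a primitive of `f`. -/
theorem hasPrim_prim (f : CuspForm (GammaH N H) 2) : HasPrim f (prim f) :=
  (exists_prim f).choose_spec.1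

/-- Moved to any cusp, the primitive is periodic and has a limit. -/
theorem prim_smul_structure (f : CuspForm (GammaH N H) 2) (δ : SL(2, ℤ)) :
    (∀ z : ℍ, prim f (δ • ((N : ℝ) +ᵥ z)) = prim f (δ • z)) ∧
      ∃ L, Tendsto (fun w : ℍ => prim f (δ • w)) atImInfty (𝓝 L) := by
  obtain ⟨K, h1, h2, h3⟩ := exists_periodic_prim_slash f δ
  obtain ⟨c, hc⟩ := h1.exists_eq_add ((hasPrim_prim f).slash δ)
  refine ⟨fun z => ?_, 0 + c, ?_⟩
  · rw [hc, hc, h2]
  · exact (h3.add_const c).congr fun z => (hc z).symm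

/-- The primitive changes by constants under the group. -/
theorem prim_equivariant (f : CuspForm (GammaH N H) 2) {γ : SL(2, ℤ)} (hγ : γ ∈ GammaH N H) :
    ∃ c : ℂ, ∀ z : ℍ, prim f (γ • z) = prim f z + c := by
  have h := (hasPrim_prim f).slash γ
  rw [slash_of_mem f hγ] at h
  exact (hasPrim_prim f).exists_eq_add h

/-- The value of the primitive at a cusp. -/
noncomputable def cuspVal (f : CuspForm (GammaH N H) 2) (c : Cusp) : ℂ :=
  (prim_smul_structure f (exists_gq_smul_infty c).choose).2.choose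

/-- The value at a cusp is the limit along any rational matrix sending `∞` to it. -/
theorem tendsto_prim (f : CuspForm (GammaH N H) 2) (A : GL (Fin 2) ℚ) :
    Tendsto (fun z : ℍ => prim f (toReal A • z)) atImInfty (𝓝 (cuspVal f (A • ∞))) := by
  obtain ⟨δ, hδ, hδ'⟩ : ∃ δ : SL(2, ℤ), gq δ • (∞ : Cusp) = A • ∞ ∧
      Tendsto (fun w : ℍ => prim f (δ • w)) atImInfty (𝓝 (cuspVal f (A • ∞))) :=
    ⟨_, (exists_gq_smul_infty (A • ∞)).choose_spec,
      (prim_smul_structure f (exists_gq_smul_infty (A • ∞)).choose).2.choose_spec⟩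
  set U := (gq δ)⁻¹ * A
  have hU : U • (∞ : Cusp) = ∞ := by rw [mul_smul, ← hδ, inv_smul_smul]
  rw [smul_infty_eq_self_iff] at hU
  have hU' : (toReal U) 1 0 = 0 := by rw [toReal_apply, hU, Rat.cast_zero]
  refine (hδ'.comp (UpperHalfPlane.tendsto_smul_atImInfty hU')).congr fun z => ?_
  change prim f (δ • (toReal U • z)) = _
  rw [← toReal_gq_smul, ← mul_smul, ← map_mul, mul_inv_cancel_left]

/-- A limit along a matrix determines the value at the cusp. -/
theorem eq_cuspVal {f : CuspForm (GammaH N H) 2} {A : GL (Fin 2) ℚ} {L : ℂ}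
    (h : Tendsto (fun z : ℍ => prim f (toReal A • z)) atImInfty (𝓝 L)) :
    cuspVal f (A • ∞) = L :=
  tendsto_nhds_unique (tendsto_prim f A) h

/-- The values at cusps change by the same constants under the group. -/
theorem cuspVal_gq_smul (f : CuspForm (GammaH N H) 2) {γ : SL(2, ℤ)} {c : ℂ}
    (hc : ∀ z : ℍ, prim f (γ • z) = prim f z + c) (a : Cusp) :
    cuspVal f (gq γ • a) = cuspVal f a + c := by
  obtain ⟨g, rfl⟩ := exists_gq_smul_infty a
  rw [← mul_smul, eq_cuspVal (f := f) (A := gq γ * gq g) (L := cuspVal f (gq g • ∞) + c)]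
  refine ((tendsto_prim f (gq g)).add_const c).congr fun z => ?_
  rw [map_mul, mul_smul, toReal_gq_smul (g := γ), hc]

/-- The symbol of a cusp form: `(a, b) ↦` the integral from `a` to `b`. -/
noncomputable def symbFun (f : CuspForm (GammaH N H) 2) : Cusp → Cusp → ℂ :=
  fun a b => cuspVal f b - cuspVal f a

/-- The symbol of a form is an invariant symbol. -/
theorem symbFun_mem (f : CuspForm (GammaH N H) 2) : symbFun f ∈ symbols ℂ (GammaH N H) := by
  refine ⟨fun a b c => sub_add_sub_cancel' _ _ _, fun γ hγ a b => ?_⟩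
  obtain ⟨c, hc⟩ := prim_equivariant f hγ
  change cuspVal f _ - cuspVal f _ = _
  rw [cuspVal_gq_smul f hc, cuspVal_gq_smul f hc, add_sub_add_right_eq_sub]
  rfl

/-- The symbol computed from any primitive. -/
theorem symbFun_eq_of_hasPrim {f : CuspForm (GammaH N H) 2} {K : ℍ → ℂ} (hK : HasPrim f K)
    {V : Cusp → ℂ}
    (hV : ∀ A : GL (Fin 2) ℚ, Tendsto (fun z : ℍ => K (toReal A • z)) atImInfty (𝓝 (V (A • ∞))))
    (a b : Cusp) : symbFun f a b = V b - V a := by
  obtain ⟨c, hc⟩ := (hasPrim_prim f).exists_eq_add hK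
  have key : ∀ x : Cusp, V x = cuspVal f x + c := fun x => by
    obtain ⟨g, rfl⟩ := exists_gq_smul_infty x
    exact tendsto_nhds_unique (hV (gq g))
      (((tendsto_prim f (gq g)).add_const c).congr fun z => (hc _).symm)
  rw [key, key, add_sub_add_right_eq_sub]
  rfl

/-- The symbol of a cusp form, as a linear map. -/
noncomputable def symbOf : CuspForm (GammaH N H) 2 →ₗ[ℂ] symbols ℂ (GammaH N H) where
  toFun f := ⟨symbFun f, symbFun_mem f⟩
  map_add' f g := Subtype.ext (funext fun a => funext fun b => by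
    change symbFun (f + g) a b = symbFun f a b + symbFun g a b
    rw [symbFun_eq_of_hasPrim (f := f + g) (K := prim f + prim g) (V := cuspVal f + cuspVal g)
      (by rw [FunLike.coe_add]; exact (hasPrim_prim f).add (hasPrim_prim g))
      (fun A => (tendsto_prim f A).add (tendsto_prim g A))]
    simp only [symbFun, Pi.add_apply]
    ring)
  map_smul' r f := Subtype.ext (funext fun a => funext fun b => by
    change symbFun (r • f) a b = r * symbFun f a b
    rw [symbFun_eq_of_hasPrim (f := r • f) (K := r • prim f) (V := r • cuspVal f)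
      (by rw [show ⇑(r • f) = r • ⇑f from rfl]; exact (hasPrim_prim f).const_smul r)
      (fun A => (tendsto_prim f A).const_mul r)]
    simp only [symbFun, Pi.smul_apply, smul_eq_mul]
    ring)

/-- The value of the symbol of a form. -/
theorem symbOf_apply (f : CuspForm (GammaH N H) 2) (a b : Cusp) :
    (symbOf f).1 a b = cuspVal f b - cuspVal f a := rfl

/-- **Equivariance**: the symbol of `∑ i, f ∣ B i` is the image of the symbol of `f`. -/
theorem symbOf_formMap {M : ℕ} [NeZero M] {H' : Subgroup (ZMod M)ˣ} {ι : Type} [Fintype ι]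
    (P : Reps (GammaH N H) (GammaH M H') ι) (f : CuspForm (GammaH N H) 2) :
    symbOf (formMap P f) = P.symbMap (symbOf f) := by
  refine Subtype.ext (funext fun a => funext fun b => ?_)
  rw [Reps.symbMap_apply]
  simp only [symbOf_apply, Finset.sum_sub_distrib]
  refine symbFun_eq_of_hasPrim (K := fun z => ∑ i, prim f (toReal (P.B i) • z))
    (V := fun x => ∑ i, cuspVal f (P.B i • x)) (fun τ => ?_) (fun A => ?_) a b
  · rw [coe_formMap, Finset.sum_apply]
    exact HasDerivAt.fun_sum (u := (Finset.univ : Finset ι)) fun i _ =>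
      HasPrim.slash_toReal (hasPrim_prim f) (P.det_B i) τ
  · refine tendsto_finsetSum _ fun i _ => ?_
    rw [← mul_smul]
    exact (tendsto_prim f (P.B i * A)).congr fun z => by rw [map_mul, mul_smul]

end Fermat.HM
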