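import Fermat.Agent.HM.HeckeSet

/-!
# Hecke operators on the levels `Γ_H(N)`

They are `heckeT`, and `heckeT_comm` shows that they commute.
-/

namespace Fermat.HM

open scoped MatrixGroups
open Matrix Fermat.MC.Lvl

variable {N : ℕ} {H : Subgroup (ZMod N)ˣ} {ℓ : ℕ} [hℓ : Fact ℓ.Prime]

/-- The standard representatives as elements of `GL(2, ℚ)`. -/
noncomputable def stdGL (ℓ N : ℕ) [hℓ : Fact ℓ.Prime] (i : HeckeIdx ℓ N) : GL (Fin 2) ℚ :=
  intMat (heckeMat ℓ N i.1) (by rw [det_heckeMat]; exact_mod_cast hℓ.out.ne_zero)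

/-- The underlying matrix of a standard representative. -/
theorem coe_stdGL (i : HeckeIdx ℓ N) :
    (stdGL ℓ N i : Matrix (Fin 2) (Fin 2) ℚ) = (heckeMat ℓ N i.1).map (fun x : ℤ => (x : ℚ)) :=
  coe_intMat _ _

/-- The standard representatives lie in the Hecke set of `ℓ`. -/
theorem stdGL_mem (i : HeckeIdx ℓ N) : stdGL ℓ N i ∈ heckeSet N H ℓ :=
  ⟨_, isHecke_heckeMat i, coe_stdGL i⟩

/-- The standard representatives have positive determinant. -/
theorem det_stdGL (i : HeckeIdx ℓ N) : 0 < (stdGL ℓ N i : Matrix (Fin 2) (Fin 2) ℚ).det := by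
  have h := det_heckeMat i
  rw [det_fin_two] at h
  rw [coe_stdGL, det_fin_two]
  simp only [Matrix.map_apply]
  have : ((0 : ℤ) : ℚ) < ((ℓ : ℤ) : ℚ) := by exact_mod_cast hℓ.out.pos
  rw [← h] at this
  exact_mod_cast this

/-- Right factors in `GL(2, ℚ)`. -/
theorem exists_stdGL_factor {n : ℤ} {g : GL (Fin 2) ℚ} (hg : g ∈ heckeSet N H (n * ℓ)) :
    ∃ i, ∃ g' ∈ heckeSet N H n, g = g' * stdGL ℓ N i := by
  obtain ⟨M, hM, e⟩ := hg
  obtain ⟨i, M', hM', rfl⟩ := exists_factor hM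
  refine ⟨i, g * (stdGL ℓ N i)⁻¹, ⟨M', hM', ?_⟩, (inv_mul_cancel_right _ _).symm⟩
  have e' : (g : Matrix (Fin 2) (Fin 2) ℚ) = M'.map (fun x : ℤ => (x : ℚ)) * (stdGL ℓ N i).val := by
    rw [e, Matrix.map_mul_intCast, coe_stdGL]
  rw [Units.val_mul, e', mul_assoc, ← Units.val_mul, mul_inv_cancel, Units.val_one, mul_one]

/-- Uniqueness of right factors in `GL(2, ℚ)`. -/
theorem eq_of_stdGL_factor {n : ℤ} (hn : ¬ (ℓ : ℤ) ∣ n) {i k : HeckeIdx ℓ N} {g g' : GL (Fin 2) ℚ}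
    (hg : g ∈ heckeSet N H n) (hg' : g' ∈ heckeSet N H n)
    (e : g * stdGL ℓ N i = g' * stdGL ℓ N k) : i = k := by
  obtain ⟨P, hP, eP⟩ := hg
  obtain ⟨P', hP', eP'⟩ := hg'
  refine eq_of_factor hn hP.1 hP'.1
    (Matrix.map_injective Int.cast_injective (α := ℤ) (β := ℚ) ?_)
  have := congrArg Units.val e
  rw [Units.val_mul, Units.val_mul, eP, eP', coe_stdGL, coe_stdGL, ← Matrix.map_mul_intCast,
    ← Matrix.map_mul_intCast] at this
  exact this

/-- A prime does not divide one. -/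
theorem not_dvd_one : ¬ (ℓ : ℤ) ∣ 1 := fun h =>
  hℓ.out.ne_one (by exact_mod_cast Int.eq_one_of_dvd_one (by positivity) h)

/-- The standard matrices represent the left cosets in the Hecke set of `ℓ`. -/
theorem isLeftReps_stdGL :
    Reps.IsLeftReps (GammaH N H) (heckeSet N H ℓ) (stdGL ℓ N) where
  mem := stdGL_mem
  exists_eq M hM := by
    rw [← one_mul (ℓ : ℤ)] at hM
    obtain ⟨i, g, hg, rfl⟩ := exists_stdGL_factor hM
    obtain ⟨d, hd, rfl⟩ := exists_gq_of_mem_one hg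
    exact ⟨i, d, hd, rfl⟩
  uniq i k d hd e := eq_of_stdGL_factor not_dvd_one (gq_mem_heckeSet hd)
    (gq_mem_heckeSet (one_mem _)) (e.trans (by rw [map_one, one_mul]))

section Transpose

variable [NeZero N]

/-- The anti-involution `g ↦ diag(1, N) gᵀ diag(1, N)⁻¹`. -/
noncomputable def flip (N : ℕ) [NeZero N] (g : GL (Fin 2) ℚ) : GL (Fin 2) ℚ :=
  GeneralLinearGroup.mkOfDetNeZero !![g 0 0, g 1 0 / N; g 0 1 * N, g 1 1] (by
    have h := g.det_ne_zero
    rw [det_fin_two] at h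
    rw [det_fin_two_of]
    field_simp [show (N : ℚ) ≠ 0 by exact_mod_cast NeZero.ne N]
    convert h using 1
    ring)

/-- The matrix of `flip N g`. -/
theorem coe_flip (g : GL (Fin 2) ℚ) :
    (flip N g : Matrix (Fin 2) (Fin 2) ℚ) = !![g 0 0, g 1 0 / N; g 0 1 * N, g 1 1] := rfl

/-- `flip` preserves the Hecke sets. -/
theorem flip_mem {n : ℤ} {g : GL (Fin 2) ℚ} (hg : g ∈ heckeSet N H n) :
    flip N g ∈ heckeSet N H n := by
  obtain ⟨M, ⟨hd, hc, hh⟩, e⟩ := hg
  obtain ⟨c, hc⟩ := (ZMod.intCast_zmod_eq_zero_iff_dvd _ _).mp hc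
  rw [det_fin_two] at hd
  refine ⟨!![M 0 0, c; M 0 1 * N, M 1 1], ⟨?_, by simp, by simpa using hh⟩, ?_⟩
  · rw [det_fin_two_of]
    linear_combination hd + M 0 1 * hc
  · have hN : (N : ℚ) ≠ 0 := by exact_mod_cast NeZero.ne N
    rw [coe_flip]
    ext i j
    fin_cases i <;> fin_cases j <;> simp [e, hc]
    field_simp

/-- `flip` is an anti-involution of the level. -/
theorem levelAnti_flip : LevelAnti (GammaH N H) (flip N) where
  map_mul M M' := by
    have hN : (N : ℚ) ≠ 0 := by exact_mod_cast NeZero.ne N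
    apply Units.ext
    ext i j
    fin_cases i <;> fin_cases j <;>
      simp [coe_flip, Matrix.mul_apply, Fin.sum_univ_two] <;> field_simp
  invol M := by
    have hN : (N : ℚ) ≠ 0 := by exact_mod_cast NeZero.ne N
    apply Units.ext
    ext i j
    fin_cases i <;> fin_cases j <;> simp [coe_flip, hN]
  level d hd := exists_gq_of_mem_one (flip_mem (gq_mem_heckeSet hd))

/-- The correspondence `T ℓ` (or `U ℓ` when `ℓ ∣ N`). -/
noncomputable def hecke (N : ℕ) [NeZero N] (H : Subgroup (ZMod N)ˣ) (ℓ : ℕ) [Fact ℓ.Prime] :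
    Corr (GammaH N H) (GammaH N H) (HeckeIdx ℓ N) (HeckeIdx ℓ N) :=
  Corr.ofAnti (levelAnti_flip (H := H)) (fun _ h => flip_mem h) det_stdGL
    (fun M hM d hd => by simpa using heckeSet_mul hM (gq_mem_heckeSet hd)) isLeftReps_stdGL

variable (R : Type*) [CommRing R]

/-- `T ℓ` on homomorphisms. -/
noncomputable def heckeT (N : ℕ) [NeZero N] (H : Subgroup (ZMod N)ˣ) (ℓ : ℕ) [Fact ℓ.Prime] :
    Module.End R (Homs R (GammaH N H)) :=
  (hecke N H ℓ).toReps.homMap

/-- `T ℓ` on symbols. -/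
noncomputable def heckeS (N : ℕ) [NeZero N] (H : Subgroup (ZMod N)ˣ) (ℓ : ℕ) [Fact ℓ.Prime] :
    Module.End R (symbols R (GammaH N H)) :=
  (hecke N H ℓ).toReps.symbMap

variable {R}

/-- Periods commute with `T ℓ`. -/
theorem periodHom_heckeS (S : symbols R (GammaH N H)) :
    periodHom (heckeS R N H ℓ S) = heckeT R N H ℓ (periodHom S) :=
  Reps.periodHom_symbMap _ S

/-- `T ℓ` commutes with a change of coefficients. -/
theorem mapCoeff_heckeT {R' : Type*} [CommRing R'] (f : R →+* R') (φ : Homs R (GammaH N H)) :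
    mapCoeff f (heckeT R N H ℓ φ) = heckeT R' N H ℓ (mapCoeff f φ) :=
  Reps.mapCoeff_homMap _ f φ

section Comm

variable {ℓ' : ℕ} [hℓ' : Fact ℓ'.Prime]

omit [NeZero N] in
/-- The products of representatives of two different primes lie in distinct left cosets. -/
theorem stdGL_mul_uniq (hne : ℓ ≠ ℓ') (i k : HeckeIdx ℓ N × HeckeIdx ℓ' N) (d : SL(2, ℤ))
    (hd : d ∈ GammaH N H) (e : gq d * (stdGL ℓ N i.1 * stdGL ℓ' N i.2)
      = stdGL ℓ N k.1 * stdGL ℓ' N k.2) : i = k := by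
  have h2 : i.2 = k.2 := by
    refine eq_of_stdGL_factor (g := gq d * stdGL ℓ N i.1) (g' := stdGL ℓ N k.1) (H := H)
      (n := (ℓ : ℤ)) ?_ ?_ (stdGL_mem _) (by rw [mul_assoc]; exact e)
    · intro h
      exact hne ((Nat.prime_dvd_prime_iff_eq hℓ'.out hℓ.out).mp (by exact_mod_cast h)).symm
    · simpa using heckeSet_mul (gq_mem_heckeSet hd) (stdGL_mem (H := H) i.1)
  refine Prod.ext (isLeftReps_stdGL.uniq _ _ d hd ?_) h2
  rwa [h2, ← mul_assoc, mul_left_inj] at e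

/-- The composite of the correspondences of two distinct primes. -/
noncomputable def heckeComp (N : ℕ) [NeZero N] (H : Subgroup (ZMod N)ˣ) (ℓ ℓ' : ℕ) [Fact ℓ.Prime]
    [Fact ℓ'.Prime] (hne : ℓ ≠ ℓ') :
    Reps (GammaH N H) (GammaH N H) (HeckeIdx ℓ N × HeckeIdx ℓ' N) :=
  Reps.comp (hecke N H ℓ).toReps (hecke N H ℓ').toReps (stdGL_mul_uniq hne)

/-- The products in one order are those in the other, up to the level. -/
theorem exists_heckeComp_swap (hne : ℓ ≠ ℓ') (i : HeckeIdx ℓ N × HeckeIdx ℓ' N) :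
    ∃ k, ∃ d ∈ GammaH N H, (heckeComp N H ℓ ℓ' hne).B i
      = gq d * (heckeComp N H ℓ' ℓ hne.symm).B k := by
  have h : stdGL ℓ N i.1 * stdGL ℓ' N i.2 ∈ heckeSet N H ((ℓ' : ℤ) * ℓ) := by
    rw [mul_comm (ℓ' : ℤ)]
    exact heckeSet_mul (stdGL_mem i.1) (stdGL_mem i.2)
  obtain ⟨a, g, hg, e⟩ := exists_stdGL_factor h
  obtain ⟨b, d, hd, rfl⟩ := isLeftReps_stdGL.exists_eq g hg
  exact ⟨(b, a), d, hd, e.trans (mul_assoc _ _ _)⟩

/-- Hecke operators commute. -/
theorem heckeT_comm (φ : Homs R (GammaH N H)) :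
    heckeT R N H ℓ (heckeT R N H ℓ' φ) = heckeT R N H ℓ' (heckeT R N H ℓ φ) := by
  obtain rfl | hne := eq_or_ne ℓ ℓ'
  · congr 1
  · have h1 := Reps.homMap_comp (hecke N H ℓ).toReps (hecke N H ℓ').toReps (stdGL_mul_uniq hne) φ
    have h2 := Reps.homMap_comp (hecke N H ℓ').toReps (hecke N H ℓ).toReps
      (stdGL_mul_uniq hne.symm) φ
    change (hecke N H ℓ).toReps.homMap ((hecke N H ℓ').toReps.homMap φ) = _
    rw [← h2]
    change _ = (hecke N H ℓ').toReps.homMap ((hecke N H ℓ).toReps.homMap φ)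
    rw [← h1]
    exact Reps.homMap_congr _ _ (exists_heckeComp_swap hne.symm)
      (by simp [Fintype.card_prod, mul_comm]) φ

/-- Hecke operators on symbols commute. -/
theorem heckeS_comm (S : symbols R (GammaH N H)) :
    heckeS R N H ℓ (heckeS R N H ℓ' S) = heckeS R N H ℓ' (heckeS R N H ℓ S) := by
  obtain rfl | hne := eq_or_ne ℓ ℓ'
  · congr 1
  · have h1 := Reps.symbMap_comp (hecke N H ℓ).toReps (hecke N H ℓ').toReps (stdGL_mul_uniq hne) S
    have h2 := Reps.symbMap_comp (hecke N H ℓ').toReps (hecke N H ℓ).toReps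
      (stdGL_mul_uniq hne.symm) S
    change (hecke N H ℓ).toReps.symbMap ((hecke N H ℓ').toReps.symbMap S) = _
    rw [← h2]
    change _ = (hecke N H ℓ').toReps.symbMap ((hecke N H ℓ).toReps.symbMap S)
    rw [← h1]
    exact Reps.symbMap_congr _ _ (exists_heckeComp_swap hne.symm)
      (by simp [Fintype.card_prod, mul_comm]) S

end Comm

end Transpose

end Fermat.HM
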