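import Fermat.Agent.HM.RepsOps
import Fermat.Agent.MC.Lvl.GammaH
import Mathlib.Algebra.Field.ZMod

/-!
# Integral matrices of given determinant attached to `Γ_H(N)`, and their standard factors

The main results are `exists_factor` and `eq_of_factor`, with the representatives `heckeMat`.
-/

namespace Fermat.HM

open scoped MatrixGroups
open CongruenceSubgroup Matrix Fermat.MC.Lvl

variable {N : ℕ} {H : Subgroup (ZMod N)ˣ}

/-- Integral matrices of determinant `n`, upper triangular mod `N`, upper left entry in `H`. -/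
def IsHecke (N : ℕ) (H : Subgroup (ZMod N)ˣ) (n : ℤ) (M : Matrix (Fin 2) (Fin 2) ℤ) : Prop :=
  M.det = n ∧ ((M 1 0 : ℤ) : ZMod N) = 0 ∧ ∃ h ∈ H, (h : ZMod N) = ((M 0 0 : ℤ) : ZMod N)

/-- The same inside `GL(2, ℚ)`. -/
def heckeSet (N : ℕ) (H : Subgroup (ZMod N)ˣ) (n : ℤ) : Set (GL (Fin 2) ℚ) :=
  {g | ∃ M, IsHecke N H n M ∧ (g : Matrix (Fin 2) (Fin 2) ℚ) = M.map (fun x : ℤ => (x : ℚ))}

/-- Products of such matrices, with multiplied determinants. -/
theorem IsHecke.mul {m n : ℤ} {M M' : Matrix (Fin 2) (Fin 2) ℤ} (h : IsHecke N H m M)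
    (h' : IsHecke N H n M') : IsHecke N H (m * n) (M * M') := by
  obtain ⟨hd, hc, x, hx, hx'⟩ := h
  obtain ⟨hd', hc', y, hy, hy'⟩ := h'
  refine ⟨by rw [det_mul, hd, hd'], ?_, x * y, mul_mem hx hy, ?_⟩
  · simp [mul_apply, Fin.sum_univ_two, hc, hc']
  · simp [mul_apply, Fin.sum_univ_two, hc', hx', hy']

/-- For determinant one these are the elements of `Γ_H(N)`. -/
theorem isHecke_one_iff {d : SL(2, ℤ)} :
    IsHecke N H 1 (d : Matrix (Fin 2) (Fin 2) ℤ) ↔ d ∈ GammaH N H := by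
  rw [mem_GammaH_iff_upper, Gamma0_mem]
  exact ⟨fun h => h.2, fun h => ⟨d.2, h⟩⟩

/-- The level lies in the Hecke set of determinant one. -/
theorem gq_mem_heckeSet {d : SL(2, ℤ)} (h : d ∈ GammaH N H) : gq d ∈ heckeSet N H 1 :=
  ⟨d, isHecke_one_iff.mpr h, coe_gq d⟩

/-- Products of elements of Hecke sets. -/
theorem heckeSet_mul {m n : ℤ} {g g' : GL (Fin 2) ℚ} (h : g ∈ heckeSet N H m)
    (h' : g' ∈ heckeSet N H n) : g * g' ∈ heckeSet N H (m * n) := by
  obtain ⟨M, hM, e⟩ := h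
  obtain ⟨M', hM', e'⟩ := h'
  exact ⟨M * M', hM.mul hM', by rw [Units.val_mul, e, e', Matrix.map_mul_intCast]⟩

/-- The Hecke set of determinant one is the level. -/
theorem exists_gq_of_mem_one {g : GL (Fin 2) ℚ} (h : g ∈ heckeSet N H 1) :
    ∃ d ∈ GammaH N H, g = gq d := by
  obtain ⟨M, hM, e⟩ := h
  exact ⟨⟨M, hM.1⟩, isHecke_one_iff.mp hM, Units.ext (e.trans (coe_gq ⟨M, hM.1⟩).symm)⟩

/-- A Hecke matrix gives an element of the Hecke set. -/
theorem intMat_mem_heckeSet {n : ℤ} {M : Matrix (Fin 2) (Fin 2) ℤ} (hM : IsHecke N H n M)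
    (h0 : M.det ≠ 0) : intMat M h0 ∈ heckeSet N H n := ⟨M, hM, coe_intMat M h0⟩

/-- The indices of the standard representatives of determinant `ℓ`. -/
abbrev HeckeIdx (ℓ N : ℕ) : Type := {i : Option (Fin ℓ) // i = none → ¬ ℓ ∣ N}

section Reps

variable {ℓ : ℕ} [hℓ : Fact ℓ.Prime]

/-- The standard representatives: `(1 j; 0 ℓ)`, and `(xℓ, -y; Nℓ, ℓ)` with `xℓ + yN = 1`. -/
def heckeMat (ℓ N : ℕ) (i : Option (Fin ℓ)) : Matrix (Fin 2) (Fin 2) ℤ :=
  i.elim !![Int.gcdA ℓ N * ℓ, -Int.gcdB ℓ N; (N : ℤ) * ℓ, ℓ] fun j => !![1, ((j : ℕ) : ℤ); 0, ℓ]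

/-- The Bézout relation between `ℓ ∤ N` and `N`. -/
theorem bezout (hN : ¬ ℓ ∣ N) : (ℓ : ℤ) * Int.gcdA ℓ N + (N : ℤ) * Int.gcdB ℓ N = 1 := by
  rw [← Int.gcd_eq_gcd_ab]
  exact_mod_cast (hℓ.out.coprime_iff_not_dvd.mpr hN)

/-- The coefficient of `N` in it is prime to `ℓ`. -/
theorem not_dvd_gcdB (hN : ¬ ℓ ∣ N) : ¬ (ℓ : ℤ) ∣ Int.gcdB ℓ N := fun h => by
  have h1 : (ℓ : ℤ) ∣ 1 := by
    rw [← bezout hN]; exact dvd_add (dvd_mul_right _ _) (h.mul_left _)
  exact hℓ.out.ne_one (by exact_mod_cast Int.eq_one_of_dvd_one (by positivity) h1)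

/-- The standard representatives have determinant `ℓ`. -/
theorem det_heckeMat (i : HeckeIdx ℓ N) : (heckeMat ℓ N i.1).det = ℓ := by
  obtain ⟨i | j, hi⟩ := i
  · simp only [heckeMat, Option.elim_none, det_fin_two_of]
    linear_combination (ℓ : ℤ) * bezout (hi rfl)
  · simp [heckeMat, det_fin_two_of]

/-- The standard representatives are Hecke matrices. -/
theorem isHecke_heckeMat (i : HeckeIdx ℓ N) : IsHecke N H ℓ (heckeMat ℓ N i.1) := by
  refine ⟨det_heckeMat i, ?_, 1, one_mem H, ?_⟩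
  · obtain ⟨i | j, hi⟩ := i <;> simp [heckeMat]
  · obtain ⟨i | j, hi⟩ := i
    · have h := congrArg (fun x : ℤ => (x : ZMod N)) (bezout (hi rfl))
      simp at h
      simpa [heckeMat, mul_comm] using h.symm
    · simp [heckeMat]

/-- Every such matrix has a standard right factor of determinant `ℓ`. -/
theorem exists_factor {n : ℤ} {M : Matrix (Fin 2) (Fin 2) ℤ} (hM : IsHecke N H (n * ℓ) M) :
    ∃ i : HeckeIdx ℓ N, ∃ M', IsHecke N H n M' ∧ M = M' * heckeMat ℓ N i.1 := by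
  obtain ⟨hdet, hc, x, hxH, hx⟩ := hM
  rw [det_fin_two] at hdet
  have hℓ0 : (ℓ : ℤ) ≠ 0 := by exact_mod_cast hℓ.out.ne_zero
  by_cases hd : (ℓ : ℤ) ∣ M 0 0 ∧ (ℓ : ℤ) ∣ M 1 0
  -- `ℓ` divides the first column: factor through the representative at infinity
  · obtain ⟨⟨a, ha⟩, c, hc'⟩ := hd
    have hN : ¬ ℓ ∣ N := fun hd' => by
      have := congrArg (ZMod.castHom hd' (ZMod ℓ)) hx
      rw [map_intCast, ha, Int.cast_mul, Int.cast_natCast, ZMod.natCast_self, zero_mul] at this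
      exact (x.isUnit.map (ZMod.castHom hd' (ZMod ℓ))).ne_zero this
    have hb := bezout hN
    set X := Int.gcdA ℓ N
    set Y := Int.gcdB ℓ N
    refine ⟨⟨none, fun _ => hN⟩,
      !![M 0 0 - (N : ℤ) * M 0 1, a * Y + M 0 1 * X; M 1 0 - (N : ℤ) * M 1 1, c * Y + M 1 1 * X],
      ⟨?_, ?_, x, hxH, ?_⟩, ?_⟩
    · rw [det_fin_two_of]
      refine mul_left_cancel₀ hℓ0 ?_
      linear_combination hdet + (M 0 0 * M 1 1 - M 1 0 * M 0 1) * hb
        - ((N : ℤ) * M 1 1 - M 1 0) * Y * ha + ((N : ℤ) * M 0 1 - M 0 0) * Y * hc'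
    · simp [hc]
    · simp [hx]
    · ext i j
      fin_cases i <;> fin_cases j <;>
        simp [heckeMat, mul_apply, Fin.sum_univ_two, X, Y]
      · linear_combination (-M 0 0) * hb + (N : ℤ) * Y * ha
      · linear_combination (-M 0 1) * hb + Y * ha
      · linear_combination (-M 1 0) * hb + (N : ℤ) * Y * hc'
      · linear_combination (-M 1 1) * hb + Y * hc'
  -- otherwise the second column is `t` times the first modulo `ℓ`
  · rw [not_and_or, ← ZMod.intCast_zmod_eq_zero_iff_dvd, ← ZMod.intCast_zmod_eq_zero_iff_dvd] at hd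
    have hdet' : (M 0 0 : ZMod ℓ) * M 1 1 - M 0 1 * M 1 0 = 0 := by
      have := congrArg (fun x : ℤ => (x : ZMod ℓ)) hdet
      simpa using this
    obtain ⟨t, h1, h2⟩ : ∃ t : ZMod ℓ, (M 0 1 : ZMod ℓ) - M 0 0 * t = 0 ∧
        (M 1 1 : ZMod ℓ) - M 1 0 * t = 0 := by
      rcases hd with h | h
      · refine ⟨(M 0 1 : ZMod ℓ) / (M 0 0 : ZMod ℓ), by field_simp; ring, ?_⟩
        field_simp
        linear_combination hdet'
      · refine ⟨(M 1 1 : ZMod ℓ) / (M 1 0 : ZMod ℓ), ?_, by field_simp; ring⟩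
        field_simp
        linear_combination -hdet'
    obtain ⟨q1, hq1⟩ := (ZMod.intCast_zmod_eq_zero_iff_dvd (M 0 1 - M 0 0 * (t.val : ℤ)) ℓ).mp
      (by simpa using h1)
    obtain ⟨q2, hq2⟩ := (ZMod.intCast_zmod_eq_zero_iff_dvd (M 1 1 - M 1 0 * (t.val : ℤ)) ℓ).mp
      (by simpa using h2)
    refine ⟨⟨Option.some ⟨t.val, t.val_lt⟩, fun h => (Option.some_ne_none _ h).elim⟩,
      !![M 0 0, q1; M 1 0, q2], ⟨?_, by simpa using hc, x, hxH, by simpa using hx⟩, ?_⟩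
    · rw [det_fin_two_of]
      refine mul_left_cancel₀ hℓ0 ?_
      linear_combination hdet - M 0 0 * hq2 + M 1 0 * hq1
    · ext i j
      fin_cases i <;> fin_cases j <;>
        simp [heckeMat, mul_apply, Fin.sum_univ_two, -ZMod.natCast_val]
      · linear_combination hq1
      · linear_combination hq2

/-- The standard right factor is unique when the cofactor has determinant prime to `ℓ`. -/
theorem eq_of_factor {n : ℤ} (hn : ¬ (ℓ : ℤ) ∣ n) {i k : HeckeIdx ℓ N}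
    {P P' : Matrix (Fin 2) (Fin 2) ℤ} (hP : P.det = n) (hP' : P'.det = n)
    (e : P * heckeMat ℓ N i.1 = P' * heckeMat ℓ N k.1) : i = k := by
  have hdvd : ∀ Q : Matrix (Fin 2) (Fin 2) ℤ, Q.det = n →
      (Q 0 0 : ZMod ℓ) = 0 → (Q 1 0 : ZMod ℓ) = 0 → False := fun Q hQ h0 h1 => by
    refine hn ((ZMod.intCast_zmod_eq_zero_iff_dvd n ℓ).mp ?_)
    rw [← hQ, det_fin_two]
    simp [h0, h1]
  have e' := congrArg (fun A : Matrix (Fin 2) (Fin 2) ℤ => A.map (fun x : ℤ => (x : ZMod ℓ))) e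
  have hentry : ∀ a b, ((P * heckeMat ℓ N i.1) a b : ZMod ℓ) = ((P' * heckeMat ℓ N k.1) a b : ℤ) :=
    fun a b => by rw [e]
  have h00 := hentry 0 0
  have h01 := hentry 0 1
  have h10 := hentry 1 0
  have h11 := hentry 1 1
  obtain ⟨i | i, hi⟩ := i <;> obtain ⟨k | k, hk⟩ := k
  · rfl
  all_goals simp [heckeMat, mul_apply, Fin.sum_univ_two] at h00 h01 h10 h11
  · exact (hdvd P' hP' h00.symm h10.symm).elim
  · exact (hdvd P hP h00 h10).elim
  · rw [← h00] at h01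
    rw [← h10] at h11
    have hik : (((i : ℕ) : ℤ) : ZMod ℓ) = ((k : ℕ) : ℤ) := by
      by_contra hne
      refine hdvd P hP ?_ ?_
      · exact (mul_eq_mul_left_iff.mp (by simpa using h01)).resolve_left (by simpa using hne)
      · exact (mul_eq_mul_left_iff.mp (by simpa using h11)).resolve_left (by simpa using hne)
    refine Subtype.ext (congrArg Option.some (Fin.ext ?_))
    exact Nat.ModEq.eq_of_lt_of_lt ((ZMod.natCast_eq_natCast_iff _ _ _).mp (by simpa using hik))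
      i.2 k.2

end Reps

end Fermat.HM
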