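import Fermat.Agent.HM.Symbols
import Mathlib.NumberTheory.LSeries.PrimesInAP
import Mathlib.FieldTheory.Finite.Basic
import Mathlib.Algebra.Ring.GeomSum

/-!
# Ihara's lemma for modular symbols

A symbol invariant under `Γ(N)` and under `x ↦ q² x`, where `N = q ^ (2 k) - 1`, has periods
invariant under conjugation by `SL(2, ℤ)` (`QSymbol.period_conj`).  `HM/IharaHecke` deduces that it
is Eisenstein: `(T ℓ - ℓ - 1)²` kills it for every prime `ℓ ≡ 1 mod N`.
-/

namespace Fermat.HM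

open scoped MatrixGroups
open OnePoint CongruenceSubgroup ModularGroup

variable {A : Type*} [AddCommGroup A]

/-- Symbols of level `N = q ^ (2 k) - 1` which are moreover invariant under `x ↦ q² x`. -/
structure QSymbol (q k : ℕ) (S : Cusp → Cusp → A) : Prop where
  /-- `q` is at least two. -/
  q_gt : 1 < q
  /-- The exponent is positive. -/
  k_pos : 0 < k
  /-- `S` is additive in the pair of cusps. -/
  symbol : IsSymbol S
  /-- `S` is invariant under the principal congruence subgroup of level `q ^ (2 k) - 1`. -/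
  gamma : ∀ g ∈ Gamma (q ^ (2 * k) - 1), InvariantBy S (gq g)
  /-- `S` is invariant under `diag (q ^ 2, 1)`. -/
  scale : ∀ g : GL (Fin 2) ℚ,
    (g : Matrix (Fin 2) (Fin 2) ℚ) = !![(q : ℚ) ^ 2, 0; 0, 1] → InvariantBy S g

namespace QSymbol

variable {q k : ℕ} {S : Cusp → Cusp → A}

/-- The number `q ^ (2 k)` exceeds `2`. -/
theorem two_lt_pow (h : QSymbol q k S) : 2 < q ^ (2 * k) := by
  have h1 : q ^ 2 ≤ q ^ (2 * k) := Nat.pow_le_pow_right (by linarith [h.q_gt])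
    (by linarith [h.k_pos])
  nlinarith [h.q_gt]

/-- The level `q ^ (2 k) - 1` is not zero. -/
theorem N_ne_zero (h : QSymbol q k S) : q ^ (2 * k) - 1 ≠ 0 := by
  have := h.two_lt_pow
  omega

/-- Multiplication by a power of `q²` preserves `S`. -/
theorem scale_pow (h : QSymbol q k S) (n : ℕ) (x y : ℚ) :
    S (((q : ℚ) ^ (2 * n) * x : ℚ) : Cusp) (((q : ℚ) ^ (2 * n) * y : ℚ) : Cusp) = S x y ∧
      S ∞ (((q : ℚ) ^ (2 * n) * y : ℚ) : Cusp) = S ∞ y := by
  have hq : (q : ℚ) ≠ 0 := by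
    have := h.q_gt
    exact_mod_cast (by omega : q ≠ 0)
  let g : GL (Fin 2) ℚ := Matrix.GeneralLinearGroup.mkOfDetNeZero !![(q : ℚ) ^ 2, 0; 0, 1]
    (by simp [hq])
  have hg := h.scale g rfl
  have hc : ∀ k : ℚ, g • (k : Cusp) = (((q : ℚ) ^ 2 * k : ℚ) : Cusp) := fun k => by
    rw [smul_some_eq_ite]; simp [g]
  have hi : g • (∞ : Cusp) = ∞ := by rw [smul_infty_eq_self_iff]; simp [g]
  induction n with
  | zero => simp
  | succ n ih =>
    have e : ∀ z : ℚ, (((q : ℚ) ^ (2 * (n + 1)) * z : ℚ) : Cusp)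
        = g • (((q : ℚ) ^ (2 * n) * z : ℚ) : Cusp) := fun z => by
      rw [hc]; congr 1; ring
    refine ⟨by rw [e, e, hg]; exact ih.1, ?_⟩
    rw [e]
    conv_lhs => rw [← hi, hg]
    exact ih.2

/-- The hypotheses of Ihara's lemma are stable under conjugation by the matrix `ModularGroup.S`. -/
theorem conj_S (h : QSymbol q k S) :
    QSymbol q k fun x y => S (gq ModularGroup.S • x) (gq ModularGroup.S • y) where
  q_gt := h.q_gt
  k_pos := h.k_pos
  symbol := h.symbol.comp _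
  gamma g hg x y := by
    have h' := h.gamma _ ((Gamma_normal (N := q ^ (2 * k) - 1)).conj_mem _ hg ModularGroup.S)
    have e : ∀ z : Cusp, gq ModularGroup.S • gq g • z
        = gq (ModularGroup.S * g * ModularGroup.S⁻¹) • gq ModularGroup.S • z := fun z => by
      simp [map_mul, map_inv, mul_smul]
    simp only [e]
    exact h' _ _
  scale g hg x y := by
    have hq : (q : ℚ) ≠ 0 := by
      have := h.q_gt
      exact_mod_cast (by omega : q ≠ 0)
    -- `S g S⁻¹ g` is scalar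
    have e : ∀ z : Cusp, gq ModularGroup.S • g • z = g⁻¹ • gq ModularGroup.S • z := fun z => by
      rw [eq_inv_smul_iff, ← mul_smul, ← mul_smul,
        ← smul_left_cancel_iff (gq ModularGroup.S)⁻¹, inv_smul_smul, ← mul_smul]
      refine scalar_smul_eq (pow_ne_zero 2 hq) ?_ z
      rw [← map_inv, Units.val_mul, Units.val_mul, Units.val_mul, coe_gq, coe_gq,
        Matrix.SpecialLinearGroup.coe_inv, hg]
      ext i j
      fin_cases i <;> fin_cases j <;>
        simp [coe_S, Matrix.adjugate_fin_two, Matrix.mul_apply, Matrix.vecMul, dotProduct,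
          Fin.sum_univ_two]
    simp only [e]
    exact (h.scale g hg).inv _ _

/-- A translation by a multiple of `N` lies in `Γ(N)`. -/
theorem T_zpow_mem (N : ℕ) {t : ℤ} (ht : (N : ℤ) ∣ t) : T ^ t ∈ Gamma N := by
  have h : (t : ZMod N) = 0 := (ZMod.intCast_zmod_eq_zero_iff_dvd t N).mpr ht
  simp [Gamma_mem, coe_T_zpow, h]

/-- A translation by a multiple of the level fixes the values `S(∞, ·)`. -/
theorem symbol_T_zpow (h : QSymbol q k S) {t : ℤ} (ht : ((q ^ (2 * k) - 1 : ℕ) : ℤ) ∣ t)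
    (x : Cusp) :
    S ∞ (gq (T ^ t) • x) = S ∞ x := by
  have hi : gq (T ^ t) • (∞ : Cusp) = ∞ := gq_smul_infty_of_lower (by simp [coe_T_zpow])
  conv_lhs => rw [← hi, h.gamma _ (T_zpow_mem _ ht)]

/-- A large prime in a residue class modulo `a` which is `-1` modulo `N ^ 2`. -/
private theorem exists_prime_congr (B : ℕ) {N : ℕ} (hN0 : N ≠ 0) {a r a1 : ℤ} (ha0 : a ≠ 0)
    (hra : IsCoprime r a) (ha1 : a - 1 = N * a1) :
    ∃ c' : ℕ, B < c' ∧ c'.Prime ∧ a ∣ (c' : ℤ) - r ∧ (N : ℤ) ^ 2 ∣ (c' : ℤ) + 1 := by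
  have haN : IsCoprime a ((N : ℤ) ^ 2) :=
    IsCoprime.pow_right ⟨1, -a1, by linear_combination ha1⟩
  obtain ⟨u, v, huv⟩ := haN
  set X : ℤ := r * (v * (N : ℤ) ^ 2) - u * a with hX
  have hXa : IsCoprime X ((a.natAbs * N ^ 2 : ℕ) : ℤ) := by
    push_cast
    refine IsCoprime.mul_right ?_ ?_
    · have : IsCoprime X a := by
        have e : X = r + (-r * u - u) * a := by rw [hX]; linear_combination r * huv
        rw [e]
        exact hra.add_mul_right_left _
      rw [Int.isCoprime_iff_gcd_eq_one] at this ⊢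
      rwa [Int.gcd_eq_natAbs_gcd_natAbs, Int.natAbs_abs, ← Int.gcd_eq_natAbs_gcd_natAbs]
    · exact ⟨-1, r * v + v, by rw [hX]; linear_combination huv⟩
  obtain ⟨c', hc'gt, hc'p, hc'X⟩ := Nat.forall_exists_prime_gt_and_zmodEq B
    (q := a.natAbs * N ^ 2) (by positivity) hXa
  obtain ⟨w, hw⟩ := (Int.modEq_iff_dvd.mp hc'X.symm)
  push_cast at hw
  refine ⟨c', hc'gt, hc'p, ?_,
    ⟨|a| * w + r * v + v, by rw [hX] at hw; linear_combination hw - huv⟩⟩
  have e : (c' : ℤ) - r = |a| * ((N : ℤ) ^ 2 * w) + (-r * u - u) * a := by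
    rw [hX] at hw; linear_combination hw + r * huv
  rw [e]
  exact dvd_add (dvd_mul_of_dvd_left (self_dvd_abs a) _) (dvd_mul_left _ _)

/-- Translates of the values `S(∞, ·)` do not see the elements of the level fixing `0`. -/
private theorem symbol_conj_fixed (h : QSymbol q k S) {L : SL(2, ℤ)}
    (hL : L ∈ Gamma (q ^ (2 * k) - 1)) (hLfix : gq L • ((0 : ℚ) : Cusp) = ((0 : ℚ) : Cusp))
    (t : ℤ) (y : Cusp) : S ∞ (gq (T ^ t) • y) = S ∞ (gq (T ^ t) • gq L • y) := by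
  set L' : SL(2, ℤ) := T ^ t * L * (T ^ t)⁻¹ with hL'
  have hinv := h.gamma _ ((Gamma_normal (N := q ^ (2 * k) - 1)).conj_mem _ hL (T ^ t))
  have hp : period S L' = 0 := by
    refine period_eq_zero_of_fixed h.symbol hinv (x := gq (T ^ t) • ((0 : ℚ) : Cusp)) ?_
    rw [← mul_smul, ← map_mul, hL', inv_mul_cancel_right, map_mul, mul_smul, hLfix]
  have e : gq (T ^ t) • gq L • y = gq L' • gq (T ^ t) • y := by
    rw [← mul_smul (gq L'), ← map_mul, hL', inv_mul_cancel_right, map_mul, mul_smul]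
  rw [e, ← h.symbol ∞ (gq L' • ∞) (gq L' • _), hinv]
  rw [show S ∞ (gq L' • ∞) = period S L' from rfl, hp, zero_add]

/-- A geometric sum of terms `≡ 1` is congruent to its length. -/
private theorem dvd_geomSum_sub {N : ℕ} {x : ℤ} (hx : (N : ℤ) ∣ x - 1) (j : ℕ) :
    (N : ℤ) ∣ (∑ i ∈ Finset.range j, x ^ i) - j := by
  rw [← ZMod.intCast_zmod_eq_zero_iff_dvd] at hx ⊢
  push_cast at hx ⊢
  simp [sub_eq_zero.mp hx]

/-- Half of `c - 1` is prime to `N` when `c ≡ -1` modulo `N ^ 2`. -/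
private theorem isCoprime_half {N m : ℕ} {e₁ : ℤ} (he₁ : 2 * (m : ℤ) + 1 + 1 = (N : ℤ) ^ 2 * e₁) :
    IsCoprime (m : ℤ) (N : ℤ) := by
  rcases Nat.even_or_odd N with ⟨b, hb⟩ | ⟨b, hb⟩
  · -- `N = 2 b`: `m + 1 = 2 b² e₁`
    have hb' : (N : ℤ) = 2 * b := by rw [hb]; push_cast; ring
    have e2 : (m : ℤ) + 1 = 2 * b ^ 2 * e₁ := by
      rw [hb'] at he₁
      exact mul_left_cancel₀ (two_ne_zero' ℤ) (by linear_combination he₁)
    exact ⟨-1, b * e₁, by rw [hb']; linear_combination -e2⟩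
  · have hb' : (N : ℤ) = 2 * b + 1 := by rw [hb]; push_cast; ring
    have e2 : 2 * ((m : ℤ) + 1) = (N : ℤ) ^ 2 * e₁ := by linear_combination he₁
    exact ⟨-1, ((m : ℤ) + 1) - b * e₁ * N,
      by rw [hb'] at e2 ⊢; linear_combination (b : ℤ) * e2⟩

/-- A power of `q ^ 2` which is `1 + N c' s` with `a s ≡ t` modulo `N`. -/
private theorem exists_scale_exponent (h : QSymbol q k S) {c' : ℕ} (hc'p : c'.Prime)
    (hc'gt : q ^ (2 * k) - 1 + q + 2 < c') {e₁ : ℤ}
    (he₁ : (c' : ℤ) + 1 = ((q ^ (2 * k) - 1 : ℕ) : ℤ) ^ 2 * e₁) {a a1 : ℤ}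
    (ha1 : a - 1 = ((q ^ (2 * k) - 1 : ℕ) : ℤ) * a1) (t : ℤ) :
    ∃ (n : ℕ) (s : ℤ), (q : ℤ) ^ (2 * n) = 1 + ((q ^ (2 * k) - 1 : ℕ) : ℤ) * c' * s ∧
      ((q ^ (2 * k) - 1 : ℕ) : ℤ) ∣ t - a * s := by
  set N := q ^ (2 * k) - 1 with hN
  have hN0 : N ≠ 0 := h.N_ne_zero
  have : Fact c'.Prime := ⟨hc'p⟩
  have hc'odd : c' % 2 = 1 := hc'p.eq_two_or_odd.resolve_left (by omega)
  set m := (c' - 1) / 2 with hm
  have hm' : 2 * m = c' - 1 := by omega
  set M : ℤ := (q : ℤ) ^ (2 * k) with hM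
  have hMN : M - 1 = (N : ℤ) := by
    rw [hM, hN, Nat.cast_sub (by linarith [h.two_lt_pow])]; push_cast; ring
  set e := ∑ i ∈ Finset.range m, M ^ i with he
  have hMm : M ^ m - 1 = (N : ℤ) * e := by rw [he, ← hMN, mul_geom_sum]
  have hqc : ¬ c' ∣ q := fun hd => by
    have := Nat.le_of_dvd (by linarith [h.q_gt]) hd
    omega
  -- with `M = q^(2k)`: `c'` divides `1 + M + ⋯ + M^(m-1)`, with cofactor prime to `N`
  obtain ⟨t₀, ht₀⟩ : (c' : ℤ) ∣ e := by
    refine (show IsCoprime (c' : ℤ) (N : ℤ) from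
      ⟨-1, N * e₁, by linear_combination -he₁⟩).dvd_of_dvd_mul_left ?_
    rw [← hMm, ← ZMod.intCast_zmod_eq_zero_iff_dvd, hM]
    push_cast
    rw [← pow_mul, show 2 * k * m = (c' - 1) * k by rw [← hm']; ring,
      pow_mul, ZMod.pow_card_sub_one_eq_one, one_pow, sub_self]
    rwa [Ne, ZMod.natCast_eq_zero_iff]
  have ht₀N : IsCoprime t₀ (N : ℤ) := by
    obtain ⟨d, hd⟩ := dvd_geomSum_sub (N := N) (x := M) ⟨1, by rw [hMN]; ring⟩ m
    rw [← he] at hd
    have h2m : (c' : ℤ) = 2 * m + 1 := by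
      have : c' = 2 * m + 1 := by omega
      exact_mod_cast this
    have : IsCoprime e (N : ℤ) := by
      rw [show e = m + d * (N : ℤ) by linear_combination hd]
      exact (isCoprime_half (h2m ▸ he₁)).add_mul_right_left d
    rw [ht₀] at this
    exact this.of_mul_left_right
  obtain ⟨i₀, i₁, hi⟩ := ht₀N
  -- take `n = k m j`, with `j` chosen modulo `N`
  set j : ℕ := ((t * i₀) % (N : ℤ)).toNat with hj
  have hjmod : (N : ℤ) ∣ (j : ℤ) - t * i₀ := by
    rw [hj, Int.toNat_of_nonneg (Int.emod_nonneg _ (by exact_mod_cast hN0))]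
    exact ⟨-((t * i₀) / (N : ℤ)), by linear_combination Int.emod_add_mul_ediv (t * i₀) (N : ℤ)⟩
  set g := ∑ i ∈ Finset.range j, (M ^ m) ^ i with hg
  have hgj : (N : ℤ) ∣ g - j := dvd_geomSum_sub ⟨e, hMm⟩ j
  refine ⟨k * m * j, t₀ * g, ?_, ?_⟩
  · rw [show (q : ℤ) ^ (2 * (k * m * j)) = (M ^ m) ^ j by
      rw [hM, ← pow_mul, ← pow_mul]; congr 1; ring]
    have := mul_geom_sum (M ^ m) j
    rw [← hg, hMm, ht₀] at this
    linear_combination -this
  · have e3 : t - a * (t₀ * g) = -(a - 1) * t₀ * g - t₀ * (g - j) - t₀ * (j - t * i₀)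
        + t * i₁ * N := by linear_combination -t * hi
    rw [e3]
    refine dvd_add (dvd_sub (dvd_sub ?_ (dvd_mul_of_dvd_right hgj _))
      (dvd_mul_of_dvd_right hjmod _)) (dvd_mul_left _ _)
    exact dvd_mul_of_dvd_left (dvd_mul_of_dvd_left (dvd_neg.mpr ⟨a1, ha1⟩) _) _

/-- Translation by `a s` fixes the value at `a / (N c')` when `1 + N c' s` is a power of `q ^ 2`. -/
private theorem symbol_shift (h : QSymbol q k S) {N c' n : ℕ} (hN0 : N ≠ 0) (hc' : c' ≠ 0)
    {a s : ℤ} (hn : (q : ℤ) ^ (2 * n) = 1 + (N : ℤ) * c' * s) :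
    S ∞ (gq (T ^ (a * s)) • (((a : ℚ) / ((N : ℚ) * c') : ℚ) : Cusp))
      = S ∞ (((a : ℚ) / ((N : ℚ) * c') : ℚ) : Cusp) := by
  rw [gq_T_zpow_smul_coe]
  have hq' : (q : ℚ) ^ (2 * n) * ((a : ℚ) / ((N : ℚ) * c'))
      = (a : ℚ) / ((N : ℚ) * c') + ((a * s : ℤ) : ℚ) := by
    have e2 : (q : ℚ) ^ (2 * n) = (((q : ℤ) ^ (2 * n) : ℤ) : ℚ) := by push_cast; rfl
    rw [e2, hn]
    have : (N : ℚ) ≠ 0 := by exact_mod_cast hN0
    have : (c' : ℚ) ≠ 0 := by exact_mod_cast hc'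
    push_cast
    field_simp
  rw [← hq']
  exact (h.scale_pow n 0 _).2

/-- The key invariance: translating `γ ∞`, for `γ ∈ Γ(N)`, does not change `S(∞, γ ∞)`. -/
theorem symbol_translate (h : QSymbol q k S) {γ : SL(2, ℤ)} (hγ : γ ∈ Gamma (q ^ (2 * k) - 1))
    (t : ℤ) : S ∞ (gq (T ^ t) • gq γ • ∞) = S ∞ (gq γ • ∞) := by
  set N := q ^ (2 * k) - 1 with hN
  have hN0 : N ≠ 0 := h.N_ne_zero
  obtain ⟨ha, -, hc, -⟩ := Gamma_mem.mp hγ
  rcases eq_or_ne (γ 1 0) 0 with h0 | h0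
  · rw [gq_smul_infty_of_lower h0, gq_smul_infty_of_lower (by simp [coe_T_zpow])]
  set a := γ 0 0 with haa
  obtain ⟨r, hr⟩ := (ZMod.intCast_zmod_eq_zero_iff_dvd _ _).mp hc
  obtain ⟨a1, ha1⟩ := (ZMod.intCast_zmod_eq_zero_iff_dvd (a - 1) N).mp (by push_cast; rw [ha]; ring)
  have ha0 : a ≠ 0 := by
    intro h0'
    rw [h0'] at ha1
    have := Int.le_of_dvd (by norm_num) (⟨-a1, by linear_combination -ha1⟩ : (N : ℤ) ∣ 1)
    have := h.two_lt_pow
    omega
  have hdet : γ 0 0 * γ 1 1 - γ 0 1 * γ 1 0 = 1 := by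
    have := Matrix.SpecialLinearGroup.det_coe γ
    rwa [Matrix.det_fin_two] at this
  have hra : IsCoprime r a :=
    ⟨-(γ 0 1) * N, γ 1 1, by rw [← haa] at hdet; linear_combination hdet + γ 0 1 * hr⟩
  -- `c' ≡ r mod a`, `c' ≡ -1 mod N²`
  obtain ⟨c', hc'gt, hc'p, ⟨s₁, hs⟩, e₁, he₁⟩ := exists_prime_congr (N + q + 2) hN0 ha0 hra ha1
  obtain ⟨n, s, hn, hdiff⟩ := exists_scale_exponent h hc'p hc'gt he₁ ha1 t
  -- move the cusp to one with denominator `N c'`
  let L : SL(2, ℤ) := ⟨!![1, 0; (N : ℤ) * s₁, 1], by simp [Matrix.det_fin_two_of]⟩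
  have hLmem : L ∈ Gamma N := by simp [Gamma_mem, L]
  have hLfix : gq L • ((0 : ℚ) : Cusp) = ((0 : ℚ) : Cusp) := by
    rw [smul_some_eq_ite]; simp [coe_gq, L]
  have hT0 : gq L • gq γ • (∞ : Cusp) = (((a : ℚ) / ((N : ℚ) * c') : ℚ) : Cusp) := by
    have hval : (L * γ : SL(2, ℤ)) 1 0 = (N : ℤ) * c' := by
      simp [L, Matrix.SpecialLinearGroup.coe_mul, Matrix.mul_apply, Fin.sum_univ_two]
      linear_combination hr - (N : ℤ) * hs
    have hne : (L * γ : SL(2, ℤ)) 1 0 ≠ 0 := by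
      rw [hval]
      exact mul_ne_zero (by exact_mod_cast hN0) (by exact_mod_cast hc'p.ne_zero)
    rw [← mul_smul, ← map_mul, gq_smul_infty_coe hne, hval]
    simp [L, Matrix.SpecialLinearGroup.coe_mul, Matrix.mul_apply, Fin.sum_univ_two, a]
  have h0' := symbol_conj_fixed h hLmem hLfix 0 (gq γ • ∞)
  simp only [zpow_zero, map_one, one_smul] at h0'
  rw [symbol_conj_fixed h hLmem hLfix t, show T ^ t = T ^ (t - a * s) * T ^ (a * s) by
    rw [← zpow_add]; simp, map_mul, mul_smul, h.symbol_T_zpow hdiff, hT0,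
    symbol_shift h hN0 hc'p.ne_zero hn, ← hT0, ← h0']

/-- The periods are invariant under conjugation by `SL(2, ℤ)`. -/
theorem period_conj (h : QSymbol q k S) (g : SL(2, ℤ)) :
    ∀ γ ∈ Gamma (q ^ (2 * k) - 1), period S (g * γ * g⁻¹) = period S γ := by
  set N := q ^ (2 * k) - 1 with hN
  have key : ∀ {S : Cusp → Cusp → A}, QSymbol q k S → ∀ γ ∈ Gamma N,
      period S (T * γ * T⁻¹) = period S γ := by
    intro S h γ hγ
    have := h.symbol_translate hγ 1
    rw [zpow_one] at this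
    rw [period, map_mul, map_mul, mul_smul, mul_smul,
      gq_smul_infty_of_lower (g := T⁻¹) (by simp [coe_T, Matrix.adjugate_fin_two])]
    exact this
  have key' : ∀ γ ∈ Gamma N, period S
      (ModularGroup.S * T * ModularGroup.S⁻¹ * γ * (ModularGroup.S * T * ModularGroup.S⁻¹)⁻¹)
      = period S γ := by
    intro γ hγ
    have hw : ∀ δ ∈ Gamma N, period
        (fun x y => S (gq ModularGroup.S • x) (gq ModularGroup.S • y)) δ
        = period S (ModularGroup.S * δ * ModularGroup.S⁻¹) := fun δ hδ => by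
      rw [period_eq h.symbol (h.gamma _ ((Gamma_normal (N := N)).conj_mem _ hδ _))
        (gq ModularGroup.S • ∞), ← mul_smul, ← map_mul, inv_mul_cancel_right, map_mul, mul_smul]
      rfl
    have hmem : ModularGroup.S⁻¹ * γ * ModularGroup.S ∈ Gamma N := by
      simpa using (Gamma_normal (N := N)).conj_mem _ hγ ModularGroup.S⁻¹
    have h1 := key h.conj_S _ hmem
    rw [hw _ hmem, hw _ ((Gamma_normal (N := N)).conj_mem _ hmem T)] at h1
    convert h1 using 2 <;> group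
  -- the elements preserving the periods form a subgroup containing `T` and `S T S⁻¹`
  let H : Subgroup SL(2, ℤ) :=
    { carrier := {g | ∀ γ ∈ Gamma N, period S (g * γ * g⁻¹) = period S γ}
      one_mem' := fun γ _ => by simp
      mul_mem' := fun {a b} ha hb γ hγ => by
        rw [show a * b * γ * (a * b)⁻¹ = a * (b * γ * b⁻¹) * a⁻¹ by group,
          ha _ ((Gamma_normal (N := N)).conj_mem _ hγ _), hb γ hγ]
      inv_mem' := fun {a} ha γ hγ => by
        have := ha _ ((Gamma_normal (N := N)).conj_mem _ hγ a⁻¹)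
        rw [← this]
        congr 1
        group }
  have hT : T ∈ H := fun γ hγ => key h γ hγ
  have hL : ModularGroup.S * T * ModularGroup.S⁻¹ ∈ H := key'
  have hS' : ModularGroup.S ∈ H := by
    have e : (ModularGroup.S : SL(2, ℤ))
        = T⁻¹ * (ModularGroup.S * T * ModularGroup.S⁻¹)⁻¹ * T⁻¹ := by decide
    rw [e]
    exact mul_mem (mul_mem (inv_mem hT) (inv_mem hL)) (inv_mem hT)
  have hH : H = ⊤ := by
    rw [eq_top_iff, ← SpecialLinearGroup.SL2Z_generators, Subgroup.closure_le]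
    rintro x (rfl | rfl)
    exacts [hS', hT]
  exact (hH ▸ Subgroup.mem_top g : g ∈ H)

end QSymbol

end Fermat.HM
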