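import Fermat.Agent.HM.Ihara

/-!
# Hecke operators on `Γ(N)`-symbols, and the Eisenstein property

The main result is `eisenstein`: for a `QSymbol` `S` and `ℓ ≡ 1` modulo `q ^ (2 k) - 1`, the
square of `T ℓ - ℓ - 1` kills `S`.
-/

namespace Fermat.HM

open scoped MatrixGroups
open OnePoint CongruenceSubgroup ModularGroup

variable {A : Type*} [AddCommGroup A]

/-- The matrices of determinant `ℓ`, with translations by multiples of `c`. -/
def heckeRep (ℓ : ℕ) (c : ℤ) : Option (Fin ℓ) → Matrix (Fin 2) (Fin 2) ℤ :=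
  fun i => i.elim !![(ℓ : ℤ), 0; 0, 1] fun j => !![1, c * ((j : ℕ) : ℤ); 0, (ℓ : ℤ)]

/-- The representatives have determinant `ℓ`. -/
theorem det_heckeRep (ℓ : ℕ) (c : ℤ) (i : Option (Fin ℓ)) : (heckeRep ℓ c i).det = ℓ := by
  cases i <;> simp [heckeRep, Matrix.det_fin_two_of]

/-- The representatives are upper triangular. -/
theorem heckeRep_lower (ℓ : ℕ) (c : ℤ) (i : Option (Fin ℓ)) : heckeRep ℓ c i 1 0 = 0 := by
  cases i <;> simp [heckeRep]

variable {ℓ : ℕ} [hℓ : Fact ℓ.Prime]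

/-- The same as elements of `GL(2, ℚ)`. -/
noncomputable def heckeGL (ℓ : ℕ) [hℓ : Fact ℓ.Prime] (c : ℤ) (i : Option (Fin ℓ)) : GL (Fin 2) ℚ :=
  intMat (heckeRep ℓ c i) (by rw [det_heckeRep]; exact_mod_cast hℓ.out.ne_zero)

/-- The operator `T ℓ` on symbols. -/
noncomputable def heckeAt (ℓ : ℕ) [Fact ℓ.Prime] (c : ℤ) (S : Cusp → Cusp → A) (x y : Cusp) : A :=
  ∑ i, S (heckeGL ℓ c i • x) (heckeGL ℓ c i • y)

/-- The representatives fix `∞`. -/
theorem heckeGL_smul_infty (c : ℤ) (i : Option (Fin ℓ)) : heckeGL ℓ c i • (∞ : Cusp) = ∞ := by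
  rw [smul_infty_eq_self_iff, heckeGL, coe_intMat, Matrix.map_apply, heckeRep_lower, Int.cast_zero]

/-- An identity `α g = h β` of integral matrices between representatives holds in `GL(2, ℚ)`. -/
theorem heckeGL_mul {c : ℤ} {i k : Option (Fin ℓ)} {g h : SL(2, ℤ)}
    (e : heckeRep ℓ c i * (g : Matrix (Fin 2) (Fin 2) ℤ)
      = (h : Matrix (Fin 2) (Fin 2) ℤ) * heckeRep ℓ c k) :
    heckeGL ℓ c i * gq g = gq h * heckeGL ℓ c k := by
  apply Units.ext
  rw [Units.val_mul, Units.val_mul, heckeGL, heckeGL, coe_intMat, coe_intMat, coe_gq, coe_gq,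
    ← Matrix.map_mul_intCast, ← Matrix.map_mul_intCast, e]

section Reps

variable {N : ℕ}

/-- A prime `ℓ ≡ 1` modulo `N` does not divide `N`. -/
theorem coprime_of_one_mod (hlN : (ℓ : ZMod N) = 1) : ¬ (ℓ : ℤ) ∣ (N : ℤ) := fun hd => by
  have hd' : ℓ ∣ N := by exact_mod_cast hd
  have h1 := congrArg (ZMod.castHom hd' (ZMod ℓ)) hlN
  rw [map_natCast, map_one, ZMod.natCast_self] at h1
  exact zero_ne_one h1

/-- For `ℓ ≡ 1` modulo `N`, a representative of `T_ℓ` times an element of `SL(2, ℤ)` is an element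
of `SL(2, ℤ)` times a representative. -/
theorem exists_decomp (hlN : (ℓ : ZMod N) = 1) (g : SL(2, ℤ)) (i : Option (Fin ℓ)) :
    ∃ k, ∃ h : SL(2, ℤ), heckeRep ℓ N i * (g : Matrix (Fin 2) (Fin 2) ℤ)
      = (h : Matrix (Fin 2) (Fin 2) ℤ) * heckeRep ℓ N k := by
  set M := heckeRep ℓ N i * (g : Matrix (Fin 2) (Fin 2) ℤ) with hM
  have hdet : M.det = ℓ := by
    rw [hM, Matrix.det_mul, det_heckeRep, Matrix.SpecialLinearGroup.det_coe, mul_one]
  rw [Matrix.det_fin_two] at hdet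
  have hℓ0 : (ℓ : ℤ) ≠ 0 := by exact_mod_cast hℓ.out.ne_zero
  -- If `ℓ` divides the first column, the representative is the diagonal one.
  by_cases hd : (ℓ : ℤ) ∣ M 0 0 ∧ (ℓ : ℤ) ∣ M 1 0
  · obtain ⟨⟨a, ha⟩, c, hc⟩ := hd
    refine ⟨none, ⟨!![a, M 0 1; c, M 1 1], ?_⟩, ?_⟩
    · rw [Matrix.det_fin_two_of]
      refine mul_left_cancel₀ hℓ0 ?_
      linear_combination hdet - M 1 1 * ha + M 0 1 * hc
    · ext i j
      fin_cases i <;> fin_cases j <;> simp [heckeRep, Matrix.mul_apply, Fin.sum_univ_two]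
      · linear_combination ha
      · linear_combination hc
  · have hz : ∀ x : ℤ, (ℓ : ℤ) ∣ x ↔ (x : ZMod ℓ) = 0 := fun x =>
      (ZMod.intCast_zmod_eq_zero_iff_dvd x ℓ).symm
    have hN : ((N : ℤ) : ZMod ℓ) ≠ 0 := fun h0 => coprime_of_one_mod hlN ((hz _).mpr h0)
    have hdet' := congrArg (fun x : ℤ => (x : ZMod ℓ)) hdet
    simp only [Int.cast_sub, Int.cast_mul, Int.cast_natCast, ZMod.natCast_self] at hdet'
    rw [not_and_or, hz, hz] at hd
    -- Otherwise a multiple `N t` of that column agrees with the second modulo `ℓ`.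
    obtain ⟨t, h1, h2⟩ : ∃ t : ZMod ℓ, (M 0 1 : ZMod ℓ) - M 0 0 * (((N : ℤ) : ZMod ℓ) * t) = 0 ∧
        (M 1 1 : ZMod ℓ) - M 1 0 * (((N : ℤ) : ZMod ℓ) * t) = 0 := by
      rcases hd with h | h
      · refine ⟨(M 0 1 : ZMod ℓ) / M 0 0 / ((N : ℤ) : ZMod ℓ), by field_simp; ring, ?_⟩
        field_simp
        linear_combination hdet'
      · refine ⟨(M 1 1 : ZMod ℓ) / M 1 0 / ((N : ℤ) : ZMod ℓ), ?_, by field_simp; ring⟩
        field_simp
        linear_combination -hdet'
    obtain ⟨q1, hq1⟩ := (hz (M 0 1 - M 0 0 * ((N : ℤ) * (t.val : ℤ)))).mpr (by simpa using h1)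
    obtain ⟨q2, hq2⟩ := (hz (M 1 1 - M 1 0 * ((N : ℤ) * (t.val : ℤ)))).mpr (by simpa using h2)
    refine ⟨Option.some ⟨t.val, t.val_lt⟩, ⟨!![M 0 0, q1; M 1 0, q2], ?_⟩, ?_⟩
    · rw [Matrix.det_fin_two_of]
      refine mul_left_cancel₀ hℓ0 ?_
      linear_combination hdet - M 0 0 * hq2 + M 1 0 * hq1
    · ext i j
      fin_cases i <;> fin_cases j <;>
        simp [heckeRep, Matrix.mul_apply, Fin.sum_univ_two, -ZMod.natCast_val]
      · linear_combination hq1
      · linear_combination hq2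

/-- The representatives of `T_ℓ` lie in distinct cosets. -/
theorem eq_of_mul_heckeRep (hlN : (ℓ : ZMod N) = 1) {i k : Option (Fin ℓ)} {h : SL(2, ℤ)}
    (e : (h : Matrix (Fin 2) (Fin 2) ℤ) * heckeRep ℓ N i = heckeRep ℓ N k) : i = k := by
  have h00 := congrFun (congrFun e 0) 0
  have h01 := congrFun (congrFun e 0) 1
  have h10 := congrFun (congrFun e 1) 0
  have h11 := congrFun (congrFun e 1) 1
  rcases i with _ | i <;> rcases k with _ | k <;>
    simp [heckeRep, Matrix.mul_apply, Fin.sum_univ_two] at h00 h01 h10 h11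
  · rfl
  · exfalso
    rcases Int.eq_one_or_neg_one_of_mul_eq_one' h00 with ⟨-, h⟩ | ⟨-, h⟩
    · exact hℓ.out.ne_one (by exact_mod_cast h)
    · omega
  · exfalso
    rw [h10, zero_mul, zero_add] at h11
    rcases Int.eq_one_or_neg_one_of_mul_eq_one' h11 with ⟨-, h⟩ | ⟨-, h⟩
    · exact hℓ.out.ne_one (by exact_mod_cast h)
    · omega
  · rw [h00, one_mul] at h01
    have := congrArg (fun x : ℤ => (x : ZMod ℓ)) h01
    simp only [Int.cast_add, Int.cast_mul, Int.cast_natCast, ZMod.natCast_self, mul_zero,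
      add_zero] at this
    refine congrArg Option.some (Fin.ext (Nat.ModEq.eq_of_lt_of_lt
      ((ZMod.natCast_eq_natCast_iff _ _ _).mp (mul_left_cancel₀ ?_ this)) i.2 k.2))
    have := coprime_of_one_mod hlN
    rwa [← ZMod.intCast_zmod_eq_zero_iff_dvd, Int.cast_natCast] at this

/-- The decomposition `h β` with `β` a representative is unique. -/
theorem decomp_unique (hlN : (ℓ : ZMod N) = 1) {k k' : Option (Fin ℓ)} {h h' : SL(2, ℤ)}
    (e : (h : Matrix (Fin 2) (Fin 2) ℤ) * heckeRep ℓ N k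
      = (h' : Matrix (Fin 2) (Fin 2) ℤ) * heckeRep ℓ N k') : k = k' ∧ h = h' := by
  have hk : k = k' := eq_of_mul_heckeRep hlN (h := h'⁻¹ * h) (by
    rw [Matrix.SpecialLinearGroup.coe_mul, mul_assoc, e, ← mul_assoc,
      ← Matrix.SpecialLinearGroup.coe_mul, inv_mul_cancel, Matrix.SpecialLinearGroup.coe_one,
      one_mul])
  refine ⟨hk, Subtype.ext ?_⟩
  subst hk
  have e' := congrArg (fun M => M * (heckeRep ℓ N k).adjugate) e
  simp only [mul_assoc, Matrix.mul_adjugate, det_heckeRep, Matrix.mul_smul, mul_one] at e'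
  exact smul_right_injective _ (by exact_mod_cast hℓ.out.ne_zero) e'

omit hℓ in
/-- In a decomposition `α g = h β` the element `h g⁻¹` lies in `Γ(N)`. -/
theorem mul_inv_mem_Gamma (hlN : (ℓ : ZMod N) = 1) {i k : Option (Fin ℓ)} {g h : SL(2, ℤ)}
    (e : heckeRep ℓ N i * (g : Matrix (Fin 2) (Fin 2) ℤ)
      = (h : Matrix (Fin 2) (Fin 2) ℤ) * heckeRep ℓ N k) : h * g⁻¹ ∈ Gamma N := by
  have hB : ∀ i : Option (Fin ℓ), (heckeRep ℓ N i).map (Int.castRingHom (ZMod N)) = 1 := fun i => by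
    ext a b
    cases i <;> fin_cases a <;> fin_cases b <;> simp [heckeRep, hlN]
  rw [Gamma, MonoidHom.mem_ker, map_mul, map_inv, mul_inv_eq_one]
  apply Subtype.ext
  have e' := congrArg (fun M : Matrix (Fin 2) (Fin 2) ℤ => M.map (Int.castRingHom (ZMod N))) e
  simp only [Matrix.map_mul, hB, one_mul, mul_one] at e'
  exact e'.symm

/-- The index map of the decompositions of the `α g` is a permutation. -/
theorem perm_bijective (hlN : (ℓ : ZMod N) = 1) {g : SL(2, ℤ)} {σ : Option (Fin ℓ) → Option (Fin ℓ)}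
    {d : Option (Fin ℓ) → SL(2, ℤ)}
    (hd : ∀ i, heckeRep ℓ N i * (g : Matrix (Fin 2) (Fin 2) ℤ)
      = (d i : Matrix (Fin 2) (Fin 2) ℤ) * heckeRep ℓ N (σ i)) : Function.Bijective σ := by
  refine Finite.injective_iff_bijective.mp fun a b hab =>
    eq_of_mul_heckeRep hlN (h := d b * (d a)⁻¹) ?_
  have h1 : ((d b * (d a)⁻¹ : SL(2, ℤ)) : Matrix (Fin 2) (Fin 2) ℤ) * heckeRep ℓ N a
      * (g : Matrix (Fin 2) (Fin 2) ℤ) = heckeRep ℓ N b * (g : Matrix (Fin 2) (Fin 2) ℤ) := by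
    rw [mul_assoc, hd a, hd b, ← mul_assoc, ← Matrix.SpecialLinearGroup.coe_mul,
      inv_mul_cancel_right, hab]
  have h2 := congrArg (fun M => M * ((g⁻¹ : SL(2, ℤ)) : Matrix (Fin 2) (Fin 2) ℤ)) h1
  simp only [mul_assoc, ← Matrix.SpecialLinearGroup.coe_mul, mul_inv_cancel,
    Matrix.SpecialLinearGroup.coe_one, mul_one] at h2
  exact h2

end Reps

namespace QSymbol

variable {q k : ℕ} {S : Cusp → Cusp → A}

/-- `T ℓ` multiplies all periods by `ℓ + 1`, for `ℓ ≡ 1` modulo the level. -/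
theorem period_heckeAt (h : QSymbol q k S) (hlN : (ℓ : ZMod (q ^ (2 * k) - 1)) = 1)
    {γ : SL(2, ℤ)} :
    period (heckeAt ℓ ((q ^ (2 * k) - 1 : ℕ) : ℤ) S) γ = (ℓ + 1) • period S γ := by
  set N := q ^ (2 * k) - 1 with hN
  choose σ d hd using fun g i => exists_decomp hlN g i
  have hmem : ∀ g i, d g i * g⁻¹ ∈ Gamma N := fun g i => mul_inv_mem_Gamma hlN (hd g i)
  set Lam : SL(2, ℤ) → A := fun g => ∑ i, period S (d g i * g⁻¹) with hLam
  have hσ : ∀ g, Function.Bijective (σ g) := fun g => perm_bijective hlN (hd g)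
  -- `Lam` is a homomorphism
  have hmul : ∀ g g', Lam (g * g') = Lam g + Lam g' := by
    intro g g'
    have hstep : ∀ i, period S (d (g * g') i * (g * g')⁻¹)
        = period S (d g i * g⁻¹) + period S (d g' (σ g i) * g'⁻¹) := by
      intro i
      have e : (d (g * g') i).val * heckeRep ℓ N (σ (g * g') i)
          = (d g i * d g' (σ g i)).val * heckeRep ℓ N (σ g' (σ g i)) := by
        rw [← hd, Matrix.SpecialLinearGroup.coe_mul, ← mul_assoc, hd g i, mul_assoc, hd g',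
          Matrix.SpecialLinearGroup.coe_mul, mul_assoc]
      rw [(decomp_unique hlN e).2,
        show d g i * d g' (σ g i) * (g * g')⁻¹
          = d g i * g⁻¹ * (g * (d g' (σ g i) * g'⁻¹) * g⁻¹) by group,
        period_mul h.symbol (h.gamma _ (hmem g i)), h.period_conj g _ (hmem _ _)]
    simp only [hLam, hstep, Finset.sum_add_distrib]
    rw [Fintype.sum_bijective (σ g) (hσ g) (fun i => period S (d g' (σ g i) * g'⁻¹))
      (fun i => period S (d g' i * g'⁻¹)) fun _ => rfl]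
  have hT : Lam T = 0 := Finset.sum_eq_zero fun i _ => by
    refine period_eq_zero_of_fixed h.symbol (h.gamma _ (hmem T i))
      (gq_smul_infty_of_lower ?_)
    have e := congrFun (congrFun (hd T i) 1) 0
    simp [Matrix.mul_apply, Fin.sum_univ_two, coe_T, heckeRep_lower] at e
    have h00 : heckeRep ℓ N (σ T i) 0 0 ≠ 0 := by
      cases σ T i <;> simp [heckeRep, hℓ.out.ne_zero]
    simp [Matrix.SpecialLinearGroup.coe_mul, Matrix.mul_apply, Fin.sum_univ_two, coe_T,
      Matrix.adjugate_fin_two, e.resolve_right h00]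
  let Lh : SL(2, ℤ) →* Multiplicative A :=
    MonoidHom.mk' (fun g => Multiplicative.ofAdd (Lam g)) fun g g' => by rw [hmul]; rfl
  -- It kills `T`, hence `S T S⁻¹`, hence all of `SL(2, ℤ)`.
  have hker : Lh.ker = ⊤ := by
    have h1 : T ∈ Lh.ker := by simp [Lh, hT]
    have h2 : ModularGroup.S * T * ModularGroup.S⁻¹ ∈ Lh.ker :=
      (MonoidHom.normal_ker Lh).conj_mem _ h1 _
    rw [eq_top_iff, ← SpecialLinearGroup.SL2Z_generators, Subgroup.closure_le]
    rintro x (rfl | rfl)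
    · have e : (ModularGroup.S : SL(2, ℤ))
          = T⁻¹ * (ModularGroup.S * T * ModularGroup.S⁻¹)⁻¹ * T⁻¹ := by decide
      rw [SetLike.mem_coe, e]
      exact mul_mem (mul_mem (inv_mem h1) (inv_mem h2)) (inv_mem h1)
    · exact h1
  have hzero : Lam γ = 0 := by
    have : γ ∈ Lh.ker := hker ▸ Subgroup.mem_top γ
    simpa [Lh] using this
  have hterm : ∀ i, S (heckeGL ℓ N i • ∞) (heckeGL ℓ N i • gq γ • ∞)
      = period S (d γ i * γ⁻¹) + period S γ := by
    intro i
    rw [← mul_smul, heckeGL_mul (hd γ i), mul_smul, heckeGL_smul_infty, heckeGL_smul_infty,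
      ← period_mul h.symbol (h.gamma _ (hmem γ i)), inv_mul_cancel_right]
    rfl
  rw [period, heckeAt, Finset.sum_congr rfl fun i _ => hterm i, Finset.sum_add_distrib,
    show ∑ i, period S (d γ i * γ⁻¹) = Lam γ from rfl, hzero, zero_add, Finset.sum_const,
    Finset.card_univ, Fintype.card_option, Fintype.card_fin]

/-- **Ihara's lemma**: `T ℓ - ℓ - 1` squared kills `S`. -/
theorem eisenstein (h : QSymbol q k S) (hlN : (ℓ : ZMod (q ^ (2 * k) - 1)) = 1) :
    let c : ℤ := ((q ^ (2 * k) - 1 : ℕ) : ℤ)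
    let S' : Cusp → Cusp → A := fun x y => heckeAt ℓ c S x y - (ℓ + 1) • S x y
    ∀ x y, heckeAt ℓ c S' x y = (ℓ + 1) • S' x y := by
  set N := q ^ (2 * k) - 1 with hN
  intro c S' x y
  have hS' : IsSymbol S' := fun a b c' => by
    have e : heckeAt ℓ c S a c' = heckeAt ℓ c S a b + heckeAt ℓ c S b c' := by
      simp only [heckeAt, ← Finset.sum_add_distrib]
      exact Finset.sum_congr rfl fun i _ => (h.symbol _ _ _).symm
    simp only [S', e, ← h.symbol a b c', smul_add]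
    abel
  -- `S'` is invariant under `Γ(N)`, with all periods `0`.
  have hinv : ∀ γ ∈ Gamma N, InvariantBy S' (gq γ) := by
    intro γ hγ u v
    choose σ d hd using fun i => exists_decomp hlN γ i
    have hdmem : ∀ i, d i ∈ Gamma N := fun i => by
      simpa using mul_mem (mul_inv_mem_Gamma hlN (hd i)) hγ
    have hσ : Function.Bijective σ := perm_bijective hlN hd
    simp only [S', heckeAt]
    rw [h.gamma _ hγ]
    congr 1
    refine Fintype.sum_bijective σ hσ _ _ fun i => ?_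
    rw [← mul_smul (heckeGL ℓ c i), ← mul_smul (heckeGL ℓ c i), heckeGL_mul (hd i), mul_smul,
      mul_smul, h.gamma _ (hdmem i)]
  have hper : ∀ γ ∈ Gamma N, period S' γ = 0 := fun γ hγ => by
    change heckeAt ℓ c S ∞ _ - (ℓ + 1) • S ∞ _ = 0
    rw [sub_eq_zero]
    exact h.period_heckeAt hlN
  -- So it vanishes on `(β u, u)` for a representative `β`, a `Γ(N)`-equivalent pair.
  have hfix : ∀ i u, S' (heckeGL ℓ c i • u) u = 0 := by
    intro i u
    obtain ⟨g, rfl⟩ := exists_gq_smul_infty u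
    obtain ⟨j, d, hd⟩ := exists_decomp hlN g i
    have hm : g * d⁻¹ ∈ Gamma N := by simpa using inv_mem (mul_inv_mem_Gamma hlN hd)
    rw [← mul_smul, heckeGL_mul hd, mul_smul, heckeGL_smul_infty]
    have e : gq g • (∞ : Cusp) = gq (g * d⁻¹) • gq d • ∞ := by
      rw [← mul_smul, ← map_mul, inv_mul_cancel_right]
    rw [e, ← period_eq hS' (hinv _ hm), hper _ hm]
  -- Hence each of the `ℓ + 1` terms equals `S' x y`.
  have hterm : ∀ i, S' (heckeGL ℓ c i • x) (heckeGL ℓ c i • y) = S' x y := fun i => by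
    rw [← hS' (heckeGL ℓ c i • x) x (heckeGL ℓ c i • y), hfix, zero_add,
      ← hS' x y (heckeGL ℓ c i • y), hS'.swap (heckeGL ℓ c i • y) y, hfix, neg_zero, add_zero]
  rw [heckeAt, Finset.sum_congr rfl fun i _ => hterm i, Finset.sum_const, Finset.card_univ,
    Fintype.card_option, Fintype.card_fin]

end QSymbol

end Fermat.HM
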