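import Fermat.Agent.HM.PushComm

/-!
# Ihara's lemma for symbols of level `Γ_H(N)`

`ihara`: a pair of symbols killed by the two degeneracy maps is Eisenstein. The argument is in
`Ihara`, `IharaHecke` and `IharaDegeneracy`; `Degeneracy` draws the consequence at a
non-Eisenstein ideal, used to add and to raise primes.
-/

namespace Fermat.HM

open scoped MatrixGroups
open CongruenceSubgroup Matrix Fermat.MC.Lvl

variable {R : Type} [CommRing R] {N : ℕ} [NeZero N] {H : Subgroup (ZMod N)ˣ} {ℓ : ℕ}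
  [hℓ : Fact ℓ.Prime]

/-- `heckeAt` at any multiple of the level is `T ℓ`. -/
theorem heckeS_eq_heckeAt {M : ℕ} (hNM : N ∣ M) (hl : (ℓ : ZMod M) = 1)
    (S : symbols R (GammaH N H)) (a b : Cusp) :
    (heckeS R N H ℓ S).1 a b = heckeAt ℓ (M : ℤ) S.1 a b := by
  have hlN : (ℓ : ZMod N) = 1 := by
    have h := congrArg (ZMod.castHom hNM (ZMod N)) hl
    rwa [map_natCast, map_one] at h
  have hmem : ∀ i, heckeGL ℓ (M : ℤ) i ∈ heckeSet N H ℓ := fun i => by
    obtain ⟨c, hc⟩ := hNM
    refine ⟨heckeRep ℓ M i, ⟨det_heckeRep _ _ _, ?_, 1, one_mem H, ?_⟩, coe_intMat _ _⟩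
    · rw [heckeRep_lower, Int.cast_zero]
    · cases i <;> simp [heckeRep, hlN]
  choose f d hd e using fun i => isLeftReps_stdGL.exists_eq _ (hmem i)
  have hinj : Function.Injective f := fun i j hij => by
    refine eq_of_mul_heckeRep hl (h := d j * (d i)⁻¹)
      (Matrix.map_injective Int.cast_injective (α := ℤ) (β := ℚ) ?_)
    have h2 : gq (d j * (d i)⁻¹) * heckeGL ℓ (M : ℤ) i = heckeGL ℓ (M : ℤ) j := by
      rw [e i, e j, ← mul_assoc, ← map_mul, inv_mul_cancel_right, hij]
    have := congrArg Units.val h2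
    rw [Units.val_mul, coe_gq, heckeGL, heckeGL, coe_intMat, coe_intMat,
      ← Matrix.map_mul_intCast] at this
    exact this
  have hbij : Function.Bijective f := (Fintype.bijective_iff_injective_and_card f).mpr
    ⟨hinj, by rw [Fintype.card_option, Fintype.card_fin,
      card_heckeIdx_of_not_dvd (not_dvd_of_one_mod hlN)]⟩
  refine (Fintype.sum_bijective f hbij _ _ fun i => ?_).symm
  change S.1 (heckeGL ℓ (M : ℤ) i • a) (heckeGL ℓ (M : ℤ) i • b)
    = S.1 (stdGL ℓ N (f i) • a) (stdGL ℓ N (f i) • b)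
  rw [e i, mul_smul, mul_smul]
  exact S.2.2 _ (hd i) _ _

omit hℓ [NeZero N] in
/-- A symbol only sees the upper left entry modulo `N` of an element of `Γ₀(N)`. -/
theorem symbol_congr_upper (S : symbols R (GammaH N H)) {g g' : SL(2, ℤ)} (hg : g ∈ Gamma0 N)
    (hg' : g' ∈ Gamma0 N) (e : upperMod N g = upperMod N g') (x y : Cusp) :
    S.1 (gq g • x) (gq g • y) = S.1 (gq g' • x) (gq g' • y) := by
  have he : g * g'⁻¹ ∈ GammaH N H := by
    refine mem_GammaH_iff_upper.mpr ⟨mul_mem hg (inv_mem hg'), 1, one_mem H, ?_⟩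
    have h1 := Gamma0_entries hg'
    simp only [upperMod] at e
    simp [Matrix.mul_apply, Fin.sum_univ_two, adjugate_fin_two, Gamma0_mem.mp hg', e, h1]
  conv_lhs => rw [← inv_mul_cancel_right g g', map_mul, mul_smul, mul_smul]
  exact S.2.2 _ he _ _

omit hℓ in
/-- Every unit modulo `N` is the upper left entry of an element of `Γ₀(N q)`. -/
theorem exists_lift_gamma0 {q : ℕ} [NeZero q] (u : (ZMod N)ˣ) :
    ∃ g : SL(2, ℤ), g ∈ Gamma0 (N * q) ∧ upperMod N g = (u : ZMod N) := by
  have : NeZero (N * q) := ⟨mul_ne_zero (NeZero.ne N) (NeZero.ne q)⟩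
  obtain ⟨v, hv⟩ := ZMod.unitsMap_surjective (dvd_mul_right N q) u
  obtain ⟨g, hg, e⟩ := exists_gamma0_lift v
  refine ⟨g, hg, ?_⟩
  rw [← hv, ZMod.unitsMap_def, Units.coe_map, ← e]
  exact (map_intCast (ZMod.castHom (dvd_mul_right N q) (ZMod N)) _).symm

/-- Translation of functions on the diagonal. -/
noncomputable def translate (N : ℕ) (R : Type) [CommRing R] (a : ZMod N) :
    ((ZMod N)ˣ → R) →+ ((ZMod N)ˣ → R) :=
  open scoped Classical in
  if h : IsUnit a then
    { toFun := fun F u => F (u * h.unit)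
      map_zero' := rfl
      map_add' := fun _ _ => rfl }
  else 0

omit [NeZero N] hℓ in
/-- Translation is multiplicative in the residue class. -/
theorem translate_mul (a b : ZMod N) (F : (ZMod N)ˣ → R) :
    translate N R (a * b) F = translate N R a (translate N R b F) := by
  classical
  by_cases ha : IsUnit a
  · by_cases hb : IsUnit b
    · rw [translate, translate, translate, dif_pos (ha.mul hb), dif_pos ha, dif_pos hb]
      funext u
      change F (u * _) = F (u * _ * _)
      congr 1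
      rw [mul_assoc]
      congr 1
      exact Units.ext rfl
    · rw [translate, translate, translate, dif_neg (fun h => hb (isUnit_of_mul_isUnit_right h)),
        dif_neg hb]
      exact (map_zero _).symm
  · rw [translate, translate, dif_neg (fun h => ha (isUnit_of_mul_isUnit_left h)), dif_neg ha]
    rfl

/-- The symbol with values in functions on the diagonal. -/
noncomputable def spread (q : ℕ) [NeZero q] (S : symbols R (GammaH N H)) :
    Cusp → Cusp → (ZMod N)ˣ → R := fun x y u =>
  S.1 (gq (exists_lift_gamma0 (q := q) u).choose • x)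
    (gq (exists_lift_gamma0 (q := q) u).choose • y)

omit hℓ in
/-- The spread symbol at `u` is the symbol moved by any element of `Γ₀(N)` with upper left entry
`u`. -/
theorem spread_apply {q : ℕ} [NeZero q] (S : symbols R (GammaH N H)) (x y : Cusp) (u : (ZMod N)ˣ)
    {g : SL(2, ℤ)} (hg : g ∈ Gamma0 N) (e : upperMod N g = (u : ZMod N)) :
    spread q S x y u = S.1 (gq g • x) (gq g • y) := by
  obtain ⟨h1, h2⟩ := (exists_lift_gamma0 (q := q) u).choose_spec
  refine symbol_congr_upper S ?_ hg (h2.trans e.symm) x y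
  obtain ⟨c, hc⟩ := (ZMod.intCast_zmod_eq_zero_iff_dvd _ _).mp (Gamma0_mem.mp h1)
  refine Gamma0_mem.mpr ((ZMod.intCast_zmod_eq_zero_iff_dvd _ _).mpr ⟨q * c, ?_⟩)
  rw [hc]; push_cast; ring

omit hℓ in
/-- The spread symbol at `1` is the symbol. -/
theorem spread_one {q : ℕ} [NeZero q] (S : symbols R (GammaH N H)) (x y : Cusp) :
    spread q S x y 1 = S.1 x y := by
  rw [spread_apply S x y 1 (one_mem _) (by simp [upperMod]), map_one, one_smul, one_smul]

omit hℓ [NeZero N] in
/-- The upper left entry modulo `N` is multiplicative on `Γ₀(N)`. -/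
theorem upperMod_mul {g g' : SL(2, ℤ)} (hg' : g' ∈ Gamma0 N) :
    upperMod N (g * g') = upperMod N g * upperMod N g' := by
  simp [upperMod, Matrix.mul_apply, Fin.sum_univ_two, Gamma0_mem.mp hg']

omit hℓ in
/-- The spread symbol is equivariant for `Γ₀(N)` through translation. -/
theorem equivariant_spread {q : ℕ} [NeZero q] (S : symbols R (GammaH N H)) :
    EquivariantGamma0 N (translate N R) (spread q S) := by
  intro g hg x y
  have hu : IsUnit (upperMod N g) := IsUnit.of_mul_eq_one _ (Gamma0_entries hg)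
  funext u
  rw [translate, dif_pos hu]
  change spread q S (gq g • x) (gq g • y) u = spread q S x y (u * hu.unit)
  obtain ⟨h1, h2⟩ := (exists_lift_gamma0 (q := q) u).choose_spec
  have hs : (exists_lift_gamma0 (q := q) u).choose ∈ Gamma0 N := by
    obtain ⟨c, hc⟩ := (ZMod.intCast_zmod_eq_zero_iff_dvd _ _).mp (Gamma0_mem.mp h1)
    refine Gamma0_mem.mpr ((ZMod.intCast_zmod_eq_zero_iff_dvd _ _).mpr ⟨q * c, ?_⟩)
    rw [hc]; push_cast; ring
  rw [spread_apply S x y (u * hu.unit) (mul_mem hs hg) (by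
    rw [upperMod_mul hg, h2, Units.val_mul, IsUnit.unit_spec]), map_mul, mul_smul, mul_smul]
  rfl

/-- The modulus of the Eisenstein congruence in Ihara's lemma. -/
def iharaMod (q N : ℕ) : ℕ := (q ^ N.totient) ^ (2 * 1) - 1

/-- If the pullbacks to level `N q` cancel, `(T_l - l - 1)²` kills the first symbol for primes `l
≡ 1` modulo a suitable multiple of `N`. -/
theorem ihara_fst {q : ℕ} [NeZero q] (hq : 1 < q) (hcop : q.Coprime N)
    {S₁ S₂ : symbols R (GammaH N H)}
    (hrel : ∀ x y, S₁.1 x y + S₂.1 (scaleGL q • x) (scaleGL q • y) = 0) :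
    iharaMod q N ≠ 0 ∧ N ∣ iharaMod q N ∧ ∀ (l : ℕ) [Fact l.Prime],
      (l : ZMod (iharaMod q N)) = 1 →
      heckeS R N H l (heckeS R N H l S₁ - (l + 1) • S₁)
        = (l + 1) • (heckeS R N H l S₁ - (l + 1) • S₁) := by
  have hsymb : IsSymbol (spread q S₁) := fun x y z => funext fun u => S₁.2.1 _ _ _
  -- the spread symbols satisfy the same relation
  have hrel' : ∀ x y,
      spread q S₁ x y + spread q S₂ (scaleGL q • x) (scaleGL q • y) = 0 :=
        fun x y => funext fun u => by
    obtain ⟨h1, h2⟩ := (exists_lift_gamma0 (q := q) u).choose_spec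
    set s := (exists_lift_gamma0 (q := q) u).choose
    obtain ⟨c, hc⟩ := (ZMod.intCast_zmod_eq_zero_iff_dvd _ _).mp (Gamma0_mem.mp h1)
    have hd := s.2
    rw [det_fin_two] at hd
    obtain ⟨t, ht⟩ : ∃ t : SL(2, ℤ), (t : Matrix (Fin 2) (Fin 2) ℤ)
        = !![s 0 0, (q : ℤ) * s 0 1; (N : ℤ) * c, s 1 1] :=
      ⟨⟨_, by rw [det_fin_two_of]; push_cast at hc; linear_combination hd + s 0 1 * hc⟩, rfl⟩
    have hconj : scaleGL q * gq s = gq t * scaleGL q := by
      apply Units.ext
      rw [Units.val_mul, Units.val_mul, coe_gq, coe_gq, ht]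
      ext i j
      fin_cases i <;> fin_cases j <;> simp [scaleGL, Matrix.mul_apply, Fin.sum_univ_two, hc]
      all_goals ring
    change spread q S₁ x y u + spread q S₂ _ _ u = 0
    rw [spread_apply S₁ x y u (g := s) (Gamma0_mem.mpr ((ZMod.intCast_zmod_eq_zero_iff_dvd _ _).mpr
        ⟨q * c, by rw [hc]; push_cast; ring⟩)) h2,
      spread_apply S₂ _ _ u (g := t) (Gamma0_mem.mpr (by simp [ht]))
        (by rw [upperMod, ht]; simpa [upperMod] using h2)]
    simp only [← mul_smul, ← hconj]
    simp only [mul_smul]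
    exact hrel _ _
  have hone : ∀ z, translate N R 1 z = z := fun z => funext fun u => by
    rw [translate, dif_pos isUnit_one]
    change z (u * _) = z u
    congr 1
    exact Units.ext (by simp)
  -- so Ihara's lemma for `Γ(M)` applies, and is read at the component `1`
  obtain ⟨hQ, hdvd⟩ := QSymbol.of_degeneracy hq (NeZero.ne N) hcop hsymb (translate N R) hone
    translate_mul (equivariant_spread S₁) (equivariant_spread S₂) hrel'
  unfold iharaMod
  set M := (q ^ N.totient) ^ (2 * 1) - 1 with hM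
  refine ⟨?_, hdvd, fun l _ hl => Subtype.ext (funext fun x => funext fun y => ?_)⟩
  · have : 1 < (q ^ N.totient) ^ (2 * 1) := Nat.one_lt_pow (by norm_num)
      (Nat.one_lt_pow (Nat.totient_pos.mpr (NeZero.pos N)).ne' hq)
    omega
  have hA : ∀ x y, heckeAt l (M : ℤ) (spread q S₁) x y 1 = (heckeS R N H l S₁).1 x y := by
    intro x y
    rw [heckeS_eq_heckeAt hdvd hl]
    simp only [heckeAt, Finset.sum_apply, spread_one]
  have key := congrFun (hQ.eisenstein hl x y) 1
  rw [heckeS_eq_heckeAt hdvd hl]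
  simp only [heckeAt, Finset.sum_apply, Pi.sub_apply, Pi.smul_apply] at key
  change ∑ i, ((heckeS R N H l S₁).1 _ _ - ((l + 1) • S₁.1) _ _)
    = (l + 1) • ((heckeS R N H l S₁).1 x y - ((l + 1) • S₁.1) x y)
  simp only [Pi.smul_apply, ← hA]
  simp only [heckeAt, Finset.sum_apply, spread_one] at key ⊢
  exact key

/-- **Ihara's lemma**: a pair killed by the two degeneracy maps is Eisenstein. -/
theorem ihara {q N' : ℕ} [NeZero q] [NeZero N'] {H' : Subgroup (ZMod N')ˣ} (hq : 1 < q)
    (hcop : q.Coprime N) (h₁ : IsLevelMap H H' 1 1) (hD : IsLevelMap H H' q (scaleGL q))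
    {S₁ S₂ : symbols R (GammaH N H)} (hrel : h₁.pullS S₁ + hD.pullS S₂ = 0) :
    iharaMod q N * (N' * q) ≠ 0 ∧ ∀ (l : ℕ) [Fact l.Prime],
      (l : ZMod (iharaMod q N * (N' * q))) = 1 →
      heckeS R N H l (heckeS R N H l S₁ - (l + 1) • S₁)
        = (l + 1) • (heckeS R N H l S₁ - (l + 1) • S₁) ∧
      heckeS R N H l (heckeS R N H l S₂ - (l + 1) • S₂)
        = (l + 1) • (heckeS R N H l S₂ - (l + 1) • S₂) := by
  have hrel' : ∀ x y, S₁.1 x y + S₂.1 (scaleGL q • x) (scaleGL q • y) = 0 := fun x y => by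
    have h := congrFun (congrFun (congrArg Subtype.val hrel) x) y
    simpa [IsLevelMap.pullS_apply] using h
  obtain ⟨hM0, hNM, hM⟩ := ihara_fst hq hcop hrel'
  set M := iharaMod q N
  refine ⟨mul_ne_zero hM0 (mul_ne_zero (NeZero.ne N') (NeZero.ne q)), fun l _ hl => ?_⟩
  have hlM : (l : ZMod M) = 1 := by
    have h := congrArg (ZMod.castHom (dvd_mul_right M (N' * q)) (ZMod M)) hl
    rwa [map_natCast, map_one] at h
  refine ⟨hM l hlM, ?_⟩
  have hl' := not_dvd_of_one_mod hl
  have hlq : ¬ l ∣ q := fun h => hl' (h.trans ((dvd_mul_left q N').mul_left M))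
  have hdiv : l ∣ N' ↔ l ∣ N :=
    iff_of_false (fun h => hl' (h.trans ((dvd_mul_right N' q).mul_left M)))
      (fun h => hl' ((h.trans hNM).trans (dvd_mul_right _ _)))
  -- the second symbol: pull back, where it is minus the first
  have hrel2 : hD.pullS S₂ = - h₁.pullS S₁ := eq_neg_of_add_eq_zero_right hrel
  have hinj : Function.Injective (hD.pullS : symbols R (GammaH N H) →ₗ[R] _) := fun A B h => by
    refine Subtype.ext (funext fun x => funext fun y => ?_)
    have := congrFun (congrFun (congrArg Subtype.val h) ((scaleGL q)⁻¹ • x)) ((scaleGL q)⁻¹ • y)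
    rwa [IsLevelMap.pullS_apply, IsLevelMap.pullS_apply, smul_inv_smul, smul_inv_smul] at this
  have hl1 : ¬ l ∣ 1 := (Fact.out : l.Prime).not_dvd_one
  have c1 := fun A => h₁.pullS_heckeS (R := R) (ℓ := l) hl1 hdiv A
  have c2 := fun A => hD.pullS_heckeS (R := R) (ℓ := l) hlq hdiv A
  refine hinj ?_
  have e1 : hD.pullS (heckeS R N H l S₂ - (l + 1) • S₂)
      = - h₁.pullS (heckeS R N H l S₁ - (l + 1) • S₁) := by
    rw [map_sub, map_sub, map_nsmul, map_nsmul, ← c2, ← c1, hrel2, map_neg, smul_neg]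
    abel
  rw [← c2, e1, map_neg, c1, hM l hlM, map_nsmul, map_nsmul, e1, smul_neg]

end Fermat.HM
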