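import Fermat.Agent.HM.Sublevel
import Fermat.Agent.HM.Twist

/-!
# The `m`-part as a module over the diamond group ring

The module is `DiamondQuot.LocMod`, free by `DiamondQuot.LocMod.free`.
-/

namespace Fermat.HM

open scoped MatrixGroups
open Fermat.MC.Lvl

variable {O : Type} [CommRing O] [IsDomain O] [IsDiscreteValuationRing O]
  [IsAdicComplete (IsLocalRing.maximalIdeal O) O] {σ : Type} {p : σ → ℕ}
  [hp : ∀ i, Fact (p i).Prime] {N : ℕ} [NeZero N] {H₀ H : Subgroup (ZMod N)ˣ} {Δ : Type}
  [CommGroup Δ]

/-- The `m`-part of a level, carrying the action of the diamond group ring. -/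
structure DiamondQuot.LocMod (D : DiamondQuot N H₀ H Δ) (p : σ → ℕ) [∀ i, Fact (p i).Prime]
    (m : Ideal (MvPolynomial σ O)) where
  /-- The underlying element of the `m`-part. -/
  val : locPart m (heckeAct O O N H p)

namespace DiamondQuot.LocMod

variable (D : DiamondQuot N H₀ H Δ) (m : Ideal (MvPolynomial σ O))

/-- Forgetting the wrapper. -/
def equiv : D.LocMod p m ≃ locPart m (heckeAct O O N H p) :=
  ⟨val, mk, fun _ => rfl, fun _ => rfl⟩

/-- The group structure of the `m`-part. -/
noncomputable instance instAddCommGroup : AddCommGroup (D.LocMod p m) := (equiv D m).addCommGroup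

/-- The scalars of the coefficient ring. -/
noncomputable instance instModuleO : Module O (D.LocMod p m) := (equiv D m).module O

/-- The action of the diamond group ring. -/
noncomputable instance instModule : Module (MonoidAlgebra O Δ) (D.LocMod p m) :=
  letI := D.locModule (p := p) m
  (equiv D m).module (MonoidAlgebra O Δ)

/-- The two actions are compatible. -/
instance instIsScalarTower : IsScalarTower O (MonoidAlgebra O Δ) (D.LocMod p m) :=
  ⟨fun c a x => (equiv D m).injective
    ((D.isScalarTower_locModule (p := p) m).smul_assoc c a x.val)⟩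

variable {D m}

section Val

omit [IsDomain O] [IsDiscreteValuationRing O] [IsAdicComplete (IsLocalRing.maximalIdeal O) O]

/-- The underlying element of zero. -/
@[simp] theorem val_zero : (0 : D.LocMod p m).val = 0 := rfl
/-- The underlying element of a sum. -/
@[simp] theorem val_add (x y : D.LocMod p m) : (x + y).val = x.val + y.val := rfl
/-- The underlying element of a difference. -/
@[simp] theorem val_sub (x y : D.LocMod p m) : (x - y).val = x.val - y.val := rfl
/-- The underlying element of a scalar multiple. -/
@[simp] theorem val_smul (c : O) (x : D.LocMod p m) : (c • x).val = c • x.val := rfl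

/-- An element is determined by its homomorphism. -/
theorem ext_val {x y : D.LocMod p m}
    (h : (x.val : Homs O (GammaH N H)) = (y.val : Homs O (GammaH N H))) : x = y :=
  (equiv D m).injective (Subtype.ext h)

/-- The group ring acts through the diamond operators. -/
theorem val_smul_eq (a : MonoidAlgebra O Δ) (x : D.LocMod p m) :
    (a • x).val = MonoidAlgebra.lift O (Module.End O (locPart m (heckeAct O O N H p))) Δ
      (D.diaLoc m) a x.val := rfl

/-- A group element acts as its diamond operator. -/
theorem of_smul (δ : Δ) (x : D.LocMod p m) :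
    (MonoidAlgebra.of O Δ δ • x).val = D.diaLoc m δ x.val := by
  rw [val_smul_eq, MonoidAlgebra.lift_of]

end Val

section Act

variable [m.IsMaximal] [Module.Finite O (Homs O (GammaH N H))]

/-- The group ring commutes with the Hecke operators. -/
theorem lift_diaLoc_locAct (a : MonoidAlgebra O Δ) (h : MvPolynomial σ O)
    (x : locPart m (heckeAct O O N H p)) :
    MonoidAlgebra.lift O (Module.End O (locPart m (heckeAct O O N H p))) Δ (D.diaLoc m) a
        (locAct m (heckeAct O O N H p) h x)
      = locAct m (heckeAct O O N H p) h
        (MonoidAlgebra.lift O (Module.End O (locPart m (heckeAct O O N H p))) Δ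
          (D.diaLoc m) a x) := by
  induction a using MonoidAlgebra.induction_linear with
  | zero => simp
  | add f g hf hg => simp [hf, hg]
  | single δ c =>
    rw [← MonoidAlgebra.smul_of δ c, map_smul, LinearMap.smul_apply, LinearMap.smul_apply,
      MonoidAlgebra.lift_of, map_smul]
    congr 1
    exact Subtype.ext (D.dia_heckeAct δ h (x : Homs O (GammaH N H)))

/-- The Hecke operators as endomorphisms over the group ring. -/
noncomputable def act (D : DiamondQuot N H₀ H Δ) (p : σ → ℕ) [∀ i, Fact (p i).Prime]
    (m : Ideal (MvPolynomial σ O)) [m.IsMaximal] :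
    MvPolynomial σ O →ₐ[O] Module.End (MonoidAlgebra O Δ) (D.LocMod p m) where
  toFun h :=
    { toFun := fun x => ⟨locAct m (heckeAct O O N H p) h x.val⟩
      map_add' := fun x y => (equiv D m).injective
        (map_add (locAct m (heckeAct O O N H p) h) x.val y.val)
      map_smul' := fun a x => (equiv D m).injective (lift_diaLoc_locAct a h x.val).symm }
  map_one' := LinearMap.ext fun x => (equiv D m).injective (by simp [equiv])
  map_mul' a b := LinearMap.ext fun x => (equiv D m).injective (by simp [equiv])
  map_zero' := LinearMap.ext fun x => (equiv D m).injective (by simp [equiv])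
  map_add' a b := LinearMap.ext fun x => (equiv D m).injective (by simp [equiv])
  commutes' c := LinearMap.ext fun x => (equiv D m).injective (by
    change locAct m (heckeAct O O N H p) (algebraMap O _ c) x.val = (c • x).val
    rw [AlgHom.commutes]
    rfl)

/-- The underlying element of the image under a Hecke operator. -/
theorem act_apply (h : MvPolynomial σ O) (x : D.LocMod p m) :
    (act D p m h x).val = locAct m (heckeAct O O N H p) h x.val := rfl

end Act

/-- **Freeness over the diamond group ring.** -/
theorem free {pp : ℕ} [Fact pp.Prime] (hpm : (pp : O) ∈ IsLocalRing.maximalIdeal O) [Finite Δ]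
    (hΔ : IsPGroup pp Δ) (hΓ₀ : GoodLevel O (GammaH N H₀)) (hΓ : GoodLevel O (GammaH N H))
    [m.IsMaximal] (hne : NonEisenstein p m) :
    Module.Free (MonoidAlgebra O Δ) (D.LocMod p m) ∧
      Module.Finite (MonoidAlgebra O Δ) (D.LocMod p m) := by
  let := D.locModule (p := p) m
  obtain ⟨h1, h2, -, -⟩ := D.free_locPart hpm hΔ hΓ₀ hΓ hne
  let e : locPart m (heckeAct O O N H p) ≃ₗ[MonoidAlgebra O Δ] D.LocMod p m :=
    { (equiv D m).symm with
      map_add' := fun _ _ => rfl
      map_smul' := fun _ _ => rfl }
  exact ⟨Module.Free.of_equiv e, Module.Finite.equiv e⟩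

end DiamondQuot.LocMod

end Fermat.HM
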