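import Fermat.Agent.HM.Localize
import Fermat.Prelude.Thm_IsLocalRing_isAdicComplete_of_module_finite

/-!
# Roots of polynomials in the operators on an `m`-part

The main result is `exists_locAct_root`, Hensel's lemma.
-/

namespace Fermat.HM

variable {O : Type} [CommRing O] [IsLocalRing O] [IsNoetherianRing O]
  [IsAdicComplete (IsLocalRing.maximalIdeal O) O] {R : Type} [CommRing R] [Algebra O R]
  {m : Ideal R} [hm : m.IsMaximal] {M : Type} [AddCommGroup M] [Module O M] [Module.Finite O M]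
  {ρ : R →ₐ[O] Module.End O M}

/-- An operator outside `m` has an inverse among the operators on the `m`-part. -/
theorem exists_locAct_mul_eq_one {s : R} (hs : s ∉ m) : ∃ t, locAct m ρ (s * t) = 1 := by
  obtain ⟨e, he⟩ := exists_projector m ρ
  obtain ⟨t, ht⟩ := he.2.2 s hs
  refine ⟨t, LinearMap.ext fun x => Subtype.ext ?_⟩
  obtain ⟨y, hy⟩ : (x : M) ∈ LinearMap.range (ρ e) := he.locPart_eq ▸ x.2
  rw [coe_locAct, ← ht, ← hy, he.apply_apply]
  exact hy

/-- **Hensel's lemma** on the `m`-part. -/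
theorem exists_locAct_root {f : Polynomial R} (hf : f.Monic) {r₀ : R} (h₀ : f.eval r₀ ∈ m)
    (h₁ : f.derivative.eval r₀ ∉ m) : ∃ u, u - r₀ ∈ m ∧ locAct m ρ (f.eval u) = 0 := by
  set φ := locAct m ρ
  set I := RingHom.ker φ
  -- if the kernel of the action is not in `m`, the localised part is zero
  by_cases hI : I ≤ m
  swap
  · obtain ⟨s, hsI, hsm⟩ := SetLike.not_le_iff_exists.mp hI
    obtain ⟨t, ht⟩ := exists_locAct_mul_eq_one (ρ := ρ) hsm
    refine ⟨r₀, by rw [sub_self]; exact zero_mem _, ?_⟩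
    have h10 : (1 : Module.End O (locPart m ρ)) = 0 := by
      rw [← ht, map_mul, RingHom.mem_ker.mp hsI, zero_mul]
    rw [← mul_one (φ _), h10, mul_zero]
  have : Module.Finite O (R ⧸ I) :=
    Module.Finite.of_injective (Ideal.kerLiftAlg φ).toLinearMap (Ideal.kerLiftAlg_injective φ)
  -- otherwise the image is finite over `O` and local
  set mk := Ideal.Quotient.mk I
  have hunit : ∀ {s}, s ∉ m → IsUnit (mk s) := fun {s} hs => by
    obtain ⟨t, ht⟩ := exists_locAct_mul_eq_one (ρ := ρ) hs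
    refine IsUnit.of_mul_eq_one (mk t) ?_
    rw [← map_mul, ← map_one mk, Ideal.Quotient.eq, RingHom.mem_ker, map_sub, ht, map_one, sub_self]
  set mA := m.map mk
  have hcomap : ∀ x, mk x ∈ mA ↔ x ∈ m := fun x => by
    rw [← Ideal.mem_comap, Ideal.comap_map_of_surjective _ Ideal.Quotient.mk_surjective,
      ← RingHom.ker_eq_comap_bot, Ideal.mk_ker, sup_eq_left.mpr hI]
  have hnu : ∀ a : R ⧸ I, a ∈ mA ↔ a ∈ nonunits (R ⧸ I) := fun a => by
    obtain ⟨a, rfl⟩ := Ideal.Quotient.mk_surjective a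
    refine ⟨fun h hu => ?_, fun h => (hcomap a).mpr ?_⟩
    · have htop := Ideal.eq_top_of_isUnit_mem _ h hu
      exact hm.ne_top ((Ideal.eq_top_iff_one m).mpr ((hcomap 1).mp (htop ▸ Submodule.mem_top)))
    · by_contra ha
      exact h (hunit ha)
  have : Nontrivial (R ⧸ I) := Ideal.Quotient.nontrivial_iff.mpr fun h =>
    hm.ne_top (top_le_iff.mp (h ▸ hI))
  have : IsLocalRing (R ⧸ I) := IsLocalRing.of_nonunits_add fun a b ha hb =>
    (hnu _).mp (add_mem ((hnu a).mpr ha) ((hnu b).mpr hb))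
  have hmax : IsLocalRing.maximalIdeal (R ⧸ I) = mA := by
    ext a; rw [IsLocalRing.mem_maximalIdeal, ← hnu]
  have : IsLocalHom (algebraMap O (R ⧸ I)) := by
    have : Algebra.IsIntegral O (R ⧸ I) := Algebra.IsIntegral.of_finite O _
    have : ((IsLocalRing.maximalIdeal (R ⧸ I)).comap (algebraMap O (R ⧸ I))).IsMaximal :=
      Ideal.isMaximal_comap_of_isIntegral_of_isMaximal _
    exact ((IsLocalRing.local_hom_TFAE _).out 4 0).mp (IsLocalRing.eq_maximalIdeal this)
  have : IsAdicComplete (IsLocalRing.maximalIdeal (R ⧸ I)) (R ⧸ I) :=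
    IsLocalRing.isAdicComplete_of_module_finite (𝒪 := O)
  -- so it is Henselian
  obtain ⟨a, ha, ha'⟩ := HenselianRing.is_henselian (I := IsLocalRing.maximalIdeal (R ⧸ I))
    (f.map mk) (hf.map mk) (mk r₀)
    (by rw [Polynomial.eval_map_apply, hmax]; exact (hcomap _).mpr h₀)
    (by
      rw [Polynomial.derivative_map, Polynomial.eval_map_apply]
      exact (hunit h₁).map _)
  obtain ⟨u, rfl⟩ := Ideal.Quotient.mk_surjective a
  refine ⟨u, (hcomap _).mp (by rw [map_sub, ← hmax]; exact ha'), ?_⟩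
  have h : (f.map mk).eval (mk u) = 0 := ha
  rwa [Polynomial.eval_map_apply, Ideal.Quotient.eq_zero_iff_mem, RingHom.mem_ker] at h

end Fermat.HM
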