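import Fermat.Agent.HM.Cosets

/-!
# Duality between `Hom(Γ, R)` and invariant symbols

The crossing homomorphisms span `Hom(Γ, R)`, and `f ↦ ((a, b) ↦ f (crossR a b))` identifies the
dual of `Hom(Γ, R)` with the invariant symbols. `Duality` packages this; it lets traces be computed
as transposes of pullbacks of symbols (`Push`).
-/

namespace Fermat.HM

open scoped MatrixGroups
open OnePoint ModularGroup UpperHalfPlane

/-- The elliptic point of order three. -/
noncomputable def rhoPt : ℍ :=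
  ⟨⟨-1 / 2, Real.sqrt 3 / 2⟩, by
    change 0 < Real.sqrt 3 / 2
    positivity⟩

/-- `ρ` lies on the unit circle. -/
theorem normSq_rhoPt : Complex.normSq (rhoPt : ℂ) = 1 := by
  change (-1 / 2 : ℝ) * (-1 / 2) + Real.sqrt 3 / 2 * (Real.sqrt 3 / 2) = 1
  nlinarith [Real.mul_self_sqrt (show (0 : ℝ) ≤ 3 by norm_num)]

/-- The real part of `ρ` is `-1/2`. -/
theorem re_rhoPt : rhoPt.re = -1 / 2 := rfl

/-- `rot` fixes `ρ`. -/
theorem rot_smul_rhoPt : rot • rhoPt = rhoPt := by
  ext1
  rw [coe_specialLinearGroup_apply]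
  simp [rot, coe_S, coe_T]
  have h : (rhoPt : ℂ) + 1 ≠ 0 := fun h => by
    have := congrArg Complex.im h
    simp at this
    exact rhoPt.im_pos.ne' this
  rw [div_eq_iff h]
  have hs := Real.mul_self_sqrt (show (0 : ℝ) ≤ 3 by norm_num)
  have e1 : (rhoPt : ℂ).re = -1 / 2 := rfl
  have e2 : (rhoPt : ℂ).im = Real.sqrt 3 / 2 := rfl
  apply Complex.ext <;>
    simp [Complex.mul_re, Complex.mul_im, e1, e2, -coe_re, -coe_im] <;> nlinarith

/-- `S ρ` lies on the unit circle with real part `1/2`. -/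
theorem S_smul_rhoPt : (ModularGroup.S • rhoPt : ℍ).re = 1 / 2 ∧
    Complex.normSq ((ModularGroup.S • rhoPt : ℍ) : ℂ) = 1 := by
  have e : ((ModularGroup.S • rhoPt : ℍ) : ℂ) = (-(rhoPt : ℂ))⁻¹ := by
    rw [modular_S_smul]
  constructor
  · rw [← coe_re, e, Complex.inv_re, Complex.neg_re, Complex.normSq_neg, normSq_rhoPt, coe_re,
      re_rhoPt]
    norm_num
  · rw [e, map_inv₀, Complex.normSq_neg, normSq_rhoPt, inv_one]

/-- Only `±1`, `±S` move the segment `[ρ, Sρ]` across the imaginary axis. -/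
theorem mem_of_side_ne {k : SL(2, ℤ)}
    (h : side ((0 : ℚ) : Cusp) ∞ (k • ModularGroup.S • rhoPt)
      ≠ side ((0 : ℚ) : Cusp) ∞ (k • rhoPt)) :
    k = 1 ∨ k = -1 ∨ k = ModularGroup.S ∨ k = -ModularGroup.S := by
  set g := k⁻¹ with hg
  have hs : ∀ w : ℍ, side ((0 : ℚ) : Cusp) ∞ (k • w)
      = sideV (g 0 1) (g 1 1) (g 0 0) (g 1 0) w := by
    intro w
    have h01 : IsRep ((0 : ℚ) : Cusp) 0 1 := by simpa using isRep_coe (u := (0 : ℚ)) one_ne_zero
    rw [← side_smul_SL g ((0 : ℚ) : Cusp) ∞ (k • w), hg, inv_smul_smul,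
      side_eq_sideV (h01.smul (gq k⁻¹)) ((isRep_infty (u := 1) rfl one_ne_zero).smul (gq k⁻¹))]
    simp [coe_gq, -map_inv]
  rw [hs, hs] at h
  have hdet : g 0 0 * g 1 1 - g 0 1 * g 1 0 = 1 := by
    have := Matrix.SpecialLinearGroup.det_coe g
    rwa [Matrix.det_fin_two] at this
  -- in terms of `g = k⁻¹` the two sides are the signs of `A + C ∓ B / 2`
  set A : ℤ := g 1 1 * g 1 0 with hA
  set B : ℤ := g 1 1 * g 0 0 + g 0 1 * g 1 0 with hB
  set C : ℤ := g 0 1 * g 0 0 with hC
  have hval : ∀ w : ℍ, Complex.normSq (w : ℂ) = 1 →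
      sideV (g 0 1) (g 1 1) (g 0 0) (g 1 0) w
        = (SignType.sign (-((A : ℝ) + C - B * w.re)) : ℤ) := by
    intro w hw
    have hd : ((g 0 1 : ℝ) * g 1 0 - g 1 1 * g 0 0) = -1 := by
      exact_mod_cast (by linarith : g 0 1 * g 1 0 - g 1 1 * g 0 0 = -1)
    simp only [sideV, geoForm, hd, hw, coe_re, hA, hB, hC]
    push_cast
    ring_nf
  -- on the unit circle the side is the sign of `B re w - A - C`
  rw [hval _ S_smul_rhoPt.2, hval _ normSq_rhoPt, S_smul_rhoPt.1, re_rhoPt] at h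
  have hprod : ((A : ℝ) + C - B / 2) * ((A : ℝ) + C + B / 2) ≤ 0 := by
    by_contra hc
    push Not at hc
    apply h
    rcases pos_and_pos_or_neg_and_neg_of_mul_pos hc with ⟨h1, h2⟩ | ⟨h1, h2⟩
    · rw [sign_neg (by linarith : -((A : ℝ) + C - B * (1 / 2)) < 0),
        sign_neg (by linarith : -((A : ℝ) + C - B * (-1 / 2)) < 0)]
    · rw [sign_pos (by linarith : 0 < -((A : ℝ) + C - B * (1 / 2))),
        sign_pos (by linarith : 0 < -((A : ℝ) + C - B * (-1 / 2)))]
  -- `B² = 1 + 4 A C` then forces `A = C = 0`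
  have hdisc : B ^ 2 = 1 + 4 * A * C := by
    rw [hA, hB, hC]
    linear_combination (g 0 0 * g 1 1 - g 0 1 * g 1 0 + 1) * hdet
  have hle : 4 * (A + C) ^ 2 ≤ B ^ 2 := by
    have : (4 : ℝ) * ((A : ℝ) + C) ^ 2 ≤ (B : ℝ) ^ 2 := by nlinarith
    exact_mod_cast this
  have hAC : A = 0 ∧ C = 0 := by
    rw [hdisc] at hle
    constructor <;> nlinarith [sq_nonneg (A + C), sq_nonneg A, sq_nonneg C]
  obtain ⟨hA0, hC0⟩ := hAC
  have hk : k = g⁻¹ := by rw [hg, inv_inv]
  -- so `g` is `±1` or `±S`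
  rcases mul_eq_zero.mp hA0 with h11 | h10
  · have h00 : g 0 0 = 0 := by
      rcases mul_eq_zero.mp hC0 with h01 | h00
      · rw [h11, h01] at hdet; simp at hdet
      · exact h00
    rw [h11, h00] at hdet
    rcases Int.eq_one_or_neg_one_of_mul_eq_neg_one' (by linarith : g 0 1 * g 1 0 = -1) with
      ⟨h01, h10⟩ | ⟨h01, h10⟩
    · right; right; left
      rw [hk]
      apply Subtype.ext
      ext i j
      fin_cases i <;> fin_cases j <;>
        simp [Matrix.adjugate_fin_two, coe_S, h11, h00, h01, h10]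
    · right; right; right
      rw [hk]
      apply Subtype.ext
      ext i j
      fin_cases i <;> fin_cases j <;>
        simp [Matrix.adjugate_fin_two, coe_S, h11, h00, h01, h10]
  · have h01 : g 0 1 = 0 := by
      rcases mul_eq_zero.mp hC0 with h01 | h00
      · exact h01
      · rw [h10, h00] at hdet; simp at hdet
    rw [h10, h01] at hdet
    rcases Int.eq_one_or_neg_one_of_mul_eq_one' (by linarith : g 0 0 * g 1 1 = 1) with
      ⟨h00, h11⟩ | ⟨h00, h11⟩
    · left
      rw [hk]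
      apply Subtype.ext
      ext i j
      fin_cases i <;> fin_cases j <;> simp [Matrix.adjugate_fin_two, h11, h00, h01, h10]
    · right; left
      rw [hk]
      apply Subtype.ext
      ext i j
      fin_cases i <;> fin_cases j <;> simp [Matrix.adjugate_fin_two, h11, h00, h01, h10]

variable {R : Type*} [CommRing R] {Γ : Subgroup SL(2, ℤ)}

/-- The crossing homomorphism with values in `R`. -/
noncomputable def crossR (R : Type*) [CommRing R] (Γ : Subgroup SL(2, ℤ)) (a b : Cusp) :
    Additive Γ →+ R :=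
  (Int.castAddHom R).comp (crossHom Γ a b)

/-- Additivity in the geodesic. -/
theorem crossR_add (a b c : Cusp) : crossR R Γ a b + crossR R Γ b c = crossR R Γ a c := by
  rw [crossR, crossR, crossR, ← crossHom_add Γ a b c, AddMonoidHom.comp_add]

/-- Invariance under the group. -/
theorem crossR_smul {γ : SL(2, ℤ)} (hγ : γ ∈ Γ) (a b : Cusp) :
    crossR R Γ (gq γ • a) (gq γ • b) = crossR R Γ a b := by
  rw [crossR, crossR, crossHom_smul Γ hγ]

/-- The crossing homomorphism of the edge of a coset. -/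
noncomputable def edgeR (R : Type*) [CommRing R] (Γ : Subgroup SL(2, ℤ)) (y : Cosets Γ) :
    Additive Γ →+ R :=
  edgeVal Γ (crossR R Γ) y

/-- The base point correction. -/
noncomputable def edgeBase (R : Type*) [CommRing R] (Γ : Subgroup SL(2, ℤ)) (y x : Cosets Γ) : R :=
  (crossing Γ (gq y.out⁻¹ • ((0 : ℚ) : Cusp)) (gq y.out⁻¹ • ∞) rhoPt (x.out⁻¹ • rhoPt) : ℤ)

/-- The cocycle of an edge homomorphism is a difference of `edgeBase` plus a crossing number. -/
theorem cocyc_edgeR (y : Cosets Γ) (g : SL(2, ℤ)) (x : Cosets Γ) :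
    cocyc Γ (edgeR R Γ y) g x = edgeBase R Γ y (g • x) - edgeBase R Γ y x
      + (crossing Γ (gq y.out⁻¹ • ((0 : ℚ) : Cusp)) (gq y.out⁻¹ • ∞) ((g • x).out⁻¹ • rhoPt)
          ((g • x).out⁻¹ • g • rhoPt) : ℤ) := by
  set a := gq y.out⁻¹ • ((0 : ℚ) : Cusp)
  set b := gq y.out⁻¹ • (∞ : Cusp)
  change ((crossHom Γ a b (Additive.ofMul (trans Γ g x)) : ℤ) : R) = _
  rw [crossHom_apply Γ a b (trans Γ g x) rhoPt, edgeBase, edgeBase, ← Int.cast_sub, ← Int.cast_add]
  congr 1
  set d := trans Γ g x with hd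
  have e : ((g • x).out⁻¹ • g • rhoPt : ℍ) = (d : SL(2, ℤ)) • (x.out⁻¹ • rhoPt : ℍ) := by
    rw [hd, coe_trans, smul_smul, smul_smul, mul_inv_cancel_right]
  have h1 := crossing_add Γ a b rhoPt ((g • x).out⁻¹ • rhoPt) ((g • x).out⁻¹ • g • rhoPt)
  have h2 := crossing_add Γ a b rhoPt ((g • x).out⁻¹ • g • rhoPt) ((d : SL(2, ℤ)) • rhoPt)
  have h3 := crossing_smul_points Γ d.2 a b (x.out⁻¹ • rhoPt) rhoPt
  have h4 := crossing_add Γ a b rhoPt (x.out⁻¹ • rhoPt) rhoPt
  rw [← e] at h3
  rw [crossing_self] at h4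
  change crossing Γ a b rhoPt ((d : SL(2, ℤ)) • rhoPt) = _
  linarith

/-- The cocycle of an edge homomorphism at `rot` is a coboundary. -/
theorem cocyc_edgeR_rot (y x : Cosets Γ) :
    cocyc Γ (edgeR R Γ y) rot x = edgeBase R Γ y (rot • x) - edgeBase R Γ y x := by
  rw [cocyc_edgeR, rot_smul_rhoPt, crossing_self, Int.cast_zero, add_zero]

open scoped Classical in
/-- The cocycle of an edge homomorphism at `S`. -/
theorem cocyc_edgeR_S (hneg : -1 ∈ Γ) (y x : Cosets Γ) :
    cocyc Γ (edgeR R Γ y) ModularGroup.S x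
      = edgeBase R Γ y (ModularGroup.S • x) - edgeBase R Γ y x
        + 4 * ((if y = ModularGroup.S • x then 1 else 0) - (if y = x then 1 else 0)) := by
  rw [cocyc_edgeR]
  congr 1
  set x' := ModularGroup.S • x with hx'
  set e : Γ → SL(2, ℤ) := fun δ => y.out * (δ : SL(2, ℤ))⁻¹ * x'.out⁻¹ with he
  have hinj : Function.Injective e := fun a b hab => by
    simpa [he] using hab
  set f : SL(2, ℤ) → ℤ := fun k => side ((0 : ℚ) : Cusp) ∞ (k • ModularGroup.S • rhoPt)
    - side ((0 : ℚ) : Cusp) ∞ (k • rhoPt) with hf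
  -- the crossing number is a sum over `range e` of jumps of the standard edge
  have hsum : crossing Γ (gq y.out⁻¹ • ((0 : ℚ) : Cusp)) (gq y.out⁻¹ • ∞) (x'.out⁻¹ • rhoPt)
      (x'.out⁻¹ • ModularGroup.S • rhoPt) = ∑ᶠ k, (Set.range e).indicator f k := by
    rw [crossing, ← finsum_mem_def, finsum_mem_range hinj]
    refine finsum_congr fun δ => ?_
    have hs : ∀ (a : Cusp) (b : Cusp) (w : ℍ), side (gq (δ : SL(2, ℤ)) • gq y.out⁻¹ • a)
        (gq (δ : SL(2, ℤ)) • gq y.out⁻¹ • b) w = side a b ((y.out * (δ : SL(2, ℤ))⁻¹) • w) := by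
      intro a b w
      rw [← mul_smul, ← mul_smul, ← map_mul,
        ← side_smul_SL ((δ : SL(2, ℤ)) * y.out⁻¹) a b ((y.out * (δ : SL(2, ℤ))⁻¹) • w), smul_smul,
        show (δ : SL(2, ℤ)) * y.out⁻¹ * (y.out * (δ : SL(2, ℤ))⁻¹) = 1 by group, one_smul]
    simp only [crossTerm, hs]
    simp only [hf, he, smul_smul, mul_assoc]
  have hmem : ∀ k, k ∈ Set.range e ↔ k⁻¹ • y = x' := by
    intro k
    constructor
    · rintro ⟨δ, rfl⟩
      conv_lhs => arg 2; rw [← QuotientGroup.out_eq' y]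
      conv_rhs => rw [← QuotientGroup.out_eq' x']
      change (QuotientGroup.mk ((e δ)⁻¹ * y.out) : Cosets Γ) = QuotientGroup.mk x'.out
      rw [QuotientGroup.eq, he]
      simp [mul_assoc]
    · intro h
      have hm : x'.out⁻¹ * (k⁻¹ * y.out) ∈ Γ := by
        rw [← QuotientGroup.eq, QuotientGroup.out_eq', ← h]
        conv_lhs => arg 2; rw [← QuotientGroup.out_eq' y]
        rfl
      exact ⟨⟨_, hm⟩, by simp [he]; group⟩
  -- only `±1` and `±S` contribute
  have hsupp : Function.support ((Set.range e).indicator f)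
      ⊆ (({1, -1, ModularGroup.S, -ModularGroup.S} : Finset SL(2, ℤ)) : Set SL(2, ℤ)) := by
    intro k hk
    simp only [Function.mem_support, ne_eq, Set.indicator_apply_eq_zero, Classical.not_imp, hf,
      sub_eq_zero] at hk
    have := mem_of_side_ne hk.2
    simpa using this
  rw [hsum, finsum_eq_sum_of_support_subset _ hsupp]
  have hρ : side ((0 : ℚ) : Cusp) ∞ rhoPt = -1 := by
    rw [side_zero_infty, re_rhoPt, sign_neg (by norm_num : (-1 / 2 : ℝ) < 0)]; rfl
  have hSρ : side ((0 : ℚ) : Cusp) ∞ (ModularGroup.S • rhoPt) = 1 := by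
    rw [side_zero_infty, S_smul_rhoPt.1, sign_pos (by norm_num : (0 : ℝ) < 1 / 2)]; rfl
  have hSS : ∀ z : ℍ, ModularGroup.S • ModularGroup.S • z = z := fun z => by
    rw [smul_smul, SL2.S_mul_S, ModularGroup.SL_neg_smul, one_smul]
  have ne1 : (1 : SL(2, ℤ)) ≠ -1 := by decide
  have ne2 : (1 : SL(2, ℤ)) ≠ ModularGroup.S := by decide
  have ne3 : (1 : SL(2, ℤ)) ≠ -ModularGroup.S := by decide
  have ne4 : (-1 : SL(2, ℤ)) ≠ ModularGroup.S := by decide
  have ne5 : (-1 : SL(2, ℤ)) ≠ -ModularGroup.S := by decide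
  have ne6 : (ModularGroup.S : SL(2, ℤ)) ≠ -ModularGroup.S := by decide
  have hS' : ModularGroup.S⁻¹ • y = x' ↔ y = x := by
    rw [inv_smul_eq_iff, hx', SL2.S_smul_S_smul hneg]
  have hnS : (-ModularGroup.S)⁻¹ = ModularGroup.S := by decide
  have hn1 : (-1 : SL(2, ℤ))⁻¹ = -1 := by decide
  have hS'' : ModularGroup.S • y = x' ↔ y = x := by rw [hx', smul_left_cancel_iff]
  rw [Finset.sum_insert (by simp [ne1, ne2, ne3]), Finset.sum_insert (by simp [ne4, ne5]),
    Finset.sum_insert (by simp [ne6]), Finset.sum_singleton]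
  simp only [Set.indicator_apply, hmem, hf, hn1, hnS, inv_one, one_smul,
    SL2.neg_one_smul_coset hneg, ModularGroup.SL_neg_smul, hS', hS'', hSS, hρ, hSρ]
  split_ifs <;> push_cast <;> ring

namespace GoodLevel

/-- The `S`-cocycle of a homomorphism after its `rot`-cocycle is made zero by a coboundary. -/
noncomputable def gauged (φ : Additive Γ →+ R) (x : Cosets Γ) : R :=
  cocyc Γ φ ModularGroup.S x
    - (solve R Γ (cocyc Γ φ rot) (ModularGroup.S • x) - solve R Γ (cocyc Γ φ rot) x)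

/-- `gauged` is additive. -/
theorem gauged_add (φ ψ : Additive Γ →+ R) (x : Cosets Γ) :
    gauged (φ + ψ) x = gauged φ x + gauged ψ x := by
  have e : cocyc Γ (φ + ψ) rot = cocyc Γ φ rot + cocyc Γ ψ rot := rfl
  have e' : cocyc Γ (φ + ψ) ModularGroup.S x
      = cocyc Γ φ ModularGroup.S x + cocyc Γ ψ ModularGroup.S x := rfl
  simp only [gauged, e, e', solve_add, Pi.add_apply]
  ring

/-- `gauged` commutes with scalars. -/
theorem gauged_smul (c : R) (φ : Additive Γ →+ R) (x : Cosets Γ) :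
    gauged (c • φ) x = c * gauged φ x := by
  have e : cocyc Γ (c • φ) rot = c • cocyc Γ φ rot := rfl
  have e' : cocyc Γ (c • φ) ModularGroup.S x = c * cocyc Γ φ ModularGroup.S x := rfl
  simp only [gauged, e, e', solve_smul, Pi.smul_apply, smul_eq_mul]
  ring

variable (hΓ : GoodLevel R Γ)
include hΓ

/-- Homomorphisms vanish at `-1`. -/
theorem map_neg_one (φ : Additive Γ →+ R) :
    φ (Additive.ofMul (⟨-1, hΓ.neg_mem⟩ : Γ)) = 0 := by
  have h : φ (Additive.ofMul ((⟨-1, hΓ.neg_mem⟩ : Γ) * ⟨-1, hΓ.neg_mem⟩)) = 0 := by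
    rw [show ((⟨-1, hΓ.neg_mem⟩ : Γ) * ⟨-1, hΓ.neg_mem⟩) = 1 from Subtype.ext (by simp),
      ofMul_one, map_zero]
  rw [ofMul_mul, map_add, ← two_mul] at h
  exact hΓ.two.mul_right_eq_zero.mp h

/-- The cocycle of a homomorphism vanishes at `-1`. -/
theorem cocyc_neg_one (φ : Additive Γ →+ R) (x : Cosets Γ) : cocyc Γ φ (-1) x = 0 := by
  rw [cocyc, show trans Γ (-1) x = ⟨-1, hΓ.neg_mem⟩ from
    Subtype.ext (coe_trans_neg_one Γ hΓ.neg_mem x)]
  exact hΓ.map_neg_one φ

/-- The cocycle at `rot` sums to zero on each orbit of `rot`. -/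
theorem cocyc_rot_sum (φ : Additive Γ →+ R) (x : Cosets Γ) :
    cocyc Γ φ rot x + cocyc Γ φ rot (rot • x) + cocyc Γ φ rot (rot • rot • x) = 0 := by
  have h := hΓ.cocyc_neg_one φ x
  rw [← rot_cube, cocyc_mul, cocyc_mul, mul_smul] at h
  linear_combination h

/-- `gauged` changes sign under `S`. -/
theorem gauged_anti (φ : Additive Γ →+ R) (x : Cosets Γ) :
    gauged φ x + gauged φ (ModularGroup.S • x) = 0 := by
  have h := hΓ.cocyc_neg_one φ x
  rw [← SL2.S_mul_S, cocyc_mul] at h
  simp only [gauged, SL2.S_smul_S_smul hΓ.neg_mem]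
  linear_combination h

/-- The normalised coefficients. -/
noncomputable def coeff (φ : Additive Γ →+ R) (x : Cosets Γ) : R :=
  -(((hΓ.four.mul hΓ.two).unit⁻¹ : Rˣ) : R) * gauged φ x

/-- `coeff` is additive. -/
theorem coeff_add (φ ψ : Additive Γ →+ R) (x : Cosets Γ) :
    hΓ.coeff (φ + ψ) x = hΓ.coeff φ x + hΓ.coeff ψ x := by
  simp only [coeff, gauged_add]; ring

/-- `coeff` commutes with scalars. -/
theorem coeff_smul (c : R) (φ : Additive Γ →+ R) (x : Cosets Γ) :
    hΓ.coeff (c • φ) x = c * hΓ.coeff φ x := by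
  simp only [coeff, gauged_smul]; ring

/-- Every homomorphism is a combination of crossing homomorphisms of edges. -/
theorem eq_sum_edgeR [Fintype (Cosets Γ)] (φ : Additive Γ →+ R) :
    φ = ∑ y, hΓ.coeff φ y • edgeR R Γ y := by
  classical
  rw [← sub_eq_zero]
  set b := solve R Γ (cocyc Γ φ rot) with hb
  set a := hΓ.coeff φ with ha
  have hc : ∀ g x, cocyc Γ (φ - ∑ y, a y • edgeR R Γ y) g x
      = cocyc Γ φ g x - ∑ y, a y * cocyc Γ (edgeR R Γ y) g x := fun g x => by
    simp [cocyc]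
  refine eq_zero_of_coboundary Γ (fun x => b x - ∑ y, a y * edgeBase R Γ y x)
    (fun x => ?_) (fun x => ?_)
  · rw [hc]
    simp only [cocyc_edgeR_S hΓ.neg_mem, mul_add, mul_sub, mul_ite, mul_one, mul_zero,
      Finset.sum_add_distrib, Finset.sum_sub_distrib, Finset.sum_ite_eq', Finset.mem_univ, if_true]
    have hg : cocyc Γ φ ModularGroup.S x = gauged φ x + (b (ModularGroup.S • x) - b x) := by
      rw [hb, gauged]; ring
    have hu := (hΓ.four.mul hΓ.two).val_inv_mul
    have hanti := hΓ.gauged_anti φ x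
    simp only [ha, coeff] at *
    linear_combination hg
      + (((hΓ.four.mul hΓ.two).unit⁻¹ : Rˣ) : R) * 4 * hanti - gauged φ x * hu
  · rw [hc]
    simp only [cocyc_edgeR_rot, mul_sub, Finset.sum_sub_distrib]
    linear_combination -(solve_spec hΓ (hΓ.cocyc_rot_sum φ) x)

/-- The functional attached to a symbol. -/
noncomputable def pairFun [Fintype (Cosets Γ)] (S : Cusp → Cusp → R) :
    (Additive Γ →+ R) →ₗ[R] R where
  toFun φ := ∑ x, hΓ.coeff φ x * edgeVal Γ S x
  map_add' φ ψ := by simp only [coeff_add, add_mul, Finset.sum_add_distrib]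
  map_smul' c φ := by
    simp only [coeff_smul, RingHom.id_apply, smul_eq_mul, Finset.mul_sum, mul_assoc]

/-- An invariant symbol pairs with an edge homomorphism to its value at the edge. -/
theorem pairFun_edgeR [Fintype (Cosets Γ)] {S : Cusp → Cusp → R} (hS : IsSymbol S)
    (hinv : ∀ γ ∈ Γ, InvariantBy S (gq γ)) (y : Cosets Γ) :
    hΓ.pairFun S (edgeR R Γ y) = edgeVal Γ S y := by
  classical
  set φ := edgeR R Γ y with hφ
  set b := solve R Γ (cocyc Γ φ rot) with hb
  set i : Cosets Γ → R := fun x => b x - edgeBase R Γ y x with hi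
  have hii : ∀ x, i (rot • x) = i x := fun x => by
    have h1 := solve_spec hΓ (hΓ.cocyc_rot_sum φ) x
    rw [← hb] at h1
    have h2 := cocyc_edgeR_rot (R := R) y x
    rw [← hφ] at h2
    simp only [hi]
    linear_combination h1 + h2
  -- the discrepancy `i` is invariant under rotation, so it is an orbit sum
  obtain ⟨w, hw⟩ := hΓ.exists_orbit_sum hii
  set E := edgeVal Γ S with hE
  -- hence it pairs to zero with the edge values
  have hzero : ∑ x, i x * E x = 0 := by
    have hrot : ∀ f : Cosets Γ → R, ∑ x, f (rot • x) = ∑ x, f x := fun f =>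
      Equiv.sum_comp (MulAction.toPerm rot) f
    have h1 : ∑ x, w (rot • x) * E x = ∑ x, w x * E (rot • rot • x) := by
      rw [← hrot fun x => w x * E (rot • rot • x)]
      simp [smul_rot_cube Γ hΓ.neg_mem]
    have h2 : ∑ x, w (rot • rot • x) * E x = ∑ x, w x * E (rot • x) := by
      rw [← hrot fun x => w x * E (rot • x), ← hrot fun x => w (rot • x) * E (rot • rot • x)]
      simp [smul_rot_cube Γ hΓ.neg_mem]
    rw [Finset.sum_congr rfl fun x _ => show i x * E x
        = w x * E x + w (rot • x) * E x + w (rot • rot • x) * E x by rw [hw, add_mul, add_mul],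
      Finset.sum_add_distrib, Finset.sum_add_distrib, h1, h2, ← Finset.sum_add_distrib,
      ← Finset.sum_add_distrib]
    refine Finset.sum_eq_zero fun x _ => ?_
    have ht := edgeVal_rot_sum Γ hS hinv x
    rw [← hE] at ht
    linear_combination w x * ht
  have hSanti : ∀ f : Cosets Γ → R, ∑ x, f (ModularGroup.S • x) * E x = -∑ x, f x * E x := by
    intro f
    rw [← Equiv.sum_comp (MulAction.toPerm ModularGroup.S) fun x => f (ModularGroup.S • x) * E x]
    simp only [MulAction.toPerm_apply, SL2.S_smul_S_smul hΓ.neg_mem, hE, edgeVal_S_smul Γ hS hinv,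
      mul_neg, Finset.sum_neg_distrib]
  have hg : ∀ x, gauged φ x = 4 * ((if y = ModularGroup.S • x then 1 else 0)
      - (if y = x then 1 else 0)) - (i (ModularGroup.S • x) - i x) := fun x => by
    have h2 := cocyc_edgeR_S (R := R) hΓ.neg_mem y x
    rw [← hφ] at h2
    simp only [gauged, h2, ← hb, hi]
    ring
  have hy : ∑ x, (if y = x then (1 : R) else 0) * E x = E y := by simp
  change ∑ x, hΓ.coeff φ x * E x = E y
  -- what remains is a multiple of the value at `y`
  have hmain : ∑ x, gauged φ x * E x = -8 * E y := by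
    simp only [hg, sub_mul, mul_assoc, Finset.sum_sub_distrib, ← Finset.mul_sum,
      hSanti (fun x => if y = x then (1 : R) else 0), hy, hSanti i, hzero]
    ring
  simp only [coeff, mul_assoc, ← Finset.mul_sum, hmain]
  have hu := (hΓ.four.mul hΓ.two).val_inv_mul
  linear_combination E y * hu

/-- An invariant symbol pairs with a crossing homomorphism to its value. -/
theorem pairFun_crossR [Fintype (Cosets Γ)] {S : Cusp → Cusp → R} (hS : IsSymbol S)
    (hinv : ∀ γ ∈ Γ, InvariantBy S (gq γ)) (a b : Cusp) :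
    hΓ.pairFun S (crossR R Γ a b) = S a b := by
  have key := IsSymbol.ext_edges Γ (S := fun a b => hΓ.pairFun S (crossR R Γ a b)) (S' := S)
    (fun a b c => by rw [← map_add, crossR_add]) hS
    (fun γ hγ a b => by simp only [crossR_smul hγ]) hinv
    (fun x => hΓ.pairFun_edgeR hS hinv x)
  exact congrFun (congrFun key a) b

/-- Functionals agreeing on crossing homomorphisms are equal. -/
theorem ext_crossR {M : Type*} [AddCommGroup M] [Module R M] {f g : (Additive Γ →+ R) →ₗ[R] M}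
    (h : ∀ a b, f (crossR R Γ a b) = g (crossR R Γ a b)) : f = g := by
  have := hΓ.finite
  let := Fintype.ofFinite (Cosets Γ)
  refine LinearMap.ext fun φ => ?_
  conv_lhs => rw [hΓ.eq_sum_edgeR φ]
  conv_rhs => rw [hΓ.eq_sum_edgeR φ]
  simp only [map_sum, LinearMap.map_smul]
  exact Finset.sum_congr rfl fun y _ => by rw [show edgeR R Γ y = crossR R Γ _ _ from rfl, h]

end GoodLevel

end Fermat.HM
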