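import Fermat.Agent.HM.Duality
import Fermat.Agent.MF.ParabolicDim
import Fermat.Agent.MC.Lvl.Fibres

/-!
# The dimension of the periods of complex symbols is at most twice the genus

The main result is `finrank_range_periodHom_le`.
-/

namespace Fermat.HM

open scoped MatrixGroups
open OnePoint ModularGroup Fermat.MF

variable (Γ : Subgroup SL(2, ℤ))

/-- The cusps of a level. -/
def cuspSetoid : Setoid Cusp where
  r x y := ∃ γ ∈ Γ, gq γ • x = y
  iseqv :=
    { refl := fun x => ⟨1, one_mem Γ, by rw [map_one, one_smul]⟩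
      symm := fun ⟨γ, hγ, e⟩ => ⟨γ⁻¹, inv_mem hγ, by rw [← e, map_inv, inv_smul_smul]⟩
      trans := fun ⟨γ, hγ, e⟩ ⟨δ, hδ, e'⟩ =>
        ⟨δ * γ, mul_mem hδ hγ, by rw [map_mul, mul_smul, e, e']⟩ }

/-- The quotient of the cusps. -/
abbrev CuspOrb : Type := Quotient (cuspSetoid Γ)

/-- The edge values as a linear map. -/
noncomputable def edgeLin : symbols ℂ Γ →ₗ[ℂ] (Cosets Γ → ℂ) where
  toFun S := edgeVal Γ S.1
  map_add' _ _ := rfl
  map_smul' _ _ := rfl

/-- A symbol is determined by its edge values. -/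
theorem edgeLin_injective : Function.Injective (edgeLin Γ) := fun S S' h =>
  Subtype.ext (IsSymbol.ext_edges Γ S.2.1 S'.2.1 S.2.2 S'.2.2 (congrFun h))

/-- The symbol of a function on the cusps. -/
noncomputable def bdrySymb : (CuspOrb Γ → ℂ) →ₗ[ℂ] symbols ℂ Γ where
  toFun F := ⟨fun a b => F ⟦b⟧ - F ⟦a⟧, fun _ _ _ => sub_add_sub_cancel' _ _ _,
    fun γ hγ a b => by
      have h : ∀ x : Cusp, (⟦gq γ • x⟧ : CuspOrb Γ) = ⟦x⟧ := fun x =>
        (Quotient.sound (show cuspSetoid Γ x (gq γ • x) from ⟨γ, hγ, rfl⟩)).symm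
      simp only [h]⟩
  map_add' F G := Subtype.ext (funext fun a => funext fun b => by
    change F _ + G _ - (F _ + G _) = F _ - F _ + (G _ - G _)
    ring)
  map_smul' c F := Subtype.ext (funext fun a => funext fun b => by
    change c * F _ - c * F _ = c * (F _ - F _)
    ring)

/-- Boundary symbols have no periods. -/
theorem periodHom_bdrySymb (F : CuspOrb Γ → ℂ) : periodHom (bdrySymb Γ F) = 0 := by
  refine AddMonoidHom.ext fun γ => ?_
  obtain ⟨γ, rfl⟩ := Additive.ofMul.surjective γ
  change F ⟦gq (γ : SL(2, ℤ)) • ∞⟧ - F ⟦∞⟧ = 0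
  rw [← Quotient.sound (s := cuspSetoid Γ) ⟨_, γ.2, rfl⟩, sub_self]

/-- There are finitely many cusps. -/
theorem finite_cuspOrb [Finite (Cosets Γ)] : Finite (CuspOrb Γ) := by
  refine Finite.of_surjective (fun x : Cosets Γ => (⟦gq x.out⁻¹ • (∞ : Cusp)⟧ : CuspOrb Γ)) ?_
  intro o
  induction o using Quotient.inductionOn with
  | h x =>
    obtain ⟨g, rfl⟩ := exists_gq_smul_infty x
    refine ⟨QuotientGroup.mk g⁻¹, Quotient.sound ?_⟩
    obtain ⟨γ, hγ⟩ := QuotientGroup.mk_out_eq_mul Γ g⁻¹
    refine ⟨γ, γ.2, ?_⟩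
    rw [hγ, ← mul_smul, ← map_mul]
    congr 2
    group

/-- The number of `T`-orbits on cosets, `cuspsG Γ`, is at most the number of `Γ`-orbits on cusps. -/
theorem cuspsG_le (hneg : -1 ∈ Γ) [Finite (Cosets Γ)] :
    Fermat.MC.Lvl.cuspsG Γ ≤ Nat.card (CuspOrb Γ) := by
  have := finite_cuspOrb Γ
  -- A coset `g` goes to the orbit of the cusp `g⁻¹ ∞`; this map is injective.
  let f : MulAction.orbitRel.Quotient (Subgroup.zpowers ModularGroup.T) (Fermat.MC.Lvl.Coset Γ) →
      CuspOrb Γ := fun o => ⟦gq (o.out).out⁻¹ • (∞ : Cusp)⟧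
  refine Nat.card_le_card_of_injective f fun o o' h => ?_
  obtain ⟨γ, hγ, e⟩ := Quotient.exact h
  rw [← Quotient.out_eq o, ← Quotient.out_eq o']
  set g := o.out.out
  set g' := o'.out.out
  have hfix : gq (g' * γ * g⁻¹) • (∞ : Cusp) = ∞ := by
    rw [map_mul, map_mul, mul_smul, mul_smul, e, map_inv, smul_inv_smul]
  have h10 : (g' * γ * g⁻¹ : SL(2, ℤ)) 1 0 = 0 := by
    rw [smul_infty_eq_self_iff] at hfix
    simpa [coe_gq, -map_mul, -map_inv] using hfix
  -- An element fixing `∞` is a translation up to sign.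
  obtain ⟨k, hk⟩ : ∃ k : ℤ, g' * γ * g⁻¹ = T ^ k ∨ g' * γ * g⁻¹ = -T ^ k := by
    set M := g' * γ * g⁻¹
    have hd := M.2
    rw [Matrix.det_fin_two, h10, mul_zero, sub_zero] at hd
    rcases Int.eq_one_or_neg_one_of_mul_eq_one hd with h00 | h00
    · refine ⟨M 0 1, Or.inl ?_⟩
      have h11 : M 1 1 = 1 := by rwa [h00, one_mul] at hd
      ext i j
      fin_cases i <;> fin_cases j <;> simp [coe_T_zpow, h00, h10, h11]
    · refine ⟨-M 0 1, Or.inr ?_⟩
      have h11 : M 1 1 = -1 := by rw [h00] at hd; linarith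
      ext i j
      fin_cases i <;> fin_cases j <;> simp [coe_T_zpow, h00, h10, h11]
  -- So the two cosets differ by that translation, as `-1 ∈ Γ`.
  have key : (T ^ k) • (QuotientGroup.mk g : Fermat.MC.Lvl.Coset Γ) = QuotientGroup.mk g' := by
    change QuotientGroup.mk (T ^ k * g) = _
    rw [QuotientGroup.eq]
    rcases hk with hk | hk
    · rw [← hk, show (g' * γ * g⁻¹ * g)⁻¹ * g' = γ⁻¹ by group]
      exact inv_mem hγ
    · rw [← neg_eq_iff_eq_neg.mpr hk]
      have : (-(g' * γ * g⁻¹) * g)⁻¹ * g' = (-1) * γ⁻¹ := by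
        have e1 : (-(g' * γ * g⁻¹) * g) = (-1) * (g' * γ) := by simp [mul_assoc]
        rw [e1]
        simp [mul_assoc]
      rw [this]
      exact mul_mem hneg (inv_mem hγ)
  rw [QuotientGroup.out_eq', QuotientGroup.out_eq'] at key
  exact Quotient.sound ⟨⟨T ^ (-k), Subgroup.mem_zpowers_iff.mpr ⟨-k, rfl⟩⟩,
    show (T ^ (-k)) • o'.out = o.out by rw [← key, ← mul_smul, zpow_neg, inv_mul_cancel, one_smul]⟩

/-- The functionals annihilating the kernels of the two elliptic relations form at most a line. -/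
private theorem finrank_dualAnnihilator_le_one (hneg : -1 ∈ Γ) [Finite (Cosets Γ)] :
    Module.finrank ℂ (LinearMap.ker (1 + pullLin fun x : Cosets Γ => ModularGroup.S • x) ⊔
      LinearMap.ker (1 + pullLin (fun x : Cosets Γ => rot • x) +
        pullLin ((fun x : Cosets Γ => rot • x) ∘ fun x => rot • x))).dualAnnihilator ≤ 1 := by
  classical
  let : Fintype (Cosets Γ) := Fintype.ofFinite _
  set fS : Cosets Γ → Cosets Γ := fun x => ModularGroup.S • x
  set fR : Cosets Γ → Cosets Γ := fun x => rot • x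
  set A := LinearMap.ker (1 + pullLin fS)
  set B := LinearMap.ker (1 + pullLin fR + pullLin (fR ∘ fR))
  let ev : (A ⊔ B).dualAnnihilator →ₗ[ℂ] ℂ :=
    (LinearMap.applyₗ (Pi.single (QuotientGroup.mk 1 : Cosets Γ) (1 : ℂ))).comp
      (A ⊔ B).dualAnnihilator.subtype
  suffices hinj : Function.Injective ev by
    simpa using LinearMap.finrank_le_finrank_of_injective hinj
  refine (injective_iff_map_eq_zero _).mpr fun ⟨f, hf⟩ h => Subtype.ext ?_
  rw [Submodule.mem_dualAnnihilator] at hf
  -- a functional killing both kernels is invariant under `S` and the rotation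
  let c : Cosets Γ → ℂ := fun x => f (Pi.single x 1)
  have hS : ∀ x, c (fS x) = c x := fun x => by
    have hm : (Pi.single x (1 : ℂ) - Pi.single (fS x) 1 : Cosets Γ → ℂ) ∈ A := by
      refine LinearMap.mem_ker.mpr (funext fun y => ?_)
      have e : fS y = x ↔ y = fS x :=
        ⟨fun e => by rw [← e]; exact (SL2.S_smul_S_smul hneg y).symm,
          fun e => by rw [e]; exact SL2.S_smul_S_smul hneg x⟩
      have e' : fS y = fS x ↔ y = x := (MulAction.injective _).eq_iff
      simp [pullLin, LinearMap.funLeft_apply, Pi.single_apply, e, e']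
    have := hf _ (Submodule.mem_sup_left hm)
    rw [map_sub, sub_eq_zero] at this
    exact this.symm
  have hR : ∀ x, c (fR x) = c x := fun x => by
    have hm : (Pi.single x (1 : ℂ) - Pi.single (fR x) 1 : Cosets Γ → ℂ) ∈ B := by
      refine LinearMap.mem_ker.mpr (funext fun y => ?_)
      have c3 : ∀ z, fR (fR (fR z)) = z := smul_rot_cube Γ hneg
      have e1 : fR y = x ↔ y = fR (fR x) :=
        ⟨fun e => by rw [← e, c3], fun e => by rw [e, c3]⟩
      have e2 : fR y = fR x ↔ y = x := (MulAction.injective _).eq_iff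
      have e3 : fR (fR y) = x ↔ y = fR x :=
        ⟨fun e => by rw [← e, c3], fun e => by rw [e, c3]⟩
      have e4 : fR (fR y) = fR x ↔ y = fR (fR x) :=
        (MulAction.injective _).eq_iff.trans e1
      simp [pullLin, LinearMap.funLeft_apply, Pi.single_apply, e1, e2, e3, e4]
    have := hf _ (Submodule.mem_sup_right hm)
    rw [map_sub, sub_eq_zero] at this
    exact this.symm
  -- hence constant, as they generate
  have hall : ∀ x, c x = 0 := by
    let K : Subgroup SL(2, ℤ) :=
      { carrier := {g | ∀ x : Cosets Γ, c (g • x) = c x}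
        one_mem' := fun x => by rw [one_smul]
        mul_mem' := fun {a b} ha hb x => by rw [mul_smul, ha, hb]
        inv_mem' := fun {a} ha x => by
          conv_rhs => rw [← smul_inv_smul a x]
          exact (ha _).symm }
    have hS' : ModularGroup.S ∈ K := hS
    have hT' : T ∈ K := by
      rw [show (T : SL(2, ℤ)) = ModularGroup.S⁻¹ * rot from (inv_mul_cancel_left _ _).symm]
      exact mul_mem (inv_mem hS') hR
    have hK : K = ⊤ := by
      rw [eq_top_iff, ← SpecialLinearGroup.SL2Z_generators, Subgroup.closure_le]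
      rintro x (rfl | rfl)
      exacts [hS', hT']
    intro x
    induction x using QuotientGroup.induction_on with
    | H g =>
      have hg := (hK ▸ Subgroup.mem_top g : g ∈ K) (QuotientGroup.mk 1)
      rw [show g • (QuotientGroup.mk 1 : Cosets Γ) = QuotientGroup.mk g by
        change QuotientGroup.mk (g * 1) = _; rw [mul_one]] at hg
      rw [hg]
      exact h
  exact LinearMap.pi_ext' fun x => LinearMap.ext_ring (hall x)

/-- The boundary symbol vanishes only on constants. -/
private theorem finrank_ker_bdrySymb_le_one [Finite (Cosets Γ)] :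
    Module.finrank ℂ (LinearMap.ker (bdrySymb Γ)) ≤ 1 := by
  have := finite_cuspOrb Γ
  let ev : LinearMap.ker (bdrySymb Γ) →ₗ[ℂ] ℂ :=
    (LinearMap.proj (⟦∞⟧ : CuspOrb Γ)).comp (LinearMap.ker (bdrySymb Γ)).subtype
  suffices hinj : Function.Injective ev by
    simpa using LinearMap.finrank_le_finrank_of_injective hinj
  refine (injective_iff_map_eq_zero _).mpr fun ⟨F, hF⟩ h => Subtype.ext (funext fun o => ?_)
  induction o using Quotient.inductionOn with
  | h x =>
    have := congrFun (congrFun (congrArg Subtype.val (LinearMap.mem_ker.mp hF)) ∞) x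
    change F ⟦x⟧ - F ⟦∞⟧ = 0 at this
    exact (sub_eq_zero.mp this).trans h

/-- **The bound**: the periods of complex symbols form a space of dimension at most twice the
genus. -/
theorem finrank_range_periodHom_le (hneg : -1 ∈ Γ) [Finite (Cosets Γ)] :
    FiniteDimensional ℂ (LinearMap.range (periodHom : symbols ℂ Γ →ₗ[ℂ] Homs ℂ Γ)) ∧
      (Module.finrank ℂ (LinearMap.range (periodHom : symbols ℂ Γ →ₗ[ℂ] Homs ℂ Γ)) : ℚ)
        ≤ 2 * Fermat.MC.Lvl.genusFormulaG Γ := by
  classical
  let : Fintype (Cosets Γ) := Fintype.ofFinite _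
  have := finite_cuspOrb Γ
  let : Fintype (CuspOrb Γ) := Fintype.ofFinite _
  have : FiniteDimensional ℂ (symbols ℂ Γ) :=
    FiniteDimensional.of_injective (edgeLin Γ) (edgeLin_injective Γ)
  refine ⟨inferInstance, ?_⟩
  set fS : Cosets Γ → Cosets Γ := fun x => ModularGroup.S • x
  set fR : Cosets Γ → Cosets Γ := fun x => rot • x
  set A := LinearMap.ker (1 + pullLin fS)
  set B := LinearMap.ker (1 + pullLin fR + pullLin (fR ∘ fR))
  -- `A` and `B` belong to maps of order two and three: count their fixed points.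
  have hA : 2 * Module.finrank ℂ A + Fermat.MC.Lvl.nuTwoG Γ = Fintype.card (Cosets Γ) := by
    exact_mod_cast two_mul_finrank_ker_involution fS (SL2.S_smul_S_smul hneg)
  have hB : 3 * Module.finrank ℂ B + 2 * Fermat.MC.Lvl.nuThreeG Γ
      = 2 * Fintype.card (Cosets Γ) := by
    exact_mod_cast three_mul_finrank_ker_order_three fR (smul_rot_cube Γ hneg)
  have hsum : Fintype.card (Cosets Γ) ≤ Module.finrank ℂ (A ⊔ B : Submodule ℂ _) + 1 := by
    have hann : Module.finrank ℂ (A ⊔ B).dualAnnihilator ≤ 1 :=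
      finrank_dualAnnihilator_le_one Γ hneg
    have := Subspace.finrank_add_finrank_dualAnnihilator_eq (A ⊔ B)
    rw [Module.finrank_fintype_fun_eq_card] at this
    omega
  -- symbols embed in the intersection of the two kernels
  have hsymb : Module.finrank ℂ (symbols ℂ Γ) ≤ Module.finrank ℂ (A ⊓ B : Submodule ℂ _) := by
    refine LinearMap.finrank_le_finrank_of_injective
      (f := (edgeLin Γ).codRestrict (A ⊓ B) fun S => ⟨LinearMap.mem_ker.mpr (funext fun x => ?_),
        LinearMap.mem_ker.mpr (funext fun x => ?_)⟩)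
      fun S S' h => edgeLin_injective Γ (congrArg Subtype.val h)
    · change edgeVal Γ S.1 x + edgeVal Γ S.1 (ModularGroup.S • x) = 0
      rw [edgeVal_S_smul Γ S.2.1 S.2.2, add_neg_cancel]
    · change edgeVal Γ S.1 x + edgeVal Γ S.1 (rot • x) + edgeVal Γ S.1 (rot • rot • x) = 0
      exact edgeVal_rot_sum Γ S.2.1 S.2.2 x
  have hcap := Submodule.finrank_sup_add_finrank_inf_eq A B
  have hrn := LinearMap.finrank_range_add_finrank_ker
    (periodHom : symbols ℂ Γ →ₗ[ℂ] Homs ℂ Γ)
  -- and the boundary symbols have no period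
  have hker : Fintype.card (CuspOrb Γ)
      ≤ Module.finrank ℂ (LinearMap.ker (periodHom : symbols ℂ Γ →ₗ[ℂ] Homs ℂ Γ)) + 1 := by
    have h1 : Module.finrank ℂ (LinearMap.range (bdrySymb Γ))
        + Module.finrank ℂ (LinearMap.ker (bdrySymb Γ)) = Fintype.card (CuspOrb Γ) := by
      rw [← Module.finrank_fintype_fun_eq_card ℂ]
      exact LinearMap.finrank_range_add_finrank_ker _
    have h2 : Module.finrank ℂ (LinearMap.ker (bdrySymb Γ)) ≤ 1 := finrank_ker_bdrySymb_le_one Γ
    have h3 : Module.finrank ℂ (LinearMap.range (bdrySymb Γ))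
        ≤ Module.finrank ℂ (LinearMap.ker (periodHom : symbols ℂ Γ →ₗ[ℂ] Homs ℂ Γ)) :=
      Submodule.finrank_mono (by
        rintro _ ⟨F, rfl⟩
        exact LinearMap.mem_ker.mpr (periodHom_bdrySymb Γ F))
    omega
  have hc := cuspsG_le Γ hneg
  rw [Nat.card_eq_fintype_card] at hc
  have hnat : Module.finrank ℂ (LinearMap.range (periodHom : symbols ℂ Γ →ₗ[ℂ] Homs ℂ Γ))
      + Fermat.MC.Lvl.cuspsG Γ + Fintype.card (Cosets Γ)
      ≤ Module.finrank ℂ A + Module.finrank ℂ B + 2 := by omega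
  have hψ : Fermat.MC.Lvl.psiG Γ = Fintype.card (Cosets Γ) := Nat.card_eq_fintype_card
  rw [Fermat.MC.Lvl.genusFormulaG, hψ]
  have e1 : (2 : ℚ) * Module.finrank ℂ A + Fermat.MC.Lvl.nuTwoG Γ = Fintype.card (Cosets Γ) := by
    exact_mod_cast hA
  have e2 : (3 : ℚ) * Module.finrank ℂ B + 2 * Fermat.MC.Lvl.nuThreeG Γ
      = 2 * Fintype.card (Cosets Γ) := by exact_mod_cast hB
  have e3 : (Module.finrank ℂ (LinearMap.range (periodHom : symbols ℂ Γ →ₗ[ℂ] Homs ℂ Γ)) : ℚ)
      + Fermat.MC.Lvl.cuspsG Γ + Fintype.card (Cosets Γ)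
      ≤ Module.finrank ℂ A + Module.finrank ℂ B + 2 := by exact_mod_cast hnat
  linarith

end Fermat.HM
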