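import Fermat.Agent.HM.FormSymbol
import Fermat.Agent.HM.SymbolDim
import Fermat.Agent.MC.Lvl.CuspGenus
import Fermat.Agent.MF.PeriodInjective

/-!
# The periods of complex symbols are spanned by periods of cusp forms and their conjugates

The main result is `exists_eq_formPeriod_add_conj`.
-/

namespace Fermat.HM

open scoped MatrixGroups Manifold ComplexConjugate
open UpperHalfPlane OnePoint Filter Fermat.MF Fermat.MC.Lvl

variable {N : ℕ} [NeZero N] {H : Subgroup (ZMod N)ˣ}

/-- The periods of a cusp form. -/
noncomputable def formPeriod : CuspForm (GammaH N H) 2 →ₗ[ℂ] Homs ℂ (GammaH N H) :=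
  periodHom ∘ₗ symbOf

/-- The primitive changes by the period. -/
theorem prim_smul_eq_add_formPeriod (f : CuspForm (GammaH N H) 2) (γ : GammaH N H) (z : ℍ) :
    prim f ((γ : SL(2, ℤ)) • z) = prim f z + formPeriod f (Additive.ofMul γ) := by
  obtain ⟨c, hc⟩ := prim_equivariant f γ.2
  rw [hc]
  congr 1
  change c = (symbOf f).1 ∞ (gq (γ : SL(2, ℤ)) • ∞)
  rw [symbOf_apply, cuspVal_gq_smul f hc, add_sub_cancel_left]

/-- A form with purely imaginary periods is zero. -/
theorem eq_zero_of_re_formPeriod (f : CuspForm (GammaH N H) 2)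
    (h : ∀ γ, (formPeriod f γ).re = 0) : f = 0 := by
  have hc := isConst_of_re_smul_eq (Γ := GammaH N H) (hasPrim_prim f).mdifferentiable
    (fun δ z => (prim_smul_structure f δ).1 z)
    (fun δ => by
      obtain ⟨L, hL⟩ := (prim_smul_structure f δ).2
      exact hL.isBigO_one ℝ)
    (fun γ hγ z => by
      have := prim_smul_eq_add_formPeriod f ⟨γ, hγ⟩ z
      rw [this, Complex.add_re, h, add_zero])
  ext τ
  have h2 : HasDerivAt (prim f ∘ ofComplex) (0 : ℂ) (τ : ℂ) :=
    (hasDerivAt_const (τ : ℂ) (prim f τ)).congr_of_eventuallyEq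
      (Filter.Eventually.of_forall fun w => hc (ofComplex w) τ)
  exact (hasPrim_prim f τ).unique h2

/-- The periods of two cusp forms, one of them conjugated, determine the forms. -/
theorem eq_zero_of_formPeriod_add_conj (f g : CuspForm (GammaH N H) 2)
    (h : formPeriod f + mapCoeff (starRingEnd ℂ) (formPeriod g) = 0) : f = 0 ∧ g = 0 := by
  have key : ∀ γ, formPeriod f γ = -conj (formPeriod g γ) := fun γ =>
    eq_neg_of_add_eq_zero_left (DFunLike.congr_fun h γ)
  have h1 : f + g = 0 := eq_zero_of_re_formPeriod _ fun γ => by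
    rw [map_add, AddMonoidHom.add_apply, key]
    simp
  have h2 : f - g = 0 := by
    have : Complex.I • (f - g) = 0 := eq_zero_of_re_formPeriod _ fun γ => by
      rw [_root_.map_smul, map_sub]
      change (Complex.I * (formPeriod f γ - formPeriod g γ)).re = 0
      rw [key]
      simp
    exact (smul_eq_zero.mp this).resolve_left Complex.I_ne_zero
  have hfg : f = g := sub_eq_zero.mp h2
  subst hfg
  have : (2 : ℂ) • f = 0 := by rw [two_smul]; exact h1
  exact ⟨(smul_eq_zero.mp this).resolve_left two_ne_zero,
    (smul_eq_zero.mp this).resolve_left two_ne_zero⟩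

omit [NeZero N] in
/-- The periods of symbols are stable under complex conjugation. -/
theorem conj_formPeriod_mem {φ : Homs ℂ (GammaH N H)}
    (h : φ ∈ LinearMap.range (periodHom : symbols ℂ (GammaH N H) →ₗ[ℂ] Homs ℂ (GammaH N H))) :
    mapCoeff (starRingEnd ℂ) φ
      ∈ LinearMap.range (periodHom : symbols ℂ (GammaH N H) →ₗ[ℂ] Homs ℂ (GammaH N H)) := by
  obtain ⟨S, rfl⟩ := h
  exact ⟨⟨fun a b => conj (S.1 a b),
    fun a b c => by change conj _ + conj _ = conj _; rw [← map_add, S.2.1 a b c],
    fun γ hγ a b => congrArg _ (S.2.2 γ hγ a b)⟩, AddMonoidHom.ext fun _ => rfl⟩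

/-- **Periods**: every period homomorphism of a complex symbol is the sum of the periods of a
cusp form and of the conjugate of the periods of a cusp form. -/
theorem exists_eq_formPeriod_add_conj [NegMem H] (S : symbols ℂ (GammaH N H)) :
    ∃ f g : CuspForm (GammaH N H) 2,
      periodHom S = formPeriod f + mapCoeff (starRingEnd ℂ) (formPeriod g) := by
  set W := LinearMap.range (periodHom : symbols ℂ (GammaH N H) →ₗ[ℂ] Homs ℂ (GammaH N H))
  obtain ⟨hfin, hle⟩ := finrank_range_periodHom_le (GammaH N H)
    (neg_one_mem_GammaH NegMem.neg_one_mem)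
  let b := Module.finBasis ℂ (CuspForm (GammaH N H) 2)
  -- `Θ` adds a period and a conjugate period: it is injective, and onto by the dimension bound.
  let Θ : CuspForm (GammaH N H) 2 × (Fin (Module.finrank ℂ (CuspForm (GammaH N H) 2)) → ℂ)
      →ₗ[ℂ] W :=
    LinearMap.codRestrict W (formPeriod.coprod
      (Fintype.linearCombination ℂ fun i => mapCoeff (starRingEnd ℂ) (formPeriod (b i))))
      fun x => by
        rw [LinearMap.coprod_apply]
        refine add_mem ⟨symbOf x.1, rfl⟩ ?_
        rw [Fintype.linearCombination_apply]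
        exact sum_mem fun i _ => W.smul_mem _ (conj_formPeriod_mem ⟨symbOf (b i), rfl⟩)
  have hΘ : ∀ x, (Θ x : Homs ℂ (GammaH N H)) = formPeriod x.1
      + mapCoeff (starRingEnd ℂ) (formPeriod (∑ i, conj (x.2 i) • b i)) := fun x => by
    change formPeriod x.1 + _ = _
    rw [LinearMap.comp_apply, LinearMap.snd_apply, Fintype.linearCombination_apply,
      map_sum, map_sum]
    congr 1
    refine Finset.sum_congr rfl fun i _ => ?_
    rw [_root_.map_smul, mapCoeff_smul, Complex.conj_conj]
  have hinj : Function.Injective Θ := by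
    refine (injective_iff_map_eq_zero _).mpr fun x hx => ?_
    obtain ⟨h1, h2⟩ := eq_zero_of_formPeriod_add_conj x.1 (∑ i, conj (x.2 i) • b i)
      (by rw [← hΘ, hx, Submodule.coe_zero])
    refine Prod.ext h1 (funext fun i => ?_)
    have := congrArg (fun f => b.repr f i) h2
    simpa [Finsupp.single_apply] using this
  have hsur : Function.Surjective Θ := by
    refine LinearMap.range_eq_top.mp (Submodule.eq_top_of_finrank_eq ?_)
    rw [LinearMap.finrank_range_of_inj hinj, Module.finrank_prod,
      Module.finrank_fintype_fun_eq_card, Fintype.card_fin]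
    refine le_antisymm ?_ ?_
    · have := LinearMap.finrank_le_finrank_of_injective hinj
      rwa [Module.finrank_prod, Module.finrank_fintype_fun_eq_card, Fintype.card_fin] at this
    · have e := finrank_cuspForm_two_eq (GammaH N H)
      have : (Module.finrank ℂ W : ℚ)
          ≤ ((Module.finrank ℂ (CuspForm (GammaH N H) 2)
            + Module.finrank ℂ (CuspForm (GammaH N H) 2) : ℕ) : ℚ) := by
        push_cast
        rw [e]
        linarith
      exact_mod_cast this
  obtain ⟨x, hx⟩ := hsur ⟨periodHom S, S, rfl⟩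
  exact ⟨x.1, ∑ i, conj (x.2 i) • b i, by rw [← hΘ, hx]⟩

end Fermat.HM
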