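import Fermat.Agent.HM.Eisenstein

/-!
# The trace along a level map: the transpose of the pullback of symbols

The trace is `tr`, built from `push`; `dualToSymb_tr` identifies its transpose.
-/

namespace Fermat.HM

open scoped MatrixGroups
open CongruenceSubgroup Matrix Fermat.MC.Lvl

variable {N N' : ℕ} {H : Subgroup (ZMod N)ˣ} {H' : Subgroup (ZMod N')ˣ} {n : ℕ}
  {g : GL (Fin 2) ℚ}

/-- The elements of the first level coming from the second one by conjugation by `g`. -/
noncomputable def traceSub (H : Subgroup (ZMod N)ˣ) (H' : Subgroup (ZMod N')ˣ) (g : GL (Fin 2) ℚ) :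
    Subgroup SL(2, ℤ) :=
  GammaH N H ⊓ (((GammaH N' H').map gq).map (MulAut.conj g).toMonoidHom).comap gq

/-- Membership in `traceSub`. -/
theorem mem_traceSub {e : SL(2, ℤ)} :
    e ∈ traceSub H H' g ↔ e ∈ GammaH N H ∧ ∃ γ ∈ GammaH N' H', g * gq γ * g⁻¹ = gq e := by
  simp [traceSub, Subgroup.mem_inf, Subgroup.mem_map]

/-- An element of `Γ(n M)` is the conjugate of one of `Γ(M)` by an integral matrix of determinant
`n`. -/
theorem exists_conj_mem_Gamma {M : ℕ} (hn : 0 < n) {G : Matrix (Fin 2) (Fin 2) ℤ}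
    (hG : G.det = n) (hg : (g : Matrix (Fin 2) (Fin 2) ℚ) = G.map (fun x : ℤ => (x : ℚ)))
    {γ : SL(2, ℤ)} (hγ : γ ∈ Gamma (n * M)) :
    ∃ γ' ∈ Gamma M, g * gq γ' * g⁻¹ = gq γ := by
  obtain ⟨h00, h01, h10, h11⟩ := Gamma_mem.mp hγ
  have hX : ∀ a b, ∃ x, (γ : Matrix (Fin 2) (Fin 2) ℤ) a b
      = (1 : Matrix (Fin 2) (Fin 2) ℤ) a b + (n * M : ℕ) * x := by
    intro a b
    obtain ⟨x, hx⟩ : ((n * M : ℕ) : ℤ) ∣ (γ : Matrix (Fin 2) (Fin 2) ℤ) a b
        - (1 : Matrix (Fin 2) (Fin 2) ℤ) a b := by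
      rw [← ZMod.intCast_zmod_eq_zero_iff_dvd]
      fin_cases a <;> fin_cases b <;> simp [h00, h01, h10, h11]
    exact ⟨x, eq_add_of_sub_eq' hx⟩
  -- write `γ = 1 + n M X`
  choose X hX using hX
  set X' : Matrix (Fin 2) (Fin 2) ℤ := Matrix.of X with hX'def
  set P := 1 + (M : ℤ) • (G.adjugate * X' * G) with hP
  have hγeq : (γ : Matrix (Fin 2) (Fin 2) ℤ) = 1 + ((n : ℤ) * M) • X' := by
    ext a b
    rw [hX a b]
    simp [X']
  -- then `P = 1 + M adj(G) X G` satisfies `G P = γ G` and has determinant one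
  have hGP : G * P = (γ : Matrix (Fin 2) (Fin 2) ℤ) * G := by
    rw [hP, hγeq, mul_add, add_mul, mul_one, one_mul, Matrix.mul_smul, Matrix.smul_mul,
      ← mul_assoc, ← mul_assoc, mul_adjugate, hG, Matrix.smul_mul, Matrix.smul_mul, one_mul,
      smul_smul, mul_comm (M : ℤ)]
  have hdetP : P.det = 1 := by
    have h := congrArg Matrix.det hGP
    rw [det_mul, det_mul, γ.2, one_mul] at h
    exact mul_left_cancel₀ (by rw [hG]; exact_mod_cast hn.ne') (h.trans (mul_one _).symm)
  obtain ⟨Q, hQ⟩ : ∃ Q : SL(2, ℤ), (Q : Matrix (Fin 2) (Fin 2) ℤ) = P := ⟨⟨P, hdetP⟩, rfl⟩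
  -- it lies in `Γ(M)` and is conjugate to `γ` by `g`
  refine ⟨Q, ?_, ?_⟩
  · rw [Gamma_mem, hQ, hP]
    simp only [Matrix.add_apply, Matrix.smul_apply, smul_eq_mul, Int.cast_add, Int.cast_mul,
      Int.cast_natCast, ZMod.natCast_self, zero_mul, add_zero]
    simp
  · rw [mul_inv_eq_iff_eq_mul]
    apply Units.ext
    rw [Units.val_mul, Units.val_mul, coe_gq, coe_gq, hQ, hg, ← Matrix.map_mul_intCast,
      ← Matrix.map_mul_intCast]
    exact congrArg (fun A : Matrix (Fin 2) (Fin 2) ℤ => A.map (fun x : ℤ => (x : ℚ))) hGP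

namespace IsLevelMap

variable [NeZero N] [NeZero N'] (h : IsLevelMap H H' n g)

include h in
/-- `traceSub` has finite index. -/
theorem finiteIndex_traceSub : (traceSub H H' g).FiniteIndex := by
  obtain ⟨G, hG, hg⟩ := h.integral
  have : NeZero (n * (N * N')) := ⟨mul_ne_zero h.pos.ne' (mul_ne_zero (NeZero.ne N) (NeZero.ne N'))⟩
  refine Subgroup.finiteIndex_of_le (H := Gamma (n * (N * N'))) fun γ hγ => ?_
  obtain ⟨γ', hγ', e⟩ := exists_conj_mem_Gamma h.pos hG hg hγ
  exact mem_traceSub.mpr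
    ⟨Gamma_le_GammaH (Gamma_le_of_dvd ((dvd_mul_right N N').mul_left n) hγ), γ',
      Gamma_le_GammaH (Gamma_le_of_dvd (dvd_mul_left N' N) hγ'), e⟩

end IsLevelMap

/-- The index set of the trace. -/
abbrev TraceIdx (H : Subgroup (ZMod N)ˣ) (H' : Subgroup (ZMod N')ˣ) (g : GL (Fin 2) ℚ) : Type :=
  Fin (Nat.card (GammaH N H ⧸ (traceSub H H' g).subgroupOf (GammaH N H)))

namespace IsLevelMap

variable [NeZero N] [NeZero N'] (h : IsLevelMap H H' n g)

/-- Labelling of the cosets. -/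
noncomputable def traceEquiv :
    (GammaH N H ⧸ (traceSub H H' g).subgroupOf (GammaH N H)) ≃ TraceIdx H H' g :=
  haveI := h.finiteIndex_traceSub
  Finite.equivFin _

/-- Representatives of the right cosets. -/
noncomputable def traceRep (i : TraceIdx H H' g) : GammaH N H := (h.traceEquiv.symm i).out⁻¹

/-- Every element of the first level lies in one of the cosets. -/
theorem exists_traceRep_eq (γ : GammaH N H) :
    ∃ i, ∃ e ∈ traceSub H H' g, (γ : SL(2, ℤ)) = e * (h.traceRep i : SL(2, ℤ)) := by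
  set K := (traceSub H H' g).subgroupOf (GammaH N H)
  refine ⟨h.traceEquiv (QuotientGroup.mk γ⁻¹ : GammaH N H ⧸ K),
    (γ * (QuotientGroup.mk γ⁻¹ : GammaH N H ⧸ K).out : GammaH N H), ?_, ?_⟩
  · have h1 : (γ⁻¹)⁻¹ * (QuotientGroup.mk γ⁻¹ : GammaH N H ⧸ K).out ∈ K :=
      QuotientGroup.eq.mp (QuotientGroup.out_eq' _).symm
    rw [inv_inv] at h1
    exact h1
  · rw [traceRep, Equiv.symm_apply_apply, Subgroup.coe_mul, Subgroup.coe_inv,
      mul_inv_cancel_right]

/-- The representatives lie in distinct cosets. -/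
theorem eq_of_traceRep {i k : TraceIdx H H' g}
    (he : (h.traceRep k : SL(2, ℤ)) * (h.traceRep i : SL(2, ℤ))⁻¹ ∈ traceSub H H' g) : i = k := by
  refine h.traceEquiv.symm.injective ?_
  rw [← QuotientGroup.out_eq' (h.traceEquiv.symm i), ← QuotientGroup.out_eq' (h.traceEquiv.symm k)]
  refine (QuotientGroup.eq.mpr ?_).symm
  simpa [traceRep, Subgroup.mem_subgroupOf] using he

/-- The trace as a correspondence; its transpose is the pullback along `g`. -/
noncomputable def push :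
    Corr (GammaH N' H') (GammaH N H) (TraceIdx H H' g) Unit where
  B i := g⁻¹ * gq (h.traceRep i : SL(2, ℤ))
  det_B i := by
    rw [Units.val_mul, det_mul, coe_units_inv, det_nonsing_inv, coe_gq]
    refine mul_pos ?_ ?_
    · rw [Ring.inverse_eq_inv]
      exact inv_pos.mpr h.det_pos
    · rw [show ((h.traceRep i : SL(2, ℤ)) : Matrix (Fin 2) (Fin 2) ℤ).map (fun x : ℤ => (x : ℚ))
          = (Int.castRingHom ℚ).mapMatrix (h.traceRep i : SL(2, ℤ)).1 from rfl,
        ← RingHom.map_det, (h.traceRep i : SL(2, ℤ)).2, map_one]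
      exact one_pos
  rperm γ hγ i := by
    -- representatives are permuted by right multiplication
    obtain ⟨k, e, he, hk⟩ := h.exists_traceRep_eq (h.traceRep i * ⟨γ, hγ⟩)
    obtain ⟨-, γ', hγ', he'⟩ := mem_traceSub.mp he
    refine ⟨k, γ', hγ', ?_⟩
    rw [mul_assoc, ← map_mul, show (h.traceRep i : SL(2, ℤ)) * γ
        = e * (h.traceRep k : SL(2, ℤ)) from hk, map_mul, ← he']
    group
  uniqB i k d hd e := by
    refine h.eq_of_traceRep (mem_traceSub.mpr ⟨mul_mem (h.traceRep k).2 (inv_mem (h.traceRep i).2),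
      d, hd, ?_⟩)
    have e' := congrArg (g * ·) e
    simp only [mul_inv_cancel_left] at e'
    rw [map_mul, map_inv, ← e']
    group
  -- the transpose is `g` alone
  C _ := g
  cover i d hd := by
    obtain ⟨e, he, hed⟩ := h.exists_conj d hd
    refine ⟨(), (h.traceRep i : SL(2, ℤ))⁻¹ * e, mul_mem (inv_mem (h.traceRep i).2) he, ?_⟩
    rw [_root_.mul_inv_rev, inv_inv, map_mul, map_inv, mul_assoc, hed, mul_assoc]
  -- every element of `GammaH N H` is an inverse representative times an element of the conjugate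
  cover' _ γ hγ := by
    obtain ⟨i, e, he, hi⟩ := h.exists_traceRep_eq ⟨γ⁻¹, inv_mem hγ⟩
    obtain ⟨-, γ', hγ', he'⟩ := mem_traceSub.mp he
    refine ⟨i, γ'⁻¹, inv_mem hγ', ?_⟩
    have hi' : gq γ = (gq (h.traceRep i : SL(2, ℤ)))⁻¹ * (gq e)⁻¹ := by
      rw [← _root_.mul_inv_rev, ← map_mul, ← show γ⁻¹ = e * (h.traceRep i : SL(2, ℤ)) from hi,
        map_inv, inv_inv]
    rw [hi', ← he', map_inv, _root_.mul_inv_rev]
    group
  uniqC _ _ _ _ _ := rfl

variable {R : Type*} [CommRing R]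

/-- The trace on homomorphisms. -/
noncomputable def tr : Homs R (GammaH N' H') →ₗ[R] Homs R (GammaH N H) :=
  h.push.toReps.homMap

/-- The trace commutes with a change of coefficients. -/
theorem mapCoeff_tr {R' : Type*} [CommRing R'] (f : R →+* R') (φ : Homs R (GammaH N' H')) :
    mapCoeff f (h.tr φ) = h.tr (mapCoeff f φ) :=
  Reps.mapCoeff_homMap _ f φ

/-- The transpose of the trace is the pullback. -/
theorem dualToSymb_tr (f : Module.Dual R (Homs R (GammaH N H))) :
    dualToSymb R (GammaH N' H') (f ∘ₗ h.tr) = h.pullS (dualToSymb R (GammaH N H) f) := by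
  refine Subtype.ext (funext fun a => funext fun b => ?_)
  rw [tr, Corr.dualToSymb_comp, Fintype.sum_unique, pullS_apply]
  rfl

end IsLevelMap

end Fermat.HM
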