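import Fermat.Agent.HM.Symbols
import Mathlib.Analysis.Complex.UpperHalfPlane.MoebiusAction
import Mathlib.Data.Sign.Basic
import Mathlib.Topology.Order.IntermediateValue

/-!
# Sides of geodesics between cusps

`side a b z ∈ {-1, 0, 1}` tells on which side of the oriented geodesic from `a` to `b` the point `z`
lies; it is equivariant for `GL(2, ℚ)⁺`, and two points are separated by only finitely many
translates of a geodesic.
-/

namespace Fermat.HM

open scoped MatrixGroups
open OnePoint UpperHalfPlane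

/-- Numerator of a cusp. -/
def cNum (a : Cusp) : ℤ := a.elim 1 Rat.num

/-- Denominator of a cusp. -/
def cDen (a : Cusp) : ℤ := a.elim 0 fun k => (k.den : ℤ)

/-- `(u, c)` are homogeneous coordinates of `a`. -/
def IsRep (a : Cusp) (u c : ℚ) : Prop := (u ≠ 0 ∨ c ≠ 0) ∧ u * cDen a = c * cNum a

/-- The reduced coordinates of a cusp represent it. -/
theorem isRep_self (a : Cusp) : IsRep a (cNum a) (cDen a) := by
  refine ⟨?_, mul_comm _ _⟩
  induction a using OnePoint.rec with
  | infty => exact Or.inl (by simp [cNum])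
  | coe k => exact Or.inr (by simp [cDen, k.den_nz])

/-- `(u : 0)` represents `∞`. -/
theorem isRep_infty {u c : ℚ} (hc : c = 0) (hu : u ≠ 0) : IsRep (∞ : Cusp) u c :=
  ⟨Or.inl hu, by simp [cNum, cDen, hc]⟩

/-- `(u : c)` with `c ≠ 0` represents `u / c`. -/
theorem isRep_coe {u c : ℚ} (hc : c ≠ 0) : IsRep ((u / c : ℚ) : Cusp) u c := by
  refine ⟨Or.inr hc, ?_⟩
  have h := Rat.num_div_den (u / c)
  have hd : ((u / c : ℚ).den : ℚ) ≠ 0 := by exact_mod_cast (u / c).den_nz
  simp only [cNum, cDen, OnePoint.elim_some]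
  field_simp at h
  push_cast
  linear_combination -h

/-- Only `∞` is represented with denominator zero. -/
theorem IsRep.eq_infty {a : Cusp} {u : ℚ} (h : IsRep a u 0) : a = ∞ := by
  induction a using OnePoint.rec with
  | infty => rfl
  | coe k =>
    exfalso
    obtain ⟨h1, h2⟩ := h
    simp [cDen, k.den_nz] at h2
    simp [h2] at h1

/-- A representative with nonzero denominator gives the finite cusp. -/
theorem IsRep.eq_coe {a : Cusp} {u c : ℚ} (h : IsRep a u c) (hc : c ≠ 0) :
    a = ((u / c : ℚ) : Cusp) := by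
  induction a using OnePoint.rec with
  | infty =>
    exfalso
    obtain ⟨-, h2⟩ := h
    simp [cNum, cDen] at h2
    exact hc h2.symm
  | coe k =>
    congr 1
    have hd : (k.den : ℚ) ≠ 0 := by exact_mod_cast k.den_nz
    obtain ⟨-, h2⟩ := h
    simp only [cNum, cDen, OnePoint.elim_some] at h2
    push_cast at h2
    conv_lhs => rw [← Rat.num_div_den k]
    field_simp
    linear_combination -h2

/-- The action of `GL₂(ℚ)` on representatives of cusps. -/
theorem IsRep.smul {a : Cusp} {u c : ℚ} (h : IsRep a u c) (g : GL (Fin 2) ℚ) :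
    IsRep (g • a) (g 0 0 * u + g 0 1 * c) (g 1 0 * u + g 1 1 * c) := by
  have hdet : g 0 0 * g 1 1 - g 0 1 * g 1 0 ≠ 0 := by
    have := g.det_ne_zero
    rwa [Matrix.det_fin_two] at this
  rcases eq_or_ne c 0 with rfl | hc
  · obtain rfl := h.eq_infty
    have hu : u ≠ 0 := by simpa [IsRep] using h.1
    rw [smul_infty_eq_ite]
    simp only [mul_zero, add_zero]
    split_ifs with h10
    · refine isRep_infty (by simp [h10]) (mul_ne_zero (fun h00 => hdet ?_) hu)
      simp [h00, h10]
    · have := isRep_coe (u := g 0 0 * u) (c := g 1 0 * u) (mul_ne_zero h10 hu)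
      rwa [mul_div_mul_right _ _ hu] at this
  · obtain rfl := h.eq_coe hc
    rw [smul_some_eq_ite]
    split_ifs with h10
    · have e : g 1 0 * u + g 1 1 * c = 0 := by
        field_simp at h10
        linear_combination h10
      refine isRep_infty e fun h00 => hdet ?_
      have : c * (g 0 0 * g 1 1 - g 0 1 * g 1 0) = 0 := by
        linear_combination g 0 0 * e - g 1 0 * h00
      exact (mul_eq_zero.mp this).resolve_left hc
    · have e : g 1 0 * u + g 1 1 * c ≠ 0 := fun e => h10 (by field_simp; linear_combination e)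
      have := isRep_coe (u := g 0 0 * u + g 0 1 * c) (c := g 1 0 * u + g 1 1 * c) e
      have hq : g 1 0 * (u / c) + g 1 1 = (g 1 0 * u + g 1 1 * c) / c := by field_simp
      have hn : g 0 0 * (u / c) + g 0 1 = (g 0 0 * u + g 0 1 * c) / c := by field_simp
      rwa [hq, hn, div_div_div_cancel_right₀ hc]

/-- The quadratic form whose zeros form the geodesic through `(u : c)` and `(v : e)`. -/
noncomputable def geoForm (u c v e : ℝ) (z : ℂ) : ℝ :=
  c * e * Complex.normSq z - (c * v + u * e) * z.re + u * v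

/-- The side of `z` in terms of homogeneous coordinates. -/
noncomputable def sideV (u c v e : ℝ) (z : ℍ) : ℤ :=
  (SignType.sign ((u * e - c * v) * geoForm u c v e z) : ℤ)

/-- Reversing the geodesic negates the side. -/
theorem sideV_swap (u c v e : ℝ) (z : ℍ) : sideV v e u c z = -sideV u c v e z := by
  simp only [sideV]
  rw [show (v * c - e * u) * geoForm v e u c z = -((u * e - c * v) * geoForm u c v e z) by
    simp only [geoForm]; ring, Left.sign_neg, SignType.coe_neg]

/-- `sideV` depends only on the homogeneous coordinates up to scalars. -/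
theorem sideV_mul {s t : ℝ} (hs : s ≠ 0) (ht : t ≠ 0) (u c v e : ℝ) (z : ℍ) :
    sideV (s * u) (s * c) (t * v) (t * e) z = sideV u c v e z := by
  simp only [sideV]
  rw [show (s * u * (t * e) - s * c * (t * v)) * geoForm (s * u) (s * c) (t * v) (t * e) z
      = (s * t) ^ 2 * ((u * e - c * v) * geoForm u c v e z) by simp only [geoForm]; ring,
    sign_mul, sign_pos (by positivity), one_mul]

/-- The side of `z` relative to the geodesic from `a` to `b`. -/
noncomputable def side (a b : Cusp) (z : ℍ) : ℤ :=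
  sideV (cNum a) (cDen a) (cNum b) (cDen b) z

/-- A representative is a real multiple of the reduced one. -/
theorem IsRep.exists_scalar {a : Cusp} {u c : ℚ} (h : IsRep a u c) :
    ∃ s : ℝ, s ≠ 0 ∧ (u : ℝ) = s * (cNum a : ℝ) ∧ (c : ℝ) = s * (cDen a : ℝ) := by
  obtain ⟨h0, h1⟩ := h
  have h1' : (u : ℝ) * cDen a = c * cNum a := by exact_mod_cast h1
  rcases (isRep_self a).1 with hn | hn
  · have hn' : (cNum a : ℝ) ≠ 0 := by exact_mod_cast hn
    refine ⟨u / cNum a, ?_, by field_simp, by field_simp; linear_combination -h1'⟩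
    refine div_ne_zero (fun hu => ?_) hn'
    rw [hu, zero_mul, eq_comm, mul_eq_zero] at h1'
    rcases h0 with h0 | h0
    · exact h0 (by exact_mod_cast hu)
    · exact h0 (by exact_mod_cast h1'.resolve_right hn')
  · have hn' : (cDen a : ℝ) ≠ 0 := by exact_mod_cast hn
    refine ⟨c / cDen a, ?_, by field_simp; linear_combination h1', by field_simp⟩
    refine div_ne_zero (fun hc => ?_) hn'
    rw [hc, zero_mul, mul_eq_zero] at h1'
    rcases h0 with h0 | h0
    · exact h0 (by exact_mod_cast h1'.resolve_right hn')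
    · exact h0 (by exact_mod_cast hc)

/-- `side` computed on any representatives. -/
theorem side_eq_sideV {a b : Cusp} {u c v e : ℚ} (ha : IsRep a u c) (hb : IsRep b v e) (z : ℍ) :
    side a b z = sideV u c v e z := by
  obtain ⟨s, hs, hu, hc⟩ := ha.exists_scalar
  obtain ⟨t, ht, hv, he⟩ := hb.exists_scalar
  rw [hu, hc, hv, he, sideV_mul hs ht, side]

/-- Exchanging the ends negates the side. -/
theorem side_swap (a b : Cusp) (z : ℍ) : side b a z = -side a b z := sideV_swap _ _ _ _ z

/-- The side relative to a degenerate geodesic is zero. -/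
theorem side_self (a : Cusp) (z : ℍ) : side a a z = 0 := by
  simp only [side, sideV, mul_comm (cDen a : ℝ), sub_self, zero_mul, sign_zero, SignType.coe_zero]

/-- A rational matrix as a real one. -/
noncomputable def toReal : GL (Fin 2) ℚ →* GL (Fin 2) ℝ :=
  Matrix.GeneralLinearGroup.map (Rat.castHom ℝ)

/-- The entries of `toReal g`. -/
theorem toReal_apply (g : GL (Fin 2) ℚ) (i j : Fin 2) : toReal g i j = (g i j : ℝ) := rfl

/-- `toReal` of an element of `SL(2, ℤ)`. -/
theorem toReal_gq (g : SL(2, ℤ)) : toReal (gq g) = (g : GL (Fin 2) ℝ) := by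
  ext i j
  simp [toReal_apply, coe_gq]

/-- `toReal ∘ gq` gives the usual action on the upper half plane. -/
theorem toReal_gq_smul (g : SL(2, ℤ)) (z : ℍ) : toReal (gq g) • z = g • z := by
  rw [toReal_gq]; rfl

/-- The transformation of the quadratic form of a geodesic under a linear fractional map. -/
theorem geoForm_transform (g00 g01 g10 g11 u c v e : ℝ) (z : ℂ)
    (hj : (g10 : ℂ) * z + g11 ≠ 0) :
    geoForm (g00 * u + g01 * c) (g10 * u + g11 * c) (g00 * v + g01 * e) (g10 * v + g11 * e)
        ((g00 * z + g01) / (g10 * z + g11))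
      = (g00 * g11 - g01 * g10) ^ 2 * geoForm u c v e z
          / Complex.normSq ((g10 : ℂ) * z + g11) := by
  have hn : Complex.normSq ((g10 : ℂ) * z + g11) ≠ 0 := by simpa using hj
  have hlin : ∀ A B C W R R' n : ℝ, n ≠ 0 →
      (A * (W / n) - B * (R / n + R' / n) + C) * n = A * W - B * (R + R') + C * n := by
    intros; field_simp
  rw [eq_div_iff hn]
  simp only [geoForm, map_div₀, Complex.div_re]
  rw [hlin _ _ _ _ _ _ _ hn]
  simp only [Complex.normSq_apply, Complex.add_re, Complex.add_im, Complex.mul_re, Complex.mul_im,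
    Complex.ofReal_re, Complex.ofReal_im]
  ring

/-- Equivariance of `side`. -/
theorem side_smul (g : GL (Fin 2) ℚ) (hg : 0 < (g : Matrix (Fin 2) (Fin 2) ℚ).det) (a b : Cusp)
    (z : ℍ) : side (g • a) (g • b) (toReal g • z) = side a b z := by
  have hdetR : (0 : ℝ) < (toReal g).det.val := by
    rw [Matrix.GeneralLinearGroup.val_det_apply, Matrix.det_fin_two]
    rw [Matrix.det_fin_two] at hg
    simp only [toReal_apply]
    exact_mod_cast hg
  rw [side_eq_sideV ((isRep_self a).smul g) ((isRep_self b).smul g), side]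
  simp only [sideV]
  rw [coe_smul_of_det_pos hdetR, num, denom]
  simp only [toReal_apply]
  push_cast
  have hj : (g 1 0 : ℂ) * (z : ℂ) + (g 1 1 : ℂ) ≠ 0 := by
    have := denom_ne_zero (toReal g) z
    simpa [denom, toReal_apply] using this
  have key := geoForm_transform (g 0 0 : ℝ) (g 0 1 : ℝ) (g 1 0 : ℝ) (g 1 1 : ℝ) (cNum a : ℝ)
    (cDen a : ℝ) (cNum b : ℝ) (cDen b : ℝ) z (by simpa using hj)
  push_cast at key
  rw [key]
  set D : ℝ := (g 0 0 : ℝ) * g 1 1 - g 0 1 * g 1 0 with hD
  have hDpos : 0 < D := by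
    rw [Matrix.det_fin_two] at hg
    rw [hD]
    exact_mod_cast hg
  set n := Complex.normSq ((g 1 0 : ℂ) * (z : ℂ) + (g 1 1 : ℂ)) with hn
  have hnpos : 0 < n := Complex.normSq_pos.mpr hj
  congr 1
  rw [show (((g 0 0 : ℝ) * cNum a + g 0 1 * cDen a) * ((g 1 0 : ℝ) * cNum b + g 1 1 * cDen b)
      - ((g 1 0 : ℝ) * cNum a + g 1 1 * cDen a) * ((g 0 0 : ℝ) * cNum b + g 0 1 * cDen b))
      * (D ^ 2 * geoForm (cNum a) (cDen a) (cNum b) (cDen b) z / n)
      = D ^ 3 / n * (((cNum a : ℝ) * cDen b - cDen a * cNum b)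
        * geoForm (cNum a) (cDen a) (cNum b) (cDen b) z) by rw [hD]; field_simp; ring,
    sign_mul, sign_pos (by positivity), one_mul]

/-- Equivariance of `side` under `SL(2, ℤ)`. -/
theorem side_smul_SL (γ : SL(2, ℤ)) (a b : Cusp) (z : ℍ) :
    side (gq γ • a) (gq γ • b) (γ • z) = side a b z := by
  rw [← toReal_gq_smul, side_smul]
  rw [coe_gq, ← Int.coe_castRingHom, ← RingHom.mapMatrix_apply, ← RingHom.map_det,
    Matrix.SpecialLinearGroup.det_coe, map_one]
  exact one_pos

/-- The side relative to the geodesic from `0` to `∞` is the sign of `re z`. -/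
theorem side_zero_infty (z : ℍ) :
    side ((0 : ℚ) : Cusp) ∞ z = (SignType.sign z.re : ℤ) := by
  simp [side, sideV, geoForm, cNum, cDen]

/-- The side relative to the geodesic from `∞` to `1` is the sign of `1 - re z`. -/
theorem side_infty_one (z : ℍ) :
    side ∞ ((1 : ℚ) : Cusp) z = (SignType.sign (1 - z.re) : ℤ) := by
  simp [side, sideV, geoForm, cNum, cDen, ← sub_eq_neg_add]

/-- The side relative to the geodesic from `1` to `0` is the sign of `|z|² - re z`. -/
theorem side_one_zero (z : ℍ) :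
    side ((1 : ℚ) : Cusp) ((0 : ℚ) : Cusp) z
      = (SignType.sign (Complex.normSq (z : ℂ) - z.re) : ℤ) := by
  simp [side, sideV, geoForm, cNum, cDen]

/-! ### Finiteness -/

/-- If two points are on different sides, a point between them is on the geodesic. -/
theorem exists_zero_of_sideV_ne {u c v e : ℝ} {z w : ℍ} (h : sideV u c v e z ≠ sideV u c v e w) :
    (u * e - c * v ≠ 0) ∧
    ∃ t ∈ Set.Icc (0 : ℝ) 1, geoForm u c v e ((1 - t : ℝ) * (z : ℂ) + (t : ℝ) * (w : ℂ)) = 0 := by
  have hD : u * e - c * v ≠ 0 := fun h0 => h (by simp [sideV, h0])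
  refine ⟨hD, ?_⟩
  set f : ℝ → ℝ := fun t => geoForm u c v e ((1 - t : ℝ) * (z : ℂ) + (t : ℝ) * (w : ℂ)) with hf
  have hcont : Continuous f := by
    simp only [hf, geoForm, Complex.normSq_apply]
    fun_prop
  have h0 : f 0 = geoForm u c v e z := by simp [hf]
  have h1 : f 1 = geoForm u c v e w := by simp [hf]
  by_contra hne
  push Not at hne
  apply h
  have hsign : SignType.sign (f 0) = SignType.sign (f 1) := by
    have hiv := intermediate_value_uIcc (a := (0 : ℝ)) (b := 1) hcont.continuousOn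
    have hno : (0 : ℝ) ∉ Set.uIcc (f 0) (f 1) := fun hmem => by
      obtain ⟨t, ht, ht0⟩ := hiv hmem
      rw [Set.uIcc_of_le zero_le_one] at ht
      exact hne t ht ht0
    rw [Set.mem_uIcc, not_or, not_and, not_and] at hno
    rcases lt_trichotomy (f 0) 0 with h' | h' | h'
    · rw [sign_neg h', sign_neg (not_le.mp (hno.1 h'.le))]
    · exact absurd h' (hne 0 (by simp))
    · rw [sign_pos h', sign_pos (lt_of_not_ge fun h'' => hno.2 h'' h'.le)]
  rw [h0, h1] at hsign
  simp only [sideV, sign_mul, hsign]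

/-- Bounds on the coefficients of a geodesic passing through a bounded region. -/
theorem coeff_bound {u c v e : ℝ} {t : ℂ} {X ε : ℝ} (hε : 0 < ε) (hy : ε ≤ t.im)
    (hx : |t.re| ≤ X) (hY : |t.im| ≤ X) (hQ : geoForm u c v e t = 0) :
    ∀ P ∈ ({c * e, u * v, c * v, u * e} : Set ℝ),
      |P| ≤ |u * e - c * v| * (1 + X / ε + 1 / ε) * (1 + 2 * X) ^ 2 := by
  set A := c * e with hA
  set B := -(c * v + u * e) with hB
  set C := u * v with hC
  set D := |u * e - c * v| with hD
  have hX : 0 ≤ X := (abs_nonneg _).trans hx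
  have hQ' : A * (t.re * t.re + t.im * t.im) + B * t.re + C = 0 := by
    rw [← hQ, hA, hB, hC, geoForm, Complex.normSq_apply]; ring
  have hdisc : B ^ 2 - 4 * A * C = D ^ 2 := by rw [hA, hB, hC, hD, sq_abs]; ring
  -- `(B + 2 A x)² + (2 A y)² = D²` bounds `A` and `B`, and the equation bounds `C`
  have hsq : (B + 2 * A * t.re) ^ 2 + (2 * A * t.im) ^ 2 = D ^ 2 := by
    linear_combination 4 * A * hQ' + hdisc
  have hD0 : 0 ≤ D := abs_nonneg _
  have h1 : |2 * A * t.im| ≤ D :=
    abs_le_of_sq_le_sq (by nlinarith [sq_nonneg (B + 2 * A * t.re)]) hD0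
  have h2 : |B + 2 * A * t.re| ≤ D :=
    abs_le_of_sq_le_sq (by nlinarith [sq_nonneg (2 * A * t.im)]) hD0
  -- this bounds `A`, then `B`, then `C`
  have hAle : |A| ≤ D * (1 / ε) := by
    rw [abs_mul, abs_mul, abs_two, abs_of_pos (hε.trans_le hy)] at h1
    rw [mul_one_div, le_div_iff₀ hε]
    nlinarith [mul_le_mul_of_nonneg_left hy (abs_nonneg A), abs_nonneg A, h1]
  have hBle : |B| ≤ D + 2 * |A| * X := by
    have : |B| ≤ |B + 2 * A * t.re| + |2 * A * t.re| := by
      calc |B| = |(B + 2 * A * t.re) - 2 * A * t.re| := by ring_nf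
        _ ≤ _ := abs_sub _ _
    rw [abs_mul (2 * A), abs_mul, abs_two] at this
    nlinarith [mul_le_mul_of_nonneg_left hx (abs_nonneg A)]
  have hCle : |C| ≤ |A| * (2 * X ^ 2) + |B| * X := by
    have e1 : C = -(A * (t.re * t.re + t.im * t.im)) - B * t.re := by linear_combination hQ'
    rw [e1]
    refine (abs_sub _ _).trans (add_le_add ?_ ?_)
    · rw [abs_neg, abs_mul]
      refine mul_le_mul_of_nonneg_left ?_ (abs_nonneg _)
      rw [abs_of_nonneg (add_nonneg (mul_self_nonneg _) (mul_self_nonneg _))]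
      nlinarith [sq_abs t.re, sq_abs t.im, abs_nonneg t.re, abs_nonneg t.im]
    · rw [abs_mul]; exact mul_le_mul_of_nonneg_left hx (abs_nonneg _)
  -- each is at most the stated bound
  set M := D * (1 + X / ε + 1 / ε) * (1 + 2 * X) ^ 2 with hM
  have hXε : X / ε = X * (1 / ε) := by ring
  have hAX : |A| * X ≤ D * (X / ε) := by
    rw [hXε]
    nlinarith [mul_le_mul_of_nonneg_right hAle hX]
  have hK : 0 ≤ D * (X / ε) := mul_nonneg hD0 (div_nonneg hX hε.le)
  have hK' : 0 ≤ D * (1 / ε) := by positivity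
  have hAM : |A| ≤ M := by
    rw [hM]
    nlinarith [mul_nonneg hK hX, mul_nonneg hK' hX, mul_nonneg hD0 hX,
      mul_nonneg (mul_nonneg hK hX) hX, mul_nonneg (mul_nonneg hK' hX) hX,
      mul_nonneg (mul_nonneg hD0 hX) hX]
  have hBM : |B| ≤ M := by
    rw [hM]
    nlinarith [mul_nonneg hK hX, mul_nonneg hK' hX, mul_nonneg hD0 hX,
      mul_nonneg (mul_nonneg hK hX) hX, mul_nonneg (mul_nonneg hK' hX) hX,
      mul_nonneg (mul_nonneg hD0 hX) hX]
  have hCM : |C| ≤ M := by
    rw [hM]
    nlinarith [mul_le_mul_of_nonneg_right hBle hX, mul_le_mul_of_nonneg_right hAle (sq_nonneg X),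
      mul_le_mul_of_nonneg_right hAX hX,
      mul_nonneg hK hX, mul_nonneg hK' hX, mul_nonneg hD0 hX, mul_nonneg (mul_nonneg hK hX) hX,
      mul_nonneg (mul_nonneg hK' hX) hX, mul_nonneg (mul_nonneg hD0 hX) hX]
  have hDM : D ≤ M := by
    rw [hM]
    nlinarith [mul_nonneg hK hX, mul_nonneg hK' hX, mul_nonneg hD0 hX,
      mul_nonneg (mul_nonneg hK hX) hX, mul_nonneg (mul_nonneg hK' hX) hX,
      mul_nonneg (mul_nonneg hD0 hX) hX]
  -- the four products are `A`, `C` and `(-B ± D) / 2`
  intro P hP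
  simp only [Set.mem_insert_iff, Set.mem_singleton_iff] at hP
  rcases hP with rfl | rfl | rfl | rfl
  · exact hAM
  · exact hCM
  · rw [show c * v = (-B - (u * e - c * v)) / 2 by rw [hB]; ring, abs_div, abs_two,
      div_le_iff₀ two_pos]
    have := abs_sub (-B) (u * e - c * v)
    rw [abs_neg] at this
    linarith
  · rw [show u * e = (-B + (u * e - c * v)) / 2 by rw [hB]; ring, abs_div, abs_two,
      div_le_iff₀ two_pos]
    have := abs_add_le (-B) (u * e - c * v)
    rw [abs_neg] at this
    linarith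

/-- A bound on `|a b|` with `b ≠ 0` an integer bounds `|a|`. -/
theorem abs_le_of_mul {a b K : ℤ} (hb : b ≠ 0) (h : |a * b| ≤ K) : |a| ≤ K :=
  le_trans (le_mul_of_one_le_right (abs_nonneg _) (Int.one_le_abs hb)) (by rwa [← abs_mul])

/-- Equal cusps have no side, nor have their translates. -/
theorem side_smul_eq_zero {a b : Cusp} (h : cNum a * cDen b - cDen a * cNum b = 0) {g : SL(2, ℤ)}
    (z : ℍ) : side (gq g • a) (gq g • b) z = 0 := by
  rw [side_eq_sideV ((isRep_self a).smul (gq g)) ((isRep_self b).smul (gq g))]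
  simp only [sideV]
  have h0 : ((cNum a : ℝ) * cDen b - cDen a * cNum b) = 0 := by exact_mod_cast h
  have : ((((gq g) 0 0 : ℚ) : ℝ) * cNum a + ((gq g) 0 1 : ℚ) * cDen a) *
      (((gq g) 1 0 : ℚ) * cNum b + ((gq g) 1 1 : ℚ) * cDen b)
        - ((((gq g) 1 0 : ℚ) : ℝ) * cNum a + ((gq g) 1 1 : ℚ) * cDen a) *
          (((gq g) 0 0 : ℚ) * cNum b + ((gq g) 0 1 : ℚ) * cDen b) = 0 := by
    linear_combination ((((gq g) 0 0 : ℚ) : ℝ) * ((gq g) 1 1 : ℚ) - ((gq g) 0 1 : ℚ) *
      ((gq g) 1 0 : ℚ)) * h0
  push_cast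
  rw [this, zero_mul, sign_zero, SignType.coe_zero]

/-- Two integral vectors of nonzero determinant are bounded by their four products. -/
theorem abs_le_of_products {x y x' y' K D : ℤ} (hD : D ≠ 0) (hDg : x * y' - y * x' = D)
    (h1 : |y * y'| ≤ K) (h2 : |x * x'| ≤ K) (h3 : |y * x'| ≤ K) (h4 : |x * y'| ≤ K) :
    |x| ≤ K ∧ |y| ≤ K ∧ |x'| ≤ K ∧ |y'| ≤ K := by
  refine ⟨?_, ?_, ?_, ?_⟩
  · rcases eq_or_ne x' 0 with h0 | h0
    · exact abs_le_of_mul (b := y') (fun h => hD (by rw [← hDg, h, h0]; ring)) h4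
    · exact abs_le_of_mul h0 h2
  · rcases eq_or_ne x' 0 with h0 | h0
    · exact abs_le_of_mul (b := y') (fun h => hD (by rw [← hDg, h, h0]; ring)) h1
    · exact abs_le_of_mul h0 h3
  · rcases eq_or_ne x 0 with h0 | h0
    · exact abs_le_of_mul (b := y) (fun h => hD (by rw [← hDg, h, h0]; ring))
        (by rwa [mul_comm] at h3)
    · exact abs_le_of_mul h0 (by rwa [mul_comm] at h2)
  · rcases eq_or_ne x 0 with h0 | h0
    · exact abs_le_of_mul (b := y) (fun h => hD (by rw [← hDg, h, h0]; ring))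
        (by rwa [mul_comm] at h1)
    · exact abs_le_of_mul h0 (by rwa [mul_comm] at h4)

/-- Only finitely many translates of a geodesic separate two points. -/
theorem finite_side_ne (a b : Cusp) (z w : ℍ) :
    {g : SL(2, ℤ) | side (gq g • a) (gq g • b) z ≠ side (gq g • a) (gq g • b) w}.Finite := by
  set u := cNum a; set c := cDen a; set v := cNum b; set e := cDen b
  set X : ℝ := |z.re| + |w.re| + z.im + w.im with hX
  set ε : ℝ := min z.im w.im with hε
  have hεpos : 0 < ε := lt_min z.im_pos w.im_pos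
  set K : ℤ := ⌈|((u : ℝ) * e - c * v)| * (1 + X / ε + 1 / ε) * (1 + 2 * X) ^ 2⌉ with hK
  set e' : SL(2, ℤ) → (Fin 2 → ℤ) × (Fin 2 → ℤ) := fun g =>
    (![g 0 0 * u + g 0 1 * c, g 1 0 * u + g 1 1 * c],
      ![g 0 0 * v + g 0 1 * e, g 1 0 * v + g 1 1 * e]) with he'
  -- equal cusps give no side
  by_cases hD : u * e - c * v = 0
  · refine Set.finite_empty.subset fun g hg => hg ?_
    rw [side_smul_eq_zero hD, side_smul_eq_zero hD]
  -- `g` is determined by the images of the two ends
  have hinj : Function.Injective e' := by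
    intro g g' h
    simp only [he', Prod.mk.injEq] at h
    obtain ⟨h1, h2⟩ := h
    have a1 := congrFun h1 0; have a2 := congrFun h1 1
    have b1 := congrFun h2 0; have b2 := congrFun h2 1
    simp only [Matrix.cons_val_zero, Matrix.cons_val_one, Matrix.cons_val_fin_one] at a1 a2 b1 b2
    apply Subtype.ext
    ext i j
    fin_cases i <;> fin_cases j <;> apply mul_left_cancel₀ hD <;>
      simp only [Fin.zero_eta, Fin.mk_one, Fin.isValue]
    · linear_combination e * a1 - c * b1
    · linear_combination u * b1 - v * a1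
    · linear_combination e * a2 - c * b2
    · linear_combination u * b2 - v * a2
  refine Set.Finite.of_finite_image ?_ hinj.injOn
  refine ((Set.Finite.pi fun _ : Fin 2 => Set.finite_Icc (-K) K).prod
    (Set.Finite.pi fun _ : Fin 2 => Set.finite_Icc (-K) K)).subset ?_
  rintro _ ⟨g, hg, rfl⟩
  rw [Set.mem_ofPred, side_eq_sideV ((isRep_self a).smul (gq g)) ((isRep_self b).smul (gq g)),
    side_eq_sideV ((isRep_self a).smul (gq g)) ((isRep_self b).smul (gq g))] at hg
  simp only [coe_gq, Matrix.map_apply] at hg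
  -- a change of side gives a zero on the segment, bounding the products of coordinates
  obtain ⟨-, t, ⟨ht0, ht1⟩, hQ⟩ := exists_zero_of_sideV_ne hg
  set p := ((1 - t : ℝ) : ℂ) * (z : ℂ) + (t : ℝ) * (w : ℂ) with hp
  have him : p.im = (1 - t) * z.im + t * w.im := by simp [hp]
  have hre : p.re = (1 - t) * z.re + t * w.re := by simp [hp]
  have hbound := coeff_bound hεpos (t := p) (X := X)
    (by rw [him]; nlinarith [min_le_left z.im w.im, min_le_right z.im w.im])
    (by
      rw [hre]
      refine (abs_add_le _ _).trans ?_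
      rw [abs_mul, abs_mul, abs_of_nonneg (by linarith : (0 : ℝ) ≤ 1 - t), abs_of_nonneg ht0]
      nlinarith [abs_nonneg z.re, abs_nonneg w.re, z.im_pos, w.im_pos])
    (by
      rw [him, abs_of_pos (by rcases eq_or_lt_of_le ht0 with rfl | h
                              · simpa using z.im_pos
                              · nlinarith [z.im_pos, w.im_pos, mul_pos h w.im_pos])]
      nlinarith [abs_nonneg z.re, abs_nonneg w.re, z.im_pos, w.im_pos])
    hQ
  set x := g 0 0 * u + g 0 1 * c with hx'
  set y := g 1 0 * u + g 1 1 * c with hy'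
  set x' := g 0 0 * v + g 0 1 * e with hx''
  set y' := g 1 0 * v + g 1 1 * e with hy''
  have hdetg : g 0 0 * g 1 1 - g 0 1 * g 1 0 = 1 := by
    have := Matrix.SpecialLinearGroup.det_coe g
    rwa [Matrix.det_fin_two] at this
  have hDg : x * y' - y * x' = u * e - c * v := by
    rw [hx', hy', hx'', hy'']; linear_combination (u * e - c * v) * hdetg
  have hDgR : (x : ℝ) * y' - y * x' = (u : ℝ) * e - c * v := by exact_mod_cast hDg
  have hKle : ∀ P : ℤ, P ∈ ({y * y', x * x', y * x', x * y'} : Set ℤ) → |P| ≤ K := fun P hP => by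
    have hb := hbound (P : ℝ) (by
      simp only [Set.mem_insert_iff, Set.mem_singleton_iff] at hP ⊢
      rcases hP with rfl | rfl | rfl | rfl <;> simp [x, y, x', y', u, c, v, e])
    push_cast at hb
    have hb' : (|P| : ℝ) ≤ |((u : ℝ) * e - c * v)| * (1 + X / ε + 1 / ε) * (1 + 2 * X) ^ 2 := by
      rw [← hDgR]
      simpa [x, y, x', y', u, c, v, e] using hb
    have hb'' := hb'.trans (Int.le_ceil _)
    rw [← hK] at hb''
    exact_mod_cast hb''
  have h1 := hKle (y * y') (by simp)
  have h2 := hKle (x * x') (by simp)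
  have h3 := hKle (y * x') (by simp)
  have h4 := hKle (x * y') (by simp)
  have hK' : ∀ {k : ℤ}, |k| ≤ K → k ∈ Set.Icc (-K) K := fun {k} hk => Set.mem_Icc.mpr (abs_le.mp hk)
  -- so each coordinate is bounded
  obtain ⟨k1, k2, k3, k4⟩ := abs_le_of_products hD hDg h1 h2 h3 h4
  exact ⟨fun i _ => hK' (by fin_cases i <;> simp only [he'] <;> [exact k1; exact k2]),
    fun i _ => hK' (by fin_cases i <;> simp only [he'] <;> [exact k3; exact k4])⟩

end Fermat.HM
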