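import Fermat.Agent.HM.DiamondFree

/-!
# Sublevels, injectivity of restriction and diamond operators commuting with the trace

A level inside a good one is good (`GoodLevel.gammaH`), and for a quotient of diamond operators
(`DiamondQuot`) restriction and trace commute with the operators of `Γ₀(N)`. Used for the
Taylor–Wiles step (`TWSystem`, `TWDescent`) and the levels of the packages (`Package`,
`Raise/Package`).
-/

namespace Fermat.HM

open scoped MatrixGroups
open CongruenceSubgroup Fermat.MC.Lvl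

/-- A subgroup of finite index containing `-1` of a good level is good. -/
theorem GoodLevel.mono {R : Type*} [CommRing R] {Γ Γ' : Subgroup SL(2, ℤ)} (hΓ : GoodLevel R Γ)
    (hle : Γ' ≤ Γ) (hneg : -1 ∈ Γ') (hfin : Finite (Cosets Γ')) : GoodLevel R Γ' :=
  ⟨hneg, hfin, hΓ.two, hΓ.three.imp_right fun h x hx => by
    induction x using QuotientGroup.induction_on with
    | H g =>
      refine h (QuotientGroup.mk g) ?_
      rw [show rot • (QuotientGroup.mk g : Cosets Γ') = QuotientGroup.mk (rot * g) from rfl,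
        QuotientGroup.eq] at hx
      rw [show rot • (QuotientGroup.mk g : Cosets Γ) = QuotientGroup.mk (rot * g) from rfl,
        QuotientGroup.eq]
      exact hle hx⟩

variable {N : ℕ} [NeZero N]

omit [NeZero N] in
/-- A level below a good one is good. -/
theorem GoodLevel.gammaH {R : Type*} [CommRing R] {H : Subgroup (ZMod N)ˣ}
    (hΓ : GoodLevel R (GammaH N H)) {M : ℕ} [NeZero M] (hdvd : N ∣ M) {H' : Subgroup (ZMod M)ˣ}
    (hH : H'.map (ZMod.unitsMap hdvd) ≤ H) (hneg : -1 ∈ H') : GoodLevel R (GammaH M H') := by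
  refine hΓ.mono (fun g hg => ?_) (neg_one_mem_GammaH hneg)
    (Subgroup.finite_quotient_of_finiteIndex)
  obtain ⟨hg0, x, hx, hx'⟩ := mem_GammaH_iff_upper.mp hg
  refine mem_GammaH_iff_upper.mpr ⟨Gamma0_mem.mpr ?_, exists_mem_of_map_le hdvd hH hx hx'⟩
  have h := congrArg (ZMod.castHom hdvd (ZMod N)) (Gamma0_mem.mp hg0)
  rwa [map_intCast, map_zero] at h

/-- A diamond operator of a quotient is the pullback along any of its elements. -/
theorem DiamondQuot.pull_gamma0_eq {R : Type} [CommRing R] {H₀ H : Subgroup (ZMod N)ˣ} {Δ : Type}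
    [CommGroup Δ] (D : DiamondQuot N H₀ H Δ) {g : SL(2, ℤ)} (hg : g ∈ Gamma0 N)
    (hg' : g ∈ GammaH N H₀) (φ : Homs R (GammaH N H)) :
    (isLevelMap_gamma0 (le_refl H) hg).pull φ = D.dia (D.deg ⟨g, hg'⟩) φ := by
  rw [DiamondQuot.dia_apply, ← D.pull_elt]

omit [NeZero N] in
/-- Restriction commutes with the diamond operators of a quotient of both levels. -/
theorem DiamondQuot.res_pull_gamma0 {R : Type} [CommRing R] {H₀ H : Subgroup (ZMod N)ˣ}
    {Δ : Type} [CommGroup Δ] (D : DiamondQuot N H₀ H Δ) {g : SL(2, ℤ)} (hg : g ∈ Gamma0 N)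
    (φ : Homs R (GammaH N H₀)) :
    D.isLevelMap_res.pull ((isLevelMap_gamma0 (le_refl H₀) hg).pull φ)
      = (isLevelMap_gamma0 (le_refl H) hg).pull (D.isLevelMap_res.pull φ) := by
  rw [← IsLevelMap.pull_comp, ← IsLevelMap.pull_comp]
  exact IsLevelMap.pull_congr _ _ (one_mem _) (by rw [map_one, one_mul, one_mul, mul_one]) φ

/-- The trace commutes with the operators of `Γ₀(N)` commuting with the diamond operators. -/
theorem DiamondQuot.tr_pull_gamma0 {R : Type} [CommRing R] [CharZero R] [NoZeroDivisors R]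
    {H₀ H : Subgroup (ZMod N)ˣ} {Δ : Type} [CommGroup Δ] [Finite Δ] (D : DiamondQuot N H₀ H Δ)
    {g : SL(2, ℤ)} (hg : g ∈ Gamma0 N)
    (hcomm : ∀ (δ : Δ) (φ : Homs R (GammaH N H)), D.dia δ
      ((isLevelMap_gamma0 (le_refl H) hg).pull φ)
      = (isLevelMap_gamma0 (le_refl H) hg).pull (D.dia δ φ)) (φ : Homs R (GammaH N H)) :
    D.isLevelMap_res.tr ((isLevelMap_gamma0 (le_refl H) hg).pull φ)
      = (isLevelMap_gamma0 (le_refl H₀) hg).pull (D.isLevelMap_res.tr φ) := by
  have := Fintype.ofFinite Δ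
  refine pull_one_injective D.isLevelMap_res ?_
  rw [D.res_pull_gamma0 hg, D.res_tr, D.res_tr, map_sum]
  exact Finset.sum_congr rfl fun δ _ => hcomm δ φ

end Fermat.HM
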