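import Mathlib.Topology.Compactification.OnePoint.ProjectiveLine
import Mathlib.NumberTheory.ModularForms.CongruenceSubgroups
import Mathlib.NumberTheory.ModularForms.Cusps
import Mathlib.LinearAlgebra.Matrix.GeneralLinearGroup.Card
import Mathlib.LinearAlgebra.Matrix.FixedDetMatrices
import Mathlib.Data.Rat.Lemmas

/-!
# Modular symbols as additive functions on pairs of cusps

The cusps are moved by `gq`, and the periods are additive (`period_mul`).
-/

namespace Fermat.HM

open scoped MatrixGroups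
open OnePoint ModularGroup

/-- The cusps `ℙ¹(ℚ)`. -/
abbrev Cusp : Type := OnePoint ℚ

/-- An element of `SL(2, ℤ)` acting on the cusps. -/
noncomputable def gq : SL(2, ℤ) →* GL (Fin 2) ℚ := Matrix.SpecialLinearGroup.mapGL ℚ

/-- The underlying rational matrix of `gq g`. -/
theorem coe_gq (g : SL(2, ℤ)) :
    (gq g : Matrix (Fin 2) (Fin 2) ℚ)
      = ((g : Matrix (Fin 2) (Fin 2) ℤ)).map (fun x : ℤ => (x : ℚ)) := by
  simp [gq, Matrix.SpecialLinearGroup.mapGL, Matrix.SpecialLinearGroup.map]

/-- An integral matrix of nonzero determinant acting on the cusps. -/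
noncomputable def intMat (M : Matrix (Fin 2) (Fin 2) ℤ) (h : M.det ≠ 0) : GL (Fin 2) ℚ :=
  Matrix.GeneralLinearGroup.mkOfDetNeZero (M.map (fun x : ℤ => (x : ℚ))) (by
    rw [Matrix.det_fin_two] at h ⊢
    simp only [Matrix.map_apply]
    exact_mod_cast h)

/-- The underlying rational matrix of `intMat M h`. -/
theorem coe_intMat (M : Matrix (Fin 2) (Fin 2) ℤ) (h : M.det ≠ 0) :
    (intMat M h : Matrix (Fin 2) (Fin 2) ℚ) = M.map (fun x : ℤ => (x : ℚ)) := rfl

/-- Scalar matrices fix every cusp. -/
theorem scalar_smul_eq {g : GL (Fin 2) ℚ} {c : ℚ} (hc : c ≠ 0)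
    (hg : (g : Matrix (Fin 2) (Fin 2) ℚ) = !![c, 0; 0, c]) (x : Cusp) : g • x = x := by
  induction x using OnePoint.rec with
  | infty => rw [smul_infty_eq_self_iff]; simp [hg]
  | coe k =>
    rw [smul_some_eq_ite]
    simp [hg, hc]

/-- The translation by an integer. -/
theorem gq_T_zpow_smul_coe (t : ℤ) (k : ℚ) :
    gq (T ^ t) • (k : Cusp) = ((k + t : ℚ) : Cusp) := by
  rw [smul_some_eq_ite]
  simp [coe_gq, coe_T_zpow, -map_zpow]

/-- An element with lower left entry zero fixes `∞`. -/
theorem gq_smul_infty_of_lower {g : SL(2, ℤ)} (h : g 1 0 = 0) : gq g • (∞ : Cusp) = ∞ := by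
  rw [smul_infty_eq_self_iff]
  simp [coe_gq, h]

/-- For `c ≠ 0` the element `(a b; c d)` sends `∞` to `a / c`. -/
theorem gq_smul_infty_coe {g : SL(2, ℤ)} (h : g 1 0 ≠ 0) :
    gq g • (∞ : Cusp) = (((g 0 0 : ℚ) / (g 1 0 : ℚ) : ℚ) : Cusp) := by
  rw [smul_infty_eq_ite]
  simp [coe_gq, h]

/-- `SL(2, ℤ)` is transitive on cusps. -/
theorem exists_gq_smul_infty (x : Cusp) : ∃ g : SL(2, ℤ), gq g • (∞ : Cusp) = x :=
  OnePoint.exists_mem_SL2 ℤ x

variable {A : Type*} [AddCommGroup A]

/-- A symbol is an additive function on pairs of cusps. -/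
def IsSymbol (S : Cusp → Cusp → A) : Prop := ∀ x y z, S x y + S y z = S x z

/-- The symbol is unchanged by `g`. -/
def InvariantBy (S : Cusp → Cusp → A) (g : GL (Fin 2) ℚ) : Prop :=
  ∀ x y, S (g • x) (g • y) = S x y

namespace IsSymbol

variable {S : Cusp → Cusp → A}

/-- A symbol vanishes on the diagonal. -/
theorem self_eq_zero (hS : IsSymbol S) (x : Cusp) : S x x = 0 := by
  simpa using hS x x x

/-- A symbol is antisymmetric. -/
theorem swap (hS : IsSymbol S) (x y : Cusp) : S y x = -S x y := by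
  rw [eq_neg_iff_add_eq_zero, add_comm, hS, hS.self_eq_zero]

/-- The translate of a symbol is a symbol. -/
theorem comp (hS : IsSymbol S) (g : GL (Fin 2) ℚ) :
    IsSymbol fun x y => S (g • x) (g • y) := fun _ _ _ => hS _ _ _

end IsSymbol

namespace InvariantBy

variable {S : Cusp → Cusp → A} {g h : GL (Fin 2) ℚ}

omit [AddCommGroup A] in
/-- A symbol invariant under `g` is invariant under `g⁻¹`. -/
theorem inv (hg : InvariantBy S g) : InvariantBy S g⁻¹ := fun x y => by
  rw [← hg (g⁻¹ • x) (g⁻¹ • y), smul_inv_smul, smul_inv_smul]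

end InvariantBy

/-- The value `S(∞, g∞)`; a homomorphism on the stabiliser of `S`. -/
noncomputable def period (S : Cusp → Cusp → A) (g : SL(2, ℤ)) : A := S ∞ (gq g • ∞)

/-- The period of an invariant symbol can be computed from any base point. -/
theorem period_eq {S : Cusp → Cusp → A} (hS : IsSymbol S) {g : SL(2, ℤ)}
    (hg : InvariantBy S (gq g)) (x : Cusp) : period S g = S x (gq g • x) := by
  have h : period S g + S (gq g • ∞) (gq g • x) = S ∞ x + S x (gq g • x) := by
    rw [period, hS, hS]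
  rwa [hg, add_comm, add_right_inj] at h

/-- The period vanishes on elements fixing a cusp. -/
theorem period_eq_zero_of_fixed {S : Cusp → Cusp → A} (hS : IsSymbol S) {g : SL(2, ℤ)}
    (hg : InvariantBy S (gq g)) {x : Cusp} (hx : gq g • x = x) : period S g = 0 := by
  rw [period_eq hS hg x, hx, hS.self_eq_zero]

/-- The period is additive on elements fixing the symbol. -/
theorem period_mul {S : Cusp → Cusp → A} (hS : IsSymbol S) {g : SL(2, ℤ)}
    (hg : InvariantBy S (gq g)) (h : SL(2, ℤ)) :
    period S (g * h) = period S g + period S h := by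
  simp only [period]
  rw [map_mul, mul_smul, ← hg ∞ (gq h • ∞), hS]

end Fermat.HM
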