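import Fermat.Agent.HM.TwoCopies
import Fermat.Agent.HM.AtkinLehner
import Fermat.Agent.HM.Diamond
import Fermat.Agent.HM.Degeneracy

/-!
# Adding a prime at which the Hecke polynomial has simple roots

At level `N q`, localised where `U q` is a simple root `α`, the module is that of level `N`.
-/

namespace Fermat.HM

open scoped MatrixGroups
open MvPolynomial CongruenceSubgroup Fermat.MC.Lvl

variable {O : Type} [CommRing O] {σ : Type} {p : σ → ℕ} [hp : ∀ i, Fact (p i).Prime] {N q : ℕ}
  [NeZero N] [hq : Fact q.Prime] [NeZero (N * q)] {H : Subgroup (ZMod N)ˣ}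

/-- The operators at level `N`: `⟨q⟩`, `T q` and the family. -/
noncomputable def botOps (O : Type) [CommRing O] (H : Subgroup (ZMod N)ˣ) (hqN : ¬ q ∣ N)
    (p : σ → ℕ) [∀ i, Fact (p i).Prime] :
    Option (Option σ) → Module.End O (Homs O (GammaH N H))
  | none => diaQ H hqN
  | some none => heckeT O N H q
  | some (some i) => heckeT O N H (p i)

/-- The operators at level `N q`: `⟨q⟩`, `U q` and the family. -/
noncomputable def topOps (O : Type) [CommRing O] (H : Subgroup (ZMod N)ˣ) (hqN : ¬ q ∣ N)
    (p : σ → ℕ) [∀ i, Fact (p i).Prime] :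
    Option (Option σ) → Module.End O (Homs O (GammaH (N * q) (upH H q)))
  | none => diaQUp H hqN
  | some none => heckeT O (N * q) (upH H q) q
  | some (some i) => heckeT O (N * q) (upH H q) (p i)

omit [NeZero (N * q)] in
/-- The operators at the smaller level commute. -/
theorem botOps_comm (hqN : ¬ q ∣ N) (a b : Option (Option σ)) :
    botOps O H hqN p a * botOps O H hqN p b = botOps O H hqN p b * botOps O H hqN p a := by
  have hd : ∀ (l : ℕ) [Fact l.Prime],
      diaQ (R := O) H hqN * heckeT O N H l = heckeT O N H l * diaQ H hqN := fun l hl =>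
    LinearMap.ext fun φ => (IsLevelMap.pull_heckeT (isLevelMap_gamma0 le_rfl (tauElt_mem_base hqN))
      hl.out.not_dvd_one Iff.rfl φ).symm
  rcases a with _ | _ | i <;> rcases b with _ | _ | j <;> simp only [botOps]
  all_goals first
    | exact hd _
    | exact (hd _).symm
    | exact LinearMap.ext fun φ => heckeT_comm φ

omit [NeZero N] in
/-- The operators at the larger level commute. -/
theorem topOps_comm (hqN : ¬ q ∣ N) (a b : Option (Option σ)) :
    topOps O H hqN p a * topOps O H hqN p b = topOps O H hqN p b * topOps O H hqN p a := by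
  have hd : ∀ (l : ℕ) [Fact l.Prime],
      diaQUp (R := O) H hqN * heckeT O (N * q) (upH H q) l
        = heckeT O (N * q) (upH H q) l * diaQUp H hqN := fun l hl =>
    LinearMap.ext fun φ => (IsLevelMap.pull_heckeT (isLevelMap_gamma0 le_rfl (tauElt_mem hqN))
      hl.out.not_dvd_one Iff.rfl φ).symm
  rcases a with _ | _ | i <;> rcases b with _ | _ | j <;> simp only [topOps]
  all_goals first
    | exact hd _
    | exact (hd _).symm
    | exact LinearMap.ext fun φ => heckeT_comm φ

/-- The action at level `N`. -/
noncomputable def botAct (O : Type) [CommRing O] (H : Subgroup (ZMod N)ˣ) (hqN : ¬ q ∣ N)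
    (p : σ → ℕ) [∀ i, Fact (p i).Prime] :
    MvPolynomial (Option (Option σ)) O →ₐ[O] Module.End O (Homs O (GammaH N H)) :=
  commAeval (botOps O H hqN p) (botOps_comm hqN)

/-- The action at level `N q`. -/
noncomputable def topAct (O : Type) [CommRing O] (H : Subgroup (ZMod N)ˣ) (hqN : ¬ q ∣ N)
    (p : σ → ℕ) [∀ i, Fact (p i).Prime] :
    MvPolynomial (Option (Option σ)) O →ₐ[O] Module.End O (Homs O (GammaH (N * q) (upH H q))) :=
  commAeval (topOps O H hqN p) (topOps_comm hqN)

/-- The sum of the pullbacks by the two degeneracy maps from level `N q`. -/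
noncomputable def alphaMap (O : Type) [CommRing O] (H : Subgroup (ZMod N)ˣ) (hqN : ¬ q ∣ N) :
    Homs O (GammaH N H) × Homs O (GammaH N H) →ₗ[O] Homs O (GammaH (N * q) (upH H q)) :=
  ((isLevelMap_up (H := H) (q := q)).pull (R := O)).comp
      (LinearMap.fst O (Homs O (GammaH N H)) (Homs O (GammaH N H)))
    + ((isLevelMap_infty (H := H) hqN).pull (R := O)).comp
      (LinearMap.snd O (Homs O (GammaH N H)) (Homs O (GammaH N H)))

/-- `alphaMap` intertwines the action on two copies of level `N` with that at level `N q`. -/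
theorem alphaMap_twoAct (hqN : ¬ q ∣ N) (hpq : ∀ i, p i ≠ q)
    (a : MvPolynomial (Option (Option σ)) O)
    (z : Homs O (GammaH N H) × Homs O (GammaH N H)) :
    alphaMap O H hqN (twoAct (botAct O H hqN p) q a z)
      = topAct O H hqN p a (alphaMap O H hqN z) := by
  refine intertwine_of_X (alphaMap O H hqN) (fun j z => ?_) a z
  rw [twoAct_X, topAct, commAeval_X]
  rcases j with _ | _ | i
  · rw [twoOps_other _ q none (by simp), botAct, commAeval_X]
    simp only [alphaMap, topOps, botOps, LinearMap.add_apply, LinearMap.comp_apply,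
      LinearMap.prodMap_apply, LinearMap.fst_apply, LinearMap.snd_apply, map_add, diaQUp_res,
      diaQUp_infty]
  · rw [twoOps_U]
    have hc : botAct O H hqN p (cstElt q) z.2 = q • diaQ H hqN z.2 := by
      rw [cstElt, map_mul, ← MvPolynomial.algebraMap_eq, AlgHom.commutes, Module.End.mul_apply,
        Module.algebraMap_end_apply, botAct, commAeval_X, Nat.cast_smul_eq_nsmul]
      rfl
    rw [hc, botAct, commAeval_X]
    simp only [alphaMap, topOps, botOps, LinearMap.add_apply, LinearMap.comp_apply,
      LinearMap.fst_apply, LinearMap.snd_apply, map_add, map_neg, map_nsmul, heckeT_res hqN,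
      heckeT_infty]
    abel
  · have hdiv : p i ∣ N * q ↔ p i ∣ N :=
      ⟨fun h => ((hp i).out.dvd_mul.mp h).resolve_right fun h' =>
        hpq i ((Nat.prime_dvd_prime_iff_eq (hp i).out hq.out).mp h'), fun h => h.mul_right q⟩
    rw [twoOps_other _ q _ (by simp), botAct, commAeval_X]
    simp only [alphaMap, topOps, botOps, LinearMap.add_apply, LinearMap.comp_apply,
      LinearMap.prodMap_apply, LinearMap.fst_apply, LinearMap.snd_apply, map_add]
    rw [IsLevelMap.pull_heckeT isLevelMap_up (hp i).out.not_dvd_one hdiv,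
      IsLevelMap.pull_heckeT (isLevelMap_infty hqN)
        (fun h => hpq i ((Nat.prime_dvd_prime_iff_eq (hp i).out hq.out).mp h)) hdiv]

omit [NeZero N] in
/-- The pull-back along an element of `Γ₀(N)` is injective. -/
theorem pull_gamma0_injective {R : Type} [CommRing R] {g : SL(2, ℤ)} (hg : g ∈ Gamma0 N) :
    Function.Injective ((isLevelMap_gamma0 (le_refl H) hg).pull (R := R)) := by
  intro x y h
  have key : ∀ z, (isLevelMap_gamma0 (le_refl H) (inv_mem hg)).pull (R := R)
      ((isLevelMap_gamma0 (le_refl H) hg).pull z) = z := by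
    intro z
    rw [← IsLevelMap.pull_comp]
    refine AddMonoidHom.ext fun γ => ?_
    obtain ⟨γ, rfl⟩ := Additive.ofMul.surjective γ
    exact IsLevelMap.pull_apply _ z γ γ (by simp)
  rw [← key x, h, key]

variable [IsDomain O] [IsPrincipalIdealRing O] [IsLocalRing O]
  [IsAdicComplete (IsLocalRing.maximalIdeal O) O]

omit [IsDomain O] [IsPrincipalIdealRing O] [IsLocalRing O]
  [IsAdicComplete (IsLocalRing.maximalIdeal O) O] [NeZero (N * q)] in
/-- The action at the smaller level restricts to the Hecke action of the original indices. -/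
theorem renameFamily_act (hqN : ¬ q ∣ N) (a : MvPolynomial σ O) (x : Homs O (GammaH N H)) :
    botAct O H hqN p (rename (fun i => some (some i)) a) x = heckeAct O O N H p a x :=
  (intertwine_of_X (ρ := heckeAct O O N H p)
    (ρ' := (botAct O H hqN p).comp (rename fun i => some (some i))) LinearMap.id (fun i x => by
      rw [LinearMap.id_apply, LinearMap.id_apply, heckeAct_X, AlgHom.comp_apply, rename_X, botAct,
        commAeval_X]
      rfl) a x).symm

/-- At a simple root of the Hecke polynomial the module of level `N q` is that of level `N`. -/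
theorem exists_twStep (hqN : ¬ q ∣ N) (hpq : ∀ i, p i ≠ q)
    (hΓ : GoodLevel O (GammaH N H)) (hΓ' : GoodLevel O (GammaH (N * q) (upH H q)))
    [Module.Finite O (Homs O (GammaH N H))] [Module.Finite O (Homs O (GammaH (N * q) (upH H q)))]
    {m : Ideal (MvPolynomial (Option (Option σ)) O)} [m.IsMaximal]
    {r₀ : MvPolynomial (Option (Option σ)) O} [(m.comap (substU r₀)).IsMaximal]
    [(m.comap (rename (R := O) fun i : σ => some (some i))).IsMaximal]
    (hne : NonEisenstein p (m.comap (rename (R := O) fun i : σ => some (some i))))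
    (h : SimpleRoot m q r₀) (hsq : r₀ * r₀ - X none ∉ m) :
    ∃ u, u - r₀ ∈ m ∧ ∃ π : locPart (m.comap (substU r₀)) (topAct O H hqN p)
        →ₗ[O] locPart m (botAct O H hqN p),
      Function.Bijective π ∧ (∀ (a : MvPolynomial (Option (Option σ)) O) z,
        π (locAct _ (topAct O H hqN p) a z) = locAct m (botAct O H hqN p) (substU u a) (π z)) ∧
      ∀ (F : Module.End O (Homs O (GammaH N H)))
        (F' : Module.End O (Homs O (GammaH (N * q) (upH H q)))),
        (∀ a x, F (botAct O H hqN p a x) = botAct O H hqN p a (F x)) →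
        (∀ z : Homs O (GammaH N H) × Homs O (GammaH N H),
          alphaMap O H hqN (F z.1, F z.2) = F' (alphaMap O H hqN z)) →
        ∀ z w : locPart (m.comap (substU r₀)) (topAct O H hqN p),
          (w : Homs O (GammaH (N * q) (upH H q))) = F' (z : Homs O _) →
          (π w : Homs O (GammaH N H)) = F (π z : Homs O (GammaH N H)) := by
  set ρ := botAct O H hqN p
  set mT := m.comap (substU r₀) with hmT
  set m₁ := m.comap (rename (R := O) fun i : σ => some (some i)) with hm₁
  have hcomp : ∀ x ∈ locPart m ρ, x ∈ locPart m₁ (heckeAct O O N H p) := fun x hx => by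
    simp only [locPart, Submodule.mem_iInf] at hx ⊢
    intro s hs
    obtain ⟨y, hy⟩ := hx _ (fun h' => hs (Ideal.mem_comap.mpr h'))
    exact ⟨y, by rw [← renameFamily_act hqN]; exact hy⟩
  -- Ihara: the sum of the degeneracy maps is injective on the local part of two copies
  have hker : ∀ z ∈ locPart mT (twoAct ρ q), alphaMap O H hqN z = 0 → z = 0 := by
    intro z hz h0
    obtain ⟨hx, hy⟩ := mem_loc_of_mem_two h hz
    have hσ : sigma0 N q hqN ∈ Gamma0 N := sigma0_mem hqN
    have hg := goodFor_up (M := N) (H := H) hpq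
    have hgD := goodFor_scaleUp (M := N) (H := H) hpq
    have hD : IsLevelMap H (upH H q) q (scaleGL q) :=
      isLevelMap_scale dvd_rfl (Subgroup.map_comap_le _ _)
    have hy' : (isLevelMap_gamma0 (le_refl H) hσ).pull z.2 ∈ locPart m₁ (heckeAct O O N H p) :=
      apply_mem_locPart (f := (isLevelMap_gamma0 (le_refl H) hσ).pull)
        (pull_heckeAct _ (goodFor_gamma0 hσ)) (hcomp _ hy)
    obtain ⟨h1, h2⟩ := pair_eq_zero hΓ hΓ' hne hq.out.one_lt (hq.out.coprime_iff_not_dvd.mpr hqN)
      isLevelMap_up hD hg hgD (hcomp _ hx) hy' (by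
        refine Eq.trans ?_ h0
        rw [alphaMap, LinearMap.add_apply, LinearMap.comp_apply, LinearMap.comp_apply,
          ← IsLevelMap.pull_comp]
        congr 1
        exact IsLevelMap.pull_congr _ _ (one_mem _) (by rw [map_one, one_mul, stdGL_infty]) z.2)
    exact Prod.ext h1 (pull_gamma0_injective hσ (h2.trans (map_zero _).symm))
  -- `U² - ⟨q⟩` is invertible there and lands in the image
  have hcoker : ∀ y, ∃ s, s ∉ mT ∧ topAct O H hqN p s y ∈ LinearMap.range (alphaMap O H hqN) := by
    intro y
    refine ⟨X (some none) * X (some none) - X none, fun h' => hsq ?_, ?_⟩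
    · have := Ideal.mem_comap.mp h'
      simpa using this
    · rw [map_sub, map_mul, LinearMap.sub_apply, Module.End.mul_apply, topAct, commAeval_X,
        commAeval_X]
      refine ⟨(heckeT O N H q (psi H hqN y) - psi H hqN (wq H hqN y), -psi H hqN y), ?_⟩
      rw [show topOps O H hqN p (some none) (topOps O H hqN p (some none) y)
        - topOps O H hqN p none y = _ from heckeT_sq_sub hqN y]
      simp [alphaMap, sub_eq_add_neg]
  have hint := alphaMap_twoAct (O := O) (H := H) hqN hpq
  have hbij : Function.Bijective (locMap (m := mT) (f := alphaMap O H hqN) hint) :=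
    ⟨by
      rw [injective_iff_map_eq_zero]
      exact fun z hz => Subtype.ext (hker z.1 z.2 (congrArg Subtype.val hz)),
    locMap_surjective _ hcoker⟩
  -- the local part of two copies is that of one
  obtain ⟨u, hu, Φ, hΦ, hΦi, hΦF⟩ := exists_two_equiv h (ρ := ρ)
  set e := LinearEquiv.ofBijective _ hbij with he
  refine ⟨u, hu, Φ.comp e.symm.toLinearMap, hΦ.comp e.symm.bijective, fun a z => ?_,
    fun F F' hF hFF z w hw => ?_⟩
  swap
  · obtain ⟨z', rfl⟩ := e.surjective z
    obtain ⟨w', rfl⟩ := e.surjective w
    simp only [LinearMap.comp_apply, LinearEquiv.coe_coe, LinearEquiv.symm_apply_apply]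
    refine hΦF F hF z' w' ?_
    have hFc : ∀ a (x : Homs O (GammaH N H) × Homs O (GammaH N H)),
        F.prodMap F (twoAct ρ q a x) = twoAct ρ q a (F.prodMap F x) :=
          intertwine_of_X _ fun j x => by
      rw [twoAct_X]
      rcases j with _ | _ | i
      · simp [twoOps, hF]
      · simp [twoOps, hF]
      · simp [twoOps, hF]
    have hz'' : F.prodMap F (z' : Homs O (GammaH N H) × Homs O (GammaH N H))
        ∈ locPart mT (twoAct ρ q) :=
      apply_mem_locPart (f := F.prodMap F) hFc z'.2
    refine sub_eq_zero.mp (hker _ (sub_mem w'.2 hz'') ?_)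
    rw [map_sub, sub_eq_zero]
    exact hw.trans (hFF _).symm
  obtain ⟨w, rfl⟩ := e.surjective z
  have h1 : locAct mT (topAct O H hqN p) a (e w) = e (locAct mT (twoAct ρ q) a w) :=
    (locMap_locAct hint a w).symm
  rw [LinearMap.comp_apply, LinearMap.comp_apply, h1]
  simp only [LinearEquiv.coe_coe, LinearEquiv.symm_apply_apply]
  exact hΦi a w

end Fermat.HM
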