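import Fermat.Agent.HM.LocalRoot
import Fermat.Agent.HM.Operators

/-!
# Adding unipotent operators does not change the part at a maximal ideal

The main result is `locPart_comap_rename`.
-/

namespace Fermat.HM

open MvPolynomial

variable {O : Type} [CommRing O] [IsLocalRing O] [IsNoetherianRing O]
  [IsAdicComplete (IsLocalRing.maximalIdeal O) O] {σ τ : Type} {M : Type} [AddCommGroup M]
  [Module O M] [Module.Finite O M] {pp : ℕ} [hpp : Fact pp.Prime]

/-- Operators of `p`-power order which are one modulo a maximal ideal may be forgotten. -/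
theorem locPart_comap_rename (hpm : (pp : O) ∈ IsLocalRing.maximalIdeal O)
    (ρ : MvPolynomial τ O →ₐ[O] Module.End O M) {ρ₀ : MvPolynomial σ O →ₐ[O] Module.End O M}
    (f : σ → τ) (hρ : ∀ i x, ρ₀ (X i) x = ρ (X (f i)) x)
    (m : Ideal (MvPolynomial τ O)) [(m.comap (rename (R := O) f)).IsMaximal]
    (hu : ∀ t, t ∉ Set.range f → X t - 1 ∈ m ∧ ∃ e, ∀ x, ρ (X t ^ (pp ^ e)) x = x) :
    locPart (m.comap (rename (R := O) f)) ρ₀ = locPart m ρ := by
  classical
  set m₀ := m.comap (rename (R := O) f) with hm₀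
  have hren : ∀ a x, ρ₀ a x = ρ (rename f a) x := fun a x =>
    intertwine_of_X (ρ := ρ₀) (ρ' := ρ.comp (rename f)) LinearMap.id
      (fun i y => by simp [hρ]) a x
  -- one inclusion is formal
  refine le_antisymm ?_ ?_
  swap
  · intro x hx
    simp only [locPart, Submodule.mem_iInf] at hx ⊢
    intro s hs
    obtain ⟨y, hy⟩ := hx (rename f s) fun h => hs (Ideal.mem_comap.mpr h)
    exact ⟨y, by rw [hren]; exact hy⟩
  set L := locPart m₀ ρ₀ with hL
  set 𝔪 := IsLocalRing.maximalIdeal O
  have hstab : ∀ b, ∀ x ∈ L, ρ b x ∈ L := fun b x hx =>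
    apply_mem_locPart (f := ρ b) (fun a y => by
      rw [hren, hren, ← Module.End.mul_apply, ← map_mul, mul_comm, map_mul,
        Module.End.mul_apply]) hx
  -- `J`: the elements lowering the localised part; it contains `p`
  let J : Ideal (MvPolynomial τ O) :=
    { carrier := {b | ∀ x ∈ L, ρ b x ∈ 𝔪 • L}
      add_mem' := fun {a b} ha hb x hx => by
        rw [map_add, LinearMap.add_apply]; exact add_mem (ha x hx) (hb x hx)
      zero_mem' := fun x hx => by simp
      smul_mem' := fun c {b} hb x hx => by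
        rw [smul_eq_mul, mul_comm, map_mul, Module.End.mul_apply]
        exact hb _ (hstab c x hx) }
  have hpJ : (pp : MvPolynomial τ O) ∈ J := fun x hx => by
    rw [map_natCast, Module.End.natCast_apply, ← Nat.cast_smul_eq_nsmul O]
    exact Submodule.smul_mem_smul hpm hx
  -- In characteristic `pp`, a `pp`-power unipotent is `1` modulo every prime over `J`.
  have hrad : ∀ t, t ∉ Set.range f → X t - 1 ∈ J.radical := by
    intro t ht
    obtain ⟨-, e, he⟩ := hu t ht
    rw [Ideal.radical_eq_sInf, Submodule.mem_sInf]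
    rintro P ⟨hJP, hP⟩
    have := hP
    set g := Ideal.Quotient.mk P
    have : CharP (MvPolynomial τ O ⧸ P) pp := (CharP.charP_iff_prime_eq_zero hpp.out).mpr (by
      rw [← map_natCast g, Ideal.Quotient.eq_zero_iff_mem]; exact hJP hpJ)
    have h1 : g (X t ^ (pp ^ e)) = 1 := by
      rw [← map_one g, Ideal.Quotient.eq]
      refine hJP fun x _ => ?_
      rw [map_sub, LinearMap.sub_apply, he, map_one, Module.End.one_apply, sub_self]
      exact zero_mem _
    rw [← Ideal.Quotient.eq_zero_iff_mem, map_sub, map_one]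
    refine (pow_eq_zero_iff (pow_ne_zero e hpp.out.ne_zero)).mp ?_
    rw [sub_pow_char_pow, one_pow, ← map_pow, h1, sub_self]
  -- so modulo its radical every element comes from the smaller algebra
  let back : MvPolynomial τ O →ₐ[O] MvPolynomial σ O :=
    aeval fun t => if h : t ∈ Set.range f then X h.choose else 1
  have hback : ∀ I : Ideal (MvPolynomial τ O), (∀ t, t ∉ Set.range f → X t - 1 ∈ I) →
      ∀ s, s - rename f (back s) ∈ I := by
    intro I hI s
    have e : (Ideal.Quotient.mkₐ O I).comp ((rename f).comp back) = Ideal.Quotient.mkₐ O I := by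
      refine algHom_ext fun t => ?_
      by_cases h : t ∈ Set.range f
      · simp only [AlgHom.comp_apply, back, aeval_X, dif_pos h, rename_X, h.choose_spec]
      · simp only [AlgHom.comp_apply, back, aeval_X, dif_neg h, map_one]
        exact (Ideal.Quotient.eq.mpr (hI t h)).symm
    exact Ideal.Quotient.eq.mp (AlgHom.congr_fun e s).symm
  have : IsNoetherian O M := isNoetherian_of_isNoetherianRing_of_finite O M
  intro x hx
  simp only [locPart, Submodule.mem_iInf]
  intro s hs
  set s₁ := back s
  have hs₁ : s₁ ∉ m₀ := fun h => hs (by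
    simpa [s₁] using add_mem (hback m (fun t ht => (hu t ht).1) s) (Ideal.mem_comap.mp h))
  obtain ⟨n, hn⟩ := hback J.radical hrad s
  have hn' : (rename f s₁ - s) ^ n ∈ J := by
    rw [← neg_sub, neg_pow]; exact J.mul_mem_left _ hn
  obtain ⟨w, hw⟩ := sub_dvd_pow_sub_pow (rename f s₁) (rename f s₁ - s) n
  rw [sub_sub_cancel] at hw
  -- Hence `ρ s` is onto `L` modulo `𝔪`, and Nakayama applies.
  have hle : L ≤ L.map (ρ s) ⊔ 𝔪 • L := by
    intro y hy
    have hsn : s₁ ^ n ∉ m₀ := fun h =>
      hs₁ ((Ideal.IsMaximal.isPrime inferInstance).mem_of_pow_mem n h)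
    obtain ⟨t, ht⟩ := exists_locAct_mul_eq_one (ρ := ρ₀) hsn
    have hz : ρ₀ t y ∈ L := map_mem_locPart t hy
    have e : y = ρ s (ρ w (ρ₀ t y)) + ρ ((rename f s₁ - s) ^ n) (ρ₀ t y) := by
      rw [← Module.End.mul_apply (ρ s), ← map_mul, ← LinearMap.add_apply, ← map_add, ← hw,
        sub_add_cancel, ← map_pow, ← hren, ← Module.End.mul_apply, ← map_mul]
      exact (congrArg Subtype.val (LinearMap.congr_fun ht ⟨y, hy⟩)).symm
    rw [e]
    exact Submodule.add_mem_sup (Submodule.mem_map_of_mem (hstab w _ hz)) (hn' _ hz)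
  obtain ⟨y, -, hy⟩ := Submodule.le_of_le_smul_of_le_jacobson_bot (IsNoetherian.noetherian L)
    (IsLocalRing.maximalIdeal_le_jacobson _) hle hx
  exact ⟨y, hy⟩

end Fermat.HM
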