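import Fermat.Agent.HM.TWStep
import Fermat.Agent.HM.Unipotent
import Fermat.Agent.HM.Sublevel

/-!
# The Taylor-Wiles step in terms of residual eigenvalue systems

`exists_twStep_sys`: adding a prime at a simple root (`TWStep`) does not change the localised
module. `TWLevel` iterates it over a list of auxiliary primes.
-/

namespace Fermat.HM

open scoped MatrixGroups
open MvPolynomial CongruenceSubgroup Fermat.MC.Lvl

section Gamma0Pull

variable {N : ℕ} {H : Subgroup (ZMod N)ˣ} {R : Type} [CommRing R]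

/-- The pull-backs along elements of `Γ₀(N)` compose. -/
theorem pull_gamma0_mul {g h : SL(2, ℤ)} (hg : g ∈ Gamma0 N) (hh : h ∈ Gamma0 N)
    (φ : Homs R (GammaH N H)) :
    (isLevelMap_gamma0 (le_refl H) (mul_mem hg hh)).pull φ
      = (isLevelMap_gamma0 (le_refl H) hh).pull ((isLevelMap_gamma0 (le_refl H) hg).pull φ) := by
  rw [← IsLevelMap.pull_comp]
  exact IsLevelMap.pull_congr _ _ (one_mem _) (by rw [map_one, one_mul, map_mul]) φ

/-- Elements of the level act trivially. -/
theorem pull_gamma0_of_mem {g : SL(2, ℤ)} (hg : g ∈ Gamma0 N) (h : g ∈ GammaH N H)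
    (φ : Homs R (GammaH N H)) : (isLevelMap_gamma0 (le_refl H) hg).pull φ = φ := by
  refine AddMonoidHom.ext fun γ => ?_
  obtain ⟨γ, rfl⟩ := Additive.ofMul.surjective γ
  rw [IsLevelMap.pull_apply _ φ γ (⟨g, h⟩ * γ * ⟨g, h⟩⁻¹) (by simp [mul_assoc])]
  simp

/-- A power of the pull-back is the pull-back along the power. -/
theorem pull_gamma0_pow {g : SL(2, ℤ)} (hg : g ∈ Gamma0 N) (n : ℕ) (φ : Homs R (GammaH N H)) :
    ((isLevelMap_gamma0 (le_refl H) hg).pull ^ n : Module.End R (Homs R (GammaH N H))) φ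
      = (isLevelMap_gamma0 (le_refl H) (pow_mem hg n)).pull φ := by
  induction n with
  | zero =>
    rw [pow_zero, Module.End.one_apply, pull_gamma0_of_mem (pow_mem hg 0)]
    rw [pow_zero]; exact one_mem _
  | succ n ih =>
    rw [pow_succ' _ n, Module.End.mul_apply, ih, ← pull_gamma0_mul (pow_mem hg n) hg]
    exact IsLevelMap.pull_congr _ _ (one_mem _) (by rw [map_one, one_mul, pow_succ]) φ

/-- If every `n`-th power of a unit lies in `H`, so does every `n`-th power in `Γ₀(N)`. -/
theorem pow_mem_gammaH {g : SL(2, ℤ)} (hg : g ∈ Gamma0 N) {n : ℕ}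
    (h : ∀ u : (ZMod N)ˣ, u ^ n ∈ H) : g ^ n ∈ GammaH N H := by
  have hgH : g ∈ GammaH N ⊤ := by rw [GammaH_top]; exact hg
  refine mem_GammaH_iff_upper.mpr ⟨pow_mem hg n,
    ((diagHom N ⊤ (⟨g, hgH⟩ ^ n) : (⊤ : Subgroup (ZMod N)ˣ)) : (ZMod N)ˣ), ?_, ?_⟩
  · rw [map_pow, Subgroup.coe_pow]; exact h _
  · rw [coe_diagHom, Subgroup.coe_pow]

/-- If every `n`-th power of a unit lies in `H`, the `n`-th power of a diamond operator is
trivial. -/
theorem pull_gamma0_pow_eq {g : SL(2, ℤ)} (hg : g ∈ Gamma0 N) {n : ℕ}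
    (h : ∀ u : (ZMod N)ˣ, u ^ n ∈ H) (φ : Homs R (GammaH N H)) :
    ((isLevelMap_gamma0 (le_refl H) hg).pull ^ n : Module.End R (Homs R (GammaH N H))) φ = φ := by
  rw [pull_gamma0_pow hg, pull_gamma0_of_mem (pow_mem hg n) (pow_mem_gammaH hg h)]

end Gamma0Pull

section Alpha

variable {N q : ℕ} [NeZero N] [hq : Fact q.Prime] [NeZero (N * q)] {H : Subgroup (ZMod N)ˣ}
  {O : Type} [CommRing O]

omit [NeZero N] [NeZero (N * q)] in
/-- Both degeneracy maps commute with the operators of `Γ₀(N q)`. -/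
theorem alphaMap_pull_gamma0 (hqN : ¬ q ∣ N) {g : SL(2, ℤ)} (hg : g ∈ Gamma0 (N * q))
    (hg' : g ∈ Gamma0 N) (z : Homs O (GammaH N H) × Homs O (GammaH N H)) :
    alphaMap O H hqN ((isLevelMap_gamma0 (le_refl H) hg').pull z.1,
        (isLevelMap_gamma0 (le_refl H) hg').pull z.2)
      = (isLevelMap_gamma0 (le_refl (upH H q)) hg).pull (alphaMap O H hqN z) := by
  obtain ⟨t, ht, et⟩ := (isLevelMap_infty (H := (⊤ : Subgroup (ZMod N)ˣ)) hqN).exists_conj g (by
    rw [show upH (⊤ : Subgroup (ZMod N)ˣ) q = ⊤ from Subgroup.comap_top _, GammaH_top]; exact hg)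
  rw [GammaH_top] at ht
  have e00 : ((t 0 0 : ℤ) : ZMod N) = ((g 0 0 : ℤ) : ZMod N) := by
    have e' : heckeMat q N (inftyIdx hqN).1 * (g : Matrix (Fin 2) (Fin 2) ℤ)
        = (t : Matrix (Fin 2) (Fin 2) ℤ) * heckeMat q N (inftyIdx hqN).1 := by
      refine Matrix.map_injective Int.cast_injective (α := ℤ) (β := ℚ) ?_
      have h := congrArg Units.val et
      rw [Units.val_mul, Units.val_mul, coe_gq, coe_gq, coe_stdGL, ← Matrix.map_mul_intCast,
        ← Matrix.map_mul_intCast] at h
      exact h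
    have h := congrArg (fun M : Matrix (Fin 2) (Fin 2) ℤ => ((M 0 0 : ℤ) : ZMod N)) e'
    have hb := congrArg (fun x : ℤ => (x : ZMod N)) (bezout hqN)
    simp at hb
    simp [Matrix.mul_apply, Fin.sum_univ_two, inftyIdx, heckeMat, Gamma0_mem.mp hg'] at h
    linear_combination ((g 0 0 : ℤ) : ZMod N) * hb - ((t 0 0 : ℤ) : ZMod N) * hb - h
  simp only [alphaMap, LinearMap.add_apply, LinearMap.comp_apply, LinearMap.fst_apply,
    LinearMap.snd_apply, map_add]
  congr 1
  · rw [← IsLevelMap.pull_comp, ← IsLevelMap.pull_comp]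
    exact IsLevelMap.pull_congr _ _ (one_mem _) (by simp) z.1
  · rw [← IsLevelMap.pull_comp, ← IsLevelMap.pull_comp]
    refine IsLevelMap.pull_congr _ _ (gamma0_mul_inv_mem hg' ht e00.symm) ?_ z.2
    rw [et, ← mul_assoc, ← map_mul, inv_mul_cancel_right]

end Alpha

section Systems

variable {O : Type} [CommRing O] [IsLocalRing O] {σ : Type}

/-- The maximal ideal of a residual system of eigenvalues. -/
noncomputable abbrev sysIdeal (θ : σ → IsLocalRing.ResidueField O) : Ideal (MvPolynomial σ O) :=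
  RingHom.ker (aeval (R := O) θ)

/-- The ideal of a residual system is maximal. -/
instance isMaximal_sysIdeal (θ : σ → IsLocalRing.ResidueField O) :
    (sysIdeal θ).IsMaximal :=
  RingHom.ker_isMaximal_of_surjective _ fun x => by
    obtain ⟨c, rfl⟩ := Ideal.Quotient.mk_surjective x
    exact ⟨C c, by rw [aeval_C]; rfl⟩

/-- Renaming the indices pulls a system back along the renaming. -/
theorem comap_rename_sysIdeal {τ : Type} (f : σ → τ) (θ : τ → IsLocalRing.ResidueField O) :
    (sysIdeal θ).comap (rename (R := O) f) = sysIdeal (θ ∘ f) := by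
  ext a
  rw [Ideal.mem_comap, RingHom.mem_ker, RingHom.mem_ker, aeval_rename]

/-- A non-Eisenstein system stays so when finitely many primes are forgotten or altered. -/
theorem NonEisenstein.of_agree {p : σ → ℕ} [hp : ∀ i, Fact (p i).Prime] {σ' : Type} {f : σ' → σ}
    {θ : σ → IsLocalRing.ResidueField O} {θ' : σ' → IsLocalRing.ResidueField O}
    (hne : NonEisenstein p (sysIdeal θ)) {B : ℕ} (hB : B ≠ 0)
    (h : ∀ i, ¬ p i ∣ B → ∃ j, f j = i ∧ θ' j = θ i) :
    haveI : ∀ j, Fact ((p ∘ f) j).Prime := fun j => hp (f j)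
    NonEisenstein (p ∘ f) (sysIdeal θ') := by
  intro M hM
  obtain ⟨i, hi, hi'⟩ := hne (M * B) (mul_ne_zero hM hB)
  obtain ⟨j, hj, hθ⟩ := h i fun hd => by
    have h1 : ((p i : ℕ) : ZMod (p i)) = 1 := by
      have := congrArg (ZMod.castHom (hd.trans (dvd_mul_left B M)) (ZMod (p i))) hi
      rwa [map_natCast, map_one] at this
    rw [ZMod.natCast_self] at h1
    have := hp i
    exact zero_ne_one h1
  refine ⟨j, ?_, fun h' => hi' ?_⟩
  · change ((p (f j) : ℕ) : ZMod M) = 1
    have := congrArg (ZMod.castHom (dvd_mul_right M B) (ZMod M)) hi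
    rwa [map_natCast, map_one, ← hj] at this
  · rw [RingHom.mem_ker] at h' ⊢
    simp only [eisElt, map_sub, aeval_X, aeval_C, Function.comp_apply, hj] at h' ⊢
    rwa [hθ] at h'

end Systems

variable {O : Type} [CommRing O] [IsDomain O] [IsPrincipalIdealRing O] [IsLocalRing O]
  [IsAdicComplete (IsLocalRing.maximalIdeal O) O] {σ : Type} {p : σ → ℕ}
  [hp : ∀ i, Fact (p i).Prime] {pp : ℕ} [Fact pp.Prime]

open scoped Classical in
/-- The position of an index once `i₀` is set apart. -/
private noncomputable def twIdx (i₀ : σ) (i : σ) : Option (Option {i : σ // i ≠ i₀}) :=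
  if h : i = i₀ then some none else some (some ⟨i, h⟩)

/-- A residual system with `x` at `i₀` and `1` at the diamond operator. -/
private noncomputable def twTheta (θ : σ → IsLocalRing.ResidueField O) (i₀ : σ)
    (x : IsLocalRing.ResidueField O) :
    Option (Option {i : σ // i ≠ i₀}) → IsLocalRing.ResidueField O
  | none => 1
  | some none => x
  | some (some i) => θ i

omit [IsDomain O] [IsPrincipalIdealRing O] [IsAdicComplete (IsLocalRing.maximalIdeal O) O] in
open scoped Classical in
/-- The system with `x` at `i₀`, read on the original indices. -/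
private theorem twTheta_comp_idx (θ : σ → IsLocalRing.ResidueField O) (i₀ : σ)
    (x : IsLocalRing.ResidueField O) : twTheta θ i₀ x ∘ twIdx i₀ = Function.update θ i₀ x := by
  funext i
  by_cases h : i = i₀
  · subst h; simp [twIdx, twTheta]
  · simp [twIdx, twTheta, h]

/-- Only the diamond index is not the position of an original one. -/
private theorem eq_none_of_notMem_range {i₀ : σ} {j : Option (Option {i : σ // i ≠ i₀})}
    (h : j ∉ Set.range (twIdx i₀)) : j = none := by
  rcases j with _ | _ | i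
  · rfl
  · exact absurd ⟨i₀, by simp [twIdx]⟩ h
  · exact absurd ⟨i.1, by simp [twIdx, i.2]⟩ h

omit [IsDomain O] [IsPrincipalIdealRing O] [IsAdicComplete (IsLocalRing.maximalIdeal O) O] in
/-- Substituting a lift of `α` for `U q` turns the system with `θ i₀` into the one with `α`. -/
private theorem comap_substU_twTheta {θ : σ → IsLocalRing.ResidueField O} {i₀ : σ}
    {α : IsLocalRing.ResidueField O}
    {r₀ : MvPolynomial (Option (Option {i : σ // i ≠ i₀})) O}
    (hr₀ : aeval (twTheta θ i₀ (θ i₀)) r₀ = α) :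
    (sysIdeal (twTheta θ i₀ (θ i₀))).comap (substU r₀) = sysIdeal (twTheta θ i₀ α) := by
  have e : (aeval (twTheta θ i₀ (θ i₀))).comp (substU r₀) = aeval (R := O) (twTheta θ i₀ α) :=
    algHom_ext fun j => by rcases j with _ | _ | i <;> simp [twTheta, hr₀]
  ext a
  rw [Ideal.mem_comap, RingHom.mem_ker, RingHom.mem_ker, ← e]
  rfl

open scoped Classical in
/-- The part at the smaller level does not depend on how the operators are indexed. -/
private theorem locPart_bot_eq {N q : ℕ} [NeZero N] [Fact q.Prime] [NeZero (N * q)]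
    {H : Subgroup (ZMod N)ˣ} (hqN : ¬ q ∣ N) {i₀ : σ} (hi : p i₀ = q)
    (θ : σ → IsLocalRing.ResidueField O) (hpm : (pp : O) ∈ IsLocalRing.maximalIdeal O) {e : ℕ}
    (hH : ∀ u : (ZMod N)ˣ, u ^ pp ^ e ∈ H) [Module.Finite O (Homs O (GammaH N H))]
    [∀ i : {i : σ // i ≠ i₀}, Fact (p i).Prime] :
    locPart (sysIdeal θ) (heckeAct O O N H p)
      = locPart (sysIdeal (twTheta θ i₀ (θ i₀)))
          (botAct O H hqN fun i : {i : σ // i ≠ i₀} => p i) := by
  have : ((sysIdeal (twTheta θ i₀ (θ i₀))).comap (rename (R := O) (twIdx i₀))).IsMaximal :=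
    comap_rename_sysIdeal (twIdx i₀) (twTheta θ i₀ (θ i₀)) ▸ isMaximal_sysIdeal _
  have hX : ∀ i x, heckeAct O O N H p (X i) x
      = botAct O H hqN (fun i : {i : σ // i ≠ i₀} => p i) (X (twIdx i₀ i)) x := fun i x => by
    rw [botAct, commAeval_X, heckeAct_X]
    by_cases h : i = i₀
    · subst hi; subst h
      simp [twIdx, botOps]
    · simp [twIdx, h, botOps]
  rw [← locPart_comap_rename hpm _ (twIdx i₀) hX (sysIdeal (twTheta θ i₀ (θ i₀))) ?_]
  · simp only [comap_rename_sysIdeal, twTheta_comp_idx, Function.update_eq_self]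
  · intro t ht
    obtain rfl := eq_none_of_notMem_range ht
    refine ⟨by simp [RingHom.mem_ker, twTheta], e, fun x => ?_⟩
    rw [map_pow, botAct, commAeval_X]
    exact pull_gamma0_pow_eq (tauElt_mem_base hqN) hH x

open scoped Classical in
/-- The part at the larger level does not depend on how the operators are indexed. -/
private theorem locPart_top_eq {N q : ℕ} [NeZero N] [Fact q.Prime] [NeZero (N * q)]
    {H : Subgroup (ZMod N)ˣ} (hqN : ¬ q ∣ N) {i₀ : σ} (hi : p i₀ = q)
    (θ : σ → IsLocalRing.ResidueField O) (α : IsLocalRing.ResidueField O)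
    (hpm : (pp : O) ∈ IsLocalRing.maximalIdeal O) {e : ℕ}
    (hH : ∀ u : (ZMod (N * q))ˣ, u ^ pp ^ e ∈ upH H q)
    [Module.Finite O (Homs O (GammaH (N * q) (upH H q)))]
    [∀ i : {i : σ // i ≠ i₀}, Fact (p i).Prime] :
    locPart (sysIdeal (Function.update θ i₀ α)) (heckeAct O O (N * q) (upH H q) p)
      = locPart (sysIdeal (twTheta θ i₀ α))
          (topAct O H hqN fun i : {i : σ // i ≠ i₀} => p i) := by
  have : ((sysIdeal (twTheta θ i₀ α)).comap (rename (R := O) (twIdx i₀))).IsMaximal :=
    comap_rename_sysIdeal (twIdx i₀) (twTheta θ i₀ α) ▸ isMaximal_sysIdeal _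
  have hX : ∀ i x, heckeAct O O (N * q) (upH H q) p (X i) x
      = topAct O H hqN (fun i : {i : σ // i ≠ i₀} => p i) (X (twIdx i₀ i)) x := fun i x => by
    rw [topAct, commAeval_X, heckeAct_X]
    by_cases h : i = i₀
    · subst hi; subst h
      simp [twIdx, topOps]
    · simp [twIdx, h, topOps]
  rw [← locPart_comap_rename hpm _ (twIdx i₀) hX (sysIdeal (twTheta θ i₀ α)) ?_]
  · simp only [comap_rename_sysIdeal, twTheta_comp_idx]
  · intro t ht
    obtain rfl := eq_none_of_notMem_range ht
    refine ⟨by simp [RingHom.mem_ker, twTheta], e, fun x => ?_⟩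
    rw [map_pow, topAct, commAeval_X]
    exact pull_gamma0_pow_eq (tauElt_mem hqN) hH x

omit [IsDomain O] [IsPrincipalIdealRing O] [IsLocalRing O]
  [IsAdicComplete (IsLocalRing.maximalIdeal O) O] in
/-- The operators of `Γ₀(N)` commute with the action at level `N`. -/
private theorem pull_botAct_comm {τ : Type} {p' : τ → ℕ} [hp' : ∀ i, Fact (p' i).Prime] {N q : ℕ}
    [NeZero N] [hq : Fact q.Prime] [NeZero (N * q)] {H : Subgroup (ZMod N)ˣ} (hqN : ¬ q ∣ N)
    {g : SL(2, ℤ)} (hg : g ∈ Gamma0 N) (a : MvPolynomial (Option (Option τ)) O)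
    (x : Homs O (GammaH N H)) :
    (isLevelMap_gamma0 (le_refl H) hg).pull (botAct O H hqN p' a x)
      = botAct O H hqN p' a ((isLevelMap_gamma0 (le_refl H) hg).pull x) :=
  intertwine_of_X _ (fun j x => by
    rw [botAct, commAeval_X]
    rcases j with _ | _ | i <;> simp only [botOps]
    · simp only [diaQ]
      rw [← pull_gamma0_mul (tauElt_mem_base hqN) hg, ← pull_gamma0_mul hg (tauElt_mem_base hqN)]
      refine IsLevelMap.pull_congr _ _ (gamma0_mul_inv_mem (mul_mem (tauElt_mem_base hqN) hg)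
        (mul_mem hg (tauElt_mem_base hqN)) ?_) ?_ x
      · simp [Matrix.mul_apply, Fin.sum_univ_two, Gamma0_mem.mp hg,
          Gamma0_mem.mp (tauElt_mem_base (N := N) (q := q) hqN), mul_comm]
      · rw [← map_mul, inv_mul_cancel_right]
    · exact (IsLevelMap.pull_heckeT (isLevelMap_gamma0 (le_refl H) hg) hq.out.not_dvd_one
        Iff.rfl x).symm
    · exact (IsLevelMap.pull_heckeT (isLevelMap_gamma0 (le_refl H) hg)
        (hp' i).out.not_dvd_one Iff.rfl x).symm) a x

open scoped Classical in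
/-- **The Taylor-Wiles step**: adding `q` at a simple root `α` gives a map of localised modules
that is bijective, commutes with the Hecke operators away from `i₀` and with the diamond operators,
and carries a pair of operators compatible with both degeneracy maps to each other. -/
theorem exists_twStep_sys {N q : ℕ} [NeZero N] [hq : Fact q.Prime] [NeZero (N * q)]
    {H : Subgroup (ZMod N)ˣ} (hqN : ¬ q ∣ N) (hinj : Function.Injective p) {i₀ : σ}
    (hi : p i₀ = q) {θ : σ → IsLocalRing.ResidueField O} (hne : NonEisenstein p (sysIdeal θ))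
    (hpm : (pp : O) ∈ IsLocalRing.maximalIdeal O) (hΓ : GoodLevel O (GammaH N ⊤)) (hneg : -1 ∈ H)
    {e : ℕ} (hH : ∀ u : (ZMod N)ˣ, u ^ pp ^ e ∈ H) {α : IsLocalRing.ResidueField O}
    (hα : α * α - θ i₀ * α + q = 0) (hα₂ : 2 * α ≠ θ i₀)
    (hq₀ : (q : IsLocalRing.ResidueField O) ≠ 0) (hα₃ : α * α ≠ 1)
    [Module.Finite O (Homs O (GammaH N H))] [Module.Finite O (Homs O (GammaH (N * q) (upH H q)))] :
    ∃ π : locPart (sysIdeal (Function.update θ i₀ α)) (heckeAct O O (N * q) (upH H q) p)
        →ₗ[O] locPart (sysIdeal θ) (heckeAct O O N H p),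
      Function.Bijective π ∧
      (∀ i, i ≠ i₀ → ∀ z, π (locAct _ (heckeAct O O (N * q) (upH H q) p) (X i) z)
        = locAct _ (heckeAct O O N H p) (X i) (π z)) ∧
      (∀ (g : SL(2, ℤ)) (hg : g ∈ Gamma0 (N * q)) (hg' : g ∈ Gamma0 N)
        (z w : locPart (sysIdeal (Function.update θ i₀ α)) (heckeAct O O (N * q) (upH H q) p)),
        (w : Homs O (GammaH (N * q) (upH H q)))
            = (isLevelMap_gamma0 (le_refl (upH H q)) hg).pull (z : Homs O _) →
          (π w : Homs O (GammaH N H))
            = (isLevelMap_gamma0 (le_refl H) hg').pull (π z : Homs O (GammaH N H))) ∧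
      ∀ (F : Module.End O (Homs O (GammaH N H)))
        (F' : Module.End O (Homs O (GammaH (N * q) (upH H q)))),
        (∀ (g : SL(2, ℤ)) (hg : g ∈ Gamma0 N) x, F ((isLevelMap_gamma0 (le_refl H) hg).pull x)
          = (isLevelMap_gamma0 (le_refl H) hg).pull (F x)) →
        (∀ i x, F (heckeT O N H (p i) x) = heckeT O N H (p i) (F x)) →
        (∀ x, F' ((isLevelMap_up (H := H) (q := q)).pull x)
          = (isLevelMap_up (H := H) (q := q)).pull (F x)) →
        (∀ x, F' ((isLevelMap_infty (H := H) hqN).pull x)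
          = (isLevelMap_infty (H := H) hqN).pull (F x)) →
        ∀ z w : locPart (sysIdeal (Function.update θ i₀ α)) (heckeAct O O (N * q) (upH H q) p),
          (w : Homs O (GammaH (N * q) (upH H q))) = F' (z : Homs O _) →
            (π w : Homs O (GammaH N H)) = F (π z : Homs O (GammaH N H)) := by
  let σ' := {i : σ // i ≠ i₀}
  let p' : σ' → ℕ := fun i => p i
  have hp' : ∀ i, Fact (p' i).Prime := fun i => hp i
  have hpq : ∀ i : σ', p' i ≠ q := fun i h => i.2 (hinj (h.trans hi.symm))
  let θP := twTheta θ i₀ (θ i₀)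
  -- lift `α` and read the systems on the indices with `i₀` set apart
  obtain ⟨r₀, hr₀⟩ : ∃ r₀ : MvPolynomial (Option (Option σ')) O, aeval θP r₀ = α := by
    obtain ⟨c, hc⟩ := Ideal.Quotient.mk_surjective α
    exact ⟨C c, by rw [aeval_C, ← hc]; rfl⟩
  have hsub := comap_substU_twTheta hr₀
  have : (sysIdeal θP).comap (substU r₀) |>.IsMaximal := hsub ▸ isMaximal_sysIdeal _
  have : ((sysIdeal θP).comap (rename (R := O) fun i : σ' => some (some i))).IsMaximal :=
    comap_rename_sysIdeal (fun i : σ' => some (some i)) θP ▸ isMaximal_sysIdeal _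
  have hne' : NonEisenstein p' ((sysIdeal θP).comap (rename (R := O) fun i : σ' =>
      some (some i))) := by
    rw [comap_rename_sysIdeal]
    exact NonEisenstein.of_agree (f := Subtype.val) hne hq.out.ne_zero fun i h =>
      ⟨⟨i, fun e => h (by rw [e, hi])⟩, rfl, rfl⟩
  have hroot : SimpleRoot (sysIdeal θP) q r₀ := by
    refine ⟨?_, fun h => hα₂ ?_, fun h => hq₀ ?_⟩
    · simp [RingHom.mem_ker, cstElt, hr₀, θP, twTheta, hα]
    · simpa [RingHom.mem_ker, hr₀, θP, twTheta, sub_eq_zero] using h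
    · simpa [RingHom.mem_ker, cstElt, θP, twTheta] using h
  have hsq : r₀ * r₀ - X none ∉ sysIdeal θP := fun h => hα₃ (by
    simpa [RingHom.mem_ker, hr₀, θP, twTheta, sub_eq_zero] using h)
  have hH' : ∀ u : (ZMod (N * q))ˣ, u ^ pp ^ e ∈ upH H q := fun u =>
    Subgroup.mem_comap.mpr (by rw [map_pow]; exact hH _)
  have hneg' : -1 ∈ upH H q := by
    refine Subgroup.mem_comap.mpr ?_
    convert hneg
    exact Units.ext (by simp [ZMod.unitsMap_def])
  -- the step for the reindexed actions, then transport to the original indices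
  obtain ⟨u, -, π, hπ, hπa, hπF⟩ := exists_twStep (p := p') hqN hpq
    (hΓ.gammaH dvd_rfl le_top hneg) (hΓ.gammaH (dvd_mul_right N q) le_top hneg')
    (m := sysIdeal θP) hne' hroot hsq
  let eB := LinearEquiv.ofEq _ _ (locPart_bot_eq hqN hi θ hpm hH)
  let eT := LinearEquiv.ofEq _ (locPart ((sysIdeal θP).comap (substU r₀)) (topAct O H hqN p'))
    ((locPart_top_eq hqN hi θ α hpm hH').trans
      (congrArg (fun m => locPart m (topAct O H hqN p')) hsub.symm))
  refine ⟨eB.symm.toLinearMap.comp (π.comp eT.toLinearMap),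
    eB.symm.bijective.comp (hπ.comp eT.bijective), fun i hi' z => ?_, fun g hg hg' z w hw => ?_,
    fun F F' hFg hFT hFu hFi z w hw => ?_⟩
  · have h1 := congrArg Subtype.val (hπa (X (some (some ⟨i, hi'⟩))) (eT z))
    rw [substU_some] at h1
    refine Subtype.ext ?_
    simp only [LinearMap.comp_apply, LinearEquiv.coe_coe, eB, LinearEquiv.ofEq_symm,
      LinearEquiv.coe_ofEq_apply, coe_locAct, heckeAct_X] at h1 ⊢
    simp only [botAct, commAeval_X] at h1
    refine Eq.trans ?_ h1
    refine congrArg (fun v => ((π v : locPart _ _) : Homs O (GammaH N H))) (Subtype.ext ?_)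
    simp [coe_locAct, heckeAct_X, eT, LinearEquiv.coe_ofEq_apply]
    rw [topAct, commAeval_X]
    rfl
  · simpa [eB, eT] using hπF _ _ (pull_botAct_comm hqN hg') (alphaMap_pull_gamma0 hqN hg hg')
      (eT z) (eT w) (by simpa [eT] using hw)
  · have hFcomm : ∀ a x, F (botAct O H hqN p' a x) = botAct O H hqN p' a (F x) :=
      intertwine_of_X _ fun j x => by
        rw [botAct, commAeval_X]
        rcases j with _ | _ | i <;> simp only [botOps]
        · exact hFg _ (tauElt_mem_base hqN) x
        · subst hi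
          exact hFT i₀ x
        · exact hFT i x
    simpa [eB, eT] using hπF F F' hFcomm (fun y => by
      simp only [alphaMap, LinearMap.add_apply, LinearMap.comp_apply, LinearMap.fst_apply,
        LinearMap.snd_apply, map_add, hFu, hFi]) (eT z) (eT w) (by simpa [eT] using hw)

end Fermat.HM
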