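import Fermat.Agent.HM.LocalRoot
import Fermat.Agent.HM.Operators

/-!
# Two copies with a companion matrix, at a simple root

`M × M` with the operator `(x, y) ↦ (T x + c y, -x)`: at a simple root `r₀` of `X² - T X + c`
modulo the maximal ideal it is the `m`-part of `M`.
-/

namespace Fermat.HM

open MvPolynomial

variable {O : Type} [CommRing O] {ι : Type}

/-- Substitution of the distinguished variable `some none`. -/
noncomputable def substU (r : MvPolynomial (Option (Option ι)) O) :
    MvPolynomial (Option (Option ι)) O →ₐ[O] MvPolynomial (Option (Option ι)) O :=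
  aeval fun j => match j with
    | some none => r
    | j => X j

/-- Substitution sends the distinguished variable to `r`. -/
@[simp] theorem substU_U (r : MvPolynomial (Option (Option ι)) O) :
    substU r (X (some none)) = r := by simp [substU]

/-- Substitution fixes the variable of the diamond operator. -/
@[simp] theorem substU_none (r : MvPolynomial (Option (Option ι)) O) :
    substU r (X none) = X none := by simp [substU]

/-- Substitution fixes the other variables. -/
@[simp] theorem substU_some (r : MvPolynomial (Option (Option ι)) O) (i : ι) :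
    substU r (X (some (some i))) = X (some (some i)) := by simp [substU]

/-- Substituting congruent elements gives congruent results. -/
theorem substU_sub_mem {m : Ideal (MvPolynomial (Option (Option ι)) O)}
    {r r' : MvPolynomial (Option (Option ι)) O} (h : r - r' ∈ m)
    (a : MvPolynomial (Option (Option ι)) O) : substU r a - substU r' a ∈ m := by
  have e : (Ideal.Quotient.mkₐ O m).comp (substU r) = (Ideal.Quotient.mkₐ O m).comp
      (substU r') := by
    refine MvPolynomial.algHom_ext fun j => ?_
    rcases j with _ | _ | i <;> simp [Ideal.Quotient.eq, h]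
  exact Ideal.Quotient.eq.mp (AlgHom.congr_fun e a)

variable {M : Type} [AddCommGroup M] [Module O M]
  (ρ : MvPolynomial (Option (Option ι)) O →ₐ[O] Module.End O M)

/-- The element `c = q ⟨q⟩`. -/
noncomputable def cstElt (q : ℕ) : MvPolynomial (Option (Option ι)) O := C (q : O) * X none

/-- The operators on two copies. -/
noncomputable def twoOps (q : ℕ) : Option (Option ι) → Module.End O (M × M)
  | some none =>
      (((ρ (X (some none))).comp (LinearMap.fst O M M)
          + (ρ (cstElt q)).comp (LinearMap.snd O M M)).prod (-LinearMap.fst O M M))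
  | j => (ρ (X j)).prodMap (ρ (X j))

/-- The distinguished operator on two copies is `(x, y) ↦ (T x + c y, -x)`. -/
theorem twoOps_U (q : ℕ) (z : M × M) :
    twoOps ρ q (some none) z = (ρ (X (some none)) z.1 + ρ (cstElt q) z.2, -z.1) := rfl

/-- The other operators act diagonally on two copies. -/
theorem twoOps_other (q : ℕ) (j : Option (Option ι)) (hj : j ≠ some none) :
    twoOps ρ q j = (ρ (X j)).prodMap (ρ (X j)) := by
  rcases j with _ | _ | i
  · rfl
  · exact absurd rfl hj
  · rfl

/-- The diagonal operators commute with the operators on two copies. -/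
theorem prodMap_comm_twoOps (q : ℕ) (a : MvPolynomial (Option (Option ι)) O) (j) :
    (ρ a).prodMap (ρ a) * twoOps ρ q j = twoOps ρ q j * (ρ a).prodMap (ρ a) := by
  have h : ∀ b x, ρ a (ρ b x) = ρ b (ρ a x) := fun b x => by
    rw [← Module.End.mul_apply, ← map_mul, mul_comm, map_mul, Module.End.mul_apply]
  refine LinearMap.ext fun z => ?_
  rcases j with _ | _ | i <;>
    simp [twoOps, Module.End.mul_apply, h]

/-- The operators on two copies commute. -/
theorem twoOps_comm (q : ℕ) (i j : Option (Option ι)) :
    twoOps ρ q i * twoOps ρ q j = twoOps ρ q j * twoOps ρ q i := by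
  by_cases hi : i = some none
  · by_cases hj : j = some none
    · rw [hi, hj]
    · rw [twoOps_other ρ q j hj]; exact (prodMap_comm_twoOps ρ q (X j) i).symm
  · rw [twoOps_other ρ q i hi]; exact prodMap_comm_twoOps ρ q (X i) j

/-- The action on two copies. -/
noncomputable def twoAct (q : ℕ) :
    MvPolynomial (Option (Option ι)) O →ₐ[O] Module.End O (M × M) :=
  commAeval (twoOps ρ q) (twoOps_comm ρ q)

/-- A variable acts on two copies as its operator. -/
theorem twoAct_X (q : ℕ) (j) : twoAct ρ q (X j) = twoOps ρ q j := commAeval_X _ _ j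

/-- The diagonal operators commute with the action on two copies. -/
theorem prodMap_comm_twoAct (q : ℕ) (a b : MvPolynomial (Option (Option ι)) O) (z : M × M) :
    (ρ a).prodMap (ρ a) (twoAct ρ q b z) = twoAct ρ q b ((ρ a).prodMap (ρ a) z) :=
  intertwine_of_X ((ρ a).prodMap (ρ a)) (fun j x => by
    rw [twoAct_X]; exact LinearMap.congr_fun (prodMap_comm_twoOps ρ q a j) x) b z

/-- Cayley-Hamilton for the companion matrix: `U² + c = T U` on two copies. -/
theorem cayley (q : ℕ) (z : M × M) :
    twoAct ρ q (X (some none)) (twoAct ρ q (X (some none)) z)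
        + (ρ (cstElt q)).prodMap (ρ (cstElt q)) z
      = (ρ (X (some none))).prodMap (ρ (X (some none))) (twoAct ρ q (X (some none)) z) := by
  rw [twoAct_X, twoOps_U, twoOps_U]
  refine Prod.ext ?_ ?_
  · simp
  · simp

variable [IsLocalRing O] [IsNoetherianRing O] [IsAdicComplete (IsLocalRing.maximalIdeal O) O]
  [Module.Finite O M] {m : Ideal (MvPolynomial (Option (Option ι)) O)} [hm : m.IsMaximal]

/-- A simple root of `X² - T X + c` modulo `m`, the constant `c` not being in `m`. -/
structure SimpleRoot (m : Ideal (MvPolynomial (Option (Option ι)) O)) (q : ℕ)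
    (r₀ : MvPolynomial (Option (Option ι)) O) : Prop where
  /-- `r₀` is a root modulo `m`. -/
  eval_mem : r₀ * r₀ - X (some none) * r₀ + cstElt q ∈ m
  /-- The derivative at `r₀` is not in `m`. -/
  deriv_not_mem : 2 * r₀ - X (some none) ∉ m
  /-- The constant term is not in `m`. -/
  cst_not_mem : (cstElt q : MvPolynomial (Option (Option ι)) O) ∉ m

variable {ρ} {q : ℕ} {r₀ : MvPolynomial (Option (Option ι)) O}

omit [IsLocalRing O] [IsNoetherianRing O] [IsAdicComplete (IsLocalRing.maximalIdeal O) O] hm in
/-- A simple root is not in `m`, since `c` is not. -/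
theorem SimpleRoot.root_not_mem (h : SimpleRoot m q r₀) : r₀ ∉ m := fun hr => by
  refine h.cst_not_mem ?_
  have := sub_mem h.eval_mem (sub_mem (Ideal.mul_mem_right r₀ m hr)
    (Ideal.mul_mem_left m (X (some none)) hr))
  simpa using this

variable [hmT : (m.comap (substU r₀)).IsMaximal]

/-- At a simple root the operators act diagonally on the local part of two copies, after a
substitution. -/
theorem exists_diag_subst (h : SimpleRoot m q r₀) {z : M × M}
    (hz : z ∈ locPart (m.comap (substU r₀)) (twoAct ρ q)) (hz0 : z ≠ 0) :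
    ∃ r, (∀ a, substU r₀ (substU r a) - a ∈ m) ∧
      ∀ a, ∀ y ∈ locPart (m.comap (substU r₀)) (twoAct ρ q),
        twoAct ρ q (substU r a) y = (ρ a).prodMap (ρ a) y := by
  set mT := m.comap (substU r₀) with hmTdef
  have hU : X (some none) ∉ mT := by
    rw [hmTdef, Ideal.mem_comap, substU_U]
    exact h.root_not_mem
  obtain ⟨w, hw⟩ := exists_locAct_mul_eq_one (ρ := twoAct ρ q) hU
  have hw1 : ∀ y ∈ locPart mT (twoAct ρ q), twoAct ρ q (X (some none) * w) y = y := fun y hy =>
    congrArg Subtype.val (LinearMap.congr_fun hw ⟨y, hy⟩)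
  have hwmem : X (some none) * w - 1 ∈ mT := by
    by_contra hne
    exact hz0 (eq_zero_of_killed hne hz (by
      rw [map_sub, LinearMap.sub_apply, map_one, Module.End.one_apply, hw1 z hz, sub_self]))
  -- `r = U + q w`, with `w` inverse to `U` on the local part, acts diagonally there.
  set r := X (some none) + cstElt q * w with hr
  have hdiag : ∀ (a : MvPolynomial (Option (Option ι)) O), ∀ y ∈ locPart mT (twoAct ρ q),
      twoAct ρ q (substU r a) y = (ρ a).prodMap (ρ a) y := by
    intro a
    induction a using MvPolynomial.induction_on with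
    | C c =>
      intro y _
      rw [← MvPolynomial.algebraMap_eq, AlgHom.commutes, AlgHom.commutes, AlgHom.commutes]
      simp [Prod.ext_iff]
    | add a b ha hb =>
      intro y hy
      rw [map_add, map_add, LinearMap.add_apply, ha y hy, hb y hy, map_add]
      simp
    | mul_X a j ha =>
      intro y hy
      have hstep : twoAct ρ q (substU r (X j)) y = (ρ (X j)).prodMap (ρ (X j)) y := by
        by_cases hj : j = some none
        · subst hj
          rw [substU_U, hr]
          -- compare after applying `U`
          refine sub_eq_zero.mp (eq_zero_of_killed hU (m := mT) (ρ := twoAct ρ q) (sub_mem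
            (map_mem_locPart _ hy) ?_) ?_)
          · exact apply_mem_locPart (f := (ρ (X (some none))).prodMap (ρ (X (some none))))
              (fun b x => prodMap_comm_twoAct ρ q _ b x) hy
          · have hc : ∀ x, twoAct ρ q (cstElt q) x = (ρ (cstElt q)).prodMap (ρ (cstElt q)) x :=
                fun x => by
              rw [cstElt, map_mul, map_mul, Module.End.mul_apply, ← MvPolynomial.algebraMap_eq,
                AlgHom.commutes, AlgHom.commutes, twoAct_X, twoOps_other ρ q none (by simp)]
              simp
            rw [map_sub, ← Module.End.mul_apply, ← map_mul, mul_add, map_add, LinearMap.add_apply,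
              show X (some none) * (cstElt q * w) = cstElt q * (X (some none) * w) by ring,
              map_mul, Module.End.mul_apply, map_mul (twoAct ρ q) (cstElt q), Module.End.mul_apply,
              hw1 y hy, hc, cayley, ← prodMap_comm_twoAct, sub_self]
        · rcases j with _ | _ | i
          · rw [substU_none, twoAct_X, twoOps_other ρ q none hj]
          · exact absurd rfl hj
          · rw [substU_some, twoAct_X, twoOps_other ρ q _ hj]
      rw [map_mul, map_mul, Module.End.mul_apply, hstep, ha _ ?_, map_mul]
      · rfl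
      · exact hstep ▸ map_mem_locPart _ hy
  -- Substituting `r₀` undoes it modulo `m`: `r₀ + q / r₀` is the variable, as `r₀` is a root.
  have hcong : ∀ a, substU r₀ (substU r a) - a ∈ m := fun a => by
    have e : ((Ideal.Quotient.mkₐ O m).comp (substU r₀)).comp (substU r)
        = Ideal.Quotient.mkₐ O m := by
      refine MvPolynomial.algHom_ext fun j => ?_
      rcases j with _ | _ | i
      · simp
      swap
      · simp
      simp only [AlgHom.comp_apply, substU_U, hr, map_add, map_mul, Ideal.Quotient.mkₐ_eq_mk]
      rw [show substU r₀ (cstElt q) = cstElt q by simp [cstElt], ← map_mul, ← map_add,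
        Ideal.Quotient.eq]
      refine (hm.isPrime.mem_or_mem ?_).resolve_left h.root_not_mem
      have h1 : r₀ * substU r₀ w - 1 ∈ m := by
        have := Ideal.mem_comap.mp hwmem
        rwa [map_sub, map_mul, substU_U, map_one] at this
      rw [show r₀ * (r₀ + cstElt q * substU r₀ w - X (some none))
        = (r₀ * r₀ - X (some none) * r₀ + cstElt q) + cstElt q * (r₀ * substU r₀ w - 1) by ring]
      exact add_mem h.eval_mem (Ideal.mul_mem_left _ _ h1)
    exact Ideal.Quotient.eq.mp (AlgHom.congr_fun e a)
  exact ⟨r, hcong, hdiag⟩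

/-- Both components of a local vector of two copies are local. -/
theorem mem_loc_of_mem_two (h : SimpleRoot m q r₀) {z : M × M}
    (hz : z ∈ locPart (m.comap (substU r₀)) (twoAct ρ q)) :
    z.1 ∈ locPart m ρ ∧ z.2 ∈ locPart m ρ := by
  by_cases hz0 : z = 0
  · simp [hz0]
  set mT := m.comap (substU r₀) with hmTdef
  obtain ⟨r, hcong, hdiag⟩ := exists_diag_subst h hz hz0
  have hdiv : ∀ s, s ∉ m → ∃ y, (ρ s).prodMap (ρ s) y = z := fun s hs => by
    have hs' : substU r s ∉ mT := fun h' => hs (by
      have := sub_mem (Ideal.mem_comap.mp h') (hcong s)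
      simpa using this)
    obtain ⟨t, ht⟩ := exists_locAct_mul_eq_one (ρ := twoAct ρ q) hs'
    refine ⟨twoAct ρ q t z, ?_⟩
    rw [← hdiag s _ (map_mem_locPart t hz), ← Module.End.mul_apply, ← map_mul]
    exact congrArg Subtype.val (LinearMap.congr_fun ht ⟨z, hz⟩)
  constructor
  · simp only [locPart, Submodule.mem_iInf]
    intro s hs
    obtain ⟨y, hy⟩ := hdiv s hs
    exact ⟨y.1, congrArg Prod.fst hy⟩
  · simp only [locPart, Submodule.mem_iInf]
    intro s hs
    obtain ⟨y, hy⟩ := hdiv s hs
    exact ⟨y.2, congrArg Prod.snd hy⟩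

/-- The projection onto the local part commutes with the action. -/
theorem toLoc_apply (a : MvPolynomial (Option (Option ι)) O) (x : M) :
    toLoc m ρ (ρ a x) = locAct m ρ a (toLoc m ρ x) := by
  refine Subtype.ext ?_
  rw [coe_locAct, coe_toLoc, coe_toLoc, ← Module.End.mul_apply, ← map_mul, mul_comm, map_mul,
    Module.End.mul_apply]

/-- At a root `u` of `X² - T X + c` congruent to `r₀`, no nonzero element `(x, y)` of the local
part of two copies has `u x + c y = 0`: `U - (T - u)` would kill it. -/
theorem eq_zero_of_kernel_two (h : SimpleRoot m q r₀) {u : MvPolynomial (Option (Option ι)) O}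
    (hu : u - r₀ ∈ m)
    (hroot' : locAct m ρ (u * X (some none) - cstElt q) = locAct m ρ (u * u)) {z : M × M}
    (hz : z ∈ locPart (m.comap (substU r₀)) (twoAct ρ q)) (hx : z.1 ∈ locPart m ρ)
    (hy : z.2 ∈ locPart m ρ) (e : ρ u z.1 + ρ (cstElt q) z.2 = 0) : z = 0 := by
  set mT := m.comap (substU r₀) with hmTdef
  set v := X (some none) - u with hv
  -- `U z = v z`
  have hU1 : ρ (X (some none)) z.1 + ρ (cstElt q) z.2 = ρ v z.1 := by
    rw [hv, map_sub, LinearMap.sub_apply, eq_sub_iff_add_eq, add_assoc,
      add_comm (ρ (cstElt q) z.2), e, add_zero]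
  have huv : ρ (u * v) z.1 = ρ (cstElt q) z.1 := by
    have := congrArg Subtype.val (LinearMap.congr_fun hroot' ⟨z.1, hx⟩)
    rw [coe_locAct, coe_locAct, map_sub, LinearMap.sub_apply, sub_eq_iff_eq_add] at this
    rw [hv, mul_sub, map_sub, LinearMap.sub_apply, this, add_sub_cancel_left]
  have hU2 : -z.1 = ρ v z.2 := by
    refine sub_eq_zero.mp (eq_zero_of_killed h.cst_not_mem (m := m) (ρ := ρ)
      (sub_mem (neg_mem hx) (map_mem_locPart v hy)) ?_)
    rw [map_sub, map_neg, ← huv, ← Module.End.mul_apply (ρ (cstElt q)), ← map_mul,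
      mul_comm (cstElt q), map_mul ρ v, Module.End.mul_apply, mul_comm u v, map_mul ρ v,
      Module.End.mul_apply,
      ← map_neg, ← map_sub, show -(ρ u z.1) - ρ (cstElt q) z.2 =
        -(ρ u z.1 + ρ (cstElt q) z.2) by abel,
      e, neg_zero, map_zero]
  -- the element `U - v` kills `z`
  by_contra hne
  obtain ⟨r, hcong, hdiag⟩ := exists_diag_subst h hz hne
  have hs : X (some none) - substU r v ∉ mT := fun h' => h.deriv_not_mem (by
    have h1 := Ideal.mem_comap.mp h'
    rw [map_sub, substU_U] at h1
    have h2 := add_mem h1 (hcong v)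
    rw [show r₀ - substU r₀ (substU r v) + (substU r₀ (substU r v) - v) =
      r₀ - v by ring, hv] at h2
    have h3 := sub_mem h2 hu
    rw [show r₀ - (X (some none) - u) - (u - r₀) = 2 * r₀ - X (some none) by ring] at h3
    exact h3)
  refine hne (eq_zero_of_killed hs hz ?_)
  rw [map_sub, LinearMap.sub_apply, twoAct_X, twoOps_U, hdiag v z hz, hU1, hU2, sub_eq_zero]
  rfl

/-- The `m`-part of two copies at a simple root is the `m`-part of one. -/
theorem exists_two_equiv (h : SimpleRoot m q r₀) :
    ∃ u, u - r₀ ∈ m ∧ ∃ Φ : locPart (m.comap (substU r₀)) (twoAct ρ q) →ₗ[O] locPart m ρ,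
      Function.Bijective Φ ∧ (∀ (a : MvPolynomial (Option (Option ι)) O) z,
        Φ (locAct _ (twoAct ρ q) a z) = locAct m ρ (substU u a) (Φ z)) ∧
      ∀ F : Module.End O M, (∀ a x, F (ρ a x) = ρ a (F x)) →
        ∀ z w : locPart (m.comap (substU r₀)) (twoAct ρ q),
          (w : M × M) = (F (z : M × M).1, F (z : M × M).2) →
          (Φ w : M) = F (Φ z : M) := by
  set mT := m.comap (substU r₀) with hmTdef
  let f : Polynomial (MvPolynomial (Option (Option ι)) O) :=
    Polynomial.X ^ 2 - Polynomial.C (X (some none)) * Polynomial.X + Polynomial.C (cstElt q)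
  -- lift `r₀` to a root `u` of `X² - T X + c` on the local part; `Φ₀ (x, y) = u x + c y`
  obtain ⟨u, hu, hroot⟩ := exists_locAct_root (ρ := ρ) (f := f) (by simp only [f]; monicity!)
    (r₀ := r₀) (by
      have e : f.eval r₀ = r₀ * r₀ - X (some none) * r₀ + cstElt q := by simp [f, pow_two]
      rw [e]; exact h.eval_mem)
    (by
      have e : f.derivative.eval r₀ = 2 * r₀ - X (some none) := by simp [f, one_add_one_eq_two]
      rw [e]; exact h.deriv_not_mem)
  have hroot' : locAct m ρ (u * X (some none) - cstElt q) = locAct m ρ (u * u) := by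
    refine sub_eq_zero.mp ?_
    rw [← map_sub, ← neg_eq_zero, ← map_neg, ← hroot]
    congr 1
    simp [f, pow_two]
    ring
  set Φ₀ : M × M →ₗ[O] locPart m ρ :=
    toLoc m ρ ∘ₗ ((ρ u).comp (LinearMap.fst O M M) + (ρ (cstElt q)).comp (LinearMap.snd O M M))
  have hΦ₀ : ∀ z, Φ₀ z = locAct m ρ u (toLoc m ρ z.1) + locAct m ρ (cstElt q) (toLoc m ρ z.2) :=
    fun z => by simp [Φ₀, toLoc_apply]
  set σ' := (locAct m ρ).comp (substU u)
  -- `Φ₀` intertwines the action on two copies with the one substituted at `u`
  have hint : ∀ a z, Φ₀ (twoAct ρ q a z) = σ' a (Φ₀ z) := by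
    refine intertwine_of_X Φ₀ fun j z => ?_
    rw [twoAct_X, hΦ₀, hΦ₀]
    change _ = locAct m ρ (substU u (X j)) _
    rcases j with _ | _ | i
    · rw [twoOps_other ρ q none (by simp), substU_none]
      simp only [LinearMap.prodMap_apply, toLoc_apply, map_add, ← Module.End.mul_apply, ← map_mul]
      rw [mul_comm u, mul_comm (cstElt q)]
    · rw [twoOps_U, substU_U]
      dsimp only
      rw [map_add (toLoc m ρ), toLoc_apply, toLoc_apply, map_neg (toLoc m ρ), map_neg,
        map_add, map_add, ← Module.End.mul_apply (locAct m ρ u) (locAct m ρ (X (some none))),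
        ← map_mul]
      simp only [← Module.End.mul_apply, ← map_mul]
      rw [← hroot', map_sub, LinearMap.sub_apply]
      abel
    · rw [twoOps_other ρ q _ (by simp), substU_some]
      simp only [LinearMap.prodMap_apply, toLoc_apply, map_add, ← Module.End.mul_apply, ← map_mul]
      rw [mul_comm u, mul_comm (cstElt q)]
  have : Module.Finite O (M × M) := inferInstance
  -- the substituted action is local at `m.comap (substU r₀)`
  have htop : locPart mT σ' = ⊤ := by
    rw [eq_top_iff]
    intro x _
    change x ∈ ⨅ (s) (_ : s ∉ mT), LinearMap.range (σ' s)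
    refine (Submodule.mem_iInf _).mpr fun s => (Submodule.mem_iInf _).mpr fun hs => ?_
    have hs' : substU u s ∉ m := fun h' => hs (Ideal.mem_comap.mpr (by
      have := sub_mem h' (substU_sub_mem hu s)
      simpa using this))
    obtain ⟨t, ht⟩ := exists_locAct_mul_eq_one (ρ := ρ) hs'
    refine ⟨locAct m ρ t x, ?_⟩
    change locAct m ρ (substU u s) (locAct m ρ t x) = x
    rw [← Module.End.mul_apply, ← map_mul, ht, Module.End.one_apply]
  -- injective: `U - (T - u)` kills the kernel; surjective: `c` is invertible
  refine ⟨u, hu, Φ₀.comp (locPart mT (twoAct ρ q)).subtype, ⟨?_, ?_⟩, fun a z => hint a z,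
    fun F hF z w hw => ?_⟩
  · rw [injective_iff_map_eq_zero]
    rintro ⟨z, hz⟩ hΦ
    have hΦ' : Φ₀ z = 0 := hΦ
    refine Subtype.ext ?_
    obtain ⟨hx, hy⟩ := mem_loc_of_mem_two h hz
    rw [hΦ₀] at hΦ'
    have e := congrArg Subtype.val hΦ'
    rw [Submodule.coe_add, coe_locAct, coe_locAct,
      show toLoc m ρ z.1 = ⟨z.1, hx⟩ from toLoc_coe ⟨z.1, hx⟩,
      show toLoc m ρ z.2 = ⟨z.2, hy⟩ from toLoc_coe ⟨z.2, hy⟩, Submodule.coe_zero] at e
    exact eq_zero_of_kernel_two h hu hroot' hz hx hy e
  · intro y
    obtain ⟨t, ht⟩ := exists_locAct_mul_eq_one (ρ := ρ) h.cst_not_mem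
    have hsurj : Function.Surjective Φ₀ := fun w => by
      refine ⟨(0, (locAct m ρ t w : M)), ?_⟩
      rw [hΦ₀, show toLoc m ρ (locAct m ρ t w : M) = locAct m ρ t w from toLoc_coe _, map_zero,
        map_zero, zero_add, ← Module.End.mul_apply, ← map_mul, ht, Module.End.one_apply]
    obtain ⟨x, hx, e⟩ := exists_apply_eq (m := mT) (f := Φ₀) hint
      (fun w => ⟨1, fun h' => hmT.ne_top ((Ideal.eq_top_iff_one _).mpr h'),
        hsurj _⟩) (htop ▸ Submodule.mem_top : y ∈ locPart mT σ')
    exact ⟨⟨x, hx⟩, e⟩
  · simp only [LinearMap.comp_apply, Submodule.coe_subtype, Φ₀, LinearMap.add_apply,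
      LinearMap.fst_apply, LinearMap.snd_apply, hw, map_add, Submodule.coe_add]
    rw [coe_toLoc, coe_toLoc, coe_toLoc, coe_toLoc, hF, hF, hF, hF]

end Fermat.HM
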